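import Mathlib
import Fermat.Prelude.Def_EllipticCurve_FrobeniusTrace
import Fermat.Prelude.Def_CuspForm_HeckeAlgebra
import Fermat.Agent.Reps.Cyclo

/-!
# The 2-adic lifting theorem: definitions

* `Setup`: a surjective `ρ̄ : G → GL₂(𝔽₂)` with conductor exactly `2 m` whose sign field is
  `ℚ(√(-2m))`.
* `IsDef`: lifts with cyclotomic determinant, special at `2 m` and at a finite set `S`, unramified
  elsewhere; the eigenvalues `u` on the unramified quotients satisfy `u ^ 2 = 1`.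
* `SelTrivial`: vanishing of the Selmer group that governs the non-dihedral mod 2 deformations.
* `ThetaProp`: dihedral systems in characteristic 2 are modular of level `2 m`.
* `Tower`: the localised Hecke algebras of levels `2 m ∏ G` with their properties; one is built in
  `Mod2.Iface.Tower`.
-/

set_option autoImplicit false

noncomputable section

namespace FLTAgent.Mod2

/-- The absolute Galois group of `ℚ`. -/
abbrev Gal2 : Type := AlgebraicClosure ℚ ≃ₐ[ℚ] AlgebraicClosure ℚ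

/-- Two by two matrices. -/
abbrev Mat2 (B : Type) : Type := Matrix (Fin 2) (Fin 2) B

/-- The 2-adic cyclotomic character. -/
def chi2 : Gal2 →* ℤ_[2] := Reps.cyc 2

section Rep

variable {B : Type} [CommRing B]

/-- Continuity of a representation for the 2-adic topology of the coefficients. -/
def IsCont (r : Gal2 →* Mat2 B) : Prop :=
  ∀ n : ℕ, ∃ L : IntermediateField ℚ (AlgebraicClosure ℚ), FiniteDimensional ℚ L ∧
    ∀ σ : Gal2, (∀ x ∈ L, σ x = x) → ∀ i j, (2 : B) ^ n ∣ (r σ - 1) i j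

/-- Unramified at `q`. -/
def IsUnram (r : Gal2 →* Mat2 B) (q : ℕ) : Prop :=
  ∀ A : ValuationSubring (AlgebraicClosure ℚ), A.LiesOverPrime q →
    ∀ σ ∈ A.inertiaSubgroupIn ℚ, r σ = 1

variable [Algebra ℤ_[2] B]

/-- Special (Steinberg, resp. ordinary) at `v`, with eigenvalue `u` of Frobenius on the unramified
quotient. -/
structure SpecialAt (v : ℕ) (u : B) (r : Gal2 →* Mat2 B) : Prop where
  sq : u ^ 2 = 1
  inertia : ∀ A : ValuationSubring (AlgebraicClosure ℚ), A.LiesOverPrime v →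
    ∀ σ ∈ A.inertiaSubgroupIn ℚ, ∀ τ ∈ A.inertiaSubgroupIn ℚ,
      (r σ - algebraMap ℤ_[2] B (chi2 σ) • 1) * (r τ - 1) = 0
  quotient : ∀ A : ValuationSubring (AlgebraicClosure ℚ), A.LiesOverPrime v →
    ∀ σ ∈ A.inertiaSubgroupIn ℚ, ∀ φ : Gal2, A.IsFrobeniusAt φ v →
      (r σ - algebraMap ℤ_[2] B (chi2 σ) • 1) * (r φ - u • 1) = 0
  line : ∀ A : ValuationSubring (AlgebraicClosure ℚ), A.LiesOverPrime v →
    ∀ σ ∈ A.inertiaSubgroupIn ℚ, ∀ φ : Gal2, A.IsFrobeniusAt φ v →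
      (r φ - (algebraMap ℤ_[2] B (chi2 φ) * u) • 1) * (r σ - 1) = 0
  trace_inertia : ∀ A : ValuationSubring (AlgebraicClosure ℚ), A.LiesOverPrime v →
    ∀ σ ∈ A.inertiaSubgroupIn ℚ, (r σ).trace = 1 + algebraMap ℤ_[2] B (chi2 σ)
  trace_frob : ∀ A : ValuationSubring (AlgebraicClosure ℚ), A.LiesOverPrime v →
    ∀ φ : Gal2, A.IsFrobeniusAt φ v → (r φ).trace = u * (1 + algebraMap ℤ_[2] B (chi2 φ))

end Rep

/-- The residual datum of the 2-adic lifting theorem. -/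
structure Setup where
  /-- the odd part of the conductor -/
  m : ℕ
  odd_m : Odd m
  sqf_m : Squarefree m
  /-- the residual representation -/
  rho : Gal2 →* Mat2 (ZMod 2)
  cont : ∃ L : IntermediateField ℚ (AlgebraicClosure ℚ), FiniteDimensional ℚ L ∧
    ∀ σ : Gal2, (∀ x ∈ L, σ x = x) → rho σ = 1
  surj : ∀ M : Mat2 (ZMod 2), M.det ≠ 0 → ∃ σ : Gal2, rho σ = M
  unram : ∀ q : ℕ, q.Prime → ¬ q ∣ 2 * m → IsUnram rho q
  ram : ∀ q : ℕ, q.Prime → q ∣ 2 * m → ∀ A : ValuationSubring (AlgebraicClosure ℚ),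
    A.LiesOverPrime q → (∀ σ ∈ A.inertiaSubgroupIn ℚ, rho σ * rho σ = 1) ∧
      ∃ σ ∈ A.inertiaSubgroupIn ℚ, rho σ ≠ 1
  /-- the sign field of `rho` is `ℚ(√(-2m))` -/
  sign_field : ∀ (σ : Gal2) (x : AlgebraicClosure ℚ), x ^ 2 = -(2 * m : ℕ) →
    (σ x = x ↔ rho σ ^ 3 = 1)

namespace Setup

variable (D : Setup)

instance neZero_level : NeZero (2 * D.m) := ⟨mul_ne_zero two_ne_zero D.odd_m.pos.ne'⟩

/-- The subgroup cutting out the quadratic field `ℚ(√(-2m))`, as a predicate. -/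
def InK (σ : Gal2) : Prop := D.rho σ ^ 3 = 1

/-- Auxiliary primes: Frobenius is a transposition. -/
def IsAux (q : ℕ) : Prop :=
  q.Prime ∧ ¬ q ∣ 2 * D.m ∧
    ∀ A : ValuationSubring (AlgebraicClosure ℚ), A.LiesOverPrime q →
      ∀ φ : Gal2, A.IsFrobeniusAt φ q → D.rho φ ≠ 1 ∧ D.rho φ * D.rho φ = 1

/-- The type of auxiliary primes. -/
def Aux : Type := {q : ℕ // D.IsAux q}

instance : DecidableEq D.Aux := inferInstanceAs (DecidableEq {q : ℕ // D.IsAux q})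

/-- The special primes attached to an auxiliary set. -/
def IsSpecial (S : Finset D.Aux) (q : ℕ) : Prop :=
  q.Prime ∧ (q ∣ 2 * D.m ∨ ∃ s ∈ S, s.1 = q)

variable {B : Type} [CommRing B] [Algebra ℤ_[2] B]

/-- The deformation condition attached to `S`. -/
structure IsDef (S : Finset D.Aux) (u : ℕ → B) (r : Gal2 →* Mat2 B) : Prop where
  cont : IsCont r
  lifts : ∀ f : B →+* ZMod 2, ∀ σ, (r σ).map f = D.rho σ
  det : ∀ σ, (r σ).det = algebraMap ℤ_[2] B (chi2 σ)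
  special : ∀ v, D.IsSpecial S v → SpecialAt v (u v) r
  unram : ∀ q : ℕ, q.Prime → ¬ D.IsSpecial S q → IsUnram r q

/-- Cocycles with values in `ρ̄`. -/
structure IsCocycle (z : Gal2 → Fin 2 → ZMod 2) : Prop where
  mul : ∀ σ τ, z (σ * τ) = z σ + (D.rho σ).mulVec (z τ)
  cont : ∃ L : IntermediateField ℚ (AlgebraicClosure ℚ), FiniteDimensional ℚ L ∧
    ∀ σ τ : Gal2, (∀ x ∈ L, τ x = x) → z (σ * τ) = z σ

/-- The Selmer conditions attached to `S`. -/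
structure IsSel (S : Finset D.Aux) (z : Gal2 → Fin 2 → ZMod 2) : Prop where
  cocycle : D.IsCocycle z
  unram : ∀ q : ℕ, q.Prime → ¬ D.IsSpecial S q →
    ∀ A : ValuationSubring (AlgebraicClosure ℚ), A.LiesOverPrime q →
      ∀ σ ∈ A.inertiaSubgroupIn ℚ, z σ = 0
  special : ∀ v, D.IsSpecial S v → ∀ A : ValuationSubring (AlgebraicClosure ℚ), A.LiesOverPrime v →
    ∃ a : Fin 2 → ZMod 2, ∀ g ∈ A.decompositionSubgroup ℚ, ∀ h ∈ A.decompositionSubgroup ℚ,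
      (D.rho h).mulVec (z g - ((D.rho g).mulVec a - a)) = z g - ((D.rho g).mulVec a - a)

/-- Every Selmer class is trivial. -/
def SelTrivial (S : Finset D.Aux) : Prop :=
  ∀ z, D.IsSel S z → ∃ a : Fin 2 → ZMod 2, ∀ g, z g = (D.rho g).mulVec a - a

/-- Diagonal on `G_K`, antidiagonal elsewhere. -/
def IsDihedral (r : Gal2 →* Mat2 B) : Prop :=
  ∀ σ, (D.InK σ → r σ 0 1 = 0 ∧ r σ 1 0 = 0) ∧ (¬ D.InK σ → r σ 0 0 = 0 ∧ r σ 1 1 = 0)

/-- Dihedral systems over finite local rings of characteristic 2 are modular of level `2 m`. -/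
def ThetaProp : Prop :=
  ∀ (B : Type) [CommRing B] [IsLocalRing B] [Finite B], (2 : B) = 0 →
    ∀ r : Gal2 →* Mat2 B,
      (∃ L : IntermediateField ℚ (AlgebraicClosure ℚ), FiniteDimensional ℚ L ∧
        ∀ σ : Gal2, (∀ x ∈ L, σ x = x) → r σ = 1) →
      (∀ σ, (D.InK σ → r σ 0 1 = 0 ∧ r σ 1 0 = 0) ∧ (¬ D.InK σ → r σ 0 0 = 0 ∧ r σ 1 1 = 0)) →
      (∀ σ, (r σ).det = 1) →
      (∀ q : ℕ, q.Prime → ∀ A : ValuationSubring (AlgebraicClosure ℚ), A.LiesOverPrime q →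
        ∀ σ ∈ A.inertiaSubgroupIn ℚ, D.InK σ → r σ = 1) →
      (∃ σ, D.InK σ ∧ IsUnit (r σ 0 0 - r σ 1 1)) →
      (∀ σ, (r σ).trace - ((D.rho σ).trace.val : B) ∈ IsLocalRing.maximalIdeal B) →
      ∀ u : ℕ → B,
        (∀ v : ℕ, v.Prime → v ∣ 2 * D.m → ∀ A : ValuationSubring (AlgebraicClosure ℚ),
          A.LiesOverPrime v → ∀ φ : Gal2, A.IsFrobeniusAt φ v → D.InK φ →
            r φ 0 0 = u v ∧ r φ 1 1 = u v) →
        ∃ f : CuspForm.heckeAlgebra (2 * D.m) 2 ∅ →+* B,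
          (∀ (l : ℕ) (hl : l.Prime) (hlN : ¬ l ∣ 2 * D.m) (A : ValuationSubring (AlgebraicClosure ℚ)),
            A.LiesOverPrime l → ∀ φ : Gal2, A.IsFrobeniusAt φ l →
              f (CuspForm.heckeAlgebra.T hl hlN (Set.notMem_empty l)) = (r φ).trace) ∧
          ∀ (v : ℕ) (hv : v.Prime) (hvN : v ∣ 2 * D.m),
            f (CuspForm.heckeAlgebra.U hv hvN (Set.notMem_empty v)) = u v

end Setup

open Polynomial in
/-- The localised Hecke algebras of levels `2 m ∏ G` and their properties. -/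
structure Tower (D : Setup) : Type 1 where
  /-- the Hecke algebra at level `2 m ∏ G`, completed at the maximal ideal of `ρ̄` and `U = 1` -/
  T : Finset D.Aux → Type
  [instRing : ∀ G, CommRing (T G)]
  [instLocal : ∀ G, IsLocalRing (T G)]
  [instAlgebra : ∀ G, Algebra ℤ_[2] (T G)]
  [instFinite : ∀ G, Module.Finite ℤ_[2] (T G)]
  [instFree : ∀ G, Module.Free ℤ_[2] (T G)]
  /-- reduction -/
  red : ∀ G, T G →+* ZMod 2
  /-- `T_l` for `l` prime to the level and `U_l` for `l` dividing it -/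
  t : ∀ G, ℕ → T G
  adjoin_eq_top : ∀ G, Algebra.adjoin ℤ_[2] (t G '' {l | l.Prime}) = ⊤
  /-- the representation -/
  r : ∀ G, Gal2 →* Mat2 (T G)
  cont : ∀ G, IsCont (r G)
  lifts : ∀ G, ∀ σ, (r G σ).map (red G) = D.rho σ
  det : ∀ G σ, (r G σ).det = algebraMap ℤ_[2] (T G) (chi2 σ)
  unram : ∀ G, ∀ q : ℕ, q.Prime → ¬ D.IsSpecial G q → IsUnram (r G) q
  trace_frob : ∀ G, ∀ q : ℕ, q.Prime → ¬ D.IsSpecial G q →
    ∀ A : ValuationSubring (AlgebraicClosure ℚ), A.LiesOverPrime q →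
      ∀ φ : Gal2, A.IsFrobeniusAt φ q → (r G φ).trace = t G q
  red_t : ∀ G v, D.IsSpecial G v → red G (t G v) = 1
  special : ∀ G, ∀ v : ℕ, v.Prime → v ∣ 2 * D.m → SpecialAt v (t G v) (r G)
  /-- inertia at an auxiliary prime is unipotent -/
  aux_inertia : ∀ G, ∀ q ∈ G, ∀ A : ValuationSubring (AlgebraicClosure ℚ), A.LiesOverPrime q.1 →
    ∀ σ ∈ A.inertiaSubgroupIn ℚ, ∀ τ ∈ A.inertiaSubgroupIn ℚ, (r G σ - 1) * (r G τ - 1) = 0
  /-- and lands in the toric line -/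
  aux_frob : ∀ G, ∀ q ∈ G, ∀ A : ValuationSubring (AlgebraicClosure ℚ), A.LiesOverPrime q.1 →
    ∀ σ ∈ A.inertiaSubgroupIn ℚ, ∀ φ : Gal2, A.IsFrobeniusAt φ q.1 →
      (r G φ - ((q.1 : T G) * t G q.1) • 1) * (r G σ - 1) = 0 ∧
        (r G σ - 1) * (r G φ - t G q.1 • 1) = 0
  /-- inertia at an auxiliary prime acts through a procyclic group -/
  aux_cyclic : ∀ G, ∀ q ∈ G, ∀ A : ValuationSubring (AlgebraicClosure ℚ), A.LiesOverPrime q.1 →
    ∃ σ₀ ∈ A.inertiaSubgroupIn ℚ, ∀ σ ∈ A.inertiaSubgroupIn ℚ,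
      ∃ c : T G, r G σ - 1 = c • (r G σ₀ - 1)
  /-- the map to the old quotient at `q` -/
  pi : ∀ G (q : D.Aux), q ∈ G → T G →ₐ[ℤ_[2]]
    AdjoinRoot (X ^ 2 - C (t (G.erase q) q.1) * X + C ((q.1 : ℕ) : T (G.erase q)))
  pi_t : ∀ G q (hq : q ∈ G) (l : ℕ), l.Prime → l ≠ q.1 →
    pi G q hq (t G l) = AdjoinRoot.of _ (t (G.erase q) l)
  pi_u : ∀ G q (hq : q ∈ G), pi G q hq (t G q.1) = AdjoinRoot.root _
  /-- Ihara's lemma: the kernel of `pi` is the annihilator of `U_q ^ 2 - 1` -/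
  ker_pi : ∀ G q (hq : q ∈ G) (x : T G), pi G q hq x = 0 ↔ x * (t G q.1 ^ 2 - 1) = 0
  /-- Ihara's lemma: saturation -/
  saturated : ∀ G q, q ∈ G → ∀ y : T G, t G q.1 ^ 2 - 1 ∣ 2 * y → t G q.1 ^ 2 - 1 ∣ y
  /-- Mazur's principle -/
  lower : ∀ G q (hq : q ∈ G) (I : Ideal (T G)) (n : ℕ), (2 : T G) ^ n ∈ I →
    (∀ A : ValuationSubring (AlgebraicClosure ℚ), A.LiesOverPrime q.1 →
      ∀ σ ∈ A.inertiaSubgroupIn ℚ, ∀ i j, (r G σ - 1) i j ∈ I) →
    ∀ x, pi G q hq x = 0 → x ∈ I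
  /-- the Weil bound at good primes -/
  weil : ∀ G, ∀ q : D.Aux, q ∉ G → ∀ (K : Type) [Field K] [CharZero K] (f : T G →+* K),
    f (t G q.1) ≠ 1 + (q.1 : K) ∧ f (t G q.1) ≠ -(1 + (q.1 : K))
  /-- comparison with the Hecke algebra of level `2 m` -/
  hecke : CuspForm.heckeAlgebra (2 * D.m) 2 ∅ →+* T ∅
  hecke_T : ∀ (l : ℕ) (hl : l.Prime) (hlN : ¬ l ∣ 2 * D.m),
    hecke (CuspForm.heckeAlgebra.T hl hlN (Set.notMem_empty l)) = t ∅ l
  hecke_U : ∀ (v : ℕ) (hv : v.Prime) (hvN : v ∣ 2 * D.m),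
    hecke (CuspForm.heckeAlgebra.U hv hvN (Set.notMem_empty v)) = t ∅ v
  /-- the completion property -/
  hecke_lift : ∀ (B : Type) [CommRing B] [IsLocalRing B] [Algebra ℤ_[2] B]
    [Module.Finite ℤ_[2] B] (f : CuspForm.heckeAlgebra (2 * D.m) 2 ∅ →+* B),
    (∀ x, f x - ((red ∅ (hecke x)).val : B) ∈ IsLocalRing.maximalIdeal B) →
      ∃ g : T ∅ →ₐ[ℤ_[2]] B, ∀ x, g (hecke x) = f x

attribute [instance] Tower.instRing Tower.instLocal Tower.instAlgebra Tower.instFinite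
  Tower.instFree

end FLTAgent.Mod2
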