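import Fermat.Agent.Reps.Existence
import Fermat.Agent.Mod2.Defs

/-!
# The Hecke side of the 2-adic lifting theorem: definitions

`LevelHyp` describes the admissible levels `L`, `ResSys L D` a residual eigensystem `θ` of `ρ̄`
at level `L`, and `eigenSet θ` the classes modulo two killed by the kernel of `θ`. `locLattice θ`
is the localisation at `θ` of the 2-adic period lattice, `locHecke θ` its Hecke ring and `locT`
the map to it from the Hecke ring `Reps.TZ L`.
-/

set_option autoImplicit false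

noncomputable section

open Matrix CuspForm ModularCurve

namespace FLTAgent.Mod2

local notation "Qb" => AlgebraicClosure ℚ
local notation "Γℚ" => (AlgebraicClosure ℚ ≃ₐ[ℚ] AlgebraicClosure ℚ)

/-- The admissible levels: squarefree multiples of `2 m` by auxiliary primes. -/
structure LevelHyp (D : Setup) (L : ℕ) : Prop where
  squarefree : Squarefree L
  dvd : 2 * D.m ∣ L
  aux : ∀ r : ℕ, r.Prime → r ∣ L → ¬ r ∣ 2 * D.m → D.IsAux r

variable (L : ℕ) [NeZero L]

/-- The period lattice in coordinates, with coefficients in `R`. -/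
abbrev HVec (R : Type*) := Fin (Period.rankH L) → R

/-- The Hecke action in coordinates. -/
def tauMat (R : Type*) [CommRing R] :
    Reps.TZ L →+* Matrix (Fin (Period.rankH L)) (Fin (Period.rankH L)) R :=
  (Int.castRingHom R).mapMatrix.comp (HeckeH.heckeMatHom L)

/-- The Galois action on the `2`-adic lattice. -/
def galM : Γℚ →* Matrix (Fin (Period.rankH L)) (Fin (Period.rankH L)) ℤ_[2] :=
  (Reps.galModel L 2).M

/-- The Galois action on the lattice modulo `2 ^ n`. -/
def galMod (n : ℕ) : Γℚ →* Matrix (Fin (Period.rankH L)) (Fin (Period.rankH L)) (ZMod (2 ^ n)) :=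
  (PadicInt.toZModPow n).mapMatrix.toMonoidHom.comp (galM L)

/-- A residual eigensystem of `ρ̄` at level `L`. -/
structure ResSys (D : Setup) where
  /-- The eigensystem. -/
  θ : Reps.TZ L →+* ZMod 2
  good : ∀ (ℓ : ℕ) (hℓ : ℓ.Prime) (hℓL : ¬ ℓ ∣ L) (A : ValuationSubring Qb), A.LiesOverPrime ℓ →
    ∀ φ : Γℚ, A.IsFrobeniusAt φ ℓ → θ (Reps.heckeTOf hℓ hℓL) = (D.rho φ).trace
  U_one : ∀ r : Nat.Primes, (r : ℕ) ∣ L → θ (Reps.heckeGenOf L r) = 1

variable {L}

/-- Killed by the kernel of `θ`. -/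
def eigenSet (θ : Reps.TZ L →+* ZMod 2) : Submodule (ZMod 2) (HVec L (ZMod 2)) where
  carrier := {x | ∀ c, θ c = 0 → tauMat L (ZMod 2) c *ᵥ x = 0}
  add_mem' := fun hx hy c hc => by rw [mulVec_add, hx c hc, hy c hc, add_zero]
  zero_mem' := fun c _ => mulVec_zero _
  smul_mem' := fun a x hx c hc => by rw [mulVec_smul, hx c hc, smul_zero]

/-- Killed by a power of the kernel of `θ`. -/
def IsAtMax (θ : Reps.TZ L →+* ZMod 2) {R : Type*} [CommRing R] (x : HVec L R) : Prop :=
  ∃ N : ℕ, ∀ c : Fin N → Reps.TZ L, (∀ i, θ (c i) = 0) → tauMat L R (∏ i, c i) *ᵥ x = 0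

theorem IsAtMax.of_le {θ : Reps.TZ L →+* ZMod 2} {R : Type*} [CommRing R] {x : HVec L R} {N : ℕ}
    (h : ∀ c : Fin N → Reps.TZ L, (∀ i, θ (c i) = 0) → tauMat L R (∏ i, c i) *ᵥ x = 0)
    {M : ℕ} (hNM : N ≤ M) (c : Fin M → Reps.TZ L) (hc : ∀ i, θ (c i) = 0) :
    tauMat L R (∏ i, c i) *ᵥ x = 0 := by
  obtain ⟨d, rfl⟩ := Nat.exists_eq_add_of_le hNM
  rw [Fin.prod_univ_add, mul_comm, map_mul, ← mulVec_mulVec,
    h (fun i => c (Fin.castAdd d i)) fun i => hc _, mulVec_zero]

theorem IsAtMax.add {θ : Reps.TZ L →+* ZMod 2} {R : Type*} [CommRing R] {x y : HVec L R}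
    (hx : IsAtMax θ x) (hy : IsAtMax θ y) : IsAtMax θ (x + y) := by
  obtain ⟨N, hN⟩ := hx
  obtain ⟨M, hM⟩ := hy
  refine ⟨max N M, fun c hc => ?_⟩
  rw [mulVec_add, IsAtMax.of_le hN (le_max_left N M) c hc,
    IsAtMax.of_le hM (le_max_right N M) c hc, add_zero]

theorem IsAtMax.tau {θ : Reps.TZ L →+* ZMod 2} {R : Type*} [CommRing R] {x : HVec L R}
    (hx : IsAtMax θ x) (t : Reps.TZ L) : IsAtMax θ (tauMat L R t *ᵥ x) := by
  obtain ⟨N, hN⟩ := hx
  refine ⟨N, fun c hc => ?_⟩
  rw [mulVec_mulVec, ← map_mul, mul_comm, map_mul, ← mulVec_mulVec, hN c hc, mulVec_zero]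

variable (θ : Reps.TZ L →+* ZMod 2)

/-- The localisation at `θ` of the `2`-adic period lattice. -/
def locLattice : Submodule ℤ_[2] (HVec L ℤ_[2]) where
  carrier := {v | ∀ n : ℕ, IsAtMax θ fun i => PadicInt.toZModPow n (v i)}
  add_mem' := fun {v w} hv hw n => by
    have e : (fun i => PadicInt.toZModPow n ((v + w) i)) =
        (fun i => PadicInt.toZModPow n (v i)) + fun i => PadicInt.toZModPow n (w i) := by
      funext i; simp
    rw [e]
    exact (hv n).add (hw n)
  zero_mem' := fun n => ⟨0, fun c _ => by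
    have e : (fun i => PadicInt.toZModPow n ((0 : HVec L ℤ_[2]) i)) = 0 := by funext i; simp
    rw [e, mulVec_zero]⟩
  smul_mem' := fun a v hv n => by
    obtain ⟨N, hN⟩ := hv n
    refine ⟨N, fun c hc => ?_⟩
    have e : (fun i => PadicInt.toZModPow n ((a • v) i)) =
        PadicInt.toZModPow n a • fun i => PadicInt.toZModPow n (v i) := by funext i; simp
    rw [e, mulVec_smul, hN c hc, smul_zero]

theorem tauMat_map {R S : Type*} [CommRing R] [CommRing S] (f : R →+* S) (t : Reps.TZ L)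
    (v : HVec L R) :
    (fun i => f ((tauMat L R t *ᵥ v) i)) = tauMat L S t *ᵥ fun i => f (v i) := by
  funext i
  rw [RingHom.map_mulVec]
  congr 1
  ext a b
  simp [tauMat]

theorem tauMat_mulVec_mem (t : Reps.TZ L) {v : HVec L ℤ_[2]} (hv : v ∈ locLattice θ) :
    tauMat L ℤ_[2] t *ᵥ v ∈ locLattice θ := fun n => by
  rw [tauMat_map]
  exact (hv n).tau t

/-- The localised lattice as a module. -/
def LocLat : Type := ↥(locLattice θ)

instance LocLat.instAddCommGroup : AddCommGroup (LocLat θ) :=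
  inferInstanceAs (AddCommGroup ↥(locLattice θ))

instance LocLat.instModule : Module ℤ_[2] (LocLat θ) :=
  inferInstanceAs (Module ℤ_[2] ↥(locLattice θ))

variable {θ}

/-- The vector of an element of the localised lattice. -/
def LocLat.val : LocLat θ →ₗ[ℤ_[2]] HVec L ℤ_[2] := (locLattice θ).subtype

theorem LocLat.val_injective : Function.Injective (LocLat.val (θ := θ)) := Subtype.val_injective

theorem LocLat.val_mem (x : LocLat θ) : LocLat.val x ∈ locLattice θ := Subtype.prop x

variable (θ)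

/-- A Hecke operator on the localised lattice. -/
def locEnd (t : Reps.TZ L) : Module.End ℤ_[2] (LocLat θ) :=
  ((tauMat L ℤ_[2] t).mulVecLin.restrict fun _ hv => tauMat_mulVec_mem θ t hv :
    ↥(locLattice θ) →ₗ[ℤ_[2]] ↥(locLattice θ))

theorem val_locEnd (t : Reps.TZ L) (x : LocLat θ) :
    LocLat.val (locEnd θ t x) = tauMat L ℤ_[2] t *ᵥ LocLat.val x := rfl

/-- The localised Hecke ring. -/
def locHecke : Subalgebra ℤ_[2] (Module.End ℤ_[2] (LocLat θ)) :=
  Algebra.adjoin ℤ_[2] (Set.range (locEnd θ))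

/-- The image of a Hecke operator in the localised ring. -/
def locT (t : Reps.TZ L) : locHecke θ :=
  ⟨locEnd θ t, Algebra.subset_adjoin (Set.mem_range_self t)⟩

theorem locEnd_mul_comm (t s : Reps.TZ L) :
    locEnd θ t * locEnd θ s = locEnd θ s * locEnd θ t := by
  refine LinearMap.ext fun v => LocLat.val_injective ?_
  rw [Module.End.mul_apply, Module.End.mul_apply, val_locEnd, val_locEnd, val_locEnd, val_locEnd,
    mulVec_mulVec, mulVec_mulVec, ← map_mul, ← map_mul, mul_comm]

instance locHecke.instIsMulCommutative : IsMulCommutative (locHecke θ) :=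
  Algebra.isMulCommutative_adjoin ℤ_[2] (by
    rintro _ ⟨t, rfl⟩ _ ⟨s, rfl⟩
    exact locEnd_mul_comm θ t s)

open scoped IsMulCommutative in
instance locHecke.instCommRing : CommRing (locHecke θ) := inferInstance

end FLTAgent.Mod2
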