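import Fermat.Agent.Main.Level
import Fermat.Agent.Local.Eigenforms

/-!
# The exit of the 2-adic theorem

`modular_of_hom`: a ring homomorphism from a Hecke algebra of cube-free level to a field of
characteristic zero with the traces of a semistable curve makes the curve modular of cube-free
level.
-/

set_option autoImplicit false

noncomputable section

open CuspForm WeierstrassCurve

namespace FLTAgent.Mod2

/-- An eigen system with the traces of a semistable curve makes it modular. -/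
theorem modular_of_hom {E : WeierstrassCurve ℤ} (hE : E.IsSemistableModel) (hΔ : E.Δ ≠ 0)
    {M : ℕ} [NeZero M] (hM3 : ∀ q : ℕ, q.Prime → ¬ q ^ 3 ∣ M) {L : Type} [Field L] [CharZero L]
    (S : Finset ℕ) (hS : ∀ q : ℕ, q.Prime → q ∣ M → q ∈ S)
    (χ : ↥(heckeAlgebra M 2 (↑S : Set ℕ)) →+* L)
    (hχ : ∀ (ℓ : ℕ) (hℓ : ℓ.Prime) (hℓM : ¬ ℓ ∣ M) (hℓS : ℓ ∉ (↑S : Set ℕ)),
      χ (heckeAlgebra.T hℓ hℓM hℓS) = (E.apOfModel ℓ : L)) :
    ∃ N : ℕ, (∀ q : ℕ, q.Prime → ¬ q ^ 3 ∣ N) ∧ E.IsModularModelOfLevel N := by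
  let C : Subring ℂ := (Int.castRingHom ℂ).range
  let eZ : ℤ ≃+* C := RingEquiv.ofBijective (Int.castRingHom ℂ).rangeRestrict
    ⟨fun a b h => Int.cast_injective (congrArg Subtype.val h),
      RingHom.rangeRestrict_surjective _⟩
  let e : C →+* L := (Int.castRingHom L).comp eZ.symm.toRingHom
  have he : Function.Injective e :=
    (RingHom.injective_int (Int.castRingHom L)).comp eZ.symm.injective
  obtain ⟨g, hg, hgc⟩ := Local.exists_eigenform_of_hom_away
    (S := (↑S : Set ℕ)) (fun q hq h => Finset.mem_coe.2 (hS q hq h)) e he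
    (fun ℓ => eZ (E.apOfModel ℓ)) χ fun ℓ hℓ hℓM hℓS => by
      rw [hχ ℓ hℓ hℓM hℓS]
      simp [e]
  refine ⟨_, fun q => Main.not_cube_dvd_of_squarefree E.squarefree_conductorLevel,
    Main.modular_of_eventually hE hΔ hM3 hg S fun ℓ hℓ hℓS => ?_⟩
  rw [hgc ℓ hℓ (mt Finset.mem_coe.1 hℓS)]
  rfl

end FLTAgent.Mod2
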