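import Fermat.Agent.Local.CurveFacts

/-!
# The decomposition group on `2`-power torsion at a multiplicative place

At a place over a prime `q` with `q ∣ Δ`, `q ∤ c₄`, there are a sign `ω`, trivial on inertia, and
a subgroup `L` with at most one point of order two such that `σ P - ω(σ) P ∈ L` for `σ` in the
decomposition group and `P` of `2`-power order (`exists_local_data`). These are read off the
nodal model `nodeCurve` (`eq_of_two_torsion_E0`).
-/

set_option autoImplicit false

noncomputable section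

open WeierstrassCurve
open scoped WeierstrassCurve.Affine

namespace FLTAgent.Mod2.Node

open EllLocal

section General

variable {K : Type*} [Field K] {A : ValuationSubring K} {c : A} {σ : K →+* K}

local notation "v" => A.valuation

/-- `σ` preserves the valuation ring. -/
def Preserves (A : ValuationSubring K) (σ : K →+* K) : Prop := ∀ x : K, σ x ∈ A ↔ x ∈ A

theorem Preserves.le_iff (hσ : Preserves A σ) (a b : K) : v (σ a) ≤ v (σ b) ↔ v a ≤ v b := by
  rcases eq_or_ne b 0 with rfl | hb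
  · simp
  have hb' : σ b ≠ 0 := by rwa [ne_eq, map_eq_zero]
  rw [← div_le_one₀ (zero_lt_iff.2 (by rwa [ne_eq, Valuation.zero_iff])),
    ← div_le_one₀ (a := v a) (zero_lt_iff.2 (by rwa [ne_eq, Valuation.zero_iff])), ← map_div₀ v,
    ← map_div₀ v, A.valuation_le_one_iff, A.valuation_le_one_iff, ← map_div₀ σ]
  exact hσ _

theorem Preserves.lt_iff (hσ : Preserves A σ) (a b : K) : v (σ a) < v (σ b) ↔ v a < v b := by
  rw [← not_le, ← not_le, hσ.le_iff]

theorem Preserves.eq_iff (hσ : Preserves A σ) (a b : K) : v (σ a) = v (σ b) ↔ v a = v b := by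
  rw [le_antisymm_iff, le_antisymm_iff, hσ.le_iff, hσ.le_iff]

theorem Preserves.lt_one_iff (hσ : Preserves A σ) (a : K) : v (σ a) < 1 ↔ v a < 1 := by
  simpa using hσ.lt_iff a 1

theorem Preserves.valuation_map_of_zpow (hσ : Preserves A σ) (hσc : σ (c : K) = c) {z : K} {N : ℕ}
    (hN : N ≠ 0) {k : ℤ} (h : v z ^ N = v (c : K) ^ k) : v (σ z) = v z := by
  have h1 : v (z ^ N) = v ((c : K) ^ k) := by rw [map_pow, map_zpow₀, h]
  have h2 := (hσ.eq_iff _ _).2 h1
  rw [map_pow σ, map_zpow₀ σ, hσc, map_pow, map_zpow₀, ← h] at h2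
  exact (pow_left_inj₀ zero_le zero_le hN).mp h2

variable [DecidableEq K]

theorem rel_comp_pow (hc : IsLocalRing.residue A c = 0) (hc0 : (c : K) ≠ 0) {P : (nodeGen c).Point}
    {N : ℕ} (h : N • P = 0) : Rel A (c : K) (comp P ^ N) := by
  have hr := comp_nsmul hc hc0 P N
  rw [h, comp_of_mem_E0 hc (zero_mem _), one_mul] at hr
  simpa using hr.inv

theorem mem_E0_of_rel (hc : IsLocalRing.residue A c = 0) (hc0 : (c : K) ≠ 0)
    {P : (nodeGen c).Point} (h : Rel A (c : K) (comp P)) : P ∈ E0 A (nodeCurve c) := by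
  by_contra hP
  cases P with
  | zero => exact hP (zero_mem _)
  | some x y hxy =>
    have hx := (notMem_E0_some hc hxy).1 hP
    rw [comp_some_of_lt hxy hx] at h
    exact gval_not_rel hc0 (valuation_c_lt_one hc) hx (nodeGen_equation hxy.1) h

omit [DecidableEq K] in
theorem comp_conj (hσ : Preserves A σ) (hσc : σ (c : K) = c) {P Q : (nodeGen c).Point}
    (h : IsConjPoint σ P Q) {N : ℕ} (hN : N ≠ 0) (hr : Rel A (c : K) (comp P ^ N)) :
    comp Q = comp P := by
  rcases h with ⟨rfl, rfl⟩ | ⟨x, y, h₁, h₂, rfl, rfl⟩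
  · rfl
  by_cases hx : v x < 1
  swap
  · rw [comp, comp, if_neg (mt (hσ.lt_one_iff x).1 hx), if_neg hx]
  rw [comp_some_of_lt h₁ hx] at hr
  rw [comp_some_of_lt h₁ hx, comp_some_of_lt h₂ ((hσ.lt_one_iff x).2 hx)]
  have e1 : v (σ y) ^ 2 = v (c : K) ↔ v y ^ 2 = v (c : K) := by
    rw [← map_pow v, ← map_pow v, ← map_pow σ]
    conv_lhs => rw [← hσc]
    exact hσ.eq_iff _ _
  have e2 : v (σ y + σ x) = v (σ y) ↔ v (y + x) = v y := by
    rw [← map_add σ]; exact hσ.eq_iff _ _
  have e3 : v (σ y + σ x) < v (σ y) ↔ v (y + x) < v y := by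
    rw [← map_add σ]; exact hσ.lt_iff _ _
  unfold gval at hr ⊢
  simp only [e1, e2, e3]
  obtain ⟨k, hk⟩ := hr
  split_ifs at hk ⊢
  · exact hσ.valuation_map_of_zpow hσc hN hk
  · exact hσ.valuation_map_of_zpow hσc hN hk
  · congr 1
    refine hσ.valuation_map_of_zpow hσc hN (k := -k) ?_
    rw [zpow_neg, ← hk, inv_pow, inv_inv]

/-- At most one point of order two has nonsingular reduction. -/
theorem eq_of_two_torsion_E0 [CharZero K] (hc : IsLocalRing.residue A c = 0)
    {P Q : (nodeGen c).Point} (hP2 : 2 • P = 0) (hQ2 : 2 • Q = 0) (hP : P ∈ E0 A (nodeCurve c))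
    (hQ : Q ∈ E0 A (nodeCurve c)) (hP0 : P ≠ 0) (hQ0 : Q ≠ 0) : P = Q := by
  cases P with
  | zero => exact (hP0 rfl).elim
  | some x₁ y₁ h₁ =>
  cases Q with
  | zero => exact (hQ0 rfl).elim
  | some x₂ y₂ h₂ =>
  have two : ∀ {x y : K} (h : (nodeGen c).Nonsingular x y), 2 • Affine.Point.some x y h = 0 →
      2 * y + x = 0 ∧ 4 * x ^ 3 + x ^ 2 + 4 * (c : K) = 0 := by
    intro x y h h2
    rw [two_nsmul, ← eq_neg_iff_add_eq_zero, Affine.Point.neg_some, Affine.Point.some.injEq,
      nodeGen_negY] at h2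
    have hy : 2 * y + x = 0 := by linear_combination h2.2
    exact ⟨hy, by linear_combination (2 * y + x) * hy - 4 * nodeGen_equation h.1⟩
  obtain ⟨hy₁, hf₁⟩ := two h₁ hP2
  obtain ⟨hy₂, hf₂⟩ := two h₂ hQ2
  have hv₁ : 1 ≤ v x₁ := not_lt.1 fun h => (notMem_E0_some hc h₁).2 h hP
  have hv₂ : 1 ≤ v x₂ := not_lt.1 fun h => (notMem_E0_some hc h₂).2 h hQ
  suffices hx : x₁ = x₂ by
    subst hx
    have : y₁ = y₂ := by linear_combination (hy₁ - hy₂) / 2
    subst this; rfl
  by_contra hne
  have hsub : 4 * (x₁ ^ 2 + x₁ * x₂ + x₂ ^ 2) + (x₁ + x₂) = 0 := by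
    refine (mul_eq_zero.1 ?_).resolve_left (sub_ne_zero.2 hne)
    linear_combination hf₁ - hf₂
  set x₃ := -(1 / 4 : K) - x₁ - x₂ with hx₃
  have e2 : x₁ * x₂ = -(x₃ * (x₁ + x₂)) := by rw [hx₃]; linear_combination (-1 / 4 : K) * hsub
  have e3 : x₁ * x₂ * x₃ = -(c : K) := by
    rw [hx₃]; linear_combination (1 / 4 : K) * hf₁ + (-x₁ / 4 : K) * hsub
  have hc1 : v (c : K) < 1 := valuation_c_lt_one hc
  have hP' : 1 ≤ v x₁ * v x₂ := one_le_mul hv₁ hv₂
  have h3 : v x₁ * v x₂ * v x₃ < 1 := by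
    rw [← map_mul, ← map_mul, e3, Valuation.map_neg]; exact hc1
  have hle : v (x₁ + x₂) ≤ v x₁ * v x₂ :=
    A.valuation.map_add_le (le_mul_of_one_le_right' hv₂) (le_mul_of_one_le_left' hv₁)
  have : v x₁ * v x₂ ≤ v x₁ * v x₂ * v x₃ := by
    calc v x₁ * v x₂ = v x₃ * v (x₁ + x₂) := by rw [← map_mul, e2, Valuation.map_neg, map_mul]
      _ ≤ v x₃ * (v x₁ * v x₂) := mul_le_mul_right hle _
      _ = v x₁ * v x₂ * v x₃ := mul_comm _ _
  exact absurd (hP'.trans this) (not_le.2 h3)

end General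

section Place

local notation "Qb" => AlgebraicClosure ℚ
local notation "GQ" => (AlgebraicClosure ℚ ≃ₐ[ℚ] AlgebraicClosure ℚ)

variable {W : WeierstrassCurve ℤ} {A : ValuationSubring Qb} {q : ℕ}

theorem preserves_of_decomposition {σ : GQ} (hσ : σ ∈ A.decompositionSubgroup ℚ) :
    Preserves A (σ : Qb →+* Qb) := fun _ => GalCommon.map_mem_iff_of_mem_decomposition hσ

theorem nodeCurve_c₄ {R : Type*} [CommRing R] (c : R) : (nodeCurve c).c₄ = 1 := by
  simp only [WeierstrassCurve.c₄, WeierstrassCurve.b₂, WeierstrassCurve.b₄, nodeCurve]; ring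

/-- The structure of the decomposition action on `2`-power torsion at a multiplicative place. -/
theorem exists_local_data (hq : q.Prime) (hA : A.LiesOverPrime q) (hΔ : W.Δ ≠ 0)
    (hqΔ : (q : ℤ) ∣ W.Δ) (hqc : ¬ (q : ℤ) ∣ W.c₄) :
    ∃ (ω : GQ → ℤ) (L : AddSubgroup (EllP.QPoint W)),
      (∀ σ, ω σ = 1 ∨ ω σ = -1) ∧ (∀ σ ∈ A.inertiaSubgroupIn ℚ, ω σ = 1) ∧
      (∀ σ, ∀ τ ∈ A.inertiaSubgroupIn ℚ, ω (σ * τ) = ω σ) ∧
      (∀ (n : ℕ), ∀ σ ∈ A.decompositionSubgroup ℚ, ∀ P : EllP.QPoint W, 2 ^ n • P = 0 →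
        σ • P - ω σ • P ∈ L) ∧
      ∀ P Q : EllP.QPoint W, 2 • P = 0 → 2 • Q = 0 → P ∈ L → Q ∈ L → P ≠ 0 → Q ≠ 0 → P = Q := by
  classical
  obtain ⟨C, c, hC, hc, hc0, -, hu, hr, hs, ht, hfix⟩ := EllP.node_data hq hA hΔ hqΔ hqc
  set G := EllLocal.genCurve A (EllP.modelAt A W) with hG
  let Φ : EllP.QPoint W →+ (nodeGen c).Point :=
    ((EllP.pointCongr (congrArg WeierstrassCurve.toAffine hC)).toAddMonoidHom.comp
      (EllLocal.vcPoint G C)).comp (EllP.toModel A).toAddMonoidHom
  have hΦ : Function.Injective Φ :=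
    ((EllP.pointCongr _).injective.comp (EllLocal.vcPoint_injective C)).comp
      (EllP.toModel A).injective
  -- the coefficients of the change of variables
  have hu0 : (C.u : Qb) ≠ 0 := C.u.ne_zero
  have ea1 : G.a₁ = C.u - 2 * C.s := by
    have h := congrArg WeierstrassCurve.a₁ hC
    simp only [WeierstrassCurve.variableChange_a₁, nodeGen_a₁, Units.val_inv_eq_inv_val] at h
    field_simp at h
    linear_combination h
  have ea2 : G.a₂ = C.s * G.a₁ - 3 * C.r + C.s ^ 2 := by
    have h := congrArg WeierstrassCurve.a₂ hC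
    simp only [WeierstrassCurve.variableChange_a₂, nodeGen_a₂, Units.val_inv_eq_inv_val] at h
    field_simp at h
    linear_combination h
  have ea3 : G.a₃ = -(C.r * G.a₁) - 2 * C.t := by
    have h := congrArg WeierstrassCurve.a₃ hC
    simp only [WeierstrassCurve.variableChange_a₃, nodeGen_a₃, Units.val_inv_eq_inv_val] at h
    field_simp at h
    linear_combination h
  have ec4 : (C.u : Qb) ^ 4 = G.c₄ := by
    have h := congrArg WeierstrassCurve.c₄ hC
    rw [WeierstrassCurve.variableChange_c₄, map_c₄ (nodeCurve c), nodeCurve_c₄, map_one,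
      Units.val_inv_eq_inv_val] at h
    field_simp at h
    exact h.symm
  have ec6 : G.c₆ = -(1 + 864 * (c : Qb)) * (C.u : Qb) ^ 6 := by
    have h := congrArg WeierstrassCurve.c₆ hC
    rw [WeierstrassCurve.variableChange_c₆, map_c₆ (nodeCurve c), nodeCurve_c₆,
      Units.val_inv_eq_inv_val] at h
    simp only [map_neg, map_add, map_one, map_mul, map_ofNat, ValuationSubring.subtype_apply] at h
    field_simp at h
    linear_combination h
  -- the two possible images of `C`
  have hdec : ∀ σ ∈ A.decompositionSubgroup ℚ, σ (c : Qb) = c ∧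
      (σ (C.u : Qb) = C.u ∨ σ (C.u : Qb) = -C.u) := by
    intro σ hσ
    have hW := EllP.genCurve_map_fixed (W := W) (A := A) σ
    have f4 : σ G.c₄ = G.c₄ := by
      have := congrArg WeierstrassCurve.c₄ hW
      rwa [map_c₄] at this
    have f6 : σ G.c₆ = G.c₆ := by
      have := congrArg WeierstrassCurve.c₆ hW
      rwa [map_c₆] at this
    have g4 : σ (C.u : Qb) ^ 4 = (C.u : Qb) ^ 4 := by rw [← map_pow, ec4, f4]
    have g6 : (1 + 864 * σ (c : Qb)) * σ (C.u : Qb) ^ 6 = (1 + 864 * (c : Qb)) * (C.u : Qb) ^ 6 := by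
      have h := congrArg σ ec6
      simp only [map_mul, map_neg, map_add, map_one, map_pow, map_ofNat, f6] at h
      linear_combination h - ec6
    have hc1 := valuation_c_lt_one hc
    have hsq : σ (C.u : Qb) ^ 2 = (C.u : Qb) ^ 2 := by
      have h : (σ (C.u : Qb) ^ 2 - (C.u : Qb) ^ 2) * (σ (C.u : Qb) ^ 2 + (C.u : Qb) ^ 2) = 0 := by
        linear_combination g4
      refine sub_eq_zero.1 ((mul_eq_zero.1 h).resolve_right fun h' => ?_)
      have h6 : σ (C.u : Qb) ^ 6 = -(C.u : Qb) ^ 6 := by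
        rw [pow_mul _ 2 3, eq_neg_of_add_eq_zero_left h']; ring
      rw [h6] at g6
      have h432 : (432 : Qb) * ((c : Qb) + σ (c : Qb)) = -1 := by
        refine mul_right_cancel₀ (pow_ne_zero 6 hu0) ?_
        linear_combination (-1 / 2 : Qb) * g6
      have hlt : A.valuation ((432 : Qb) * ((c : Qb) + σ (c : Qb))) < 1 := by
        rw [map_mul]
        refine lt_of_le_of_lt (mul_le_of_le_one_left' ?_)
          (A.valuation.map_add_lt hc1 (((preserves_of_decomposition hσ).lt_one_iff _).2 hc1))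
        exact_mod_cast A.valuation_le_one ((432 : ℕ) : A)
      rw [h432, Valuation.map_neg, map_one] at hlt
      exact lt_irrefl _ hlt
    refine ⟨?_, eq_or_eq_neg_of_sq_eq_sq _ _ hsq⟩
    rw [pow_mul _ 2 3, hsq, ← pow_mul] at g6
    have h := mul_right_cancel₀ (pow_ne_zero 6 hu0) g6
    linear_combination h / 864
  let ω : GQ → ℤ := fun σ => if σ (C.u : Qb) = C.u then 1 else -1
  have hfa : ∀ σ : GQ, σ G.a₁ = G.a₁ ∧ σ G.a₂ = G.a₂ ∧ σ G.a₃ = G.a₃ := fun σ =>
    ⟨congrArg WeierstrassCurve.a₁ (EllP.genCurve_map_fixed (W := W) (A := A) σ),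
      congrArg WeierstrassCurve.a₂ (EllP.genCurve_map_fixed (W := W) (A := A) σ),
      congrArg WeierstrassCurve.a₃ (EllP.genCurve_map_fixed (W := W) (A := A) σ)⟩
  have hωI : ∀ σ ∈ A.inertiaSubgroupIn ℚ, σ (C.u : Qb) = C.u := fun σ hσ =>
    congrArg (fun D : VariableChange Qb => (D.u : Qb)) (hfix σ hσ).1
  refine ⟨ω, (E0 A (nodeCurve c)).comap Φ, fun σ => ?_, fun σ hσ => if_pos (hωI σ hσ),
    fun σ τ hτ => by simp only [ω, AlgEquiv.mul_apply, hωI τ hτ], fun n σ hσ P hP => ?_,
    fun P Q hP2 hQ2 hP hQ hP0 hQ0 => hΦ (eq_of_two_torsion_E0 hc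
      (by rw [← map_nsmul, hP2, map_zero]) (by rw [← map_nsmul, hQ2, map_zero]) hP hQ
      ((map_ne_zero_iff Φ hΦ).2 hP0) ((map_ne_zero_iff Φ hΦ).2 hQ0))⟩
  · by_cases h : σ (C.u : Qb) = C.u
    · exact Or.inl (if_pos h)
    · exact Or.inr (if_neg h)
  obtain ⟨hσc, hσu⟩ := hdec σ hσ
  obtain ⟨f1, f2, f3⟩ := hfa σ
  have hpres := preserves_of_decomposition hσ
  have hN : (2 : ℕ) ^ n ≠ 0 := pow_ne_zero n two_ne_zero
  have hrel : Rel A (c : Qb) (comp (Φ P) ^ 2 ^ n) :=
    rel_comp_pow hc hc0 (by rw [← map_nsmul, hP, map_zero])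
  have key : ∀ D : (nodeGen c).Point, Rel A (c : Qb) (comp D) → D ∈ E0 A (nodeCurve c) :=
    fun D h => mem_E0_of_rel hc hc0 h
  rw [AddSubgroup.mem_comap, map_sub, map_zsmul]
  by_cases hpos : σ (C.u : Qb) = C.u
  · -- `C` is fixed
    have es : σ C.s = C.s := by
      have h := congrArg σ ea1
      simp only [map_sub, map_mul, map_ofNat, f1, hpos] at h
      linear_combination (h - ea1) / 2
    have er : σ C.r = C.r := by
      have h := congrArg σ ea2
      simp only [map_sub, map_add, map_mul, map_pow, map_ofNat, f1, f2, es] at h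
      linear_combination (h - ea2) / 3
    have et : σ C.t = C.t := by
      have h := congrArg σ ea3
      simp only [map_sub, map_neg, map_mul, map_ofNat, f1, f3, er] at h
      linear_combination (h - ea3) / 2
    have hσC : C.map (σ : Qb →+* Qb) = C := VariableChange.ext (Units.ext hpos) er es et
    have hconj : IsConjPoint (σ : Qb →+* Qb) (Φ P) (Φ (σ • P)) :=
      EllP.isConjPoint_pointCongr _ ((EllP.isConjPoint_toModel σ P).vc hσC)
    have he := comp_conj hpres hσc hconj hN hrel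
    rw [show ω σ = 1 from if_pos hpos, one_smul]
    refine key _ ?_
    have h := comp_add hc hc0 (Φ (σ • P) - Φ P) (Φ P)
    rw [sub_add_cancel, he, mul_inv, mul_comm (comp _)⁻¹, ← mul_assoc,
      mul_inv_cancel₀ (comp_ne_zero hc0 _), one_mul] at h
    simpa using h.inv
  · -- `C` is moved to the opposite change
    have hneg : σ (C.u : Qb) = -C.u := hσu.resolve_left hpos
    have es : σ C.s = -C.s - G.a₁ := by
      have h := congrArg σ ea1
      simp only [map_sub, map_mul, map_ofNat, f1, hneg] at h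
      linear_combination (h + ea1) / 2
    have er : σ C.r = C.r := by
      have h := congrArg σ ea2
      simp only [map_sub, map_add, map_mul, map_pow, map_ofNat, f1, f2, es] at h
      linear_combination (h - ea2) / 3
    have et : σ C.t = C.t := by
      have h := congrArg σ ea3
      simp only [map_sub, map_neg, map_mul, map_ofNat, f1, f3, er] at h
      linear_combination (h - ea3) / 2
    have hconj : IsConjPoint (σ : Qb →+* Qb) (Φ P) (-Φ (σ • P)) := by
      cases P with
      | zero =>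
        refine Or.inl ⟨map_zero Φ, ?_⟩
        rw [show σ • (Affine.Point.zero : EllP.QPoint W) = 0 from rfl, map_zero, neg_zero]
      | some x y h =>
        obtain ⟨h', he⟩ := EllP.smul_some_qbar σ h
        have hΦsome : ∀ {a b : Qb} (hab : _), ∃ h'', Φ (Affine.Point.some a b hab : EllP.QPoint W) =
            Affine.Point.some (vcX C a) (vcY C a b) h'' := by
          intro a b hab
          have hab' : G.Nonsingular a b := by
            rw [hG, EllP.genCurve_modelAt]; exact hab
          refine ⟨cast (congrArg (fun X : Affine Qb => X.Nonsingular (vcX C a) (vcY C a b))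
            (congrArg WeierstrassCurve.toAffine hC)) (nonsingular_vc C hab'), ?_⟩
          simp only [Φ, AddMonoidHom.comp_apply, AddEquiv.coe_toAddMonoidHom, EllP.toModel_some,
              vcPoint_some, EllP.pointCongr_some]
        obtain ⟨n₁, e₁⟩ := hΦsome h
        obtain ⟨n₂, e₂⟩ := hΦsome h'
        rw [he, e₁, e₂, Affine.Point.neg_some]
        have eX : σ (vcX C x) = vcX C (σ x) := by
          simp only [vcX, Units.val_inv_eq_inv_val, map_mul, map_pow, map_inv₀, map_sub, hneg, er]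
          ring
        have eY : σ (vcY C x y) = (nodeGen c).negY (vcX C (σ x)) (vcY C (σ x) (σ y)) := by
          rw [nodeGen_negY]
          simp only [vcX, vcY, Units.val_inv_eq_inv_val, map_mul, map_pow, map_inv₀, map_sub, hneg,
            er, es, et]
          rw [ea1]
          field_simp
          ring
        refine Or.inr ⟨_, _, n₁, ?_, rfl, ?_⟩
        · show (nodeGen c).Nonsingular (σ (vcX C x)) (σ (vcY C x y))
          rw [eX, eY]
          exact (Affine.nonsingular_neg _ _).2 n₂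
        · simp only [RingHom.coe_coe, eX, eY]
    have he := comp_conj hpres hσc hconj hN hrel
    rw [show ω σ = -1 from if_neg hpos, neg_one_smul, sub_neg_eq_add]
    refine key _ ?_
    have h := comp_add hc hc0 (Φ (σ • P)) (Φ P)
    rw [← he] at h
    have h2 := h.mul hc0 (comp_mul_neg hc0 (Φ (σ • P)))
    rwa [inv_mul_cancel_right₀ (mul_ne_zero (comp_ne_zero hc0 _) (comp_ne_zero hc0 _))] at h2

end Place

end FLTAgent.Mod2.Node
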