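import Fermat.Agent.Mod2.CurveFrob
import Fermat.Agent.Mod2.CurveNode

/-!
# The 2-adic representation at a multiplicative prime

A subgroup with at most one element of order two is cyclic on each `2 ^ n`-torsion
(`exists_generator`), so on the decomposition group the Galois matrices are `ω` plus a rank one
matrix with a fixed column (`exists_shape`). With cyclotomic determinant this is the condition
`SpecialAt`, with a sign as Frobenius eigenvalue (`exists_specialAt`).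
-/

set_option autoImplicit false

noncomputable section

open Matrix WeierstrassCurve
open scoped WeierstrassCurve.Affine Pointwise

namespace FLTAgent.Mod2.CurveRep

local notation "ℚ̄" => AlgebraicClosure ℚ

/-- A subgroup of a `2`-primary group with at most one element of order two is locally cyclic. -/
theorem exists_generator {M : Type*} [AddCommGroup M] (L : AddSubgroup M)
    (huniq : ∀ P Q : M, 2 • P = 0 → 2 • Q = 0 → P ∈ L → Q ∈ L → P ≠ 0 → Q ≠ 0 → P = Q) :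
    ∀ n : ℕ, ∃ Z : M, 2 ^ n • Z = 0 ∧ ∀ P ∈ L, 2 ^ n • P = 0 → ∃ k : ℤ, P = k • Z := by
  suffices h : ∀ n : ℕ, ∃ Z : M, Z ∈ L ∧ 2 ^ n • Z = 0 ∧
      ∀ P ∈ L, 2 ^ n • P = 0 → ∃ k : ℤ, P = k • Z from
    fun n => (h n).imp fun Z hZ => hZ.2
  intro n
  induction n with
  | zero => exact ⟨0, L.zero_mem, smul_zero _, fun P _ hP => ⟨0, by simpa using hP⟩⟩
  | succ n ih =>
    obtain ⟨Z₀, hZ₀L, hZ₀, hgen⟩ := ih
    -- a candidate `Y`
    obtain ⟨Y, hYL, hY, hspan⟩ : ∃ Y : M, Y ∈ L ∧ 2 ^ (n + 1) • Y = 0 ∧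
        ∀ P ∈ L, 2 ^ (n + 1) • P = 0 → ∃ k : ℤ, 2 • (P - k • Y) = 0 := by
      by_cases hdiv : ∃ Z ∈ L, 2 • Z = Z₀
      · obtain ⟨Z, hZL, hZ⟩ := hdiv
        refine ⟨Z, hZL, by rw [pow_succ, mul_nsmul', hZ, hZ₀], fun P hPL hP => ?_⟩
        obtain ⟨k, hk⟩ := hgen (2 • P) (L.nsmul_mem hPL 2)
          (by rwa [← mul_nsmul', ← pow_succ])
        exact ⟨k, by rw [nsmul_sub, hk, smul_comm 2 k, hZ, sub_self]⟩
      · refine ⟨Z₀, hZ₀L, by rw [pow_succ', mul_nsmul', hZ₀, smul_zero], fun P hPL hP => ?_⟩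
        obtain ⟨k, hk⟩ := hgen (2 • P) (L.nsmul_mem hPL 2)
          (by rwa [← mul_nsmul', ← pow_succ])
        rcases Int.even_or_odd k with ⟨j, hj⟩ | hodd
        · exact ⟨j, by rw [nsmul_sub, hk, hj, add_smul, two_nsmul, sub_self]⟩
        · exfalso
          obtain ⟨a, b, hab⟩ : IsCoprime k ((2 : ℤ) ^ n) :=
            (Int.isCoprime_iff_gcd_eq_one.2 (by
              obtain ⟨j, rfl⟩ := hodd
              rw [Int.gcd_comm, ← Int.isCoprime_iff_gcd_eq_one]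
              exact ⟨-j, 1, by ring⟩ : Int.gcd k 2 = 1)).pow_right
          refine hdiv ⟨a • P, L.zsmul_mem hPL a, ?_⟩
          rw [smul_comm, hk, ← mul_smul, show a * k = 1 - b * 2 ^ n by linear_combination hab,
            sub_smul, one_smul, mul_smul,
            show ((2 : ℤ) ^ n) • Z₀ = 0 by rw [← Nat.cast_ofNat, ← Nat.cast_pow, natCast_zsmul, hZ₀],
            smul_zero, sub_zero]
    have htors : ∀ (m : ℕ) (X : M), X ∈ L → X ≠ 0 → 2 ^ m • X = 0 →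
        ∃ k : ℤ, k • X ≠ 0 ∧ 2 • (k • X) = 0 := by
      intro m
      induction m with
      | zero => exact fun X _ h0 h => (h0 (by simpa using h)).elim
      | succ m ihm =>
        intro X hXL h0 h
        by_cases h2 : 2 • X = 0
        · exact ⟨1, by simpa using h0, by simpa using h2⟩
        · obtain ⟨k, hk, hk2⟩ := ihm (2 • X) (L.nsmul_mem hXL 2) h2 (by rwa [← mul_nsmul', ← pow_succ])
          refine ⟨k * 2, ?_, ?_⟩ <;> rw [mul_smul, show (2 : ℤ) • X = 2 • X from natCast_zsmul X 2]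
          exacts [hk, hk2]
    by_cases hY0 : Y = 0
    · subst hY0
      by_cases hex : ∃ P ∈ L, 2 • P = 0 ∧ P ≠ 0
      · obtain ⟨X, hXL, hX2, hX0⟩ := hex
        refine ⟨X, hXL, by rw [pow_succ, mul_nsmul', hX2, smul_zero], fun P hPL hP => ?_⟩
        obtain ⟨k, hk⟩ := hspan P hPL hP
        rw [smul_zero, sub_zero] at hk
        by_cases hP0 : P = 0
        · exact ⟨0, by rw [hP0, zero_smul]⟩
        · exact ⟨1, by rw [one_smul, huniq P X hk hX2 hPL hXL hP0 hX0]⟩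
      · refine ⟨0, L.zero_mem, smul_zero _, fun P hPL hP => ⟨0, ?_⟩⟩
        obtain ⟨k, hk⟩ := hspan P hPL hP
        rw [smul_zero, sub_zero] at hk
        rw [zero_smul]
        by_contra h0
        exact hex ⟨P, hPL, hk, h0⟩
    · refine ⟨Y, hYL, hY, fun P hPL hP => ?_⟩
      obtain ⟨k, hk⟩ := hspan P hPL hP
      obtain ⟨j, hj0, hj2⟩ := htors (n + 1) Y hYL hY0 hY
      by_cases hT : P - k • Y = 0
      · exact ⟨k, sub_eq_zero.1 hT⟩
      · refine ⟨k + j, ?_⟩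
        have := huniq _ _ hk hj2 (L.sub_mem hPL (L.zsmul_mem hYL k)) (L.zsmul_mem hYL j) hT hj0
        rw [add_smul, ← this]; abel

section Algebra

variable {R : Type*} [CommRing R]

/-- Matrices congruent to a scalar modulo a fixed vector. -/
theorem rankOne_mul {v k l : Fin 2 → R} {ω c d : R} (hω : ω * ω = 1) (hd : d = 1)
    (hc : c = 1 + ω * (k 0 * v 0 + k 1 * v 1)) :
    ((ω • (1 : Matrix (Fin 2) (Fin 2) R) + vecMulVec v k) - (c * ω) • 1) *
      ((d • (1 : Matrix (Fin 2) (Fin 2) R) + vecMulVec v l) - d • 1) = 0 := by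
  subst hd
  ext i j
  fin_cases i <;> fin_cases j <;>
    simp [Matrix.mul_apply, Fin.sum_univ_two, vecMulVec_apply, hc] <;>
    linear_combination (-(k 0 * v 0 + k 1 * v 1) * (v _ * l _)) * hω

theorem det_rankOne (v k : Fin 2 → R) {ω : R} (hω : ω * ω = 1) :
    (ω • (1 : Matrix (Fin 2) (Fin 2) R) + vecMulVec v k).det =
      1 + ω * (k 0 * v 0 + k 1 * v 1) := by
  rw [Matrix.det_fin_two]
  simp [vecMulVec_apply]
  linear_combination hω

theorem trace_rankOne (v k : Fin 2 → R) (ω : R) :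
    (ω • (1 : Matrix (Fin 2) (Fin 2) R) + vecMulVec v k).trace =
      2 * ω + (k 0 * v 0 + k 1 * v 1) := by
  rw [Matrix.trace_fin_two]
  simp [vecMulVec_apply]
  ring

theorem conj_sub_mul {S : Type*} [Ring S] [Algebra R S] {a b X Y : S} (hba : b * a = 1) (c d : R)
    (hab : a * b = 1) :
    (a * X * b - c • 1) * (a * Y * b - d • 1) = a * ((X - c • 1) * (Y - d • 1)) * b := by
  have e : ∀ (x : R) (Z : S), a * (Z - x • 1) * b = a * Z * b - x • 1 := fun x Z => by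
    rw [mul_sub, sub_mul, mul_smul_comm, mul_one, smul_mul_assoc, hab]
  rw [← e c X, ← e d Y]
  simp only [mul_assoc]
  rw [← mul_assoc b a, hba, one_mul]

end Algebra

variable {E : WeierstrassCurve ℤ} (B : TwoBasis (EllP.QPoint E))

/-- The shape of the decomposition group at a multiplicative place. -/
theorem exists_shape (hΔ : E.Δ ≠ 0) (hdet : ∀ g, (tateRep B g).det = chi2 g) {q : ℕ} (hq : q.Prime)
    {A : ValuationSubring ℚ̄} (hA : A.LiesOverPrime q) (hqΔ : (q : ℤ) ∣ E.Δ)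
    (hqc : ¬ (q : ℤ) ∣ E.c₄) :
    ∃ ω : Gal2 → ℤ, (∀ σ, ω σ = 1 ∨ ω σ = -1) ∧ (∀ σ ∈ A.inertiaSubgroupIn ℚ, ω σ = 1) ∧
      (∀ σ, ∀ τ ∈ A.inertiaSubgroupIn ℚ, ω (σ * τ) = ω σ) ∧
      ∀ m : ℕ, ∃ v : Fin 2 → ZMod (2 ^ m), ∀ σ ∈ A.decompositionSubgroup ℚ,
        ∃ k : Fin 2 → ZMod (2 ^ m),
          mat B m σ = (ω σ : ZMod (2 ^ m)) • (1 : Matrix (Fin 2) (Fin 2) (ZMod (2 ^ m))) +
              vecMulVec v k ∧
            PadicInt.toZModPow m (chi2 σ) =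
              1 + (ω σ : ZMod (2 ^ m)) * (k 0 * v 0 + k 1 * v 1) := by
  obtain ⟨ω, L, hω, hωI, hωm, hL, huniq⟩ := Node.exists_local_data hq hA hΔ hqΔ hqc
  refine ⟨ω, hω, hωI, hωm, fun m => ?_⟩
  obtain ⟨Z, hZ, hgen⟩ := exists_generator L huniq m
  obtain ⟨v, rfl⟩ := B.exists_pt_eq hZ
  refine ⟨v, fun σ hσ => ?_⟩
  have h : ∀ w : Fin 2 → ZMod (2 ^ m), ∃ k : ZMod (2 ^ m),
      mat B m σ *ᵥ w = (ω σ : ZMod (2 ^ m)) • w + k • v := by
    intro w
    obtain ⟨k, hk⟩ := hgen _ (hL m σ hσ (B.pt m w) (B.pow_nsmul_pt m w)) (by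
      rw [nsmul_sub, smul_comm _ (ω σ), nsmul_smul_eq_zero (B.pow_nsmul_pt m w),
        B.pow_nsmul_pt m w, zsmul_zero, sub_zero])
    refine ⟨(k : ZMod (2 ^ m)), B.pt_injective m ?_⟩
    rw [map_add, pt_intCast_smul, pt_intCast_smul, pt_mat, ← hk, add_sub_cancel]
  choose k hk using h
  refine ⟨fun j => k (Pi.single j 1), ?_⟩
  have hmat : mat B m σ = (ω σ : ZMod (2 ^ m)) • (1 : Matrix (Fin 2) (Fin 2) (ZMod (2 ^ m))) +
      vecMulVec v fun j => k (Pi.single j 1) := by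
    refine Matrix.ext_of_mulVec_single fun j => ?_
    rw [hk, Matrix.add_mulVec, Matrix.smul_mulVec, Matrix.one_mulVec]
    congr 1
    funext i
    simp [vecMulVec_apply, mul_comm]
  refine ⟨hmat, ?_⟩
  rw [← hdet, RingHom.map_det, toZModPow_tateRep, hmat, det_rankOne]
  rcases hω σ with h | h <;> simp [h]

/-- `SpecialAt` at a multiplicative prime, with a sign as eigenvalue. -/
theorem exists_specialAt (hΔ : E.Δ ≠ 0) (hdet : ∀ g, (tateRep B g).det = chi2 g) {q : ℕ}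
    (hq : q.Prime) (hqΔ : (q : ℤ) ∣ E.Δ) (hqc : ¬ (q : ℤ) ∣ E.c₄) :
    ∃ u : ℤ_[2], SpecialAt q u (tateRep B) := by
  obtain ⟨A₀, hA₀, φ₀, hφ₀⟩ := GalCommon.exists_place_frobenius hq
  obtain ⟨ω, hω, hωI, hωm, hshape⟩ := exists_shape B hΔ hdet hq hA₀ hqΔ hqc
  set r := tateRep B with hr
  have hωF : ∀ φ, A₀.IsFrobeniusAt φ q → ω φ = ω φ₀ := by
    intro φ hφ
    rw [← hωm φ₀ _ (GalCommon.inv_mul_mem_inertia hφ₀ hφ), mul_inv_cancel_left]
  set u : ℤ_[2] := ((ω φ₀ : ℤ) : ℤ_[2]) with hu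
  have hω2 : ∀ σ (R : Type) [CommRing R], ((ω σ : ℤ) : R) * (ω σ : ℤ) = 1 := by
    intro σ R _; rcases hω σ with h | h <;> simp [h]
  -- the equations at `A₀`
  have hdI : ∀ σ ∈ A₀.inertiaSubgroupIn ℚ, σ ∈ A₀.decompositionSubgroup ℚ := fun σ h =>
    GalCommon.inertiaSubgroupIn_le_decomposition h
  have hdF : ∀ φ, A₀.IsFrobeniusAt φ q → φ ∈ A₀.decompositionSubgroup ℚ := fun φ h =>
    h.mem_decompositionSubgroup
  have key : ∀ (x : ℤ_[2]) (y : ℤ_[2]) (σ τ : Gal2), σ ∈ A₀.decompositionSubgroup ℚ →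
      τ ∈ A₀.decompositionSubgroup ℚ → x = chi2 σ * (ω σ : ℤ) → y = (ω τ : ℤ) → ω τ = 1 →
      (r σ - x • 1) * (r τ - y • 1) = 0 := by
    intro x y σ τ hσ hτ hx hy hτ1
    refine padic_ext fun m => ?_
    obtain ⟨v, hv⟩ := hshape m
    obtain ⟨k, hk, hkc⟩ := hv σ hσ
    obtain ⟨l, hl, -⟩ := hv τ hτ
    have e : ∀ z : ℤ_[2], (PadicInt.toZModPow m).mapMatrix (z • (1 : Mat2 ℤ_[2])) =
        PadicInt.toZModPow m z • (1 : Matrix (Fin 2) (Fin 2) (ZMod (2 ^ m))) := fun z => by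
      ext i j; by_cases hij : i = j <;> simp [hij]
    rw [map_zero, map_mul, map_sub, map_sub, e, e, hr, toZModPow_tateRep, toZModPow_tateRep, hk, hl,
      hx, hy, hτ1, map_mul, map_intCast, hkc, Int.cast_one, Int.cast_one, map_one]
    exact rankOne_mul (hω2 σ _) rfl rfl
  have key' : ∀ (x : ℤ_[2]) (σ τ : Gal2), σ ∈ A₀.decompositionSubgroup ℚ →
      τ ∈ A₀.decompositionSubgroup ℚ → ω σ = 1 → x = (ω τ : ℤ) →
      (r σ - chi2 σ • 1) * (r τ - x • 1) = 0 := by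
    intro x σ τ hσ hτ hσ1 hx
    refine padic_ext fun m => ?_
    obtain ⟨v, hv⟩ := hshape m
    obtain ⟨k, hk, hkc⟩ := hv σ hσ
    obtain ⟨l, hl, -⟩ := hv τ hτ
    have e : ∀ z : ℤ_[2], (PadicInt.toZModPow m).mapMatrix (z • (1 : Mat2 ℤ_[2])) =
        PadicInt.toZModPow m z • (1 : Matrix (Fin 2) (Fin 2) (ZMod (2 ^ m))) := fun z => by
      ext i j; by_cases hij : i = j <;> simp [hij]
    rw [map_zero, map_mul, map_sub, map_sub, e, e, hr, toZModPow_tateRep, toZModPow_tateRep, hk, hl,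
      hx, map_intCast, hkc, hσ1]
    generalize (ω τ : ZMod (2 ^ m)) = w
    ext i j
    fin_cases i <;> fin_cases j <;>
      simp [Matrix.mul_apply, Fin.sum_univ_two, vecMulVec_apply] <;> ring
  have trace_eq : ∀ σ ∈ A₀.decompositionSubgroup ℚ,
      (r σ).trace = (ω σ : ℤ) * (1 + chi2 σ) := by
    intro σ hσ
    refine PadicInt.ext_of_toZModPow.mp fun m => ?_
    obtain ⟨v, hv⟩ := hshape m
    obtain ⟨k, hk, hkc⟩ := hv σ hσ
    rw [map_mul, map_add, map_intCast, map_one, hkc,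
      show PadicInt.toZModPow m (r σ).trace = ((PadicInt.toZModPow m).mapMatrix (r σ)).trace from
        AddMonoidHom.map_trace (PadicInt.toZModPow m).toAddMonoidHom (r σ), hr]
    rw [show (PadicInt.toZModPow m).mapMatrix (tateRep B σ) = _ from toZModPow_tateRep B m σ, hk,
      trace_rankOne]
    linear_combination (-(k 0 * v 0 + k 1 * v 1)) * hω2 σ (ZMod (2 ^ m))
  -- transport to every place
  refine ⟨u, ?_⟩
  have conj : ∀ A : ValuationSubring ℚ̄, A.LiesOverPrime q → ∃ τ : Gal2,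
      (∀ σ ∈ A.inertiaSubgroupIn ℚ, τ⁻¹ * σ * τ ∈ A₀.inertiaSubgroupIn ℚ) ∧
      ∀ φ, A.IsFrobeniusAt φ q → A₀.IsFrobeniusAt (τ⁻¹ * φ * τ) q := by
    intro A hA
    obtain ⟨τ, rfl⟩ := GalCommon.exists_smul_eq_of_liesOverPrime hq hA₀ hA
    refine ⟨τ, fun σ hσ => ?_, fun φ hφ => ?_⟩
    · simpa using GalCommon.mem_inertia_conj hσ τ⁻¹
    · simpa using GalCommon.isFrobeniusAt_conj hφ τ⁻¹
  have hconj : ∀ τ σ : Gal2, r σ = r τ * r (τ⁻¹ * σ * τ) * r τ⁻¹ := fun τ σ => by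
    rw [← map_mul, ← map_mul, show τ * (τ⁻¹ * σ * τ) * τ⁻¹ = σ by group]
  have hinv : ∀ τ : Gal2, r τ⁻¹ * r τ = 1 ∧ r τ * r τ⁻¹ = 1 := fun τ =>
    ⟨by rw [← map_mul, inv_mul_cancel, map_one], by rw [← map_mul, mul_inv_cancel, map_one]⟩
  have hchi : ∀ τ σ : Gal2, chi2 (τ⁻¹ * σ * τ) = chi2 σ := fun τ σ => by
    rw [map_mul, map_mul, mul_right_comm, ← map_mul, inv_mul_cancel, map_one, one_mul]
  have htr : ∀ τ σ : Gal2, (r σ).trace = (r (τ⁻¹ * σ * τ)).trace := fun τ σ => by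
    rw [hconj τ σ, Matrix.trace_mul_comm, ← mul_assoc, (hinv τ).1, one_mul]
  refine ⟨?_, ?_, ?_, ?_, ?_, ?_⟩
  · rw [hu, pow_two]; exact hω2 φ₀ ℤ_[2]
  · intro A hA σ hσ τ' hτ'
    obtain ⟨τ, hI, -⟩ := conj A hA
    have h := key' 1 _ _ (hdI _ (hI σ hσ)) (hdI _ (hI τ' hτ')) (hωI _ (hI σ hσ))
      (by rw [hωI _ (hI τ' hτ')]; simp)
    rw [hchi, one_smul] at h
    have e := conj_sub_mul (X := r (τ⁻¹ * σ * τ)) (Y := r (τ⁻¹ * τ' * τ)) (hinv τ).1 (chi2 σ)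
      (1 : ℤ_[2]) (hinv τ).2
    simp only [one_smul] at e
    rw [hconj τ σ, hconj τ τ', Algebra.algebraMap_self_apply, e, h, mul_zero, zero_mul]
  · intro A hA σ hσ φ hφ
    obtain ⟨τ, hI, hF⟩ := conj A hA
    have h := key' u _ _ (hdI _ (hI σ hσ)) (hdF _ (hF φ hφ)) (hωI _ (hI σ hσ))
      (by rw [hωF _ (hF φ hφ)])
    rw [hchi] at h
    rw [hconj τ σ, hconj τ φ, Algebra.algebraMap_self_apply,
      conj_sub_mul (hinv τ).1 _ _ (hinv τ).2, h, mul_zero, zero_mul]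
  · intro A hA σ hσ φ hφ
    obtain ⟨τ, hI, hF⟩ := conj A hA
    have h := key (chi2 φ * u) 1 _ _ (hdF _ (hF φ hφ)) (hdI _ (hI σ hσ))
      (by rw [hchi, hωF _ (hF φ hφ)]) (by rw [hωI _ (hI σ hσ)]; simp) (hωI _ (hI σ hσ))
    rw [one_smul] at h
    have e := conj_sub_mul (X := r (τ⁻¹ * φ * τ)) (Y := r (τ⁻¹ * σ * τ)) (hinv τ).1 (chi2 φ * u)
      (1 : ℤ_[2]) (hinv τ).2
    simp only [one_smul] at e
    rw [hconj τ σ, hconj τ φ, Algebra.algebraMap_self_apply, e, h, mul_zero, zero_mul]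
  · intro A hA σ hσ
    obtain ⟨τ, hI, -⟩ := conj A hA
    rw [htr τ σ, trace_eq _ (hdI _ (hI σ hσ)), hωI _ (hI σ hσ), hchi]
    simp
  · intro A hA φ hφ
    obtain ⟨τ, -, hF⟩ := conj A hA
    rw [htr τ φ, trace_eq _ (hdF _ (hF φ hφ)), hωF _ (hF φ hφ), hchi]
    simp [hu]

end FLTAgent.Mod2.CurveRep
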