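import Fermat.Agent.Mod2.CurveFrob
import Fermat.Agent.EllP.Unramified
import Fermat.Prelude.Def_FLTPrelim_ModularRep

/-!
# The `2`-torsion of a curve: sign, ramification and surjectivity

From the abscissas of the three points of order two, `sqrtDisc` is a square root of `Δ` and Galois
fixes it exactly on the elements of order dividing three (`apply_sqrtDisc`). Inertia at a prime of
odd valuation of `Δ` moves the `2`-torsion (`exists_inertia_mat_ne_one`). If the representation is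
irreducible no point of order two is rational (`exists_smul_ne`), and with an element of order two
in the image it is onto `GL₂(𝔽₂)` (`exists_mat_one_eq`).
-/

set_option autoImplicit false

noncomputable section

open Matrix WeierstrassCurve
open scoped WeierstrassCurve.Affine

namespace FLTAgent.Mod2.CurveRep

local notation "Qb" => AlgebraicClosure ℚ

/-- `ℤ_2` has only one map to `𝔽₂`. -/
theorem padic_hom_eq (f : ℤ_[2] →+* ZMod 2) (x : ℤ_[2]) : f x = PadicInt.toZMod x := by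
  have hmem := PadicInt.sub_zmodRepr_mem x
  rw [PadicInt.maximalIdeal_eq_span_p, Ideal.mem_span_singleton] at hmem
  obtain ⟨y, hy⟩ := hmem
  have hx : x = (x.zmodRepr : ℤ_[2]) + ((2 : ℕ) : ℤ_[2]) * y := by rw [← hy]; ring
  have key : ∀ g : ℤ_[2] →+* ZMod 2, g x = (x.zmodRepr : ZMod 2) := fun g => by
    conv_lhs => rw [hx]
    rw [map_add, map_mul, map_natCast, map_natCast, ZMod.natCast_self, zero_mul, add_zero]
  rw [key f, key PadicInt.toZMod]

variable {E : WeierstrassCurve ℤ} (B : TwoBasis (EllP.QPoint E))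

/-- Reduction `ℤ/2^1 → 𝔽₂`. -/
def psi : ZMod (2 ^ 1) →+* ZMod 2 := ZMod.castHom (dvd_pow_self 2 one_ne_zero) (ZMod 2)

theorem psi_injective : Function.Injective psi := by
  unfold psi; decide

theorem resRep_eq_psi (σ : Gal2) : resRep B σ = psi.mapMatrix (mat B 1 σ) := by
  rw [← toZModPow_tateRep]
  ext i j
  rw [resRep_apply]
  exact (padic_hom_eq (psi.comp (PadicInt.toZModPow 1)) _).symm

theorem mapMatrix_psi_eq_one {M : Matrix (Fin 2) (Fin 2) (ZMod (2 ^ 1))} :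
    psi.mapMatrix M = 1 ↔ M = 1 := by
  conv_lhs => rw [← map_one psi.mapMatrix]
  exact (Matrix.map_injective psi_injective).eq_iff

/-- The three nonzero vectors. -/
def ev : Fin 3 → Fin 2 → ZMod (2 ^ 1) := ![![1, 0], ![0, 1], ![1, 1]]

theorem perm_cases : ∀ M : Matrix (Fin 2) (Fin 2) (ZMod (2 ^ 1)), M.det ≠ 0 →
    (M ^ 3 = 1 ∧ ∃ k : Fin 3, ∀ i, M *ᵥ ev i = ev (i + k)) ∨
      (M ^ 3 ≠ 1 ∧ ∃ k : Fin 3, ∀ i, M *ᵥ ev i = ev (k - i)) := by
  decide

theorem cube_root_cases : ∀ c Y : Matrix (Fin 2) (Fin 2) (ZMod (2 ^ 1)),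
    c ^ 3 = 1 → c ≠ 1 → Y ^ 3 = 1 → Y = 1 ∨ Y = c ∨ Y = c * c := by
  decide

theorem transposition_cases : ∀ t X : Matrix (Fin 2) (Fin 2) (ZMod (2 ^ 1)),
    t * t = 1 → t ≠ 1 → X.det ≠ 0 → X ^ 3 = 1 ∨ (t * X) ^ 3 = 1 := by
  decide

theorem involution_fix : ∀ t : Matrix (Fin 2) (Fin 2) (ZMod (2 ^ 1)),
    t * t = 1 → ∃ i, t *ᵥ ev i = ev i := by
  decide

theorem ev_ne_zero : ∀ i, ev i ≠ 0 := by decide

theorem ev_injective : Function.Injective ev := by decide

theorem det_mat_one_ne_zero (σ : Gal2) : (mat B 1 σ).det ≠ 0 := by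
  intro h
  have := congrArg Matrix.det (congrArg (mat B 1) (mul_inv_cancel σ))
  rw [mat_mul, Matrix.det_mul, h, zero_mul, mat_one, Matrix.det_one] at this
  exact absurd this (by decide)

/-- No point of order two is fixed by the Galois group. -/
theorem exists_smul_ne (hΔ : E.Δ ≠ 0) (hirr : E.ModRepIsIrreducible 2) {T : EllP.QPoint E}
    (hT : 2 • T = 0) (hT0 : T ≠ 0) : ∃ σ : Gal2, σ • T ≠ T := by
  classical
  by_contra hcon
  push Not at hcon
  have hmem : T ∈ Submodule.torsionBy ℤ (EllP.QPoint E) (2 : ℕ) := by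
    rw [Submodule.mem_torsionBy_iff, natCast_zsmul, hT]
  set T' : Submodule.torsionBy ℤ (EllP.QPoint E) (2 : ℕ) := ⟨T, hmem⟩ with hT'
  set N : Submodule (ZMod 2) (Submodule.torsionBy ℤ (EllP.QPoint E) (2 : ℕ)) :=
    Submodule.span (ZMod 2) {T'} with hN
  rcases hirr.2 N (fun σ x hx => by
    obtain ⟨a, rfl⟩ := Submodule.mem_span_singleton.1 hx
    have h1 : σ • T' = T' := Subtype.ext (hcon σ)
    have h2 : σ • (a • T') = a • T' := by
      rcases (show ∀ b : ZMod 2, b = 0 ∨ b = 1 by decide) a with rfl | rfl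
      · rw [zero_smul]; exact smul_zero _
      · rw [one_smul]; exact h1
    rw [h2]; exact Submodule.smul_mem _ _ (Submodule.mem_span_singleton_self _)) with h | h
  · exact hT0 (congrArg Subtype.val ((Submodule.span_singleton_eq_bot).1 h))
  · have hcard := natCard_two_pow_torsion hΔ 1
    have hle : Nat.card {x : EllP.QPoint E // 2 ^ 1 • x = 0} ≤ 2 := by
      refine le_of_le_of_eq (?_ : _ ≤ Nat.card (ZMod 2)) (Nat.card_zmod 2)
      refine Nat.card_le_card_of_surjective (fun a : ZMod 2 =>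
        (⟨(a • T').1, by simp⟩ : {x : EllP.QPoint E // 2 ^ 1 • x = 0})) fun x => ?_
      have hx : (⟨x.1, by
          rw [Submodule.mem_torsionBy_iff, natCast_zsmul]; simp⟩ :
          Submodule.torsionBy ℤ (EllP.QPoint E) (2 : ℕ)) ∈ N := h ▸ Submodule.mem_top
      obtain ⟨a, ha⟩ := Submodule.mem_span_singleton.1 hx
      exact ⟨a, Subtype.ext (congrArg Subtype.val ha :)⟩
    rw [hcard] at hle
    norm_num at hle

theorem exists_mat_one_mulVec_ne (hΔ : E.Δ ≠ 0) (hirr : E.ModRepIsIrreducible 2) (i : Fin 3) :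
    ∃ σ : Gal2, mat B 1 σ *ᵥ ev i ≠ ev i := by
  obtain ⟨σ, hσ⟩ := exists_smul_ne hΔ hirr (T := B.pt 1 (ev i))
    (by simpa using B.pow_nsmul_pt 1 (ev i))
    (fun h => ev_ne_zero i (B.pt_injective 1 (h.trans (map_zero _).symm)))
  exact ⟨σ, fun h => hσ (by rw [← pt_mat, h])⟩

theorem exists_resRep_ne_one (hΔ : E.Δ ≠ 0) (hirr : E.ModRepIsIrreducible 2) :
    ∃ h, resRep B h ≠ 1 := by
  obtain ⟨σ, hσ⟩ := exists_mat_one_mulVec_ne B hΔ hirr 0
  refine ⟨σ, fun h => hσ ?_⟩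
  rw [(resRep_eq_one_iff B σ).1 h, Matrix.one_mulVec]

/-- The `x`-coordinates of the three points of order two. -/
def xT (i : Fin 3) : Qb := EllP.xCoord (B.pt 1 (ev i))

theorem exists_some (i : Fin 3) :
    ∃ y h, B.pt 1 (ev i) = (Affine.Point.some (xT B i) y h : EllP.QPoint E) := by
  have h0 : B.pt 1 (ev i) ≠ 0 := fun h =>
    ev_ne_zero i (B.pt_injective 1 (h.trans (map_zero _).symm))
  unfold xT
  generalize B.pt 1 (ev i) = P at h0 ⊢
  cases P with
  | zero => exact (h0 rfl).elim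
  | some x y h => exact ⟨y, h, rfl⟩

theorem two_torsion_coords (i : Fin 3) :
    ∃ y : Qb, ∃ h, B.pt 1 (ev i) = (Affine.Point.some (xT B i) y h : EllP.QPoint E) ∧
      2 * y + (E.a₁ : Qb) * xT B i + E.a₃ = 0 ∧
      4 * xT B i ^ 3 + (E.b₂ : Qb) * xT B i ^ 2 + 2 * E.b₄ * xT B i + E.b₆ = 0 := by
  obtain ⟨y, h, he⟩ := exists_some B i
  refine ⟨y, h, he, ?_⟩
  have h2 : 2 • B.pt 1 (ev i) = 0 := by simpa using B.pow_nsmul_pt 1 (ev i)
  rw [he, two_nsmul, ← eq_neg_iff_add_eq_zero, Affine.Point.neg_some,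
    Affine.Point.some.injEq] at h2
  have e : (E.map (Int.castRingHom ℚ))⁄Qb = E.map (algebraMap ℤ Qb) := EllP.baseChange_eq_map E
  have hy := h2.2
  have heq := h.1
  rw [Affine.equation_iff] at heq
  rw [Affine.negY] at hy
  simp only [e, map_a₁, map_a₂, map_a₃, map_a₄, map_a₆, eq_intCast] at hy heq
  have hy' : 2 * y + (E.a₁ : Qb) * xT B i + E.a₃ = 0 := by linear_combination hy
  refine ⟨hy', ?_⟩
  simp only [WeierstrassCurve.b₂, WeierstrassCurve.b₄, WeierstrassCurve.b₆]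
  push_cast
  linear_combination (2 * y + (E.a₁ : Qb) * xT B i + E.a₃) * hy' - 4 * heq

theorem xT_injective : Function.Injective (xT B) := by
  intro i j hij
  obtain ⟨y, h, he, hy, -⟩ := two_torsion_coords B i
  obtain ⟨y', h', he', hy', -⟩ := two_torsion_coords B j
  apply ev_injective
  apply B.pt_injective 1
  rw [he, he', Affine.Point.some.injEq]
  exact ⟨hij, by rw [hij] at hy; linear_combination (hy - hy') / 2⟩

/-- The difference product. -/
def dP (f : Fin 3 → Qb) : Qb := (f 0 - f 1) * (f 1 - f 2) * (f 2 - f 0)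

/-- A square root of the discriminant. -/
def sqrtDisc : Qb := 4 * dP (xT B)

theorem dP_rotate (f : Fin 3 → Qb) (k : Fin 3) : dP (fun i => f (i + k)) = dP f := by
  fin_cases k <;> simp [dP] <;> ring

theorem dP_reflect (f : Fin 3 → Qb) (k : Fin 3) : dP (fun i => f (k - i)) = -dP f := by
  fin_cases k <;> simp [dP, show (-1 : Fin 3) = 2 from rfl, show (-2 : Fin 3) = 1 from rfl] <;> ring

theorem dP_ne_zero : dP (xT B) ≠ 0 := by
  have h := xT_injective B
  simp only [dP, ne_eq, mul_eq_zero, sub_eq_zero, h.eq_iff]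
  decide

theorem sqrtDisc_sq : sqrtDisc B ^ 2 = (E.Δ : Qb) := by
  obtain ⟨-, -, -, -, f0⟩ := two_torsion_coords B 0
  obtain ⟨-, -, -, -, f1⟩ := two_torsion_coords B 1
  obtain ⟨-, -, -, -, f2⟩ := two_torsion_coords B 2
  set x0 := xT B 0 with hx0
  set x1 := xT B 1 with hx1
  set x2 := xT B 2 with hx2
  have n01 : x0 - x1 ≠ 0 := sub_ne_zero.2 fun h => absurd (xT_injective B h) (by decide)
  have n02 : x0 - x2 ≠ 0 := sub_ne_zero.2 fun h => absurd (xT_injective B h) (by decide)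
  have n12 : x1 - x2 ≠ 0 := sub_ne_zero.2 fun h => absurd (xT_injective B h) (by decide)
  have p01 : 4 * (x0 ^ 2 + x0 * x1 + x1 ^ 2) + (E.b₂ : Qb) * (x0 + x1) + 2 * E.b₄ = 0 :=
    (mul_eq_zero.1 (show (x0 - x1) * _ = 0 by linear_combination f0 - f1)).resolve_left n01
  have p02 : 4 * (x0 ^ 2 + x0 * x2 + x2 ^ 2) + (E.b₂ : Qb) * (x0 + x2) + 2 * E.b₄ = 0 :=
    (mul_eq_zero.1 (show (x0 - x2) * _ = 0 by linear_combination f0 - f2)).resolve_left n02
  have s1 : 4 * (x0 + x1 + x2) + (E.b₂ : Qb) = 0 :=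
    (mul_eq_zero.1 (show (x1 - x2) * _ = 0 by linear_combination p01 - p02)).resolve_left n12
  have e2 : (E.b₂ : Qb) = -4 * (x0 + x1 + x2) := by linear_combination s1
  have e4 : (E.b₄ : Qb) = 2 * (x0 * x1 + x1 * x2 + x2 * x0) := by
    rw [e2] at p01; linear_combination p01 / 2
  have e6 : (E.b₆ : Qb) = -4 * (x0 * x1 * x2) := by
    rw [e2, e4] at f0; linear_combination f0
  have e8 : 4 * (E.b₈ : Qb) = (E.b₂ : Qb) * E.b₆ - (E.b₄ : Qb) ^ 2 := by
    exact_mod_cast E.b_relation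
  have hΔ : (E.Δ : Qb) = -(E.b₂ : Qb) ^ 2 * E.b₈ - 8 * (E.b₄ : Qb) ^ 3 - 27 * (E.b₆ : Qb) ^ 2 +
      9 * (E.b₂ : Qb) * E.b₄ * E.b₆ := by
    rw [WeierstrassCurve.Δ]; push_cast; ring
  rw [hΔ, sqrtDisc, dP, ← hx0, ← hx1, ← hx2]
  have e8' : (E.b₈ : Qb) = ((E.b₂ : Qb) * E.b₆ - (E.b₄ : Qb) ^ 2) / 4 := by linear_combination e8 / 4
  rw [e8', e2, e4, e6]
  ring

theorem apply_xT (σ : Gal2) (i : Fin 3) : σ (xT B i) = EllP.xCoord (B.pt 1 (mat B 1 σ *ᵥ ev i)) := by
  rw [pt_mat, EllP.xCoord_smul]; rfl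

theorem apply_sqrtDisc (σ : Gal2) : σ (sqrtDisc B) = sqrtDisc B ↔ mat B 1 σ ^ 3 = 1 := by
  have hd : σ (dP (xT B)) = dP fun i => EllP.xCoord (B.pt 1 (mat B 1 σ *ᵥ ev i)) := by
    simp only [dP, map_mul, map_sub, apply_xT]
  have h4 : σ (sqrtDisc B) = 4 * σ (dP (xT B)) := by rw [sqrtDisc, map_mul, map_ofNat]
  rcases perm_cases _ (det_mat_one_ne_zero B σ) with ⟨h, k, hk⟩ | ⟨h, k, hk⟩
  · refine iff_of_true ?_ h
    simp only [hk] at hd
    rw [h4, hd, sqrtDisc]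
    exact congrArg _ (dP_rotate (xT B) k)
  · refine iff_of_false ?_ h
    simp only [hk] at hd
    rw [h4, hd, sqrtDisc]
    intro he
    have h5 := (mul_left_cancel₀ (by norm_num) he).symm.trans (dP_reflect (xT B) k)
    exact dP_ne_zero B (by linear_combination h5 / 2)

/-- Inertia at a prime of odd discriminant valuation moves the `2`-torsion. -/
theorem exists_inertia_mat_ne_one (hΔ : E.Δ ≠ 0) {q : ℕ} (hq : q.Prime)
    (hodd : Odd (padicValInt q E.Δ)) {A : ValuationSubring Qb} (hA : A.LiesOverPrime q) :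
    ∃ σ ∈ A.inertiaSubgroupIn ℚ, mat B 1 σ ≠ 1 := by
  by_contra hcon
  push Not at hcon
  have hd0 : sqrtDisc B ≠ 0 := fun h => hΔ (by
    have := sqrtDisc_sq B
    rw [h, zero_pow two_ne_zero] at this
    exact_mod_cast this.symm)
  obtain ⟨k, hk⟩ := EllP.exists_valuation_eq_zpow hq hA hd0 fun σ hσ =>
    (apply_sqrtDisc B σ).2 (by rw [hcon σ hσ, one_pow])
  set e := padicValInt q E.Δ with he
  obtain ⟨r, hr⟩ : q ^ e ∣ E.Δ.natAbs := pow_padicValNat_dvd
  have hr' : ¬ q ∣ r := by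
    have := Fact.mk hq
    intro h
    refine pow_succ_padicValNat_not_dvd (p := q) (Int.natAbs_ne_zero.2 hΔ) ?_
    show q ^ (e + 1) ∣ E.Δ.natAbs
    rw [hr, pow_succ]
    exact mul_dvd_mul_left _ h
  have hv : A.valuation ((r : ℤ) : Qb) = 1 := by
    refine le_antisymm ((A.valuation_le_one_iff _).2 (intCast_mem A _)) (not_lt.1 fun h => hr' ?_)
    exact Int.natCast_dvd_natCast.1 ((EllP.intCast_mem_nonunits hq hA).1 h)
  have hval : A.valuation (E.Δ : Qb) = A.valuation (q : Qb) ^ e := by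
    rcases Int.natAbs_eq E.Δ with h | h <;>
      (rw [h, hr]; push_cast; simp [map_mul, map_pow, Valuation.map_neg] at hv ⊢; rw [hv, mul_one])
  rw [← sqrtDisc_sq B, map_pow, hk] at hval
  have hq0 : A.valuation (q : Qb) ≠ 0 := by simpa using hq.ne_zero
  rw [← zpow_natCast, ← zpow_natCast, ← _root_.zpow_mul] at hval
  have h2 := (zpow_right_strictAnti₀ (pos_of_ne_zero hq0) hA).injective hval
  obtain ⟨j, hj⟩ := hodd
  omega

/-- Surjectivity onto `GL₂(𝔽₂)`. -/
theorem exists_mat_one_eq (hΔ : E.Δ ≠ 0) (hirr : E.ModRepIsIrreducible 2)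
    (ht : ∃ σ, mat B 1 σ * mat B 1 σ = 1 ∧ mat B 1 σ ≠ 1)
    (X : Matrix (Fin 2) (Fin 2) (ZMod (2 ^ 1))) (hX : X.det ≠ 0) : ∃ σ, mat B 1 σ = X := by
  obtain ⟨τ, ht2, ht1⟩ := ht
  obtain ⟨γ, hc3, hc1⟩ : ∃ γ, mat B 1 γ ^ 3 = 1 ∧ mat B 1 γ ≠ 1 := by
    by_contra hcon
    push Not at hcon
    obtain ⟨i, hi⟩ := involution_fix _ ht2
    obtain ⟨σ, hσ⟩ := exists_mat_one_mulVec_ne B hΔ hirr i
    rcases transposition_cases _ _ ht2 ht1 (det_mat_one_ne_zero B σ) with h | h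
    · exact hσ (by rw [hcon σ h, Matrix.one_mulVec])
    · have h' := hcon (τ * σ) (by rw [mat_mul]; exact h)
      rw [mat_mul] at h'
      refine hσ ?_
      have : mat B 1 σ = mat B 1 τ := by
        have := congrArg (mat B 1 τ * ·) h'
        simpa [← mul_assoc, ht2] using this
      rw [this, hi]
  have hY : ∀ Y : Matrix (Fin 2) (Fin 2) (ZMod (2 ^ 1)), Y ^ 3 = 1 → ∃ σ, mat B 1 σ = Y := by
    intro Y hY
    rcases cube_root_cases _ Y hc3 hc1 hY with h | h | h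
    · exact ⟨1, by rw [mat_one, h]⟩
    · exact ⟨γ, h.symm⟩
    · exact ⟨γ * γ, by rw [mat_mul, h]⟩
  rcases transposition_cases _ X ht2 ht1 hX with h | h
  · exact hY X h
  · obtain ⟨σ, hσ⟩ := hY _ h
    exact ⟨τ * σ, by rw [mat_mul, hσ, ← mul_assoc, ht2, one_mul]⟩

end FLTAgent.Mod2.CurveRep
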