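import Fermat.Agent.Mod2.Iface.Selection
import Fermat.Agent.Mod2.Iface.Theta
import Fermat.Agent.Mod2.Iface.Tower
import Fermat.Agent.Mod2.Iface.Curve
import Fermat.Agent.Mod2.Iface.Residual
import Fermat.Agent.Mod2.Iface.RT
import Fermat.Agent.GalCommon.Basic

/-!
# The 2-adic modularity theorem

`modular_of_odd_valuations`: a semistable curve with `Δ < 0` even, of odd valuation of `Δ` at
every bad prime and irreducible mod 2 is modular of cube-free level. Its Tate module is a minimal
deformation, the theta eigensystem gives the Hecke tower, and `R = T` at level `2 m` gives an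
eigensystem with its traces.
-/

set_option autoImplicit false

namespace FLTAgent.Mod2

theorem squarefree_two_mul {m : ℕ} (hm : Odd m) (h : Squarefree m) : Squarefree (2 * m) :=
  (Nat.squarefree_mul (Nat.coprime_two_left.2 hm)).2 ⟨Nat.prime_two.squarefree, h⟩

/-- A semistable curve of negative discriminant, irreducible mod 2, whose discriminant has odd
valuation at every bad prime, 2 being one of them, is modular of cube-free level. -/
theorem modular_of_odd_valuations (E : WeierstrassCurve ℤ) (hE : E.IsSemistableModel)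
    (hneg : E.Δ < 0) (h2 : (2 : ℤ) ∣ E.Δ)
    (hodd : ∀ q : ℕ, q.Prime → (q : ℤ) ∣ E.Δ → Odd (padicValInt q E.Δ))
    (hirr : E.ModRepIsIrreducible 2) :
    ∃ N : ℕ, (∀ q : ℕ, q.Prime → ¬ q ^ 3 ∣ N) ∧ E.IsModularModelOfLevel N := by
  obtain ⟨D, u, r, hdef, -, htr⟩ := exists_setup_of_curve E hE hneg h2 hodd hirr
  obtain ⟨θ, hθT, hθU⟩ := exists_residual_eigensystem D (thetaProp D)
  obtain ⟨W⟩ := nonempty_tower D θ hθT hθU
  obtain ⟨f, hf⟩ := exists_hom_of_isDef D (thetaProp D) (exists_selTrivial D) W ℤ_[2]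
    ⟨PadicInt.toZMod⟩ u r hdef
  refine ⟨2 * D.m, fun q hq h => hq.ne_one ?_, isModularModelOfLevel_of_eigensystem E _ f ?_⟩
  · exact Nat.isUnit_iff.1 ((squarefree_two_mul D.odd_m D.sqf_m) q
      ((dvd_of_eq (by ring)).trans ((pow_dvd_pow q (by norm_num : 2 ≤ 3)).trans h)))
  · intro l hl hlN _
    obtain ⟨A, hA, φ, hφ⟩ := GalCommon.exists_place_frobenius hl
    rw [hf l hl hlN A hA φ hφ, htr l hl hlN A hA φ hφ]

end FLTAgent.Mod2
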