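import Fermat.Agent.Switch.Basic
import Fermat.Agent.Switch.NoPolyRoot

/-!
# The Hessian family attached to `(c₄, c₆)`

`sh4`, `sh6` have degrees `4`, `6` in `(s, t)` and `sh4 ^ 3 - sh6 ^ 2 = (A ^ 3 - B ^ 2) * shq ^ 3`.
They restrict the forms `hs4`, `hs6` of the standard Hesse pencil to a line (`hs_line`); every
nondegenerate pair lies in the pencil (`exists_hesse_preimage`), and its curve has an explicit
point of order three (`hesse_three`).
-/

set_option autoImplicit false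

namespace FLTAgent.Mod2

open WeierstrassCurve FLTAgent.Switch

noncomputable section

section

variable {R : Type*} [CommRing R]

/-- The cusp form of the family. -/
def shq (A B s t : R) : R :=
  s ^ 4 - 6 * A * s ^ 2 * t ^ 2 - 8 * B * s * t ^ 3 - 3 * A ^ 2 * t ^ 4

/-- A quarter of the `s`-derivative of `shq`. -/
def shd (A B s t : R) : R := s ^ 3 - 3 * A * s * t ^ 2 - 2 * B * t ^ 3

/-- The `c₄` of the family. -/
def sh4 (A B s t : R) : R :=
  A * s ^ 4 + 4 * B * s ^ 3 * t + 6 * A ^ 2 * s ^ 2 * t ^ 2 + 4 * A * B * s * t ^ 3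
    + (4 * B ^ 2 - 3 * A ^ 3) * t ^ 4

/-- The `c₆` of the family. -/
def sh6 (A B s t : R) : R :=
  B * s ^ 6 + 6 * A ^ 2 * s ^ 5 * t + 15 * A * B * s ^ 4 * t ^ 2 + 20 * B ^ 2 * s ^ 3 * t ^ 3
    + 15 * A ^ 2 * B * s ^ 2 * t ^ 4 + (18 * A ^ 4 - 12 * A * B ^ 2) * s * t ^ 5
    + (9 * A ^ 3 * B - 8 * B ^ 3) * t ^ 6

theorem sh4_cube_sub_sh6_sq (A B s t : R) :
    sh4 A B s t ^ 3 - sh6 A B s t ^ 2 = (A ^ 3 - B ^ 2) * shq A B s t ^ 3 := by
  simp only [sh4, sh6, shq]; ring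

theorem map_shq {S : Type*} [CommRing S] (φ : R →+* S) (A B s t : R) :
    φ (shq A B s t) = shq (φ A) (φ B) (φ s) (φ t) := by
  simp only [shq, map_sub, map_mul, map_pow, map_ofNat]

theorem map_sh4 {S : Type*} [CommRing S] (φ : R →+* S) (A B s t : R) :
    φ (sh4 A B s t) = sh4 (φ A) (φ B) (φ s) (φ t) := by
  simp only [sh4, map_add, map_sub, map_mul, map_pow, map_ofNat]

theorem map_sh6 {S : Type*} [CommRing S] (φ : R →+* S) (A B s t : R) :
    φ (sh6 A B s t) = sh6 (φ A) (φ B) (φ s) (φ t) := by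
  simp only [sh6, map_add, map_sub, map_mul, map_pow, map_ofNat]

theorem shq_smul (c A B s t : R) : shq A B (c * s) (c * t) = c ^ 4 * shq A B s t := by
  simp only [shq]; ring

theorem sh4_smul (c A B s t : R) : sh4 A B (c * s) (c * t) = c ^ 4 * sh4 A B s t := by
  simp only [sh4]; ring

theorem sh6_smul (c A B s t : R) : sh6 A B (c * s) (c * t) = c ^ 6 * sh6 A B s t := by
  simp only [sh6]; ring

/-- The forms on a standard Hesse pencil. -/
def hs4 (u v : R) : R := u * (u ^ 3 + 8 * v ^ 3)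

/-- The forms on a standard Hesse pencil. -/
def hs6 (u v : R) : R := u ^ 6 - 20 * u ^ 3 * v ^ 3 - 8 * v ^ 6

/-- The discriminant form. -/
def hsf (u v : R) : R := v * (u ^ 3 - v ^ 3)

theorem hs4_cube_sub_hs6_sq (u v : R) : hs4 u v ^ 3 - hs6 u v ^ 2 = 64 * hsf u v ^ 3 := by
  simp only [hs4, hs6, hsf]; ring

theorem hs_line (u v s t : R) :
    hs4 (s * u + t * (u ^ 3 - 4 * v ^ 3)) (s * v - t * (3 * u ^ 2 * v)) =
        sh4 (hs4 u v) (hs6 u v) s t ∧
      hs6 (s * u + t * (u ^ 3 - 4 * v ^ 3)) (s * v - t * (3 * u ^ 2 * v)) =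
        sh6 (hs4 u v) (hs6 u v) s t := by
  constructor <;> simp only [hs4, hs6, sh4, sh6] <;> ring

theorem sh_one_zero (A B : R) :
    shq A B 1 0 = 1 ∧ sh4 A B 1 0 = A ∧ sh6 A B 1 0 = B := by
  refine ⟨?_, ?_, ?_⟩ <;> simp only [shq, sh4, sh6] <;> ring

end

section Field

variable {K : Type*} [Field K]

/-- `shq` and its derivative have no common zero. -/
theorem shq_simple {A B s t : K} (h6 : (6 : K) ≠ 0) (hAB : A ^ 3 ≠ B ^ 2) (hq : shq A B s t = 0)
    (hd : shd A B s t = 0) : s = 0 ∧ t = 0 := by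
  by_cases ht : t = 0
  · subst ht
    exact ⟨by simpa [shq] using hq, rfl⟩
  exfalso
  have h2 : (2 : K) ≠ 0 := fun h => h6 (by linear_combination 3 * h)
  have h3 : (3 : K) ≠ 0 := fun h => h6 (by linear_combination 2 * h)
  simp only [shq] at hq
  simp only [shd] at hd
  have e1 : A * s ^ 2 + 2 * B * s * t + A ^ 2 * t ^ 2 = 0 := by
    have : 3 * t ^ 2 * (A * s ^ 2 + 2 * B * s * t + A ^ 2 * t ^ 2) = 0 := by
      linear_combination s * hd - hq
    exact (mul_eq_zero.1 this).resolve_left (mul_ne_zero h3 (pow_ne_zero _ ht))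
  have e2 : B * s ^ 2 + 2 * A ^ 2 * s * t + A * B * t ^ 2 = 0 := by
    have : 2 * t * (B * s ^ 2 + 2 * A ^ 2 * s * t + A * B * t ^ 2) = 0 := by
      linear_combination s * e1 - A * hd
    exact (mul_eq_zero.1 this).resolve_left (mul_ne_zero h2 ht)
  have hs : s = 0 := by
    have : 2 * t * (B ^ 2 - A ^ 3) * s = 0 := by linear_combination B * e1 - A * e2
    exact (mul_eq_zero.1 this).resolve_left
      (mul_ne_zero (mul_ne_zero h2 ht) (sub_ne_zero.2 (Ne.symm hAB)))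
  subst hs
  have hA : A = 0 := by
    have : A ^ 2 * t ^ 2 = 0 := by linear_combination e1
    exact eq_zero_of_pow_eq_zero ((mul_eq_zero.1 this).resolve_right (pow_ne_zero _ ht))
  subst hA
  have hB : B = 0 := by
    have : 2 * B * t ^ 3 = 0 := by linear_combination -hd
    simpa [h2, ht] using this
  exact hAB (by rw [hB]; ring)

/-- `sh4` and `shq` have no common zero. -/
theorem sh4_shq_eq_zero {A B s t : K} (h6 : (6 : K) ≠ 0) (hAB : A ^ 3 ≠ B ^ 2)
    (hq : shq A B s t = 0) (h4 : sh4 A B s t = 0) : s = 0 ∧ t = 0 := by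
  refine shq_simple h6 hAB hq (eq_zero_of_pow_eq_zero (n := 2) ?_)
  have : shd A B s t ^ 2 = t ^ 2 * sh4 A B s t + shq A B s t * (s ^ 2 - A * t ^ 2) := by
    simp only [shd, sh4, shq]; ring
  rw [this, hq, h4]; ring

/-- Every nondegenerate pair lies in the pencil. -/
theorem exists_hesse_preimage [IsAlgClosed K] (h6 : (6 : K) ≠ 0) {A B : K} (hAB : A ^ 3 ≠ B ^ 2) :
    ∃ u v : K, hs4 u v = A ∧ hs6 u v = B := by
  have h2 : (2 : K) ≠ 0 := fun h => h6 (by linear_combination 3 * h)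
  have h3 : (3 : K) ≠ 0 := fun h => h6 (by linear_combination 2 * h)
  have h8 : (8 : K) ≠ 0 := by rw [show (8 : K) = 2 ^ 3 by norm_num]; exact pow_ne_zero _ h2
  obtain ⟨z, hz, hz0⟩ : ∃ z : K, threeQuartic A B z = 0 ∧ z ≠ 0 := by
    by_cases hA : A = 0
    · have hB : B ≠ 0 := fun hB => hAB (by rw [hA, hB]; ring)
      obtain ⟨z, hz⟩ := IsAlgClosed.exists_pow_nat_eq (8 * B) (show 0 < 3 by norm_num)
      refine ⟨z, ?_, fun h => ?_⟩
      · rw [threeQuartic, hA]; linear_combination z * hz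
      · rw [h] at hz; exact mul_ne_zero h8 hB (by linear_combination -hz)
    · obtain ⟨z, hz⟩ := IsAlgClosed.exists_root
        ((Polynomial.X : Polynomial K) ^ 4 + Polynomial.C (-6 * A) * Polynomial.X ^ 2 +
          Polynomial.C (-8 * B) * Polynomial.X + Polynomial.C (-3 * A ^ 2)) (by
        have : ((Polynomial.X : Polynomial K) ^ 4 + Polynomial.C (-6 * A) * Polynomial.X ^ 2 +
            Polynomial.C (-8 * B) * Polynomial.X + Polynomial.C (-3 * A ^ 2)).degree = 4 := by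
          compute_degree!
        rw [this]; decide)
      simp only [Polynomial.IsRoot, Polynomial.eval_add, Polynomial.eval_mul, Polynomial.eval_pow,
        Polynomial.eval_C, Polynomial.eval_X] at hz
      refine ⟨z, by rw [threeQuartic]; linear_combination hz, fun h => ?_⟩
      rw [h] at hz
      exact mul_ne_zero h3 (pow_ne_zero 2 hA) (by linear_combination -hz)
  obtain ⟨u, hu⟩ := IsAlgClosed.exists_pow_nat_eq (z / 3) (show 0 < 2 by norm_num)
  have hu2 : 3 * u ^ 2 = z := by rw [hu]; field_simp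
  have hu0 : u ≠ 0 := fun h => hz0 (by rw [← hu2, h]; ring)
  obtain ⟨v, hv⟩ := IsAlgClosed.exists_pow_nat_eq ((A / u - u ^ 3) / 8) (show 0 < 3 by norm_num)
  have hv3 : 8 * v ^ 3 = A / u - u ^ 3 := by rw [hv]; field_simp
  have eA : hs4 u v = A := by
    rw [hs4, hv3]; field_simp; ring
  refine ⟨u, v, eA, ?_⟩
  have : 24 * u ^ 2 * (hs6 u v - B) = 0 := by
    rw [threeQuartic, ← hu2, ← eA] at hz
    simp only [hs4] at hz
    simp only [hs6]
    linear_combination hz
  have h24 : (24 : K) ≠ 0 := by rw [show (24 : K) = 8 * 3 by norm_num]; exact mul_ne_zero h8 h3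
  exact sub_eq_zero.1 ((mul_eq_zero.1 this).resolve_left (mul_ne_zero h24 (pow_ne_zero _ hu0)))

/-- The point `(9u², 12√3(u³ - v³))` has order three. -/
theorem hesse_three [DecidableEq K] (h6 : (6 : K) ≠ 0) {u v r : K} (hr : r ^ 2 = 3)
    (hd : hs4 u v ^ 3 ≠ hs6 u v ^ 2) :
    ∃ hn, (3 : ℕ) • (Affine.Point.some (9 * u ^ 2) (12 * r * (u ^ 3 - v ^ 3)) hn :
      (short (-27 * hs4 u v) (-54 * hs6 u v)).Point) = 0 := by
  have h2 : (2 : K) ≠ 0 := fun h => h6 (by linear_combination 3 * h)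
  have h3 : (3 : K) ≠ 0 := fun h => h6 (by linear_combination 2 * h)
  have hr0 : r ≠ 0 := fun h => h3 (by rw [← hr, h]; ring)
  have hw : u ^ 3 - v ^ 3 ≠ 0 := fun h => hd (by
    rw [← sub_eq_zero, hs4_cube_sub_hs6_sq, hsf, h]; ring)
  have h12 : (12 : K) ≠ 0 := by rw [show (12 : K) = 2 * 6 by norm_num]; exact mul_ne_zero h2 h6
  have hy : 12 * r * (u ^ 3 - v ^ 3) ≠ 0 := mul_ne_zero (mul_ne_zero h12 hr0) hw
  have hd' : 4 * (-27 * hs4 u v) ^ 3 + 27 * (-54 * hs6 u v) ^ 2 ≠ 0 := by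
    rw [show 4 * (-27 * hs4 u v) ^ 3 + 27 * (-54 * hs6 u v) ^ 2 =
      -(2 ^ 2 * 3 ^ 9) * (hs4 u v ^ 3 - hs6 u v ^ 2) by ring]
    exact mul_ne_zero (neg_ne_zero.2 (mul_ne_zero (pow_ne_zero _ h2) (pow_ne_zero _ h3)))
      (sub_ne_zero.2 hd)
  have hn : (short (-27 * hs4 u v) (-54 * hs6 u v)).Nonsingular (9 * u ^ 2)
      (12 * r * (u ^ 3 - v ^ 3)) := by
    rw [short_nonsingular_iff h2 hd']
    simp only [hs4, hs6]
    linear_combination 144 * (u ^ 3 - v ^ 3) ^ 2 * hr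
  refine ⟨hn, ?_⟩
  have hne : 12 * r * (u ^ 3 - v ^ 3) ≠ (short (-27 * hs4 u v) (-54 * hs6 u v)).negY (9 * u ^ 2)
      (12 * r * (u ^ 3 - v ^ 3)) := by
    rw [short_negY]
    intro hh
    exact mul_ne_zero h2 hy (by linear_combination hh)
  have hsl : (short (-27 * hs4 u v) (-54 * hs6 u v)).slope (9 * u ^ 2) (9 * u ^ 2)
      (12 * r * (u ^ 3 - v ^ 3)) (12 * r * (u ^ 3 - v ^ 3)) = 3 * r * u := by
    rw [Affine.slope_of_Y_ne rfl hne, short_negY, sub_neg_eq_add,
      div_eq_iff (by rw [← two_mul]; exact mul_ne_zero h2 hy)]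
    simp only [hs4]
    linear_combination (-(72 * u * (u ^ 3 - v ^ 3))) * hr
  set P : (short (-27 * hs4 u v) (-54 * hs6 u v)).Point :=
    Affine.Point.some (9 * u ^ 2) (12 * r * (u ^ 3 - v ^ 3)) hn with hP
  rw [show (3 : ℕ) • P = P + P + P by rw [succ_nsmul, two_nsmul], hP,
    Affine.Point.add_of_Y_ne hne, ← eq_neg_iff_add_eq_zero, Affine.Point.neg_some]
  apply some_eq_some
  · rw [short_addX, hsl]; linear_combination (9 * u ^ 2) * hr
  · rw [short_addY, hsl, short_negY]; linear_combination (-(27 * r * u ^ 3) + 0) * hr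

end Field

end

end FLTAgent.Mod2
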