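import Fermat.Agent.Switch.Congr
import Fermat.Agent.Mod2.HesseForms

/-!
# Members of the Hessian family have congruent numbers of points modulo `3`

`hesse_congr`: over a finite field of characteristic prime to `6` the curves with invariants
`(A, B)` and `(sh4, sh6)(A, B, s, t)` have congruent numbers of points modulo three, as
Frobenius is compared through the specialisation of points of order three.
-/

set_option autoImplicit false

namespace FLTAgent.Mod2

open WeierstrassCurve FLTAgent.Switch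

noncomputable section

universe u

variable {k : Type u} [Field k] [Fintype k] [DecidableEq k] {L : Type u} [Field L] [Algebra k L]
  [DecidableEq L] [DecidableEq (RatFunc L)]

local notation "qq" => Fintype.card k

/-- The two numbers of points agree modulo `3`. -/
theorem hesse_congr [IsAlgClosed L] (h6 : (6 : k) ≠ 0) (A B s t : k) (h0 : A ^ 3 ≠ B ^ 2)
    (h1 : sh4 A B s t ^ 3 ≠ sh6 A B s t ^ 2) :
    (3 : ℤ) ∣ (Nat.card (short (-27 * sh4 A B s t) (-54 * sh6 A B s t)).Point : ℤ) -
      Nat.card (short (-27 * A) (-54 * B)).Point := by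
  have h2 : (2 : k) ≠ 0 := fun h => h6 (by linear_combination 3 * h)
  have inj := (algebraMap k L).injective
  have e6 : (6 : L) ≠ 0 := by simpa [map_ofNat] using (_root_.map_ne_zero (algebraMap k L)).2 h6
  have e3 : (3 : L) ≠ 0 := fun h => e6 (by linear_combination 2 * h)
  obtain ⟨u, v, hu, hv⟩ := exists_hesse_preimage e6
    (A := algebraMap k L A) (B := algebraMap k L B)
    (by rw [← map_pow, ← map_pow]; exact fun h => h0 (inj h))
  obtain ⟨r, hr⟩ := IsAlgClosed.exists_pow_nat_eq (3 : L) (show 0 < 2 by norm_num)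
  -- the curve over `L(x)`
  set C' : L →+* RatFunc L := RatFunc.C with hC'
  set sx : RatFunc L := 1 + C' (algebraMap k L (s - 1)) * RatFunc.X with hsx
  set tx : RatFunc L := C' (algebraMap k L t) * RatFunc.X with htx
  set Wu : RatFunc L := sx * C' u + tx * C' (u ^ 3 - 4 * v ^ 3) with hWu
  set Wv : RatFunc L := sx * C' v - tx * C' (3 * u ^ 2 * v) with hWv
  set XA : RatFunc L := hs4 Wu Wv with hXA
  set XB : RatFunc L := hs6 Wu Wv with hXB
  have line : XA = sh4 (C' (algebraMap k L A)) (C' (algebraMap k L B)) sx tx ∧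
      XB = sh6 (C' (algebraMap k L A)) (C' (algebraMap k L B)) sx tx := by
    obtain ⟨l4, l6⟩ := hs_line (C' u) (C' v) sx tx
    have eu : hs4 (C' u) (C' v) = C' (algebraMap k L A) := by
      rw [← hu]; simp only [hs4, map_mul, map_add, map_pow, map_ofNat]
    have ev : hs6 (C' u) (C' v) = C' (algebraMap k L B) := by
      rw [← hv]; simp only [hs6, map_mul, map_sub, map_pow, map_ofNat]
    rw [eu, ev] at l4 l6
    have w1 : Wu = sx * C' u + tx * (C' u ^ 3 - 4 * C' v ^ 3) := by
      rw [hWu]; simp only [map_sub, map_mul, map_pow, map_ofNat]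
    have w2 : Wv = sx * C' v - tx * (3 * C' u ^ 2 * C' v) := by
      rw [hWv]; simp only [map_mul, map_pow, map_ofNat]
    exact ⟨by rw [hXA, w1, w2, l4], by rw [hXB, w1, w2, l6]⟩
  -- values at a point of `k`
  have key : ∀ τ : k,
      (evalPlace L (algebraMap k L τ)).Val XA
          (algebraMap k L (sh4 A B (1 + (s - 1) * τ) (t * τ))) ∧
        (evalPlace L (algebraMap k L τ)).Val XB
          (algebraMap k L (sh6 A B (1 + (s - 1) * τ) (t * τ))) := by
    intro τ
    set τ' := algebraMap k L τ with hτ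
    have hC : ∀ w, (evalPlace L τ').Val (C' w) w := fun w => evalPlace_C L τ' w
    have hX := evalPlace_X L τ'
    have hsv : (evalPlace L τ').Val sx (algebraMap k L (1 + (s - 1) * τ)) := by
      rw [map_add, map_one, map_mul]
      exact (PlaceData.val_one).add ((hC _).mul hX)
    have htv : (evalPlace L τ').Val tx (algebraMap k L (t * τ)) := by
      rw [map_mul]; exact (hC _).mul hX
    have hU := (hsv.mul (hC u)).add (htv.mul (hC (u ^ 3 - 4 * v ^ 3)))
    have hV := (hsv.mul (hC v)).sub (htv.mul (hC (3 * u ^ 2 * v)))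
    obtain ⟨l4, l6⟩ := hs_line u v (algebraMap k L (1 + (s - 1) * τ)) (algebraMap k L (t * τ))
    rw [hu, hv, ← map_sh4] at l4
    rw [hu, hv, ← map_sh6] at l6
    refine ⟨?_, ?_⟩
    · rw [← l4, hXA]
      simp only [hs4]
      exact hU.mul ((hU.pow 3).add ((PlaceData.val_ofNat 8).mul (hV.pow 3)))
    · rw [← l6, hXB]
      simp only [hs6]
      exact ((hU.pow 6).sub (((PlaceData.val_ofNat 20).mul (hU.pow 3)).mul (hV.pow 3))).sub
        ((PlaceData.val_ofNat 8).mul (hV.pow 6))
  have good : ∀ τ a b : k, sh4 A B (1 + (s - 1) * τ) (t * τ) = a →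
      sh6 A B (1 + (s - 1) * τ) (t * τ) = b → a ^ 3 ≠ b ^ 2 →
      GoodPlace (evalPlace L (algebraMap k L τ)) (-27 * XA) (-54 * XB)
        (algebraMap k L (-27 * a)) (algebraMap k L (-54 * b)) := by
    intro τ a b ha hb hab
    obtain ⟨va, vb⟩ := key τ
    rw [ha] at va
    rw [hb] at vb
    refine ⟨?_, ?_, two_ne_zero_ext L h2, disc_ne_zero_ext L (disc_short h6 hab)⟩
    · rw [map_mul, map_neg, map_ofNat]
      exact (PlaceData.val_ofNat 27).neg.mul va
    · rw [map_mul, map_neg, map_ofNat]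
      exact (PlaceData.val_ofNat 54).neg.mul vb
  set A₁ := sh4 A B s t with hA₁
  set B₁ := sh6 A B s t with hB₁
  have base4 : sh4 A B (1 + (s - 1) * 0) (t * 0) = A := by
    rw [mul_zero, mul_zero, add_zero]; exact (sh_one_zero A B).2.1
  have base6 : sh6 A B (1 + (s - 1) * 0) (t * 0) = B := by
    rw [mul_zero, mul_zero, add_zero]; exact (sh_one_zero A B).2.2
  have g0 := good 0 A B base4 base6 h0
  have g1 := good 1 A₁ B₁ (by rw [hA₁]; congr 1 <;> ring) (by rw [hB₁]; congr 1 <;> ring) h1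
  have hne : XA ^ 3 ≠ XB ^ 2 := by
    intro h
    obtain ⟨va, vb⟩ := key 0
    rw [base4] at va
    rw [base6] at vb
    have := (va.pow 3).unique (h ▸ vb.pow 2)
    rw [← map_pow, ← map_pow] at this
    exact h0 (inj this)
  have k6 : (6 : RatFunc L) ≠ 0 := by simpa [map_ofNat] using (_root_.map_ne_zero C').2 e6
  have kr : C' r ^ 2 = 3 := by rw [← map_pow, hr, map_ofNat]
  obtain ⟨hn, hT3⟩ := hesse_three k6 kr (u := Wu) (v := Wv) hne
  set T : (short (-27 * XA) (-54 * XB)).Point := Affine.Point.some _ _ hn with hTdef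
  replace hT3 : (3 : ℕ) • T = 0 := hT3
  -- Frobenius on the curve over `L(x)`
  have hfix : coeffFrob (k := k) XA = XA ∧ coeffFrob (k := k) XB = XB := by
    have hsfix : coeffFrob (k := k) sx = sx := by
      rw [hsx, map_add, map_one, map_mul, coeffFrob_X, hC', coeffFrob_C]
    have htfix : coeffFrob (k := k) tx = tx := by
      rw [htx, map_mul, coeffFrob_X, hC', coeffFrob_C]
    constructor
    · rw [line.1, map_sh4, hsfix, htfix, hC', coeffFrob_C, coeffFrob_C]
    · rw [line.2, map_sh6, hsfix, htfix, hC', coeffFrob_C, coeffFrob_C]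
  let σ : ScaleData (-27 * XA) (-54 * XB) (-27 * XA) (-54 * XB) :=
    { φ := coeffFrob (k := k)
      s := 1
      s_ne := one_ne_zero
      two_ne := two_ne_zero_ratFunc' h2
      disc_ne := disc_short k6 hne
      hA := by rw [map_mul, map_neg, map_ofNat, hfix.1]; ring
      hB := by rw [map_mul, map_neg, map_ofNat, hfix.2]; ring }
  have hpow : ∀ τ : k, algebraMap k L τ ^ qq = algebraMap k L τ := fun τ => by
    rw [← map_pow, FiniteField.pow_card]
  have d0 := disc_short h6 h0
  have d1 := disc_short h6 h1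
  set N₀ : ℤ := (qq : ℤ) + 1 - Nat.card (short (-27 * A) (-54 * B)).Point with hN₀
  set N₁ : ℤ := (qq : ℤ) + 1 - Nat.card (short (-27 * A₁) (-54 * B₁)).Point with hN₁
  set Z := (2 : ℕ) • (σ.hom (σ.hom T) - N₀ • σ.hom T + (qq : ℤ) • T) with hZ
  have hZ3 : (3 : ℕ) • Z = 0 := by
    have h1' : (3 : ℕ) • σ.hom T = 0 := by rw [← map_nsmul, hT3, map_zero]
    have h2' : (3 : ℕ) • σ.hom (σ.hom T) = 0 := by rw [← map_nsmul, h1', map_zero]
    rw [hZ, smul_comm, smul_add, smul_sub, h2', smul_comm, h1', smul_comm, hT3]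
    simp
  have hZ0 : g0.spHom Z = 0 := by
    rw [hZ, map_nsmul, map_add, map_sub, map_zsmul, map_zsmul,
      sp_coeffFrob (hpow 0) h2 d0 g0 σ rfl rfl, sp_coeffFrob (hpow 0) h2 d0 g0 σ rfl rfl]
    exact frob_charpoly L h2 d0 (g0.spHom T)
  have hZz : Z = 0 := g0.eq_zero_of_three e3 hZ3 hZ0
  have hat1 := congrArg g1.spHom hZz
  rw [hZ, map_nsmul, map_add, map_sub, map_zsmul, map_zsmul, map_zero,
    sp_coeffFrob (hpow 1) h2 d1 g1 σ rfl rfl, sp_coeffFrob (hpow 1) h2 d1 g1 σ rfl rfl] at hat1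
  have hch := frob_charpoly L h2 d1 (g1.spHom T)
  set T₁ := g1.spHom T with hT₁
  set S := (qFrobData L h2 d1).hom T₁ with hS
  have hS3 : (3 : ℕ) • S = 0 := by
    rw [hS, hT₁, ← map_nsmul, ← map_nsmul, hT3, map_zero, map_zero]
  have hS0 : S ≠ 0 := by
    have hT1ne : T₁ ≠ 0 := fun h => Affine.Point.some_ne_zero hn (g1.eq_zero_of_three e3 hT3 h)
    cases hc : T₁ with
    | zero => exact absurd hc hT1ne
    | some x y h =>
      rw [hS, hc, ScaleData.hom_some]
      exact Affine.Point.some_ne_zero _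
  have hdiff : (2 * (N₁ - N₀)) • S = 0 := by
    have e : (2 : ℕ) • ((qFrobData L h2 d1).hom S - N₀ • S + (qq : ℤ) • T₁) -
        (2 : ℕ) • ((qFrobData L h2 d1).hom S - N₁ • S + (qq : ℤ) • T₁) = (2 * (N₁ - N₀)) • S := by
      rw [mul_smul, sub_smul, ← natCast_zsmul, ← natCast_zsmul]
      push_cast
      module
    rw [← e, hat1, hch, sub_zero]
  have hord : addOrderOf S = 3 :=
    haveI : Fact (Nat.Prime 3) := ⟨Nat.prime_three⟩
    addOrderOf_eq_prime hS3 hS0
  have h3dvd : (3 : ℤ) ∣ 2 * (N₁ - N₀) := by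
    have := addOrderOf_dvd_iff_zsmul_eq_zero.2 hdiff
    rwa [hord] at this
  have := (Int.Prime.dvd_mul' Nat.prime_three h3dvd).resolve_left (by norm_num)
  rw [hN₁, hN₀] at this
  obtain ⟨w, hw⟩ := this
  exact ⟨-w, by push_cast at hw; linarith⟩

end

end FLTAgent.Mod2
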