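import Mathlib

/-!
# Models with prescribed invariants near those of a given model at `3`

`exists_model_of_invariants`: a pair `(C₄, C₆)` with `C₄` odd, `C₆ ≡ -1 (mod 4)`,
`C₄³ - C₆² = 1728 D` and congruent modulo `27` to the invariants of an integral model is the pair
of invariants of an integral model of discriminant `D`.
-/

set_option autoImplicit false

namespace FLTAgent.Mod2

open WeierstrassCurve

/-- If `C₄` is odd, `C₆ ≡ -1 (mod 4)` and `(C₄, C₆) ≡ (c₄, c₆) (mod 27)`, with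
`C₄³ - C₆² = 1728 D`, then `(C₄, C₆)` are the invariants of an integral model. -/
theorem exists_model_of_invariants (W : WeierstrassCurve ℤ) {C4 C6 D : ℤ}
    (h2 : ¬ (2 : ℤ) ∣ C4) (h6 : (4 : ℤ) ∣ C6 + 1) (h27 : (27 : ℤ) ∣ C4 - W.c₄)
    (h27' : (27 : ℤ) ∣ C6 - W.c₆) (hD : C4 ^ 3 - C6 ^ 2 = 1728 * D) :
    ∃ W' : WeierstrassCurve ℤ, W'.c₄ = C4 ∧ W'.c₆ = C6 ∧ W'.Δ = D := by
  obtain ⟨x, y, hxy⟩ := ((Int.prime_two.coprime_iff_not_dvd.2 h2).pow_left (m := 6))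
  set b : ℤ := 513 * (-(C6 * y)) - 512 * W.b₂ with hb
  -- the congruences modulo `64`
  have hY : (y : ZMod 64) * (C4 : ZMod 64) = 1 := by
    have := congrArg (Int.cast : ℤ → ZMod 64) hxy
    push_cast at this
    rw [show (64 : ZMod 64) = 0 from rfl, mul_zero, zero_add] at this
    exact this
  have hR : (C4 : ZMod 64) ^ 3 = (C6 : ZMod 64) ^ 2 := by
    have := congrArg (Int.cast : ℤ → ZMod 64) hD
    push_cast at this
    rw [show (1728 : ZMod 64) = 0 from rfl, zero_mul, sub_eq_zero] at this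
    exact this
  have hb64 : (b : ZMod 64) = -((C6 : ZMod 64) * (y : ZMod 64)) := by
    rw [hb]; push_cast
    rw [show (513 : ZMod 64) = 1 from rfl, show (512 : ZMod 64) = 0 from rfl]; ring
  have d64a : ((64 : ℕ) : ℤ) ∣ b ^ 2 - C4 := by
    rw [← ZMod.intCast_zmod_eq_zero_iff_dvd]
    push_cast
    rw [hb64]
    linear_combination (-(y : ZMod 64) ^ 2) * hR +
      (C4 : ZMod 64) * ((y : ZMod 64) * C4 + 1) * hY
  have d64b : ((64 : ℕ) : ℤ) ∣ b ^ 3 - 3 * C4 * b - 2 * C6 := by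
    rw [← ZMod.intCast_zmod_eq_zero_iff_dvd]
    push_cast
    rw [hb64]
    linear_combination ((C6 : ZMod 64) * (y : ZMod 64) ^ 3) * hR -
      (C6 : ZMod 64) * (((y : ZMod 64) * C4) ^ 2 + (y : ZMod 64) * C4 - 2) * hY
  -- the congruences modulo `27`
  have hb27 : (b : ZMod 27) = (W.b₂ : ZMod 27) := by
    rw [hb]; push_cast
    rw [show (513 : ZMod 27) = 0 from rfl, show (512 : ZMod 27) = -1 from rfl]; ring
  have hC4 : (C4 : ZMod 27) = (W.c₄ : ZMod 27) := by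
    rw [← sub_eq_zero, ← Int.cast_sub]
    exact (ZMod.intCast_zmod_eq_zero_iff_dvd _ 27).2 h27
  have hC6 : (C6 : ZMod 27) = (W.c₆ : ZMod 27) := by
    rw [← sub_eq_zero, ← Int.cast_sub]
    exact (ZMod.intCast_zmod_eq_zero_iff_dvd _ 27).2 h27'
  have d27a : (3 : ℤ) ∣ b ^ 2 - C4 := by
    have h : (27 : ℤ) ∣ (b ^ 2 - C4) - 24 * W.b₄ := by
      apply (ZMod.intCast_zmod_eq_zero_iff_dvd _ 27).1
      push_cast
      rw [hb27, hC4, WeierstrassCurve.c₄]
      push_cast; ring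
    obtain ⟨w, hw⟩ := h
    exact ⟨9 * w + 8 * W.b₄, by linarith⟩
  have d27b : ((27 : ℕ) : ℤ) ∣ b ^ 3 - 3 * C4 * b - 2 * C6 := by
    rw [← ZMod.intCast_zmod_eq_zero_iff_dvd]
    push_cast
    rw [hb27, hC4, hC6, WeierstrassCurve.c₄, WeierstrassCurve.c₆]
    push_cast
    have h432 : (432 : ZMod 27) = 0 := rfl
    linear_combination (W.b₆ : ZMod 27) * h432
  -- `b ≡ 1 (mod 4)`
  have hb4 : (4 : ℤ) ∣ b - 1 := by
    apply (ZMod.intCast_zmod_eq_zero_iff_dvd _ 4).1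
    have c1 : (y : ZMod 4) * (C4 : ZMod 4) = 1 := by
      have := congrArg (Int.cast : ℤ → ZMod 4) hxy
      push_cast at this
      rw [show (64 : ZMod 4) = 0 from rfl, mul_zero, zero_add] at this
      exact this
    have c2 : (b : ZMod 4) ^ 2 = (C4 : ZMod 4) := by
      rw [← sub_eq_zero, ← Int.cast_pow, ← Int.cast_sub]
      exact (ZMod.intCast_zmod_eq_zero_iff_dvd _ 4).2 (Dvd.dvd.trans (by norm_num) d64a)
    have c3 : (C6 : ZMod 4) = -1 := by
      rw [eq_neg_iff_add_eq_zero, ← Int.cast_one, ← Int.cast_add]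
      exact (ZMod.intCast_zmod_eq_zero_iff_dvd _ 4).2 h6
    have cb : (b : ZMod 4) = (y : ZMod 4) := by
      rw [hb]; push_cast
      rw [c3, show (513 : ZMod 4) = 1 from rfl, show (512 : ZMod 4) = 0 from rfl]; ring
    push_cast
    rw [← c2, cb] at c1
    rw [cb, sub_eq_zero]
    revert c1
    generalize (y : ZMod 4) = z
    revert z
    decide
  obtain ⟨a2, ha2⟩ := hb4
  obtain ⟨a4, ha4⟩ : (48 : ℤ) ∣ b ^ 2 - C4 := by
    rw [show (48 : ℤ) = 16 * 3 by norm_num]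
    exact IsCoprime.mul_dvd (by norm_num) (Dvd.dvd.trans (by norm_num) d64a) d27a
  obtain ⟨a6, ha6⟩ : (1728 : ℤ) ∣ b ^ 3 - 3 * C4 * b - 2 * C6 := by
    rw [show (1728 : ℤ) = ((64 : ℕ) : ℤ) * ((27 : ℕ) : ℤ) by norm_num]
    exact IsCoprime.mul_dvd (by norm_num) d64b d27b
  refine ⟨⟨1, a2, 0, a4, a6⟩, ?_⟩
  have e4 : (⟨1, a2, 0, a4, a6⟩ : WeierstrassCurve ℤ).c₄ = C4 := by
    simp only [WeierstrassCurve.c₄, WeierstrassCurve.b₂, WeierstrassCurve.b₄]
    linear_combination ha4 - (1 + 4 * a2 + b) * ha2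
  have e6 : (⟨1, a2, 0, a4, a6⟩ : WeierstrassCurve ℤ).c₆ = C6 := by
    simp only [WeierstrassCurve.c₆, WeierstrassCurve.b₂, WeierstrassCurve.b₄, WeierstrassCurve.b₆]
    rw [show (1 : ℤ) ^ 2 + 4 * a2 = b by linear_combination -ha2]
    apply mul_left_cancel₀ (show (2 : ℤ) ≠ 0 by norm_num)
    linear_combination -(3 * b) * ha4 + ha6
  refine ⟨e4, e6, ?_⟩
  have hr := (⟨1, a2, 0, a4, a6⟩ : WeierstrassCurve ℤ).c_relation
  rw [e4, e6, hD] at hr
  exact mul_left_cancel₀ (by norm_num) hr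

end FLTAgent.Mod2
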