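import Mathlib

/-!
# Odd valuations of the discriminant exclude rational two-torsion

`no_root_of_odd_valuations`: if `C₄³ - C₆² = 1728 D` with `D < 0` even, `C₄` prime to `D`, and
every prime divisor of `D` occurs to an odd power, then `z³ - 3 C₄ z - 2 C₆` has no integral root.
-/

set_option autoImplicit false

namespace FLTAgent.Mod2

theorem padicValInt_mul_sq {p : ℕ} [Fact p.Prime] {a b : ℤ} (ha : a ≠ 0) (hb : b ≠ 0) :
    padicValInt p (a * b ^ 2) = padicValInt p a + 2 * padicValInt p b := by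
  rw [padicValInt.mul ha (pow_ne_zero _ hb), sq, padicValInt.mul hb hb]
  omega

theorem dvd_of_padicValInt_pos {p : ℕ} [Fact p.Prime] {a : ℤ} (h : 0 < padicValInt p a) :
    (p : ℤ) ∣ a := by
  by_contra hd
  rw [padicValInt.eq_zero_of_not_dvd hd] at h
  exact lt_irrefl 0 h

/-- The cubic of a discriminant with only odd valuations has no integral root. -/
theorem no_root_of_odd_valuations {C4 C6 D : ℤ} (hrel : C4 ^ 3 - C6 ^ 2 = 1728 * D) (hD : D < 0)
    (h2 : (2 : ℤ) ∣ D) (hC2 : ¬ (2 : ℤ) ∣ C4)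
    (hbad : ∀ p : ℕ, p.Prime → (p : ℤ) ∣ D → ¬ (p : ℤ) ∣ C4 ∧ Odd (padicValInt p D))
    (z : ℤ) : z ^ 3 - 3 * C4 * z - 2 * C6 ≠ 0 := by
  intro hz
  have hid : (z ^ 2 - 4 * C4) * (z ^ 2 - C4) ^ 2 = 6912 * -D := by
    linear_combination (z ^ 3 - 3 * C4 * z + 2 * C6) * hz - 4 * hrel
  obtain ⟨g, hg⟩ : ∃ g, g = z ^ 2 - C4 := ⟨_, rfl⟩
  obtain ⟨e, he⟩ : ∃ e, e = z ^ 2 - 4 * C4 := ⟨_, rfl⟩
  rw [← hg, ← he] at hid
  have hpos : 0 < e * g ^ 2 := by rw [hid]; linarith
  have hg0 : g ≠ 0 := fun h => by rw [h] at hpos; simp at hpos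
  have he0 : 0 < e := pos_of_mul_pos_left hpos (sq_nonneg g)
  have hgpos : 0 < g := by
    rcases le_or_gt C4 0 with h | h
    · exact lt_of_le_of_ne (by nlinarith [sq_nonneg z]) (Ne.symm hg0)
    · linarith
  have hge : g - e = 3 * C4 := by rw [hg, he]; ring
  have hval : ∀ p : ℕ, p.Prime →
      padicValInt p e + 2 * padicValInt p g = padicValInt p 6912 + padicValInt p D := by
    intro p hp
    have : Fact p.Prime := ⟨hp⟩
    have := congrArg (padicValInt p) hid
    rw [padicValInt_mul_sq he0.ne' hg0, padicValInt.mul (by norm_num) (neg_ne_zero.2 hD.ne)] at this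
    rw [this]
    simp [padicValInt]
  have v2 : padicValInt 2 6912 = 8 := by
    have : Fact (Nat.Prime 2) := ⟨Nat.prime_two⟩
    rw [show (6912 : ℤ) = ((2 ^ 8 * 27 : ℕ) : ℤ) by norm_num, padicValInt.of_nat,
      padicValNat.mul (by norm_num) (by norm_num), padicValNat.prime_pow,
      padicValNat.eq_zero_of_not_dvd (by norm_num)]
  have v3 : padicValInt 3 6912 = 3 := by
    have : Fact (Nat.Prime 3) := ⟨Nat.prime_three⟩
    rw [show (6912 : ℤ) = ((3 ^ 3 * 256 : ℕ) : ℤ) by norm_num, padicValInt.of_nat,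
      padicValNat.mul (by norm_num) (by norm_num), padicValNat.prime_pow,
      padicValNat.eq_zero_of_not_dvd (by norm_num)]
  -- at `2`
  obtain ⟨o2, ho2⟩ := (hbad 2 Nat.prime_two (by exact_mod_cast h2)).2
  have hv2 := hval 2 Nat.prime_two
  rw [v2] at hv2
  have : Fact (Nat.Prime 2) := ⟨Nat.prime_two⟩
  have he2 : (2 : ℤ) ∣ e := by exact_mod_cast dvd_of_padicValInt_pos (p := 2) (a := e) (by omega)
  have hz2 : (2 : ℤ) ∣ z := by
    refine Int.prime_two.dvd_of_dvd_pow (n := 2) ?_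
    rw [show z ^ 2 = e + 2 * (2 * C4) by rw [he]; ring]
    exact dvd_add he2 (dvd_mul_right _ _)
  have hg2 : ¬ (2 : ℤ) ∣ g := fun h => hC2 <| by
    rw [show C4 = z ^ 2 - g by rw [hg]; ring]
    exact dvd_sub (dvd_pow hz2 two_ne_zero) h
  rw [padicValInt.eq_zero_of_not_dvd (show ¬ ((2 : ℕ) : ℤ) ∣ g by exact_mod_cast hg2)] at hv2
  -- no prime other than `3` divides `g`
  have hprimes : ∀ q : ℕ, q.Prime → (q : ℤ) ∣ g → q = 3 := by
    intro q hq hqg
    by_contra hq3
    have : Fact q.Prime := ⟨hq⟩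
    have hq2 : q ≠ 2 := fun h => hg2 (by subst h; exact_mod_cast hqg)
    have hv := hval q hq
    have v0 : padicValInt q 6912 = 0 := by
      refine padicValInt.eq_zero_of_not_dvd fun h => ?_
      rw [show (6912 : ℤ) = ((2 ^ 8 * 3 ^ 3 : ℕ) : ℤ) by norm_num, Int.natCast_dvd_natCast] at h
      rcases hq.dvd_mul.1 h with h | h
      · exact hq2 ((Nat.prime_dvd_prime_iff_eq hq Nat.prime_two).1 (hq.dvd_of_dvd_pow h))
      · exact hq3 ((Nat.prime_dvd_prime_iff_eq hq Nat.prime_three).1 (hq.dvd_of_dvd_pow h))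
    have hg1 : 1 ≤ padicValInt q g :=
      ((padicValInt_dvd_iff (p := q) 1 g).1 (by simpa using hqg)).resolve_left hg0
    have hqD : (q : ℤ) ∣ D := dvd_of_padicValInt_pos (by omega)
    obtain ⟨hnc, o, ho⟩ := hbad q hq hqD
    have hqe : (q : ℤ) ∣ e := dvd_of_padicValInt_pos (by omega)
    have h3 : (q : ℤ) ∣ 3 * C4 := hge ▸ dvd_sub hqg hqe
    rcases (Nat.prime_iff_prime_int.1 hq).dvd_or_dvd h3 with h | h
    · exact hq3 ((Nat.prime_dvd_prime_iff_eq hq Nat.prime_three).1 (by exact_mod_cast h))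
    · exact hnc h
  -- `9 ∤ g`
  have : Fact (Nat.Prime 3) := ⟨Nat.prime_three⟩
  have h9 : ¬ (9 : ℤ) ∣ g := by
    intro h9
    have hg2' : 2 ≤ padicValInt 3 g :=
      ((padicValInt_dvd_iff (p := 3) 2 g).1 (by norm_num; exact h9)).resolve_left hg0
    have hv := hval 3 Nat.prime_three
    rw [v3] at hv
    have h3g : (3 : ℤ) ∣ g := Dvd.dvd.trans (by norm_num) h9
    have h3e : (3 : ℤ) ∣ e := by
      have := dvd_sub h3g (dvd_mul_right 3 C4)
      rwa [← hge, sub_sub_cancel] at this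
    have he1 : padicValInt 3 e ≤ 1 ∨ (3 : ℤ) ∣ C4 := by
      by_contra hcon
      push Not at hcon
      have h9e : (9 : ℤ) ∣ e := by
        have := (padicValInt_dvd_iff (p := 3) 2 e).2 (Or.inr (by omega))
        norm_num at this
        exact this
      have h := dvd_sub h9 h9e
      rw [hge] at h
      obtain ⟨w, hw⟩ := h
      exact hcon.2 ⟨w, by linarith⟩
    have he1' : 1 ≤ padicValInt 3 e :=
      ((padicValInt_dvd_iff (p := 3) 1 e).1 (by simpa using h3e)).resolve_left he0.ne'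
    have h3D : (3 : ℤ) ∣ D := by exact_mod_cast dvd_of_padicValInt_pos (p := 3) (a := D) (by omega)
    obtain ⟨hnc, o, ho⟩ := hbad 3 Nat.prime_three (by exact_mod_cast h3D)
    rcases he1 with h | h
    · omega
    · exact hnc (by exact_mod_cast h)
  -- so `g ≤ 3`
  have hg3 : g ≤ 3 := by
    by_contra hgt
    obtain ⟨n, rfl⟩ := Int.eq_ofNat_of_zero_le hgpos.le
    have hn : n ≠ 1 := fun h => hgt (by subst h; norm_num)
    obtain ⟨q, hq, hqn⟩ := Nat.exists_prime_and_dvd hn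
    obtain ⟨m, rfl⟩ := hqn
    obtain rfl := hprimes q hq (by exact_mod_cast dvd_mul_right q m)
    have hm : m ≠ 1 := fun h => hgt (by subst h; norm_num)
    obtain ⟨r, hr, hrm⟩ := Nat.exists_prime_and_dvd hm
    obtain rfl := hprimes r hr (by exact_mod_cast Dvd.dvd.mul_left hrm 3)
    exact h9 (by exact_mod_cast Nat.mul_dvd_mul_left 3 hrm)
  -- so `z = 0`, and `e = 4 g`
  obtain ⟨w, rfl⟩ := hz2
  have hw0 : w = 0 := by
    have : 12 * w ^ 2 = 4 * g - e := by rw [hg, he]; ring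
    have hw1 : w ^ 2 < 1 := by linarith
    have : |w| < 1 := (sq_lt_one_iff_abs_lt_one w).1 hw1
    exact Int.abs_lt_one_iff.1 this
  subst hw0
  have he4 : e = 4 * g := by rw [hg, he]; ring
  rw [he4, padicValInt.mul (by norm_num) hg0,
    padicValInt.eq_zero_of_not_dvd (show ¬ ((2 : ℕ) : ℤ) ∣ g by exact_mod_cast hg2),
    show padicValInt 2 4 = 2 by
      rw [show (4 : ℤ) = ((2 ^ 2 : ℕ) : ℤ) by norm_num, padicValInt.of_nat, padicValNat.prime_pow]]
    at hv2
  omega

end FLTAgent.Mod2
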