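import Fermat.Agent.Switch.Sieve
import Fermat.Agent.Mod2.HesseForms

/-!
# The quartic of the 2-3 switch: inputs of the squarefree sieve

Away from `6 (A³ - B²)` the pairs with `p² ∣ shq` lie on at most four lines modulo `p²`
(`shq_roots`); also a bound on `shq` in a box (`shq_bound`) and regions where it is positive or
negative (`shq_pos`, `shq_neg`).
-/

set_option autoImplicit false

namespace FLTAgent.Mod2

open Polynomial

theorem shq_taylor (A B r d : ℤ) :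
    shq A B (r + d) 1 - shq A B r 1 =
      4 * shd A B r 1 * d + d ^ 2 * (6 * r ^ 2 + 4 * r * d + d ^ 2 - 6 * A) := by
  simp only [shq, shd]; ring

/-- Away from `6 (A³ - B²)` the pairs with `p² ∣ shq` lie on at most four lines modulo `p²`. -/
theorem shq_roots (A B : ℤ) {p : ℕ} (hp : p.Prime) (h6 : (6 : ZMod p) ≠ 0)
    (hAB : (A : ZMod p) ^ 3 ≠ (B : ZMod p) ^ 2) :
    ∃ S : Finset ℤ, S.card ≤ 4 ∧ ∀ s t : ℤ, (p : ℤ) ^ 2 ∣ shq A B s t →
      ((p : ℤ) ∣ s ∧ (p : ℤ) ∣ t) ∨ ∃ r ∈ S, (p : ℤ) ^ 2 ∣ s - r * t := by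
  classical
  have : Fact p.Prime := ⟨hp⟩
  have hpi : Prime (p : ℤ) := Nat.prime_iff_prime_int.1 hp
  set P : Polynomial (ZMod p) := X ^ 4 + C (-6 * (A : ZMod p)) * X ^ 2 +
    C (-8 * (B : ZMod p)) * X + C (-3 * (A : ZMod p) ^ 2) with hP
  have hdeg : P.natDegree = 4 := by rw [hP]; compute_degree!
  have hP0 : P ≠ 0 := fun h => by rw [h] at hdeg; simp at hdeg
  set lift : ZMod p → ℤ := fun x =>
    if h : ∃ r : ℤ, (r : ZMod p) = x ∧ (p : ℤ) ^ 2 ∣ shq A B r 1 then h.choose else 0 with hlift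
  refine ⟨P.roots.toFinset.image lift, ?_, fun s t hd => ?_⟩
  · exact Finset.card_image_le.trans (((Multiset.toFinset_card_le _).trans (card_roots' P)).trans
      hdeg.le)
  have hp1 : (p : ℤ) ∣ shq A B s t := (dvd_pow_self _ two_ne_zero).trans hd
  by_cases ht : (p : ℤ) ∣ t
  · refine Or.inl ⟨hpi.dvd_of_dvd_pow (n := 4) ?_, ht⟩
    have : shq A B s t = s ^ 4 - t * (6 * A * s ^ 2 * t + 8 * B * s * t ^ 2 + 3 * A ^ 2 * t ^ 3) := by
      simp only [shq]; ring
    rw [this] at hp1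
    exact (dvd_sub_left (ht.mul_right _)).1 hp1
  right
  obtain ⟨u, v, huv⟩ := ((hpi.coprime_iff_not_dvd.2 ht).pow_left (m := 2))
  -- `v * t ≡ 1 (mod p²)`
  set r : ℤ := s * v with hr
  have hrq : (p : ℤ) ^ 2 ∣ shq A B r 1 := by
    have h1 : shq A B (v * s) (v * t) = v ^ 4 * shq A B s t := shq_smul v A B s t
    have h2 : ((p ^ 2 : ℕ) : ℤ) ∣ shq A B r 1 := by
      apply (ZMod.intCast_zmod_eq_zero_iff_dvd _ _).1
      have hvt : ((v * t : ℤ) : ZMod (p ^ 2)) = 1 := by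
        rw [← sub_eq_zero, ← Int.cast_one, ← Int.cast_sub]
        refine (ZMod.intCast_zmod_eq_zero_iff_dvd _ _).2 ⟨-u, ?_⟩
        push_cast
        linear_combination huv
      have h0 : ((shq A B (v * s) (v * t) : ℤ) : ZMod (p ^ 2)) = 0 := by
        rw [h1, ZMod.intCast_zmod_eq_zero_iff_dvd]
        push_cast
        exact hd.mul_left _
      rw [← eq_intCast (Int.castRingHom _), map_shq] at h0 ⊢
      simp only [eq_intCast, Int.cast_one] at h0 ⊢
      rw [hvt] at h0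
      rw [hr, mul_comm]
      exact h0
    exact_mod_cast h2
  have hroot : ((r : ℤ) : ZMod p) ∈ P.roots.toFinset := by
    rw [Multiset.mem_toFinset, mem_roots hP0, IsRoot.def]
    have h0 := (ZMod.intCast_zmod_eq_zero_iff_dvd _ p).2 ((dvd_pow_self _ two_ne_zero).trans hrq)
    rw [← eq_intCast (Int.castRingHom _), map_shq] at h0
    simp only [eq_intCast, Int.cast_one, shq] at h0
    simp only [hP, eval_add, eval_mul, eval_pow, eval_X, eval_C]
    linear_combination h0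
  have hex : ∃ r' : ℤ, (r' : ZMod p) = (r : ZMod p) ∧ (p : ℤ) ^ 2 ∣ shq A B r' 1 := ⟨r, rfl, hrq⟩
  refine ⟨lift (r : ZMod p), Finset.mem_image_of_mem _ hroot, ?_⟩
  set r' := lift (r : ZMod p) with hr'
  have hspec : (r' : ZMod p) = (r : ZMod p) ∧ (p : ℤ) ^ 2 ∣ shq A B r' 1 := by
    rw [hr', hlift]
    simp only [dif_pos hex]
    exact hex.choose_spec
  obtain ⟨d, hd'⟩ : (p : ℤ) ∣ r - r' := by
    apply (ZMod.intCast_zmod_eq_zero_iff_dvd _ p).1
    rw [Int.cast_sub, hspec.1, sub_self]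
  have hdd : (p : ℤ) ∣ d := by
    have hT : (p : ℤ) * (p : ℤ) ∣ (p : ℤ) * (4 * shd A B r' 1 * d) := by
      have h := dvd_sub hrq hspec.2
      rw [show r = r' + (p : ℤ) * d by linarith, shq_taylor, sq] at h
      rw [show (p : ℤ) * (4 * shd A B r' 1 * d) = 4 * shd A B r' 1 * ((p : ℤ) * d) by ring]
      exact (dvd_add_left ⟨d ^ 2 * (6 * r' ^ 2 + 4 * r' * ((p : ℤ) * d) + ((p : ℤ) * d) ^ 2 - 6 * A),
        by ring⟩).1 h
    have h2 := (mul_dvd_mul_iff_left (show (p : ℤ) ≠ 0 from hpi.ne_zero)).1 hT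
    refine (hpi.dvd_or_dvd h2).resolve_left fun h => ?_
    have hz := (ZMod.intCast_zmod_eq_zero_iff_dvd _ p).2 h
    push_cast at hz
    have h4 : (4 : ZMod p) ≠ 0 := by
      have h2 : (2 : ZMod p) ≠ 0 := fun h => h6 (by linear_combination 3 * h)
      rw [show (4 : ZMod p) = 2 * 2 by norm_num]
      exact mul_ne_zero h2 h2
    have hshd : shd (A : ZMod p) B (r' : ZMod p) 1 = 0 := by
      refine (mul_eq_zero.1 ?_).resolve_left h4
      rw [← hz]
      simp [shd]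
    have hshq : shq (A : ZMod p) B (r' : ZMod p) 1 = 0 := by
      have h0 := (ZMod.intCast_zmod_eq_zero_iff_dvd _ p).2
        ((dvd_pow_self _ two_ne_zero).trans hspec.2)
      rw [← eq_intCast (Int.castRingHom _), map_shq] at h0
      simpa using h0
    exact one_ne_zero (shq_simple h6 hAB hshq hshd).2
  obtain ⟨e, he⟩ := hdd
  refine ⟨e * t + s * u, ?_⟩
  rw [show r' = r - (p : ℤ) * d by linarith, he, hr]
  linear_combination (-s) * huv

/-- The quartic in a box. -/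
theorem shq_bound (A B s t : ℤ) (M : ℕ) (hs : |s| ≤ M) (ht : |t| ≤ M) :
    |shq A B s t| ≤ ((1 + 6 * A.natAbs + 8 * B.natAbs + 3 * A.natAbs ^ 2 : ℕ) : ℤ) * (M : ℤ) ^ 4 := by
  push_cast [Int.natCast_natAbs]
  rw [sq_abs]
  have h : ∀ (k : ℤ) (i j : ℕ), i + j = 4 → |k * s ^ i * t ^ j| ≤ |k| * (M : ℤ) ^ 4 := by
    intro k i j hij
    rw [abs_mul, abs_mul, abs_pow, abs_pow, mul_assoc, ← hij, pow_add]
    gcongr
  have e : shq A B s t = 1 * s ^ 4 * t ^ 0 + (-6 * A) * s ^ 2 * t ^ 2 + (-8 * B) * s ^ 1 * t ^ 3 +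
      (-3 * A ^ 2) * s ^ 0 * t ^ 4 := by
    simp only [shq]; ring
  rw [e]
  refine ((abs_add_le _ _).trans (add_le_add ((abs_add_le _ _).trans (add_le_add (abs_add_le _ _)
    le_rfl)) le_rfl)).trans ?_
  have h1 := h 1 4 0 rfl
  have h2 := h (-6 * A) 2 2 rfl
  have h3 := h (-8 * B) 1 3 rfl
  have h4 := h (-3 * A ^ 2) 0 4 rfl
  have e1 : |-6 * A| = 6 * |A| := by rw [abs_mul]; norm_num
  have e2 : |-8 * B| = 8 * |B| := by rw [abs_mul]; norm_num
  have e3 : |-3 * A ^ 2| = 3 * A ^ 2 := by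
    rw [abs_mul, abs_of_nonneg (sq_nonneg A)]; norm_num
  rw [e1] at h2
  rw [e2] at h3
  rw [e3] at h4
  rw [abs_one] at h1
  linarith

/-- The quartic is positive for small `t / s`. -/
theorem shq_pos {A B s t : ℤ} (hs : 0 < s) (ht : 0 ≤ t)
    (h : (6 * |A| + 8 * |B| + 3 * A ^ 2 + 2) * t ≤ s) : 0 < shq A B s t := by
  have hA := abs_nonneg A
  have hB := abs_nonneg B
  have hts : t ≤ s := by nlinarith [sq_nonneg A]
  have h1 : 6 * A * (s ^ 2 * t ^ 2) ≤ 6 * |A| * (t * s ^ 3) := by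
    refine mul_le_mul (by linarith [le_abs_self A]) ?_ (by positivity) (by positivity)
    calc s ^ 2 * t ^ 2 = (t * s ^ 2) * t := by ring
      _ ≤ (t * s ^ 2) * s := mul_le_mul_of_nonneg_left hts (by positivity)
      _ = _ := by ring
  have h2 : 8 * B * (s * t ^ 3) ≤ 8 * |B| * (t * s ^ 3) := by
    refine mul_le_mul (by linarith [le_abs_self B]) ?_ (by positivity) (by positivity)
    calc s * t ^ 3 = (t * s) * t ^ 2 := by ring
      _ ≤ (t * s) * s ^ 2 := mul_le_mul_of_nonneg_left (pow_le_pow_left₀ ht hts 2) (by positivity)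
      _ = _ := by ring
  have h3 : 3 * A ^ 2 * t ^ 4 ≤ 3 * A ^ 2 * (t * s ^ 3) := by
    refine mul_le_mul_of_nonneg_left ?_ (by positivity)
    calc t ^ 4 = t * t ^ 3 := by ring
      _ ≤ t * s ^ 3 := mul_le_mul_of_nonneg_left (pow_le_pow_left₀ ht hts 3) ht
  have h4 : 0 < (s - (6 * |A| + 8 * |B| + 3 * A ^ 2) * t) * s ^ 3 :=
    mul_pos (by nlinarith) (pow_pos hs 3)
  simp only [shq]
  nlinarith

/-- The quartic is negative for small `s / t`. -/
theorem shq_neg {A B s t : ℤ} (hA : A ≠ 0) (ht : 0 < t) (hs : 0 ≤ s)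
    (h : (6 * |A| + 8 * |B| + 3 * A ^ 2 + 2) * s ≤ t) : shq A B s t < 0 := by
  have hA' : 1 ≤ A ^ 2 := by
    have := pow_two_pos_of_ne_zero hA
    linarith
  have hA0 := abs_nonneg A
  have hB := abs_nonneg B
  have hst : s ≤ t := by nlinarith
  have h0 : s ^ 4 ≤ s * t ^ 3 := by
    calc s ^ 4 = s * s ^ 3 := by ring
      _ ≤ s * t ^ 3 := mul_le_mul_of_nonneg_left (pow_le_pow_left₀ hs hst 3) hs
  have h1 : -(6 * A) * (s ^ 2 * t ^ 2) ≤ 6 * |A| * (s * t ^ 3) := by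
    refine mul_le_mul (by linarith [neg_le_abs A]) ?_ (by positivity) (by positivity)
    calc s ^ 2 * t ^ 2 = (s * t ^ 2) * s := by ring
      _ ≤ (s * t ^ 2) * t := mul_le_mul_of_nonneg_left hst (by positivity)
      _ = _ := by ring
  have h2 : -(8 * B) * (s * t ^ 3) ≤ 8 * |B| * (s * t ^ 3) :=
    mul_le_mul_of_nonneg_right (by linarith [neg_le_abs B]) (by positivity)
  have h3 : 3 * t ^ 4 ≤ 3 * A ^ 2 * t ^ 4 := by nlinarith [pow_pos ht 4]
  have h4 : (1 + 6 * |A| + 8 * |B|) * s * t ^ 3 ≤ t * t ^ 3 :=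
    mul_le_mul_of_nonneg_right (by nlinarith) (by positivity)
  simp only [shq]
  nlinarith [pow_pos ht 4]

end FLTAgent.Mod2
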