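import Fermat.Agent.Mod2.TwoAdicData
import Fermat.Agent.Mod2.SwitchSieve

/-!
# The choice of `(s, t)` for the 2-3 switch

At an odd prime where `W` has odd valuation (and at `3`) the pair is near `(λ, 0)`; where the valuation
is even it sits where `shq` has valuation one; elsewhere the sieve makes `shq` squarefree
(`exists_params`).
-/

set_option autoImplicit false
set_option linter.style.haveILetI false

namespace FLTAgent.Mod2

open WeierstrassCurve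

theorem exists_crt₃ {a b c : ℕ} (ha : 0 < a) (hb : 0 < b) (hc : 0 < c) (hab : a.Coprime b)
    (hac : a.Coprime c) (hbc : b.Coprime c) (x y z : ℤ) :
    ∃ w : ℤ, 0 ≤ w ∧ w < (a * b * c : ℕ) ∧ (a : ℤ) ∣ w - x ∧ (b : ℤ) ∣ w - y ∧ (c : ℤ) ∣ w - z := by
  obtain ⟨u, v, huv⟩ := Nat.Coprime.isCoprime hab
  obtain ⟨u', v', huv'⟩ := Nat.Coprime.isCoprime (hac.mul_left hbc : (a * b).Coprime c)
  push_cast at huv'
  set w₁ : ℤ := x * (v * b) + y * (u * a)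
  set w₂ : ℤ := w₁ * (v' * c) + z * (u' * ((a : ℤ) * b))
  have hN : ((a * b * c : ℕ) : ℤ) ≠ 0 := by positivity
  have hdiv : ∀ d e : ℤ, d ∣ ((a * b * c : ℕ) : ℤ) → d ∣ w₂ - e →
      d ∣ w₂ % ((a * b * c : ℕ) : ℤ) - e := by
    intro d e hd he
    have h := dvd_sub he (hd.mul_right (w₂ / ((a * b * c : ℕ) : ℤ)))
    rwa [Int.emod_def, show w₂ - ((a * b * c : ℕ) : ℤ) * (w₂ / ((a * b * c : ℕ) : ℤ)) - e =
      w₂ - e - ((a * b * c : ℕ) : ℤ) * (w₂ / ((a * b * c : ℕ) : ℤ)) by ring]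
  refine ⟨w₂ % ((a * b * c : ℕ) : ℤ), Int.emod_nonneg _ hN, ?_, ?_, ?_, ?_⟩
  · exact Int.emod_lt_of_pos _ (by positivity)
  · exact hdiv _ _ ⟨(b : ℤ) * c, by push_cast; ring⟩
      ⟨(z - w₁) * u' * b + (y - x) * u, by
        simp only [w₂, w₁]
        linear_combination (x * (v * b) + y * (u * a)) * huv' + x * huv⟩
  · exact hdiv _ _ ⟨(a : ℤ) * c, by push_cast; ring⟩
      ⟨(z - w₁) * u' * a + (x - y) * v, by
        simp only [w₂, w₁]
        linear_combination (x * (v * b) + y * (u * a)) * huv' + y * huv⟩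
  · exact hdiv _ _ ⟨(a : ℤ) * b, by push_cast; ring⟩
      ⟨(w₁ - z) * v', by
        simp only [w₂, w₁]
        linear_combination z * huv'⟩

theorem intCast_eq_of_dvd {n : ℕ} {x y : ℤ} (h : (n : ℤ) ∣ x - y) : (x : ZMod n) = (y : ZMod n) := by
  rw [← sub_eq_zero, ← Int.cast_sub]
  exact (ZMod.intCast_zmod_eq_zero_iff_dvd _ n).2 h

/-- Near `(3B, A)` the quartic has valuation exactly one at an odd prime `p` with `p² ∣ Δ`, and the
`c₄` of the family is prime to `p`. -/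
theorem shq_valuation_one (W : WeierstrassCurve ℤ) {p : ℕ} (hp : p.Prime) (hp2 : p ≠ 2)
    (hΔ2 : (p : ℤ) ^ 2 ∣ W.Δ) (hA : ¬ (p : ℤ) ∣ W.c₄) {s t r : ℤ}
    (hs : (p : ℤ) ^ 2 ∣ s - (3 * W.c₆ + r)) (ht : (p : ℤ) ^ 2 ∣ t - W.c₄) (hr : (p : ℤ) ∣ r)
    (hr2 : ¬ (p : ℤ) ^ 2 ∣ r) :
    (p : ℤ) ∣ shq W.c₄ W.c₆ s t ∧ ¬ (p : ℤ) ^ 2 ∣ shq W.c₄ W.c₆ s t ∧
      ¬ (p : ℤ) ∣ sh4 W.c₄ W.c₆ s t := by
  haveI : Fact p.Prime := ⟨hp⟩
  have hpi : Prime (p : ℤ) := Nat.prime_iff_prime_int.1 hp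
  set A := W.c₄
  set B := W.c₆
  have hrel : (A : ℤ) ^ 3 - B ^ 2 = 1728 * W.Δ := W.c_relation.symm
  have h2 : (2 : ZMod p) ≠ 0 := by
    intro h
    have h' : ((2 : ℕ) : ZMod p) = 0 := by exact_mod_cast h
    exact hp2 ((Nat.prime_dvd_prime_iff_eq hp Nat.prime_two).1 ((ZMod.natCast_eq_zero_iff _ p).1 h'))
  have hA0 : (A : ZMod p) ≠ 0 := fun h => hA ((ZMod.intCast_zmod_eq_zero_iff_dvd _ p).1 h)
  have hBA : (B : ZMod p) ^ 2 = (A : ZMod p) ^ 3 := by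
    have h : ((A ^ 3 : ℤ) : ZMod p) = ((B ^ 2 : ℤ) : ZMod p) := intCast_eq_of_dvd
      (hrel ▸ ((dvd_pow_self _ two_ne_zero).trans hΔ2).mul_left 1728)
    push_cast at h
    exact h.symm
  have hB0 : (B : ZMod p) ≠ 0 := fun h => hA0 (by
    rw [h, zero_pow two_ne_zero] at hBA
    exact eq_zero_of_pow_eq_zero hBA.symm)
  have hsp : (s : ZMod p) = 3 * (B : ZMod p) := by
    have := intCast_eq_of_dvd ((dvd_pow_self (p : ℤ) two_ne_zero).trans hs)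
    rw [this]
    push_cast
    rw [(ZMod.intCast_zmod_eq_zero_iff_dvd _ p).2 hr, add_zero]
  have htp : (t : ZMod p) = (A : ZMod p) := intCast_eq_of_dvd ((dvd_pow_self _ two_ne_zero).trans ht)
  have hbase : (p : ℤ) ^ 2 ∣ shq A B (3 * B) A := by
    refine hΔ2.trans ⟨-5184 * (27 * B ^ 2 + A ^ 3), ?_⟩
    simp only [shq]
    linear_combination (-3 * (27 * B ^ 2 + A ^ 3)) * hrel
  -- `shq s t ≡ shq (3B) A + 4 r shd (3B) A (mod p²)`
  have hmain : (p : ℤ) ^ 2 ∣ shq A B s t - 4 * r * shd A B (3 * B) A := by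
    have h1 : ((p ^ 2 : ℕ) : ℤ) ∣ shq A B s t - shq A B (3 * B + r) A := by
      apply (ZMod.intCast_zmod_eq_zero_iff_dvd _ _).1
      have e1 : (s : ZMod (p ^ 2)) = ((3 * B + r : ℤ) : ZMod (p ^ 2)) :=
        intCast_eq_of_dvd (by push_cast; exact hs)
      have e2 : (t : ZMod (p ^ 2)) = (A : ZMod (p ^ 2)) := intCast_eq_of_dvd (by push_cast; exact ht)
      rw [← eq_intCast (Int.castRingHom _), map_sub, map_shq, map_shq]
      simp only [eq_intCast]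
      rw [e1, e2, sub_self]
    have h2 : shq A B (3 * B + r) A = shq A B (3 * B) A + 4 * r * shd A B (3 * B) A +
        r ^ 2 * (54 * B ^ 2 + 12 * B * r + r ^ 2 - 6 * A ^ 3) := by
      simp only [shq, shd]; ring
    have h3 : (p : ℤ) ^ 2 ∣ r ^ 2 := pow_dvd_pow_of_dvd hr 2
    have h4 := dvd_add (dvd_add (show (p : ℤ) ^ 2 ∣ _ by exact_mod_cast h1) hbase)
      (h3.mul_right (54 * B ^ 2 + 12 * B * r + r ^ 2 - 6 * A ^ 3))
    rw [show shq A B s t - 4 * r * shd A B (3 * B) A =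
      shq A B s t - shq A B (3 * B + r) A + shq A B (3 * B) A +
        r ^ 2 * (54 * B ^ 2 + 12 * B * r + r ^ 2 - 6 * A ^ 3) by rw [h2]; ring]
    exact h4
  refine ⟨?_, ?_, ?_⟩
  · have := dvd_add ((dvd_pow_self _ two_ne_zero).trans hmain)
      ((hr.mul_left 4).mul_right (shd A B (3 * B) A))
    rwa [sub_add_cancel] at this
  · intro h
    have h' : (p : ℤ) ^ 2 ∣ 4 * r * shd A B (3 * B) A := by
      have := dvd_sub h hmain
      rwa [sub_sub_cancel] at this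
    obtain ⟨d, rfl⟩ := hr
    have h'' : (p : ℤ) ∣ 4 * d * shd A B (3 * B) A := by
      rw [sq, show 4 * ((p : ℤ) * d) * shd A B (3 * B) A = (p : ℤ) * (4 * d * shd A B (3 * B) A) by
        ring] at h'
      exact (mul_dvd_mul_iff_left hpi.ne_zero).1 h'
    have hd : ¬ (p : ℤ) ∣ d := fun hd => hr2 (by rw [sq]; exact mul_dvd_mul_left _ hd)
    have hz := (ZMod.intCast_zmod_eq_zero_iff_dvd _ p).2 h''
    push_cast at hz
    have hd0 : (d : ZMod p) ≠ 0 := fun h => hd ((ZMod.intCast_zmod_eq_zero_iff_dvd _ p).1 h)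
    have he : ((shd A B (3 * B) A : ℤ) : ZMod p) = 2 ^ 4 * (B : ZMod p) * (A : ZMod p) ^ 3 := by
      simp only [shd]
      push_cast
      linear_combination (27 * (B : ZMod p)) * hBA
    rw [he] at hz
    refine mul_ne_zero (mul_ne_zero ?_ hd0)
      (mul_ne_zero (mul_ne_zero (pow_ne_zero _ h2) hB0) (pow_ne_zero _ hA0)) hz
    rw [show (4 : ZMod p) = 2 ^ 2 by norm_num]
    exact pow_ne_zero _ h2
  · intro h
    have hz := (ZMod.intCast_zmod_eq_zero_iff_dvd _ p).2 h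
    rw [← eq_intCast (Int.castRingHom _), map_sh4] at hz
    simp only [eq_intCast, hsp, htp] at hz
    refine mul_ne_zero (pow_ne_zero 8 h2) (pow_ne_zero 7 hA0) ?_
    rw [← hz]
    simp only [sh4]
    linear_combination -(189 * (A : ZMod p) * (B : ZMod p) ^ 2 + 259 * (A : ZMod p) ^ 4) * hBA

/-- The parameters. -/
theorem exists_params (W : WeierstrassCurve ℤ) (hΔ : W.Δ ≠ 0) (hW : W.IsSemistableModel)
    (hA : ¬ (2 : ℤ) ∣ W.c₄) (T : TwoData W) :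
    ∃ s t : ℤ, ¬ (2 : ℤ) ∣ s ∧ (65536 : ℤ) ∣ t - T.rho * s ∧ IsCoprime s t ∧
      W.Δ * shq W.c₄ W.c₆ s t < 0 ∧
      (∀ p : ℕ, p.Prime → p ≠ 2 → (p = 3 ∨ (p : ℤ) ∣ W.Δ) →
        ((p : ℤ) ^ 3 ∣ s - T.lam ∧ (p : ℤ) ^ 3 ∣ t ∧
          ((p : ℤ) ∣ W.Δ → Odd (padicValInt p W.Δ))) ∨
        ((p : ℤ) ∣ W.Δ ∧ Even (padicValInt p W.Δ) ∧ (p : ℤ) ∣ shq W.c₄ W.c₆ s t ∧
          ¬ (p : ℤ) ^ 2 ∣ shq W.c₄ W.c₆ s t ∧ ¬ (p : ℤ) ∣ sh4 W.c₄ W.c₆ s t)) ∧
      ∀ p : ℕ, p.Prime → p ≠ 2 → p ≠ 3 → ¬ (p : ℤ) ∣ W.Δ →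
        ¬ (p : ℤ) ^ 2 ∣ shq W.c₄ W.c₆ s t := by
  classical
  set A := W.c₄
  set B := W.c₆
  set U := (3 * W.Δ).natAbs.primeFactors.erase 2 with hU
  set good : ℕ → Prop := fun p => (p : ℤ) ∣ W.Δ → Odd (padicValInt p W.Δ) with hgood
  set M₁ := ∏ p ∈ U.filter good, p ^ 3 with hM₁
  set R₂ := ∏ p ∈ U.filter fun p => ¬ good p, p with hR₂
  have hmemU : ∀ p, p ∈ U ↔ p.Prime ∧ p ≠ 2 ∧ (p = 3 ∨ (p : ℤ) ∣ W.Δ) := by
    intro p
    simp only [hU, Finset.mem_erase, Nat.mem_primeFactors, Int.natAbs_mul]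
    constructor
    · rintro ⟨h2, hp, hd, -⟩
      refine ⟨hp, h2, ?_⟩
      rcases hp.dvd_mul.1 hd with h | h
      · exact Or.inl ((Nat.prime_dvd_prime_iff_eq hp Nat.prime_three).1 (by simpa using h))
      · exact Or.inr (Int.natCast_dvd.2 h)
    · rintro ⟨hp, h2, h⟩
      refine ⟨h2, hp, ?_, mul_ne_zero (by norm_num) (Int.natAbs_ne_zero.2 hΔ)⟩
      rcases h with rfl | h
      · exact dvd_mul_of_dvd_left (by norm_num) _
      · exact dvd_mul_of_dvd_right (Int.natCast_dvd.1 h) _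
  have hU' : ∀ p ∈ U, p.Prime ∧ p ≠ 2 := fun p hp => ⟨((hmemU p).1 hp).1, ((hmemU p).1 hp).2.1⟩
  have hM₁0 : 0 < M₁ := Finset.prod_pos fun p hp => pow_pos (hU' p (Finset.mem_filter.1 hp).1).1.pos 3
  have hR₂0 : 0 < R₂ := Finset.prod_pos fun p hp => (hU' p (Finset.mem_filter.1 hp).1).1.pos
  have hcop2 : ∀ p ∈ U, Nat.Coprime 65536 p := fun p hp => by
    rw [show (65536 : ℕ) = 2 ^ 16 by norm_num]
    exact ((Nat.coprime_primes Nat.prime_two (hU' p hp).1).2 (Ne.symm (hU' p hp).2)).pow_left _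
  have c1 : Nat.Coprime 65536 M₁ :=
    Nat.Coprime.prod_right fun p hp => (hcop2 p (Finset.mem_filter.1 hp).1).pow_right 3
  have c2 : Nat.Coprime 65536 (R₂ ^ 2) :=
    (Nat.Coprime.prod_right fun p hp => hcop2 p (Finset.mem_filter.1 hp).1).pow_right 2
  have c3 : Nat.Coprime M₁ (R₂ ^ 2) := by
    refine Nat.Coprime.prod_left fun p hp => (Nat.Coprime.prod_right fun q hq => ?_).pow 3 2
    obtain ⟨hp1, hp2⟩ := Finset.mem_filter.1 hp
    obtain ⟨hq1, hq2⟩ := Finset.mem_filter.1 hq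
    exact (Nat.coprime_primes (hU' p hp1).1 (hU' q hq1).1).2 fun h => hq2 (h ▸ hp2)
  obtain ⟨s₀, hs₀, hs₁, hsa, hsb, hsc⟩ := exists_crt₃ (by norm_num : 0 < 65536) hM₁0
    (pow_pos hR₂0 2) c1 c2 c3 1 T.lam (3 * B + R₂)
  obtain ⟨t₀, ht₀, ht₁, hta, htb, htc⟩ := exists_crt₃ (by norm_num : 0 < 65536) hM₁0
    (pow_pos hR₂0 2) c1 c2 c3 T.rho 0 A
  rw [sub_zero] at htb
  set N := 65536 * M₁ * R₂ ^ 2 with hN
  have hN0 : 0 < N := by positivity
  have hdvd2 : 2 ∣ N := Dvd.dvd.mul_right (Dvd.dvd.mul_right (by norm_num) _) _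
  have hUN : ∀ p ∈ U, p ∣ N := by
    intro p hp
    by_cases hg : good p
    · exact Dvd.dvd.mul_right (Dvd.dvd.mul_left ((dvd_pow_self _ (by norm_num : 3 ≠ 0)).trans
        (Finset.dvd_prod_of_mem (fun p => p ^ 3) (Finset.mem_filter.2 ⟨hp, hg⟩))) _) _
    · exact Dvd.dvd.mul_left (dvd_pow
        (Finset.dvd_prod_of_mem (fun p => p) (Finset.mem_filter.2 ⟨hp, hg⟩)) two_ne_zero) _
  have hdvd3 : 3 ∣ N := hUN 3 ((hmemU 3).2 ⟨Nat.prime_three, by norm_num, Or.inl rfl⟩)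
  have hNU : ∀ p : ℕ, p.Prime → p ∣ N → p = 2 ∨ p ∈ U := by
    intro p hp h
    rcases (Prime.dvd_mul hp.prime).1 h with h | h
    · rcases (Prime.dvd_mul hp.prime).1 h with h | h
      · exact Or.inl ((Nat.prime_dvd_prime_iff_eq hp Nat.prime_two).1
          (hp.dvd_of_dvd_pow (show p ∣ 2 ^ 16 by simpa using h)))
      · obtain ⟨q, hq, hpq⟩ := (Prime.dvd_finsetProd_iff hp.prime _).1 h
        right
        rw [(Nat.prime_dvd_prime_iff_eq hp (hU' q (Finset.mem_filter.1 hq).1).1).1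
          (hp.dvd_of_dvd_pow hpq)]
        exact (Finset.mem_filter.1 hq).1
    · obtain ⟨q, hq, hpq⟩ := (Prime.dvd_finsetProd_iff hp.prime _).1 (hp.dvd_of_dvd_pow h)
      right
      rw [(Nat.prime_dvd_prime_iff_eq hp (hU' q (Finset.mem_filter.1 hq).1).1).1 hpq]
      exact (Finset.mem_filter.1 hq).1
  -- the local behaviour of the whole class
  have hclass : ∀ a b : ℕ, ∀ p ∈ U,
      ((p : ℤ) ^ 3 ∣ s₀ + N * a - T.lam ∧ (p : ℤ) ^ 3 ∣ t₀ + N * b ∧ good p) ∨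
      (¬ good p ∧ (p : ℤ) ^ 2 ∣ s₀ + N * a - (3 * B + R₂) ∧ (p : ℤ) ^ 2 ∣ t₀ + N * b - A ∧
        (p : ℤ) ∣ R₂ ∧ ¬ (p : ℤ) ^ 2 ∣ R₂) := by
    intro a b p hp
    by_cases hg : good p
    · have h1 : p ^ 3 ∣ M₁ := Finset.dvd_prod_of_mem (fun p => p ^ 3) (Finset.mem_filter.2 ⟨hp, hg⟩)
      have h1' : (p : ℤ) ^ 3 ∣ (M₁ : ℤ) := by exact_mod_cast Int.natCast_dvd_natCast.2 h1
      have h1N : (p : ℤ) ^ 3 ∣ (N : ℤ) := h1'.trans (by
        rw [hN]; push_cast; exact (dvd_mul_left _ _).mul_right _)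
      refine Or.inl ⟨?_, dvd_add (h1'.trans htb) (h1N.mul_right _), hg⟩
      rw [show s₀ + N * a - T.lam = s₀ - T.lam + N * a by ring]
      exact dvd_add (h1'.trans hsb) (h1N.mul_right _)
    · have h1 : p ∣ R₂ := Finset.dvd_prod_of_mem (fun p => p) (Finset.mem_filter.2 ⟨hp, hg⟩)
      have h2 : (p : ℤ) ^ 2 ∣ ((R₂ ^ 2 : ℕ) : ℤ) := by exact_mod_cast pow_dvd_pow_of_dvd h1 2
      have h2N : (p : ℤ) ^ 2 ∣ (N : ℤ) := h2.trans (by
        rw [hN]; push_cast; exact dvd_mul_left _ _)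
      refine Or.inr ⟨hg, ?_, ?_, Int.natCast_dvd_natCast.2 h1, ?_⟩
      · rw [show s₀ + N * a - (3 * B + R₂) = s₀ - (3 * B + R₂) + N * a by ring]
        exact dvd_add (h2.trans hsc) (h2N.mul_right _)
      · rw [show t₀ + N * b - A = t₀ - A + N * b by ring]
        exact dvd_add (h2.trans htc) (h2N.mul_right _)
      · intro h
        have h' : p ^ 2 ∣ R₂ := by exact_mod_cast h
        have hsq : Squarefree R₂ := by
          rw [hR₂]
          refine Finset.squarefree_prod_of_pairwise_isCoprime ?_ fun q hq =>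
            (hU' q (Finset.mem_filter.1 hq).1).1.squarefree
          intro q hq q' hq' hne
          exact Nat.coprime_iff_isRelPrime.1 ((Nat.coprime_primes (hU' q (Finset.mem_filter.1 hq).1).1
            (hU' q' (Finset.mem_filter.1 hq').1).1).2 hne)
        exact (hU' p hp).1.ne_one (Nat.isUnit_iff.1 (hsq p (by rwa [← sq])))
  have hprim : ∀ p : ℕ, p.Prime → p ∣ N → (p : ℤ) ∣ s₀ → ¬ (p : ℤ) ∣ t₀ := by
    intro p hp hpN hps hpt
    rcases hNU p hp hpN with rfl | hpU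
    · have : (2 : ℤ) ∣ s₀ - 1 := Dvd.dvd.trans (by norm_num) hsa
      have h1 := dvd_sub (show (2 : ℤ) ∣ s₀ by exact_mod_cast hps) this
      norm_num at h1
    · rcases hclass 0 0 p hpU with ⟨h1, -, -⟩ | ⟨hg, -, h2, -, -⟩
      · simp only [Nat.cast_zero, mul_zero, add_zero] at h1
        have h3 : (p : ℤ) ∣ T.lam := by
          have := dvd_sub hps ((dvd_pow_self (p : ℤ) (by norm_num : 3 ≠ 0)).trans h1)
          rwa [sub_sub_cancel] at this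
        have h4 : p ∣ 2 ^ 2 := by exact_mod_cast h3.trans T.lam_dvd
        exact (hU' p hpU).2 ((Nat.prime_dvd_prime_iff_eq hp Nat.prime_two).1 (hp.dvd_of_dvd_pow h4))
      · simp only [Nat.cast_zero, mul_zero, add_zero] at h2
        simp only [hgood, Classical.not_imp] at hg
        refine hW p hp hg.1 ?_
        have := dvd_sub hpt ((dvd_pow_self (p : ℤ) two_ne_zero).trans h2)
        rwa [sub_sub_cancel] at this
  have hroots : ∀ p : ℕ, p.Prime → ¬ p ∣ N → ∃ S : Finset ℤ, S.card ≤ 4 ∧ ∀ s t : ℤ,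
      (p : ℤ) ^ 2 ∣ shq A B s t → ((p : ℤ) ∣ s ∧ (p : ℤ) ∣ t) ∨ ∃ r ∈ S, (p : ℤ) ^ 2 ∣ s - r * t := by
    intro p hp hpN
    haveI : Fact p.Prime := ⟨hp⟩
    have hp2 : p ≠ 2 := fun h => hpN (h ▸ hdvd2)
    have hp3 : p ≠ 3 := fun h => hpN (h ▸ hdvd3)
    have hpΔ : ¬ (p : ℤ) ∣ W.Δ := fun h => hpN (hUN p ((hmemU p).2 ⟨hp, hp2, Or.inr h⟩))
    have h6 : (6 : ZMod p) ≠ 0 := by
      intro h
      have h' : ((2 * 3 : ℕ) : ZMod p) = 0 := by push_cast; linear_combination h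
      rcases hp.dvd_mul.1 ((ZMod.natCast_eq_zero_iff _ p).1 h') with h | h
      · exact hp2 ((Nat.prime_dvd_prime_iff_eq hp Nat.prime_two).1 h)
      · exact hp3 ((Nat.prime_dvd_prime_iff_eq hp Nat.prime_three).1 h)
    refine shq_roots A B hp h6 fun he => hpΔ ?_
    have hr := congrArg (Int.cast : ℤ → ZMod p) W.c_relation
    push_cast at hr
    rw [he, sub_self] at hr
    refine (ZMod.intCast_zmod_eq_zero_iff_dvd _ p).1 ((mul_eq_zero.1 hr).resolve_left ?_)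
    rw [show (1728 : ZMod p) = 6 ^ 3 * 2 ^ 3 by norm_num]
    exact mul_ne_zero (pow_ne_zero _ h6)
      (pow_ne_zero _ fun h => h6 (by linear_combination 3 * h))
  set C := 1 + 6 * A.natAbs + 8 * B.natAbs + 3 * A.natAbs ^ 2 with hC
  set K := 6 * A.natAbs + 8 * B.natAbs + 3 * A.natAbs ^ 2 + 2 with hK
  set k₁ := if W.Δ < 0 then 2 * K else 0 with hk₁
  set k₂ := if W.Δ < 0 then 0 else 2 * K with hk₂
  have hKZ : ((K : ℕ) : ℤ) = 6 * |A| + 8 * |B| + 3 * A ^ 2 + 2 := by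
    rw [hK]; push_cast [Int.natCast_natAbs]; rw [sq_abs]
  have hAne : A ≠ 0 := fun h => hA (h ▸ dvd_zero _)
  have hsign : ∀ L a b : ℕ, 0 < L → k₁ * L ≤ a → a < k₁ * L + L → k₂ * L ≤ b → b < k₂ * L + L →
      W.Δ * shq A B (s₀ + N * a) (t₀ + N * b) < 0 := by
    intro L a b hL ha1 ha2 hb1 hb2
    have hL' : (1 : ℤ) ≤ L := by exact_mod_cast hL
    have hN1 : (1 : ℤ) ≤ N := by exact_mod_cast hN0
    have hK2 : (2 : ℤ) ≤ K := by exact_mod_cast Nat.le_add_left 2 _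
    have key : ∀ (x y : ℕ) (u₀ v₀ : ℤ), 0 ≤ u₀ → 0 ≤ v₀ → v₀ < N → 2 * K * L ≤ x → y < L →
        0 < u₀ + N * x ∧ (K : ℤ) * (v₀ + N * y) ≤ u₀ + N * x := by
      intro x y u₀ v₀ hu hv hv' hx hy
      have hx' : (2 : ℤ) * K * L ≤ x := by exact_mod_cast hx
      have hy' : (y : ℤ) + 1 ≤ L := by exact_mod_cast hy
      have h1 : (N : ℤ) * (2 * K * L) ≤ N * x := mul_le_mul_of_nonneg_left hx' (by linarith)
      have h2 : v₀ + N * y ≤ N * L := by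
        have := mul_le_mul_of_nonneg_left hy' (show (0 : ℤ) ≤ N by linarith)
        linarith
      have h3 : (K : ℤ) * (v₀ + N * y) ≤ K * (N * L) := mul_le_mul_of_nonneg_left h2 (by linarith)
      have h4 : (0 : ℤ) < K * (N * L) := by positivity
      constructor <;> linarith
    rcases lt_or_gt_of_ne hΔ with hlt | hgt
    · simp only [hk₁, hk₂, if_pos hlt, zero_mul, zero_add] at ha1 hb2
      obtain ⟨h1, h2⟩ := key a b s₀ t₀ hs₀ ht₀ ht₁ ha1 hb2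
      exact mul_neg_of_neg_of_pos hlt (shq_pos h1 (by positivity) (hKZ ▸ h2))
    · simp only [hk₁, hk₂, if_neg (not_lt.2 hgt.le), zero_mul, zero_add] at hb1 ha2
      obtain ⟨h1, h2⟩ := key b a t₀ s₀ ht₀ hs₀ hs₁ hb1 ha2
      exact mul_neg_of_pos_of_neg hgt (shq_neg hAne h1 (by positivity) (hKZ ▸ h2))
  obtain ⟨L, a, b, hL, ha1, ha2, hb1, hb2, hcop, hsf⟩ := FLTAgent.Switch.exists_squarefree_away
    (shq A B) hN0 hdvd2 hdvd3 hs₀ ht₀ hs₁ ht₁ hprim hroots C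
    (fun s t M hs ht => shq_bound A B s t M hs ht) k₁ k₂
    (fun L a b hL h1 h2 h3 h4 => right_ne_zero_of_mul (hsign L a b hL h1 h2 h3 h4).ne)
  have hN65 : (65536 : ℤ) ∣ N := by
    rw [hN]; push_cast; exact (dvd_mul_right _ _).mul_right _
  refine ⟨s₀ + N * a, t₀ + N * b, ?_, ?_, hcop, hsign L a b hL ha1 ha2 hb1 hb2, ?_, ?_⟩
  · intro h
    have h1 : (2 : ℤ) ∣ s₀ - 1 := Dvd.dvd.trans (by norm_num) hsa
    have h2 : (2 : ℤ) ∣ (N : ℤ) * a := by exact_mod_cast dvd_mul_of_dvd_left hdvd2 a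
    have := dvd_sub ((dvd_add_left h2).1 h) h1
    norm_num at this
  · rw [show t₀ + N * b - T.rho * (s₀ + N * a) =
      t₀ - T.rho - T.rho * (s₀ - 1) + (N : ℤ) * (b - T.rho * a) by ring]
    exact dvd_add (dvd_sub (by exact_mod_cast hta) (dvd_mul_of_dvd_right (by exact_mod_cast hsa) _))
      (hN65.mul_right _)
  · intro p hp hp2 hor
    have hpU := (hmemU p).2 ⟨hp, hp2, hor⟩
    rcases hclass a b p hpU with ⟨h1, h2, hg⟩ | ⟨hg, h1, h2, h3, h4⟩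
    · exact Or.inl ⟨h1, h2, hg⟩
    · simp only [hgood, Classical.not_imp, Nat.not_odd_iff_even] at hg
      haveI : Fact p.Prime := ⟨hp⟩
      have hv : 1 ≤ padicValInt p W.Δ :=
        ((padicValInt_dvd_iff (p := p) 1 W.Δ).1 (by simpa using hg.1)).resolve_left hΔ
      have hv2 : 2 ≤ padicValInt p W.Δ := by
        obtain ⟨o, ho⟩ := hg.2
        omega
      exact Or.inr ⟨hg.1, hg.2, shq_valuation_one W hp hp2
        ((padicValInt_dvd_iff (p := p) 2 W.Δ).2 (Or.inr hv2)) (hW p hp hg.1) h1 h2 h3 h4⟩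
  · intro p hp hp2 hp3 hpΔ
    refine hsf p hp fun hpN => ?_
    rcases hNU p hp hpN with h | h
    · exact hp2 h
    · exact ((hmemU p).1 h).2.2.elim hp3 hpΔ

end FLTAgent.Mod2
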