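import Fermat.Prelude.Def_FLTPrelim_ModularRep
import Fermat.Agent.EllTorsion.Galois
import Fermat.Agent.GalCommon.Basic
import Mathlib.RingTheory.Polynomial.RationalRoot

/-!
# Irreducibility of the mod `2` representation from the cubic in `c₄`, `c₆`

`modRepIsIrreducible_two`: if `z³ - 3 c₄ z - 2 c₆` has no integer root the representation is
irreducible, since a Galois-fixed point of order two gives a rational, hence integral, root
(`exists_int_root_cubic`).
-/

set_option autoImplicit false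

namespace FLTAgent.Mod2

open Polynomial WeierstrassCurve
open scoped WeierstrassCurve.Affine

noncomputable section

theorem exists_int_root_cubic {A B : ℤ} {q : ℚ} (hq : q ^ 3 - 3 * (A : ℚ) * q - 2 * (B : ℚ) = 0) :
    ∃ z : ℤ, z ^ 3 - 3 * A * z - 2 * B = 0 := by
  have hint : IsIntegral ℤ q := by
    refine ⟨X ^ 3 + C (-3 * A) * X + C (-2 * B), by monicity!, ?_⟩
    rw [← hq]
    simp only [eval₂_add, eval₂_mul, eval₂_X_pow, eval₂_X, eval₂_C, algebraMap_int_eq]
    simp only [eq_intCast]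
    push_cast
    ring
  obtain ⟨z, rfl⟩ := IsIntegrallyClosed.isIntegral_iff.1 hint
  refine ⟨z, ?_⟩
  simp only [algebraMap_int_eq, eq_intCast] at hq
  exact_mod_cast hq

local notation "Qbar" => AlgebraicClosure ℚ

/-- If the cubic has no integer root, the mod `2` representation is irreducible. -/
theorem modRepIsIrreducible_two (W : WeierstrassCurve ℤ) (hΔ : W.Δ ≠ 0)
    (hno : ∀ z : ℤ, z ^ 3 - 3 * W.c₄ * z - 2 * W.c₆ ≠ 0) :
    W.ModRepIsIrreducible 2 := by
  classical
  set WQ := W.map (Int.castRingHom ℚ) with hWQ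
  have : WQ.IsElliptic := FLTAgent.EllTorsion.isElliptic_map_rat hΔ
  have : (WQ⁄Qbar).IsElliptic := inferInstanceAs (WQ.map (algebraMap ℚ Qbar)).IsElliptic
  refine ⟨FLTAgent.EllTorsion.nontrivial_torsionBy_rat WQ 2 (by norm_num), fun N hN => ?_⟩
  by_contra hcon
  push Not at hcon
  obtain ⟨hbot, htop⟩ := hcon
  obtain ⟨T, hTN, hT0⟩ := Submodule.exists_mem_ne_zero_of_ne_bot hbot
  have tor : ∀ R : Submodule.torsionBy ℤ (WQ⁄Qbar).Point (2 : ℕ), R + R = 0 := by
    intro R
    apply Subtype.ext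
    have := R.2
    rw [Submodule.mem_torsionBy_iff] at this
    have h2 : (2 : ℕ) • (R : (WQ⁄Qbar).Point) = 0 := by
      rw [← natCast_zsmul]; exact_mod_cast this
    rw [two_nsmul] at h2
    simpa using h2
  have h4 : Nat.card (Submodule.torsionBy ℤ (WQ⁄Qbar).Point (2 : ℕ)) = 4 :=
    FLTAgent.EllTorsion.natCard_torsionBy_rat WQ 2 (by norm_num)
  have := FLTAgent.EllTorsion.finite_torsionBy_rat WQ 2 (by norm_num)
  -- `T` is fixed by Galois
  have hfixT : ∀ σ : Qbar ≃ₐ[ℚ] Qbar, σ • T = T := by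
    intro σ
    by_contra hne
    apply htop
    have hU : σ • T ∈ N := hN σ T hTN
    set U := σ • T with hUdef
    have hU0 : U ≠ 0 := fun h => hT0 (by
      have := congrArg (σ⁻¹ • ·) h
      simp only [hUdef, inv_smul_smul, smul_zero] at this
      exact this)
    have t := tor T
    have u := tor U
    set S : Finset (Submodule.torsionBy ℤ (WQ⁄Qbar).Point (2 : ℕ)) := {0, T, U, T + U} with hS
    have hTU : T + U ≠ 0 := fun h => hne (by linear_combination (norm := abel) h - t)
    have hcard : S.card = 4 := by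
      have a1 : (0 : Submodule.torsionBy ℤ (WQ⁄Qbar).Point (2 : ℕ)) ≠ T := Ne.symm hT0
      have a2 : T ≠ U := Ne.symm hne
      have a3 : T ≠ T + U := fun h => hU0 (by linear_combination (norm := abel) -h)
      have a4 : U ≠ T + U := fun h => hT0 (by linear_combination (norm := abel) -h)
      rw [hS, Finset.card_insert_of_notMem (by simp [a1, Ne.symm hU0, Ne.symm hTU]),
        Finset.card_insert_of_notMem (by simp [a2, a3]),
        Finset.card_insert_of_notMem (by simp [a4]), Finset.card_singleton]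
    refine eq_top_iff.2 fun R _ => ?_
    have := Fintype.ofFinite (Submodule.torsionBy ℤ (WQ⁄Qbar).Point (2 : ℕ))
    have hR : R ∈ S := by
      rw [Finset.eq_univ_of_card S (by rw [hcard, ← h4, Nat.card_eq_fintype_card])]
      exact Finset.mem_univ _
    simp only [hS, Finset.mem_insert, Finset.mem_singleton] at hR
    rcases hR with rfl | rfl | rfl | rfl
    exacts [N.zero_mem, hTN, hU, N.add_mem hTN hU]
  cases hc : (T : (WQ⁄Qbar).Point) with
  | zero => exact hT0 (Subtype.ext hc)
  | some x y hxy =>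
    have hfix : ∀ σ : Qbar ≃ₐ[ℚ] Qbar, σ x = x := by
      intro σ
      have e := congrArg Subtype.val (hfixT σ)
      have hv : ((σ • T : Submodule.torsionBy ℤ (WQ⁄Qbar).Point (2 : ℕ)) : (WQ⁄Qbar).Point) =
          Affine.Point.map σ.toAlgHom (T : (WQ⁄Qbar).Point) := rfl
      rw [hv, hc, Affine.Point.map_some, Affine.Point.some.injEq] at e
      exact e.1
    obtain ⟨q, hq⟩ := FLTAgent.GalCommon.exists_rat_of_fixed hfix
    have hy : 2 * y + (WQ⁄Qbar).a₁ * x + (WQ⁄Qbar).a₃ = 0 := by
      have e := congrArg Subtype.val (tor T)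
      simp only [Submodule.coe_add, ZeroMemClass.coe_zero] at e
      rw [hc, ← eq_neg_iff_add_eq_zero, Affine.Point.neg_some, Affine.Point.some.injEq] at e
      have := e.2
      rw [Affine.negY] at this
      linear_combination this
    have heq := ((WQ⁄Qbar).toAffine.equation_iff x y).1 hxy.1
    have hroot : (12 * x + (WQ⁄Qbar).b₂) ^ 3 - 3 * (WQ⁄Qbar).c₄ * (12 * x + (WQ⁄Qbar).b₂) -
        2 * (WQ⁄Qbar).c₆ = 0 := by
      simp only [WeierstrassCurve.c₄, WeierstrassCurve.c₆, WeierstrassCurve.b₂, WeierstrassCurve.b₄,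
        WeierstrassCurve.b₆]
      linear_combination (-1728 : Qbar) * heq + 432 * (2 * y + (WQ⁄Qbar).a₁ * x + (WQ⁄Qbar).a₃) * hy
    have hr : (12 * q + (W.b₂ : ℚ)) ^ 3 - 3 * (W.c₄ : ℚ) * (12 * q + (W.b₂ : ℚ)) -
        2 * (W.c₆ : ℚ) = 0 := by
      apply (algebraMap ℚ Qbar).injective
      rw [map_zero, ← hroot]
      change _ = (12 * x + (WQ.map (algebraMap ℚ Qbar)).b₂) ^ 3 -
        3 * (WQ.map (algebraMap ℚ Qbar)).c₄ * (12 * x + (WQ.map (algebraMap ℚ Qbar)).b₂) -
          2 * (WQ.map (algebraMap ℚ Qbar)).c₆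
      rw [← hq]
      simp [hWQ]
    obtain ⟨z, hz⟩ := exists_int_root_cubic hr
    exact hno z hz

end

end FLTAgent.Mod2
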