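import Fermat.Prelude.Def_FLTPrelim_Modularity
import Fermat.Prelude.Def_FLTPrelim_ModularRep
import Mathlib.NumberTheory.Padics.PadicVal.Basic
import Fermat.Agent.Mod2.SwitchParams
import Fermat.Agent.Mod2.OddValCubic
import Fermat.Agent.Mod2.ModelOfInvariants
import Fermat.Agent.Mod2.HesseCongr
import Fermat.Agent.Mod2.TwoTorsion
import Fermat.Agent.Switch.Count

/-!
# The 2-3 switch

`exists_switch23`: for a semistable curve multiplicative at `2` there is a semistable curve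
multiplicative at `2` with congruent traces modulo `3`, negative discriminant of odd valuation at
every bad prime, and irreducible mod `2` representation. It is a member of the Hessian family at
the parameters of `SwitchParams`.
-/

set_option autoImplicit false
set_option linter.style.haveILetI false

namespace FLTAgent.Mod2

open WeierstrassCurve FLTAgent.Switch

/-- Some integral model realises `(C₄, C₆)` modulo `27`. -/
theorem exists_model_mod_27 {C4 C6 D : ℤ} (h3 : ¬ (3 : ℤ) ∣ C4)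
    (hD : C4 ^ 3 - C6 ^ 2 = 1728 * D) :
    ∃ V : WeierstrassCurve ℤ, (27 : ℤ) ∣ C4 - V.c₄ ∧ (27 : ℤ) ∣ C6 - V.c₆ := by
  obtain ⟨u, v, huv⟩ : IsCoprime ((27 : ℕ) : ℤ) C4 := by
    rw [show ((27 : ℕ) : ℤ) = 3 ^ 3 by norm_num]
    exact (Int.prime_three.coprime_iff_not_dvd.2 h3).pow_left
  have hv : (v : ZMod 27) * (C4 : ZMod 27) = 1 := by
    have := congrArg (Int.cast : ℤ → ZMod 27) huv
    push_cast at this
    rw [show (27 : ZMod 27) = 0 from rfl, mul_zero, zero_add] at this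
    exact this
  have hR : (C4 : ZMod 27) ^ 3 = (C6 : ZMod 27) ^ 2 := by
    have := congrArg (Int.cast : ℤ → ZMod 27) hD
    push_cast at this
    rw [show (1728 : ZMod 27) = 0 from rfl, zero_mul, sub_eq_zero] at this
    exact this
  set a : ℤ := 7 * (-(C6 * v)) with ha
  have hb : ((4 * a : ℤ) : ZMod 27) = -((C6 : ZMod 27) * (v : ZMod 27)) := by
    rw [ha]; push_cast
    have h27 : (27 : ZMod 27) = 0 := rfl
    linear_combination (-((C6 : ZMod 27) * (v : ZMod 27))) * h27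
  push_cast at hb
  refine ⟨⟨0, a, 0, 0, 0⟩, ?_, ?_⟩
  · apply (ZMod.intCast_zmod_eq_zero_iff_dvd _ 27).1
    simp only [WeierstrassCurve.c₄, WeierstrassCurve.b₂, WeierstrassCurve.b₄]
    push_cast
    simp only [zero_add, hb, sub_zero]
    linear_combination (v : ZMod 27) ^ 2 * hR - (C4 : ZMod 27) * ((v : ZMod 27) * C4 + 1) * hv
  · apply (ZMod.intCast_zmod_eq_zero_iff_dvd _ 27).1
    simp only [WeierstrassCurve.c₆, WeierstrassCurve.b₂, WeierstrassCurve.b₄, WeierstrassCurve.b₆]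
    push_cast
    simp only [zero_add, hb, sub_zero, mul_zero, add_zero]
    linear_combination (C6 : ZMod 27) * (v : ZMod 27) ^ 3 * hR -
      (C6 : ZMod 27) * (((v : ZMod 27) * C4) ^ 2 + (v : ZMod 27) * C4 + 1) * hv

/-- The 2-3 switch. -/
theorem exists_switch23 (W : WeierstrassCurve ℤ) (hΔ : W.Δ ≠ 0) (hW : W.IsSemistableModel)
    (h2 : (2 : ℤ) ∣ W.Δ) :
    ∃ W' : WeierstrassCurve ℤ, W'.Δ < 0 ∧ W'.IsSemistableModel ∧ (2 : ℤ) ∣ W'.Δ ∧
      (∀ p : ℕ, p.Prime → (p : ℤ) ∣ W'.Δ → Odd (padicValInt p W'.Δ)) ∧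
      W'.ModRepIsIrreducible 2 ∧ ((3 : ℤ) ∣ W'.Δ → (3 : ℤ) ∣ W.Δ) ∧
      ∀ ℓ : ℕ, ℓ.Prime → W.IsGoodPrimeFor ℓ → W'.IsGoodPrimeFor ℓ → ℓ ≠ 3 →
        (3 : ℤ) ∣ (W'.apOfModel ℓ - W.apOfModel ℓ) := by
  have hA := odd_c₄_of_two_dvd_Δ hW h2
  obtain ⟨T⟩ := exists_twoData W hΔ hA h2
  obtain ⟨s, t, hs, hts, hst, hneg, hbadP, hgoodP⟩ := exists_params W hΔ hW hA T
  obtain ⟨C4, C6, Q, e4, e6, eq, hC4, hC6, hQ⟩ := T.spec s t hs hts
  set A := W.c₄
  set B := W.c₆
  set l := T.lam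
  have hl0 : l ≠ 0 := ne_of_gt T.lam_pos
  set D := T.eta * W.Δ * Q ^ 3 with hD
  have hrel : C4 ^ 3 - C6 ^ 2 = 1728 * D := by
    apply mul_left_cancel₀ (pow_ne_zero 12 hl0)
    have hid := sh4_cube_sub_sh6_sq A B s t
    rw [e4, e6, eq, ← W.c_relation] at hid
    rw [hD]
    linear_combination hid + 1728 * W.Δ * Q ^ 3 * T.eta_spec
  -- the scaling is prime to every odd number
  have hl4 : ∀ n : ℤ, ¬ (2 : ℤ) ∣ n → ∀ k, IsCoprime n (l ^ k) := by
    intro n hn k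
    have h2n : IsCoprime (2 : ℤ) n := Int.prime_two.coprime_iff_not_dvd.2 hn
    exact ((h2n.mul_left h2n).of_isCoprime_of_dvd_left T.lam_dvd).symm.pow_right
  have congC : ∀ n : ℕ, ¬ (2 : ℤ) ∣ (n : ℤ) → (n : ℤ) ∣ s - l → (n : ℤ) ∣ t →
      (n : ℤ) ∣ C4 - A ∧ (n : ℤ) ∣ C6 - B ∧ (n : ℤ) ∣ shq A B s t - l ^ 4 := by
    intro n hn hns hnt
    have ht0 : (t : ZMod n) = 0 := (ZMod.intCast_zmod_eq_zero_iff_dvd _ n).2 hnt
    have hs0 : (s : ZMod n) = (l : ZMod n) := intCast_eq_of_dvd hns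
    refine ⟨?_, ?_, ?_⟩
    · refine (hl4 _ hn 4).dvd_of_dvd_mul_left ?_
      apply (ZMod.intCast_zmod_eq_zero_iff_dvd _ n).1
      rw [mul_sub, ← e4, ← eq_intCast (Int.castRingHom (ZMod n)), map_sub, map_sh4]
      simp only [eq_intCast, ht0, hs0, sh4]
      push_cast; ring
    · refine (hl4 _ hn 6).dvd_of_dvd_mul_left ?_
      apply (ZMod.intCast_zmod_eq_zero_iff_dvd _ n).1
      rw [mul_sub, ← e6, ← eq_intCast (Int.castRingHom (ZMod n)), map_sub, map_sh6]
      simp only [eq_intCast, ht0, hs0, sh6]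
      push_cast; ring
    · apply (ZMod.intCast_zmod_eq_zero_iff_dvd _ n).1
      rw [← eq_intCast (Int.castRingHom (ZMod n)), map_sub, map_shq]
      simp only [eq_intCast, ht0, hs0, shq]
      push_cast; ring
  have odd_cast : ∀ p : ℕ, p.Prime → p ≠ 2 → ¬ (2 : ℤ) ∣ (p : ℤ) := fun p hp hp2 h =>
    hp2 (((Nat.prime_dvd_prime_iff_eq Nat.prime_two hp).1 (by exact_mod_cast h)).symm)
  have hlp : ∀ p : ℕ, p.Prime → p ≠ 2 → ¬ (p : ℤ) ∣ l := by
    intro p hp hp2 h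
    have h2' : (p : ℤ) ∣ 2 * 2 := h.trans T.lam_dvd
    rcases (Nat.prime_iff_prime_int.1 hp).dvd_or_dvd h2' with h | h <;>
      exact hp2 ((Nat.prime_dvd_prime_iff_eq hp Nat.prime_two).1 (by exact_mod_cast h))
  -- where `(s, t)` is near `(λ, 0)` the invariants are those of `W`
  have near : ∀ p : ℕ, p.Prime → p ≠ 2 → (p : ℤ) ^ 3 ∣ s - l → (p : ℤ) ^ 3 ∣ t →
      (p : ℤ) ∣ C4 - A ∧ ¬ (p : ℤ) ∣ shq A B s t := by
    intro p hp hp2 h1 h2
    obtain ⟨h4, -, hq⟩ := congC p (odd_cast p hp hp2)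
      ((dvd_pow_self _ (by norm_num : 3 ≠ 0)).trans h1) ((dvd_pow_self _ (by norm_num : 3 ≠ 0)).trans h2)
    refine ⟨h4, fun h => hlp p hp hp2 ((Nat.prime_iff_prime_int.1 hp).dvd_of_dvd_pow (n := 4) ?_)⟩
    have := dvd_sub h hq
    rwa [sub_sub_cancel] at this
  obtain ⟨V, h27a, h27b⟩ : ∃ V : WeierstrassCurve ℤ, (27 : ℤ) ∣ C4 - V.c₄ ∧ (27 : ℤ) ∣ C6 - V.c₆ := by
    rcases hbadP 3 Nat.prime_three (by norm_num) (Or.inl rfl) with ⟨h1, h2, -⟩ | ⟨-, -, -, -, h4⟩
    · norm_num at h1 h2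
      obtain ⟨a, b, -⟩ := congC 27 (by norm_num) (by simpa using h1) (by simpa using h2)
      exact ⟨W, by simpa using a, by simpa using b⟩
    · refine exists_model_mod_27 (fun h => h4 ?_) hrel
      rw [e4]
      exact_mod_cast h.mul_left _
  obtain ⟨W', eC4, eC6, eD⟩ := exists_model_of_invariants V hC4 hC6 h27a h27b hrel
  have hscale : l ^ 12 * D = W.Δ * shq A B s t ^ 3 := by
    rw [hD, eq]; linear_combination (-(W.Δ * Q ^ 3)) * T.eta_spec
  have hQ0 : Q ≠ 0 := fun h => hQ (h ▸ dvd_zero _)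
  have hq0 : shq A B s t ≠ 0 := right_ne_zero_of_mul hneg.ne
  have hD0 : D ≠ 0 := by
    rw [hD]; exact mul_ne_zero (mul_ne_zero (ne_of_gt T.eta_pos) hΔ) (pow_ne_zero _ hQ0)
  have hDneg : D < 0 := by
    have h1 : l ^ 12 * D < 0 := by
      rw [hscale, show W.Δ * shq A B s t ^ 3 = W.Δ * shq A B s t * shq A B s t ^ 2 by ring]
      exact mul_neg_of_neg_of_pos hneg (by positivity)
    exact neg_of_mul_neg_right (a := l ^ 12) h1 (by positivity)
  have h2D : (2 : ℤ) ∣ D := by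
    rw [hD]; exact Dvd.dvd.mul_right (Dvd.dvd.mul_left h2 _) _
  -- the bad primes
  have hbad : ∀ p : ℕ, p.Prime → (p : ℤ) ∣ D → ¬ (p : ℤ) ∣ C4 ∧ Odd (padicValInt p D) := by
    intro p hp hpD
    haveI : Fact p.Prime := ⟨hp⟩
    rcases eq_or_ne p 2 with rfl | hp2
    · refine ⟨by exact_mod_cast hC4, ?_⟩
      have hQv : padicValInt 2 Q = 0 := padicValInt.eq_zero_of_not_dvd (by exact_mod_cast hQ)
      rw [hD, padicValInt.mul (mul_ne_zero (ne_of_gt T.eta_pos) hΔ) (pow_ne_zero _ hQ0),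
        padicValInt.mul (ne_of_gt T.eta_pos) hΔ, show Q ^ 3 = Q * (Q * Q) by ring,
        padicValInt.mul hQ0 (mul_ne_zero hQ0 hQ0), padicValInt.mul hQ0 hQ0, hQv]
      simpa [add_comm] using T.odd_val
    have hpi := Nat.prime_iff_prime_int.1 hp
    have hv : padicValInt p D = padicValInt p W.Δ + 3 * padicValInt p (shq A B s t) := by
      have h := congrArg (padicValInt p) hscale
      rw [padicValInt.mul (pow_ne_zero _ hl0) hD0,
        padicValInt.eq_zero_of_not_dvd fun h => hlp p hp hp2 (hpi.dvd_of_dvd_pow h),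
        padicValInt.mul hΔ (pow_ne_zero _ hq0),
        show shq A B s t ^ 3 = shq A B s t * (shq A B s t * shq A B s t) by ring,
        padicValInt.mul hq0 (mul_ne_zero hq0 hq0), padicValInt.mul hq0 hq0] at h
      omega
    have val1 : (p : ℤ) ∣ shq A B s t → ¬ (p : ℤ) ^ 2 ∣ shq A B s t →
        padicValInt p (shq A B s t) = 1 := by
      intro ha hb
      have h1 : 1 ≤ padicValInt p (shq A B s t) :=
        ((padicValInt_dvd_iff (p := p) 1 _).1 (by simpa using ha)).resolve_left hq0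
      have h2 : ¬ 2 ≤ padicValInt p (shq A B s t) := fun h =>
        hb ((padicValInt_dvd_iff (p := p) 2 _).2 (Or.inr h))
      omega
    have hC4' : (p : ℤ) ∣ C4 → (p : ℤ) ∣ sh4 A B s t := fun h => e4 ▸ h.mul_left _
    have hdiv : (p : ℤ) ∣ W.Δ ∨ (p : ℤ) ∣ shq A B s t := by
      have h : (p : ℤ) ∣ W.Δ * shq A B s t ^ 3 := hscale ▸ hpD.mul_left _
      exact (hpi.dvd_or_dvd h).imp id hpi.dvd_of_dvd_pow
    by_cases hor : p = 3 ∨ (p : ℤ) ∣ W.Δ
    · rcases hbadP p hp hp2 hor with ⟨h1, h2, hodd⟩ | ⟨hpΔ, hev, hq1, hq2, h4⟩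
      · obtain ⟨h4, hq⟩ := near p hp hp2 h1 h2
        have hpΔ := hdiv.resolve_right hq
        refine ⟨fun h => hW p hp hpΔ ?_, ?_⟩
        · have := dvd_sub h h4
          rwa [sub_sub_cancel] at this
        · rw [hv, padicValInt.eq_zero_of_not_dvd hq, mul_zero, add_zero]
          exact hodd hpΔ
      · refine ⟨fun h => h4 (hC4' h), ?_⟩
        rw [hv, val1 hq1 hq2]
        exact hev.add_odd (by decide)
    · push Not at hor
      have hq1 := hdiv.resolve_left hor.2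
      refine ⟨fun h => ?_, ?_⟩
      · have h6 : (6 : ZMod p) ≠ 0 := by
          intro h
          have h' : ((2 * 3 : ℕ) : ZMod p) = 0 := by push_cast; linear_combination h
          rcases hp.dvd_mul.1 ((ZMod.natCast_eq_zero_iff _ p).1 h') with h | h
          · exact hp2 ((Nat.prime_dvd_prime_iff_eq hp Nat.prime_two).1 h)
          · exact hor.1 ((Nat.prime_dvd_prime_iff_eq hp Nat.prime_three).1 h)
        have hAB : (A : ZMod p) ^ 3 ≠ (B : ZMod p) ^ 2 := by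
          intro he
          have hr := congrArg (Int.cast : ℤ → ZMod p) W.c_relation
          push_cast at hr
          rw [he, sub_self, show (1728 : ZMod p) = 6 ^ 3 * 8 by norm_num] at hr
          have h8 : (8 : ZMod p) ≠ 0 := fun h => h6 (by
            have : (2 : ZMod p) ^ 3 = 0 := by linear_combination h
            linear_combination 3 * eq_zero_of_pow_eq_zero this)
          exact mul_ne_zero (mul_ne_zero (pow_ne_zero 3 h6) h8)
            (fun h => hor.2 ((ZMod.intCast_zmod_eq_zero_iff_dvd _ p).1 h)) hr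
        have hq0' := (ZMod.intCast_zmod_eq_zero_iff_dvd _ p).2 hq1
        have h40 := (ZMod.intCast_zmod_eq_zero_iff_dvd _ p).2 (hC4' h)
        rw [← eq_intCast (Int.castRingHom (ZMod p)), map_shq] at hq0'
        rw [← eq_intCast (Int.castRingHom (ZMod p)), map_sh4] at h40
        obtain ⟨z1, z2⟩ := sh4_shq_eq_zero h6 hAB hq0' h40
        simp only [eq_intCast, ZMod.intCast_zmod_eq_zero_iff_dvd] at z1 z2
        exact hpi.not_isUnit (hst.isUnit_of_dvd' z1 z2)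
      · rw [hv, padicValInt.eq_zero_of_not_dvd hor.2, val1 hq1 (hgoodP p hp hp2 hor.1 hor.2)]
        decide
  have h3D : (3 : ℤ) ∣ D → (3 : ℤ) ∣ W.Δ := by
    intro h
    rcases hbadP 3 Nat.prime_three (by norm_num) (Or.inl rfl) with ⟨h1, h2, -⟩ | ⟨h3, -⟩
    · obtain ⟨-, hq⟩ := near 3 Nat.prime_three (by norm_num) h1 h2
      have h' : (3 : ℤ) ∣ W.Δ * shq A B s t ^ 3 := hscale ▸ h.mul_left _
      exact (Int.prime_three.dvd_or_dvd h').resolve_right fun h'' =>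
        hq (by exact_mod_cast Int.prime_three.dvd_of_dvd_pow h'')
    · exact_mod_cast h3
  refine ⟨W', eD ▸ hDneg, ?_, eD ▸ h2D, eD ▸ fun p hp h => (hbad p hp h).2,
    ?_, eD ▸ h3D, ?_⟩
  · intro p hp hpΔ
    rw [eC4]
    exact (hbad p hp (eD ▸ hpΔ)).1
  · refine modRepIsIrreducible_two W' (eD ▸ hD0) fun z => ?_
    rw [eC4, eC6]
    exact no_root_of_odd_valuations hrel hDneg h2D hC4 hbad z
  · intro ℓ hℓ hg hg' h3
    classical
    haveI : Fact ℓ.Prime := ⟨hℓ⟩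
    have hℓ2 : ℓ ≠ 2 := fun h => hg (by subst h; exact_mod_cast h2)
    have h6 : (6 : ZMod ℓ) ≠ 0 := by
      intro h
      have h' : ((2 * 3 : ℕ) : ZMod ℓ) = 0 := by push_cast; linear_combination h
      rcases hℓ.dvd_mul.1 ((ZMod.natCast_eq_zero_iff _ ℓ).1 h') with h | h
      · exact hℓ2 ((Nat.prime_dvd_prime_iff_eq hℓ Nat.prime_two).1 h)
      · exact h3 ((Nat.prime_dvd_prime_iff_eq hℓ Nat.prime_three).1 h)
    have h1728 : (1728 : ZMod ℓ) ≠ 0 := by
      rw [show (1728 : ZMod ℓ) = 6 ^ 3 * 2 ^ 3 by norm_num]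
      exact mul_ne_zero (pow_ne_zero _ h6)
        (pow_ne_zero _ fun h => h6 (by linear_combination 3 * h))
    have hlℓ : (l : ZMod ℓ) ≠ 0 := by
      intro h
      have h1 := (ZMod.intCast_zmod_eq_zero_iff_dvd _ ℓ).1 h
      have h2' : (ℓ : ℤ) ∣ 2 * 2 := h1.trans T.lam_dvd
      rcases (Nat.prime_iff_prime_int.1 hℓ).dvd_or_dvd h2' with h | h <;>
        exact hℓ2 ((Nat.prime_dvd_prime_iff_eq hℓ Nat.prime_two).1 (by exact_mod_cast h))
    have good : ∀ V : WeierstrassCurve ℤ, V.IsGoodPrimeFor ℓ →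
        (V.c₄ : ZMod ℓ) ^ 3 ≠ (V.c₆ : ZMod ℓ) ^ 2 := by
      intro V hV he
      have hr := congrArg (Int.cast : ℤ → ZMod ℓ) V.c_relation
      push_cast at hr
      rw [he, sub_self] at hr
      exact hV ((ZMod.intCast_zmod_eq_zero_iff_dvd _ ℓ).1 ((mul_eq_zero.1 hr).resolve_left h1728))
    set k := (l : ZMod ℓ)⁻¹ with hk
    have h4 : sh4 (A : ZMod ℓ) (B : ZMod ℓ) (k * s) (k * t) = (W'.c₄ : ZMod ℓ) := by
      rw [sh4_smul, eC4, ← eq_intCast (Int.castRingHom (ZMod ℓ)) A,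
        ← eq_intCast (Int.castRingHom (ZMod ℓ)) B, ← eq_intCast (Int.castRingHom (ZMod ℓ)) s,
        ← eq_intCast (Int.castRingHom (ZMod ℓ)) t, ← map_sh4, e4, eq_intCast, Int.cast_mul,
        Int.cast_pow, hk, inv_pow, ← mul_assoc, inv_mul_cancel₀ (pow_ne_zero _ hlℓ), one_mul]
    have h6' : sh6 (A : ZMod ℓ) (B : ZMod ℓ) (k * s) (k * t) = (W'.c₆ : ZMod ℓ) := by
      rw [sh6_smul, eC6, ← eq_intCast (Int.castRingHom (ZMod ℓ)) A,
        ← eq_intCast (Int.castRingHom (ZMod ℓ)) B, ← eq_intCast (Int.castRingHom (ZMod ℓ)) s,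
        ← eq_intCast (Int.castRingHom (ZMod ℓ)) t, ← map_sh6, e6, eq_intCast, Int.cast_mul,
        Int.cast_pow, hk, inv_pow, ← mul_assoc, inv_mul_cancel₀ (pow_ne_zero _ hlℓ), one_mul]
    rw [apOfModel_sub W W' h6 hg hg', dvd_sub_comm, ← h4, ← h6']
    refine hesse_congr (L := AlgebraicClosure (ZMod ℓ)) h6 _ _ _ _ (good W hg) ?_
    rw [h4, h6']
    exact good W' hg'

end FLTAgent.Mod2
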