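import Mathlib

/-!
# Class characters killed by norms from an unramified cyclic cubic extension

Let `L/K` be a cyclic cubic extension of number fields without nontrivial inertia, where the units
of `K` are torsion without element of order `3` and those of `L` are not all torsion. The extension
map of class groups is then not injective and reaches every fixed class, so the norms of the
classes of `L` form a proper subgroup: some cubic character kills them.

Main declarations: `exists_character`.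
-/

set_option autoImplicit false

noncomputable section

open NumberField nonZeroDivisors
open scoped Pointwise

namespace FLTAgent.Mod2.CubicClass

section Lift

variable {R : Type*} [CommRing R] [IsDedekindDomain R] {H : Type*} [CommGroup H]

/-- A hom of nonzero ideals constant on classes descends to the class group. -/
def descend (f : (Ideal R)⁰ →* H)
    (hf : ∀ I J, ClassGroup.mk0 I = ClassGroup.mk0 J → f I = f J) : ClassGroup R →* H where
  toFun c := f (ClassGroup.mk0_surjective c).choose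
  map_one' := by
    rw [hf _ 1 (by rw [(ClassGroup.mk0_surjective 1).choose_spec, map_one]), map_one]
  map_mul' c d := by
    rw [← map_mul]
    exact hf _ _ (by
      rw [map_mul, (ClassGroup.mk0_surjective (c * d)).choose_spec,
        (ClassGroup.mk0_surjective c).choose_spec, (ClassGroup.mk0_surjective d).choose_spec])

theorem descend_mk0 (f : (Ideal R)⁰ →* H)
    (hf : ∀ I J, ClassGroup.mk0 I = ClassGroup.mk0 J → f I = f J) (I : (Ideal R)⁰) :
    descend f hf (ClassGroup.mk0 I) = f I :=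
  hf _ _ (ClassGroup.mk0_surjective _).choose_spec

end Lift

variable {K L : Type} [Field K] [NumberField K] [Field L] [NumberField L] [Algebra K L]
  [IsGalois K L]

/-- The action of an automorphism on nonzero ideals. -/
def smulIdeal (σ : L ≃ₐ[K] L) : (Ideal (𝓞 L))⁰ →* (Ideal (𝓞 L))⁰ where
  toFun I := ⟨σ • (I : Ideal (𝓞 L)), mem_nonZeroDivisors_iff_ne_zero.2 fun h =>
    nonZeroDivisors.coe_ne_zero I (by
      have := congrArg (σ⁻¹ • ·) h
      simpa using this)⟩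
  map_one' := Subtype.ext (by simp [Ideal.one_eq_top, Ideal.pointwise_smul_def, Ideal.map_top])
  map_mul' I J := Subtype.ext (smul_mul' σ (I : Ideal (𝓞 L)) J)

theorem smul_span_singleton (σ : L ≃ₐ[K] L) (x : 𝓞 L) :
    σ • Ideal.span {x} = Ideal.span {σ • x} := by
  rw [Ideal.pointwise_smul_def, Ideal.map_span, Set.image_singleton]; rfl

/-- The action on classes. -/
def smulClass (σ : L ≃ₐ[K] L) : ClassGroup (𝓞 L) →* ClassGroup (𝓞 L) :=
  descend (ClassGroup.mk0.comp (smulIdeal σ)) fun I J h => by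
    obtain ⟨x, y, hx, hy, e⟩ := ClassGroup.mk0_eq_mk0_iff.1 h
    refine ClassGroup.mk0_eq_mk0_iff.2 ⟨σ • x, σ • y,
      (smul_ne_zero_iff_ne σ).2 hx, (smul_ne_zero_iff_ne σ).2 hy, ?_⟩
    have := congrArg (σ • ·) e
    simpa [smulIdeal, smul_mul', smul_span_singleton] using this

variable (K L) in
/-- The norm on classes. -/
def normClass : ClassGroup (𝓞 L) →* ClassGroup (𝓞 K) :=
  descend
    (ClassGroup.mk0.comp
      { toFun := fun I => ⟨Ideal.relNorm (𝓞 K) (I : Ideal (𝓞 L)),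
          mem_nonZeroDivisors_iff_ne_zero.2 fun h =>
            nonZeroDivisors.coe_ne_zero I (Ideal.relNorm_eq_bot_iff.1 h)⟩
        map_one' := Subtype.ext (map_one _)
        map_mul' := fun I J => Subtype.ext (map_mul _ _ _) })
    fun I J h => by
      obtain ⟨x, y, hx, hy, e⟩ := ClassGroup.mk0_eq_mk0_iff.1 h
      refine ClassGroup.mk0_eq_mk0_iff.2 ⟨Algebra.intNorm (𝓞 K) (𝓞 L) x,
        Algebra.intNorm (𝓞 K) (𝓞 L) y, mt Algebra.intNorm_eq_zero.1 hx,
        mt Algebra.intNorm_eq_zero.1 hy, ?_⟩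
      simpa [map_mul, Ideal.relNorm_singleton] using congrArg (Ideal.relNorm (𝓞 K)) e

theorem normClass_mk0 (I : (Ideal (𝓞 L))⁰) (J : (Ideal (𝓞 K))⁰)
    (h : Ideal.relNorm (𝓞 K) (I : Ideal (𝓞 L)) = J) :
    normClass K L (ClassGroup.mk0 I) = ClassGroup.mk0 J :=
  (descend_mk0 _ _ I).trans (congrArg ClassGroup.mk0 (Subtype.ext h))

theorem normClass_smulClass (σ : L ≃ₐ[K] L) (c : ClassGroup (𝓞 L)) :
    normClass K L (smulClass σ c) = normClass K L c := by
  obtain ⟨I, rfl⟩ := ClassGroup.mk0_surjective c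
  rw [smulClass, descend_mk0, normClass, MonoidHom.comp_apply, descend_mk0, descend_mk0]
  exact congrArg ClassGroup.mk0 (Subtype.ext (Ideal.relNorm_smul (R := 𝓞 K) σ (I : Ideal (𝓞 L))))

theorem normClass_extended (c : ClassGroup (𝓞 K)) :
    normClass K L (ClassGroup.extendedHom (𝓞 K) (𝓞 L) c) = c ^ Module.finrank (𝓞 K) (𝓞 L) := by
  obtain ⟨I, rfl⟩ := ClassGroup.mk0_surjective c
  rw [ClassGroup.extendedHom_mk0, normClass_mk0 _ (I ^ Module.finrank (𝓞 K) (𝓞 L)), map_pow]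
  exact Ideal.relNorm_algebraMap (𝓞 L) (I : Ideal (𝓞 K))

/-- All inertia groups are trivial. -/
def NoInertia (K L : Type*) [Field K] [Field L] [Algebra K L] : Prop :=
  ∀ (Q : Ideal (𝓞 L)), Q.IsMaximal → ∀ τ : L ≃ₐ[K] L, (∀ x : 𝓞 L, τ • x - x ∈ Q) → τ = 1

theorem le_map_of_fixed (hno : NoInertia K L) {I : Ideal (𝓞 L)} {P : Ideal (𝓞 L)} [P.IsMaximal]
    (hP0 : P ≠ ⊥) (hfix : ∀ τ : L ≃ₐ[K] L, τ • I = I) (hIP : I ≤ P) :
    I ≤ (P.under (𝓞 K)).map (algebraMap (𝓞 K) (𝓞 L)) := by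
  classical
  set p := P.under (𝓞 K) with hp
  have : p.IsMaximal := Ideal.IsMaximal.under (𝓞 K) P
  have hp0 : p ≠ ⊥ := Ideal.under_ne_bot (𝓞 K) hP0
  have : PerfectField p.ResidueField := by
    have : Finite (𝓞 K ⧸ p) := Ring.HasFiniteQuotients.finiteQuotient hp0
    have : Finite p.ResidueField := Finite.of_equiv _
      (RingEquiv.ofBijective _ p.bijective_algebraMap_quotient_residueField).toEquiv
    exact PerfectField.ofFinite
  have hdvd : ∀ Q ∈ p.primesOver (𝓞 L), Q ^ Q.ramificationIdx (𝓞 K) ∣ I := by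
    intro Q hQ
    have : Q.IsPrime := hQ.1
    have : Q.LiesOver p := hQ.2
    have : Q.IsMaximal := Ideal.IsMaximal.of_liesOver_isMaximal Q p
    have he : Q.ramificationIdx (𝓞 K) = 1 := by
      rw [← Ideal.ramificationIdxIn_eq_ramificationIdx p Q (L ≃ₐ[K] L),
        ← Ideal.card_inertia_eq_ramificationIdxIn (G := L ≃ₐ[K] L) p Q]
      rw [Subgroup.card_eq_one, eq_bot_iff]
      intro τ hτ
      exact Subgroup.mem_bot.2 (hno Q inferInstance τ fun x => hτ x)
    obtain ⟨τ, hτ⟩ := Ideal.exists_smul_eq_of_isGaloisGroup p P Q (L ≃ₐ[K] L)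
    rw [he, pow_one, Ideal.dvd_iff_le, ← hτ, ← hfix τ]
    exact Ideal.pointwise_smul_le_pointwise_smul_iff.2 hIP
  rw [← Ideal.dvd_iff_le, Ideal.map_algebraMap_eq_finsetProd_pow hp0]
  refine Finset.prod_dvd_of_isRelPrime (fun Q hQ Q' hQ' hne => ?_) fun Q hQ =>
    hdvd Q (by simpa using hQ)
  simp only [Finset.mem_coe, Set.mem_toFinset] at hQ hQ'
  have := hQ.1; have := hQ.2; have := hQ'.1; have := hQ'.2
  have : Q.IsMaximal := Ideal.IsMaximal.of_liesOver_isMaximal Q p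
  have : Q'.IsMaximal := Ideal.IsMaximal.of_liesOver_isMaximal Q' p
  exact (IsCoprime.pow (Ideal.isCoprime_iff_sup_eq.2 (Ideal.IsMaximal.coprime_of_ne ‹_› ‹_› hne))).isRelPrime

/-- A fixed nonzero ideal is extended from below. -/
theorem exists_map_eq_of_fixed (hno : NoInertia K L) (I : Ideal (𝓞 L)) :
    I ≠ ⊥ → (∀ τ : L ≃ₐ[K] L, τ • I = I) →
      ∃ J : Ideal (𝓞 K), J.map (algebraMap (𝓞 K) (𝓞 L)) = I := by
  induction I using WellFoundedGT.induction with
  | _ I IH =>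
    intro hI hfix
    by_cases htop : I = ⊤
    · exact ⟨⊤, by rw [Ideal.map_top, htop]⟩
    obtain ⟨P, hP, hIP⟩ := Ideal.exists_le_maximal I htop
    have hP0 : P ≠ ⊥ := fun h => hI (le_bot_iff.1 (h ▸ hIP))
    set p := P.under (𝓞 K) with hp
    have hle := le_map_of_fixed hno hP0 hfix hIP
    obtain ⟨I', hI'⟩ := Ideal.dvd_iff_le.2 hle
    set M := p.map (algebraMap (𝓞 K) (𝓞 L)) with hM
    have hI'0 : I' ≠ ⊥ := fun h => hI (by rw [hI', h, Ideal.mul_bot])
    have hM0 : M ≠ ⊥ := fun h => hI (by rw [hI', h, Ideal.bot_mul])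
    have hlt : I < I' := by
      refine lt_of_le_of_ne (hI'.trans_le Ideal.mul_le_right) fun e => ?_
      have hMP : M ≤ P := Ideal.map_comap_le
      have : M = ⊤ := by
        have h1 : M * I' = 1 * I' := by rw [one_mul, ← hI', e]
        exact (mul_right_cancel₀ hI'0 h1).trans Ideal.one_eq_top
      exact hP.ne_top (top_le_iff.1 (this ▸ hMP))
    obtain ⟨J, hJ⟩ := IH I' hlt hI'0 fun τ => by
      have hMfix : τ • M = M := by
        rw [hM, Ideal.pointwise_smul_def, Ideal.map_map]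
        congr 1
        exact RingHom.ext fun x => smul_algebraMap τ x
      have h1 := hfix τ
      rw [hI', smul_mul', hMfix] at h1
      exact mul_left_cancel₀ hM0 h1
    exact ⟨p * J, by rw [Ideal.map_mul, hJ, ← hI']⟩

/-- The exponents of a unit in the fundamental system. -/
def unitExp {L : Type} [Field L] [NumberField L] (u : (𝓞 L)ˣ) : Fin (Units.rank L) → ℤ :=
  (Units.exist_unique_eq_mul_prod L u).choose.2

theorem unitExp_eq {L : Type} [Field L] [NumberField L] {u ζ : (𝓞 L)ˣ}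
    {f : Fin (Units.rank L) → ℤ} (hζ : ζ ∈ Units.torsion L)
    (h : u = ζ * ∏ i, Units.fundSystem L i ^ f i) : unitExp u = f :=
  (congrArg Prod.snd
    ((Units.exist_unique_eq_mul_prod L u).choose_spec.2 (⟨ζ, hζ⟩, f) h)).symm

theorem unitExp_mul {L : Type} [Field L] [NumberField L] (u v : (𝓞 L)ˣ) :
    unitExp (u * v) = unitExp u + unitExp v := by
  set a := (Units.exist_unique_eq_mul_prod L u).choose
  set b := (Units.exist_unique_eq_mul_prod L v).choose
  refine unitExp_eq (mul_mem a.1.2 b.1.2) ?_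
  conv_lhs => rw [(Units.exist_unique_eq_mul_prod L u).choose_spec.1,
    (Units.exist_unique_eq_mul_prod L v).choose_spec.1]
  simp only [Pi.add_apply, zpow_add, Finset.prod_mul_distrib]
  exact mul_mul_mul_comm _ _ _ _

theorem unitExp_of_mem_torsion {L : Type} [Field L] [NumberField L] {u : (𝓞 L)ˣ}
    (hu : u ∈ Units.torsion L) : unitExp u = 0 :=
  unitExp_eq hu (by simp)

theorem unitExp_fundSystem {L : Type} [Field L] [NumberField L] (i : Fin (Units.rank L)) :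
    unitExp (Units.fundSystem L i) = Pi.single i 1 := by
  classical
  refine unitExp_eq (one_mem _) ?_
  rw [one_mul, Finset.prod_eq_single i (fun j _ hj => by rw [Pi.single_eq_of_ne hj, zpow_zero])
    (by simp), Pi.single_eq_same, zpow_one]

section Main

variable {σ : L ≃ₐ[K] L} (h3 : Nat.card (L ≃ₐ[K] L) = 3) (hσ : σ ≠ 1)

include h3 hσ

theorem forall_mem_zpowers (τ : L ≃ₐ[K] L) : τ ∈ Subgroup.zpowers σ := by
  have : Fact (Nat.Prime 3) := ⟨Nat.prime_three⟩
  exact mem_zpowers_of_prime_card h3 hσ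

theorem sigma_cube : σ * (σ * σ) = 1 := by
  have := pow_card_eq_one' (G := L ≃ₐ[K] L) (x := σ)
  rw [h3, pow_succ, pow_succ, pow_one, mul_assoc] at this
  exact this

theorem algebraMap_intNorm_eq (x : 𝓞 L) :
    algebraMap (𝓞 K) (𝓞 L) (Algebra.intNorm (𝓞 K) (𝓞 L) x) = x * σ • x * (σ * σ) • x := by
  classical
  have huniv : (Finset.univ : Finset (L ≃ₐ[K] L)) = {1, σ, σ * σ} := by
    refine (Finset.eq_univ_of_card _ ?_).symm
    rw [Finset.card_insert_of_notMem, Finset.card_pair, ← Nat.card_eq_fintype_card, h3]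
    · intro h; exact hσ (left_eq_mul.1 h)
    · simp only [Finset.mem_insert, Finset.mem_singleton, not_or]
      refine ⟨Ne.symm hσ, fun h => hσ ?_⟩
      have := sigma_cube h3 hσ
      rwa [← h, mul_one] at this
  apply FaithfulSMul.algebraMap_injective (𝓞 L) L
  rw [← IsScalarTower.algebraMap_apply, IsScalarTower.algebraMap_apply (𝓞 K) K L,
    Algebra.algebraMap_intNorm (L := L), Algebra.norm_eq_prod_automorphisms, huniv,
    Finset.prod_insert, Finset.prod_pair]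
  · rw [map_mul, map_mul, AlgEquiv.one_apply, ← mul_assoc]
    rfl
  · intro h; exact hσ (left_eq_mul.1 h)
  · simp only [Finset.mem_insert, Finset.mem_singleton, not_or]
    refine ⟨Ne.symm hσ, fun h => hσ ?_⟩
    have := sigma_cube h3 hσ
    rwa [← h, mul_one] at this

/-- Hilbert 90 for integers. -/
theorem exists_mul_smul_eq {a b : 𝓞 L} (hb : b ≠ 0)
    (h : Algebra.intNorm (𝓞 K) (𝓞 L) a = Algebra.intNorm (𝓞 K) (𝓞 L) b) :
    ∃ γ : 𝓞 L, γ ≠ 0 ∧ a * σ • γ = b * γ := by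
  have : IsCyclic (L ≃ₐ[K] L) := ⟨σ, forall_mem_zpowers h3 hσ⟩
  have hbL : (b : L) ≠ 0 := by simpa using hb
  have hn : Algebra.norm K ((a : L) / (b : L)) = 1 := by
    rw [div_eq_mul_inv, map_mul, Algebra.norm_inv, ← Algebra.algebraMap_intNorm (A := 𝓞 K) (B := 𝓞 L) (K := K) (L := L) a,
      ← Algebra.algebraMap_intNorm (A := 𝓞 K) (B := 𝓞 L) (K := K) (L := L) b, h, mul_inv_cancel₀]
    rw [map_ne_zero_iff _ (FaithfulSMul.algebraMap_injective _ _)]
    exact mt Algebra.intNorm_eq_zero.1 hb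
  obtain ⟨y, hy⟩ := groupCohomology.exists_div_of_norm_eq_one (forall_mem_zpowers h3 hσ) hn
  obtain ⟨c, d, hd, hcd⟩ := IsFractionRing.div_surjective (A := 𝓞 L) (y : L)
  have hd0 : d ≠ 0 := nonZeroDivisors.ne_zero hd
  have hc0 : c ≠ 0 := by rintro rfl; exact y.ne_zero (by simpa using hcd.symm)
  have hsd : ∀ τ : L ≃ₐ[K] L, τ • d ≠ 0 := fun τ => (smul_ne_zero_iff_ne τ).2 hd0
  refine ⟨c * σ • d * (σ * σ) • d, by simp [hc0, hsd], ?_⟩
  have hval : ∀ (τ : L ≃ₐ[K] L) (z : 𝓞 L), ((τ • z : 𝓞 L) : L) = τ (z : L) := fun _ _ => rfl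
  have key : a * σ • c * d = b * c * σ • d := by
    apply RingOfIntegers.ext
    simp only [map_mul, hval]
    have e : algebraMap (𝓞 L) L c / algebraMap (𝓞 L) L d /
        (σ (algebraMap (𝓞 L) L c) / σ (algebraMap (𝓞 L) L d)) = (a : L) / (b : L) := by
      rw [← map_div₀ σ]; rw [← hcd] at hy; exact hy
    have hdL : (d : L) ≠ 0 := by simpa using hd0
    have hcL : (c : L) ≠ 0 := by simpa using hc0
    have hσd : σ (d : L) ≠ 0 := by simpa using hdL
    have hσc : σ (c : L) ≠ 0 := by simpa using hcL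
    field_simp at e
    linear_combination -e
  rw [smul_mul', smul_mul', ← mul_smul, ← mul_smul σ, sigma_cube h3 hσ, one_smul]
  linear_combination ((σ * σ) • d) * key

theorem norm_unit_smul (v : (𝓞 L)ˣ) :
    Algebra.intNorm (𝓞 K) (𝓞 L) (σ • (v : 𝓞 L)) = Algebra.intNorm (𝓞 K) (𝓞 L) v := by
  apply FaithfulSMul.algebraMap_injective (𝓞 K) (𝓞 L)
  rw [algebraMap_intNorm_eq h3 hσ, algebraMap_intNorm_eq h3 hσ, ← mul_smul, ← mul_smul,
    show σ * σ * σ = 1 by rw [mul_assoc]; exact sigma_cube h3 hσ, one_smul]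
  ring

theorem exists_norm_one_unit (hKu : ∀ u : (𝓞 K)ˣ, u ∈ Units.torsion K)
    (hK3 : ∀ u : (𝓞 K)ˣ, u ^ 3 = 1 → u = 1) (hrank : Units.rank L ≠ 0) :
    ∃ u : (𝓞 L)ˣ, Algebra.intNorm (𝓞 K) (𝓞 L) (u : 𝓞 L) = 1 ∧
      ∀ v : (𝓞 L)ˣ, (u : 𝓞 L) * σ • (v : 𝓞 L) ≠ (v : 𝓞 L) := by
  classical
  let s : (𝓞 L)ˣ →* (𝓞 L)ˣ := Units.map (MulSemiringAction.toRingHom _ (𝓞 L) σ).toMonoidHom
  have hs : ∀ v : (𝓞 L)ˣ, (s v : 𝓞 L) = σ • (v : 𝓞 L) := fun _ => rfl
  let N : (𝓞 L)ˣ →* (𝓞 K)ˣ := Units.map (Algebra.intNorm (𝓞 K) (𝓞 L))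
  by_contra hne
  push Not at hne
  have hN : ∀ u : (𝓞 L)ˣ, N u = 1 → ∃ v, u * s v = v := fun u hu => by
    obtain ⟨v, hv⟩ := hne u (congrArg Units.val hu)
    exact ⟨v, Units.ext (by rw [Units.val_mul, hs]; exact hv)⟩
  -- cubes
  have hcube : ∀ e : (𝓞 K)ˣ, ∃ e', e' ^ 3 = e := by
    have : Finite (𝓞 K)ˣ := by
      have : Finite (Units.torsion K) := inferInstance
      exact Finite.of_injective (fun u => (⟨u, hKu u⟩ : Units.torsion K)) fun a b h =>
        congrArg Subtype.val h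
    refine Finite.surjective_of_injective (f := fun e : (𝓞 K)ˣ => e ^ 3) fun a b h => ?_
    have := hK3 (a * b⁻¹) (by rw [mul_pow, inv_pow, mul_inv_eq_one]; exact h)
    exact mul_inv_eq_one.1 this
  let ext : (𝓞 K)ˣ →* (𝓞 L)ˣ := Units.map (algebraMap (𝓞 K) (𝓞 L) : 𝓞 K →* 𝓞 L)
  have hsext : ∀ e, s (ext e) = ext e := fun e => Units.ext (smul_algebraMap σ (e : 𝓞 K))
  have hNext : ∀ e, N (ext e) = e ^ 3 := fun e => Units.ext (by
    apply FaithfulSMul.algebraMap_injective (𝓞 K) (𝓞 L)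
    show algebraMap (𝓞 K) (𝓞 L) (Algebra.intNorm (𝓞 K) (𝓞 L) (algebraMap (𝓞 K) (𝓞 L) e)) = _
    rw [algebraMap_intNorm_eq h3 hσ, smul_algebraMap, smul_algebraMap, Units.val_pow_eq_pow_val,
      map_pow]
    ring)
  -- units of norm one are units of norm one to the power three
  have hstep : ∀ u : (𝓞 L)ˣ, N u = 1 → ∃ w, N w = 1 ∧ u = w ^ 3 := by
    intro u hu
    obtain ⟨v, hv⟩ := hN u hu
    obtain ⟨e, he⟩ := hcube (N v)
    set v₁ := v * (ext e)⁻¹ with hv₁
    have hNv₁ : N v₁ = 1 := by rw [hv₁, map_mul, map_inv, hNext, he, mul_inv_cancel]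
    have h1 : u * s v₁ = v₁ := by rw [hv₁, map_mul, map_inv, hsext, ← mul_assoc, hv]
    obtain ⟨z, hz⟩ := hN v₁ hNv₁
    obtain ⟨e', he'⟩ := hcube (N z)
    set z₁ := z * (ext e')⁻¹ with hz₁
    have hNz₁ : N z₁ = 1 := by rw [hz₁, map_mul, map_inv, hNext, he', mul_inv_cancel]
    have h2 : v₁ * s z₁ = z₁ := by rw [hz₁, map_mul, map_inv, hsext, ← mul_assoc, hz]
    have hp : z₁ * s z₁ * s (s z₁) = 1 := by
      have := congrArg (fun w : (𝓞 K)ˣ => algebraMap (𝓞 K) (𝓞 L) (w : 𝓞 K)) hNz₁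
      apply Units.ext
      simp only [Units.val_one, map_one] at this
      rw [Units.val_one, ← this]
      simp only [Units.val_mul, hs, ← mul_smul]
      exact (algebraMap_intNorm_eq h3 hσ (z₁ : 𝓞 L)).symm
    refine ⟨(s z₁)⁻¹, ?_, ?_⟩
    · rw [map_inv, inv_eq_one]
      exact Units.ext ((norm_unit_smul h3 hσ z₁).trans (congrArg Units.val hNz₁))
    · have e1 : v₁ = z₁ / s z₁ := eq_div_of_mul_eq' h2
      have e2 : u = v₁ / s v₁ := eq_div_of_mul_eq' h1
      rw [e2, e1, map_div, inv_pow, eq_inv_iff_mul_eq_one, pow_succ, pow_two]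
      calc z₁ / s z₁ / (s z₁ / s (s z₁)) * (s z₁ * s z₁ * s z₁)
          = z₁ * s z₁ * s (s z₁) * (s z₁ * (s z₁)⁻¹ * (s z₁ * (s z₁)⁻¹)) := by
            simp only [div_eq_mul_inv, mul_inv_rev, inv_inv]
            ac_rfl
        _ = 1 := by rw [hp, mul_inv_cancel, one_mul, one_mul]
  -- so they are torsion
  have hdiv : ∀ (n : ℕ) (u : (𝓞 L)ˣ), N u = 1 → ∀ i, (3 : ℤ) ^ n ∣ unitExp u i := by
    intro n
    induction n with
    | zero => intro u _ i; simp
    | succ n ih =>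
      intro u hu i
      obtain ⟨w, hw, rfl⟩ := hstep u hu
      obtain ⟨c, hc⟩ := ih w hw i
      refine ⟨c, ?_⟩
      rw [pow_succ w, pow_two, unitExp_mul, unitExp_mul, Pi.add_apply, Pi.add_apply, hc,
        pow_succ' (3 : ℤ)]
      ring
  have hzero : ∀ u : (𝓞 L)ˣ, N u = 1 → unitExp u = 0 := fun u hu => funext fun i => by
    by_contra hne'
    rw [Pi.zero_apply] at hne'
    have := Int.natAbs_dvd_natAbs.2 (hdiv (unitExp u i).natAbs u hu i)
    rw [Int.natAbs_pow] at this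
    exact absurd (Nat.le_of_dvd (Int.natAbs_pos.2 hne') this)
      (not_le.2 (Nat.lt_pow_self (n := (unitExp u i).natAbs) (a := (3 : ℤ).natAbs) (by norm_num)))
  have hall : ∀ u : (𝓞 L)ˣ, unitExp u = 0 := by
    intro u
    obtain ⟨e, he⟩ := hcube (N u)
    have hne1 : unitExp (u * (ext e)⁻¹) = 0 :=
      hzero _ (by rw [map_mul, map_inv, hNext, he, mul_inv_cancel])
    have hte : unitExp ((ext e)⁻¹) = 0 := unitExp_of_mem_torsion (inv_mem
      ((CommGroup.mem_torsion _).2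
        (MonoidHom.isOfFinOrder ext ((CommGroup.mem_torsion _).1 (hKu e)))))
    rwa [unitExp_mul, hte, add_zero] at hne1
  obtain ⟨i⟩ : Nonempty (Fin (Units.rank L)) := ⟨⟨0, Nat.pos_of_ne_zero hrank⟩⟩
  have := congrFun ((unitExp_fundSystem i).symm.trans (hall _)) i
  simp at this

/-- A nontrivial class dies in the extension. -/
theorem exists_ker (hno : NoInertia K L) (hKu : ∀ u : (𝓞 K)ˣ, u ∈ Units.torsion K)
    (hK3 : ∀ u : (𝓞 K)ˣ, u ^ 3 = 1 → u = 1) (hrank : Units.rank L ≠ 0) :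
    ∃ c : ClassGroup (𝓞 K), c ≠ 1 ∧ ClassGroup.extendedHom (𝓞 K) (𝓞 L) c = 1 := by
  obtain ⟨u, hu1, hu⟩ := exists_norm_one_unit h3 hσ hKu hK3 hrank
  obtain ⟨γ, hγ0, hγ⟩ := exists_mul_smul_eq h3 hσ (a := (u : 𝓞 L)) one_ne_zero
    (by rw [hu1, map_one])
  rw [one_mul] at hγ
  have hfix : ∀ τ : L ≃ₐ[K] L, τ • Ideal.span {γ} = Ideal.span {γ} := by
    have h1 : σ ∈ MulAction.stabilizer (L ≃ₐ[K] L) (Ideal.span {γ}) := by
      rw [MulAction.mem_stabilizer_iff, smul_span_singleton]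
      exact Ideal.span_singleton_eq_span_singleton.2 ⟨u, by rw [mul_comm]; exact hγ⟩
    exact fun τ => (Subgroup.zpowers_le.2 h1) (forall_mem_zpowers h3 hσ τ)
  obtain ⟨J, hJ⟩ := exists_map_eq_of_fixed hno _ (by simpa using hγ0) hfix
  have hJ0 : J ∈ (Ideal (𝓞 K))⁰ := mem_nonZeroDivisors_iff_ne_zero.2 fun h => by
    rw [h, Ideal.zero_eq_bot, Ideal.map_bot] at hJ
    exact hγ0 (Ideal.span_singleton_eq_bot.1 hJ.symm)
  refine ⟨ClassGroup.mk0 ⟨J, hJ0⟩, fun h => ?_, ?_⟩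
  · have : Submodule.IsPrincipal J := (ClassGroup.mk0_eq_one_iff hJ0).1 h
    obtain ⟨c, rfl⟩ : ∃ c, J = Ideal.span {c} := ⟨_, (Ideal.span_singleton_generator J).symm⟩
    rw [Ideal.map_span, Set.image_singleton, Ideal.span_singleton_eq_span_singleton] at hJ
    obtain ⟨v, hv⟩ := hJ
    have hc : algebraMap (𝓞 K) (𝓞 L) c ≠ 0 := fun h0 => hγ0 (by rw [← hv, h0, zero_mul])
    refine hu v (mul_left_cancel₀ hc ?_)
    have := hγ
    rw [← hv, smul_mul', smul_algebraMap] at this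
    linear_combination this
  · rw [ClassGroup.extendedHom_mk0, ClassGroup.mk0_eq_one_iff]
    exact ⟨γ, hJ⟩

/-- Fixed classes are extended. -/
theorem mem_range_of_fixed (hno : NoInertia K L) (hKu : ∀ u : (𝓞 K)ˣ, u ∈ Units.torsion K)
    (hK3 : ∀ u : (𝓞 K)ˣ, u ^ 3 = 1 → u = 1) (c : ClassGroup (𝓞 L)) (hc : smulClass σ c = c) :
    c ∈ (ClassGroup.extendedHom (𝓞 K) (𝓞 L)).range := by
  obtain ⟨A, rfl⟩ := ClassGroup.mk0_surjective c
  rw [smulClass, descend_mk0] at hc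
  obtain ⟨x, y, hx, hy, e⟩ := ClassGroup.mk0_eq_mk0_iff.1 hc
  change Ideal.span {x} * σ • (A : Ideal (𝓞 L)) = Ideal.span {y} * (A : Ideal (𝓞 L)) at e
  have hA0 : (A : Ideal (𝓞 L)) ≠ 0 := nonZeroDivisors.coe_ne_zero A
  have hN := congrArg (Ideal.relNorm (𝓞 K)) e
  rw [map_mul, map_mul, Ideal.relNorm_smul, Ideal.relNorm_singleton, Ideal.relNorm_singleton] at hN
  have hspan := mul_right_cancel₀ (mt Ideal.relNorm_eq_bot_iff.1 hA0) hN
  obtain ⟨ε, hε⟩ := Ideal.span_singleton_eq_span_singleton.1 hspan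
  have : Finite (𝓞 K)ˣ := Finite.of_injective (fun u => (⟨u, hKu u⟩ : Units.torsion K))
    fun a b h => congrArg Subtype.val h
  obtain ⟨e', he'⟩ := Finite.surjective_of_injective (f := fun w : (𝓞 K)ˣ => w ^ 3) (fun a b h => by
    have := hK3 (a * b⁻¹) (by rw [mul_pow, inv_pow, mul_inv_eq_one]; exact h)
    exact mul_inv_eq_one.1 this) ε
  simp only at he'
  set E := algebraMap (𝓞 K) (𝓞 L) (e' : 𝓞 K) with hE
  have hEu : IsUnit E := e'.isUnit.map _
  have hnorm : Algebra.intNorm (𝓞 K) (𝓞 L) y = Algebra.intNorm (𝓞 K) (𝓞 L) (x * E) := by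
    have : Algebra.intNorm (𝓞 K) (𝓞 L) E = (e' : 𝓞 K) ^ 3 := by
      apply FaithfulSMul.algebraMap_injective (𝓞 K) (𝓞 L)
      rw [algebraMap_intNorm_eq h3 hσ, hE, smul_algebraMap, smul_algebraMap, map_pow]
      ring
    rw [map_mul, this, ← Units.val_pow_eq_pow_val, he', hε]
  obtain ⟨γ, hγ0, hγ⟩ := exists_mul_smul_eq h3 hσ (mul_ne_zero hx hEu.ne_zero) hnorm
  have hsp : Ideal.span {y} * Ideal.span {σ • γ} = Ideal.span {x} * Ideal.span {γ} := by
    rw [Ideal.span_singleton_mul_span_singleton, Ideal.span_singleton_mul_span_singleton, hγ,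
      Ideal.span_singleton_eq_span_singleton]
    exact ⟨hEu.unit⁻¹, by
      rw [show x * E * γ = x * γ * (hEu.unit : 𝓞 L) by rw [IsUnit.unit_spec]; ring,
        Units.mul_inv_cancel_right]⟩
  set B := Ideal.span {γ} * (A : Ideal (𝓞 L)) with hB
  have hfixσ : σ • B = B := by
    apply mul_left_cancel₀ (show Ideal.span {x} ≠ 0 by simpa using hx)
    rw [hB, smul_mul', smul_span_singleton, mul_left_comm, e, ← mul_assoc,
      mul_comm (Ideal.span {σ • γ}), hsp, mul_assoc]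
  have hB0 : B ≠ ⊥ := mul_ne_zero (by simpa using hγ0) hA0
  obtain ⟨J, hJ⟩ := exists_map_eq_of_fixed hno B hB0 fun τ =>
    (Subgroup.zpowers_le.2 (MulAction.mem_stabilizer_iff.2 hfixσ : σ ∈
      MulAction.stabilizer (L ≃ₐ[K] L) B)) (forall_mem_zpowers h3 hσ τ)
  have hJ0 : J ∈ (Ideal (𝓞 K))⁰ := mem_nonZeroDivisors_iff_ne_zero.2 fun h => hB0 (by
    rw [← hJ, h]; exact Ideal.map_bot)
  refine ⟨ClassGroup.mk0 ⟨J, hJ0⟩, ?_⟩
  rw [ClassGroup.extendedHom_mk0, ClassGroup.mk0_eq_mk0_iff]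
  exact ⟨1, γ, one_ne_zero, hγ0, by simp [hJ, hB]⟩

end Main

/-- The cubic character killing the norms. -/
theorem exists_character (h3 : Nat.card (L ≃ₐ[K] L) = 3) (hno : NoInertia K L)
    (hKu : ∀ u : (𝓞 K)ˣ, u ∈ Units.torsion K) (hK3 : ∀ u : (𝓞 K)ˣ, u ^ 3 = 1 → u = 1)
    (hrank : Units.rank L ≠ 0) :
    ∃ ψ : ClassGroup (𝓞 K) →* ℂˣ, ψ ^ 3 = 1 ∧ ψ ≠ 1 ∧
      ∀ (I : (Ideal (𝓞 L))⁰) (J : (Ideal (𝓞 K))⁰),
        Ideal.relNorm (𝓞 K) (I : Ideal (𝓞 L)) = J → ψ (ClassGroup.mk0 J) = 1 := by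
  classical
  have : Nontrivial (L ≃ₐ[K] L) := Finite.one_lt_card_iff_nontrivial.1 (by omega)
  obtain ⟨σ, hσ⟩ := exists_ne (1 : L ≃ₐ[K] L)
  obtain ⟨c₀, hc₀, hker⟩ := exists_ker h3 hσ hno hKu hK3 hrank
  let D : ClassGroup (𝓞 L) →* ClassGroup (𝓞 L) := smulClass σ / MonoidHom.id _
  have hD : ∀ c, D c = smulClass σ c / c := fun _ => rfl
  let eh := ClassGroup.extendedHom (𝓞 K) (𝓞 L)
  have h1 : Nat.card D.ker ≤ Nat.card eh.range := by
    refine Subgroup.card_le_of_le fun c hc => mem_range_of_fixed h3 hσ hno hKu hK3 c ?_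
    rw [MonoidHom.mem_ker, hD, div_eq_one] at hc
    exact hc
  have h2 : Nat.card eh.range < Nat.card (ClassGroup (𝓞 K)) := by
    rw [← Subgroup.index_ker eh, ← Subgroup.index_mul_card eh.ker]
    refine lt_mul_of_one_lt_right (Nat.pos_of_ne_zero Subgroup.index_ne_zero_of_finite) ?_
    have : Nontrivial eh.ker := ⟨⟨⟨c₀, hker⟩, 1, fun h => hc₀ (congrArg Subtype.val h)⟩⟩
    exact Finite.one_lt_card
  have h3' : Nat.card (normClass K L).range ≤ Nat.card D.ker := by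
    have hle : D.range ≤ (normClass K L).ker := by
      rintro _ ⟨c, rfl⟩
      rw [MonoidHom.mem_ker, hD, map_div, normClass_smulClass, div_self']
    have hidx : D.range.index = Nat.card D.ker := by
      have e1 := Subgroup.index_mul_card D.range
      have e2 := Subgroup.index_mul_card D.ker
      rw [Subgroup.index_ker, ← e1, mul_comm] at e2
      exact (Nat.eq_of_mul_eq_mul_right Nat.card_pos e2).symm
    rw [← Subgroup.index_ker, ← hidx]
    exact Nat.le_of_dvd (Nat.pos_of_ne_zero Subgroup.index_ne_zero_of_finite)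
      (Subgroup.index_dvd_of_le hle)
  have hlt : (normClass K L).range ≠ ⊤ := fun h => by
    rw [h, Subgroup.card_top] at h3'
    omega
  obtain ⟨x, hx⟩ : ∃ x : ClassGroup (𝓞 K), x ∉ (normClass K L).range := by
    by_contra hall
    push Not at hall
    exact hlt ((Subgroup.eq_top_iff' _).2 hall)
  obtain ⟨φ, hφ⟩ := CommGroup.exists_apply_ne_one_of_hasEnoughRootsOfUnity
    (ClassGroup (𝓞 K) ⧸ (normClass K L).range) ℂ (a := (x : _ ⧸ _))
    (by rwa [ne_eq, QuotientGroup.eq_one_iff])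
  refine ⟨φ.comp (QuotientGroup.mk' _), ?_, fun h => hφ (DFunLike.congr_fun h x), ?_⟩
  · ext c
    rw [MonoidHom.pow_apply, MonoidHom.one_apply, ← map_pow, MonoidHom.comp_apply,
      QuotientGroup.mk'_apply, (QuotientGroup.eq_one_iff _).2, map_one]
    refine ⟨ClassGroup.extendedHom (𝓞 K) (𝓞 L) c, ?_⟩
    rw [normClass_extended]
    congr 1
    rw [← IsFractionRing.finrank_eq (𝓞 K) K (𝓞 L) L, ← IsGalois.card_aut_eq_finrank, h3]
  · intro I J h
    rw [MonoidHom.comp_apply, QuotientGroup.mk'_apply,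
      (QuotientGroup.eq_one_iff _).2 (MonoidHom.mem_range.2 ⟨ClassGroup.mk0 I, normClass_mk0 I J h⟩),
      map_one]

end FLTAgent.Mod2.CubicClass
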