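import Fermat.Agent.Reps.Cyclo
import Fermat.Agent.EllTorsion.Galois
import Fermat.Agent.EllP.Supersingular
import Fermat.Agent.Mod2.Defs

/-!
# The 2-adic representation of an elliptic curve over `ℚ` in coordinates

`TwoBasis M` is a compatible system of bases of the `2 ^ n`-torsion of `M`; one exists as soon as
these torsion groups have `4 ^ n` elements (`exists_twoBasis`). For the `ℚ̄`-points of a curve of
nonzero discriminant the Galois matrices `mat B n` in such bases are compatible in `n` and give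
the 2-adic representation `tateRep B` (`toZModPow_tateRep`), which is continuous
(`isCont_tateRep`).
-/

set_option autoImplicit false

noncomputable section

open Matrix WeierstrassCurve
open scoped WeierstrassCurve.Affine

namespace FLTAgent.Mod2.CurveRep

section Abstract

variable {M : Type*} [AddCommGroup M]

/-- A compatible system of bases of the `2`-power torsion. -/
structure TwoBasis (M : Type*) [AddCommGroup M] where
  /-- the first vectors -/
  P : ℕ → M
  /-- the second vectors -/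
  Q : ℕ → M
  P_succ : ∀ n, 2 • P (n + 1) = P n
  Q_succ : ∀ n, 2 • Q (n + 1) = Q n
  P_zero : P 0 = 0
  Q_zero : Q 0 = 0
  indep : ∀ a b : ℤ, a • P 1 + b • Q 1 = 0 → (2 : ℤ) ∣ a ∧ (2 : ℤ) ∣ b
  card_eq : ∀ n : ℕ, Nat.card {x : M // 2 ^ n • x = 0} = 4 ^ n

namespace TwoBasis

variable (B : TwoBasis M)

theorem pow_nsmul_P (n : ℕ) : 2 ^ n • B.P n = 0 := by
  induction n with
  | zero => rw [B.P_zero, smul_zero]
  | succ n ih => rw [pow_succ, mul_nsmul', B.P_succ, ih]

theorem pow_nsmul_Q (n : ℕ) : 2 ^ n • B.Q n = 0 := by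
  induction n with
  | zero => rw [B.Q_zero, smul_zero]
  | succ n ih => rw [pow_succ, mul_nsmul', B.Q_succ, ih]

/-- The map `(a, b) ↦ a P_n + b Q_n` on one coordinate. -/
def coordHom (x : M) (n : ℕ) (hx : 2 ^ n • x = 0) : ZMod (2 ^ n) →+ M :=
  ZMod.lift (2 ^ n) ⟨zmultiplesHom M x, by rw [zmultiplesHom_apply, natCast_zsmul, hx]⟩

theorem coordHom_intCast (x : M) (n : ℕ) (hx : 2 ^ n • x = 0) (a : ℤ) :
    coordHom x n hx (a : ZMod (2 ^ n)) = a • x := by
  rw [coordHom, ZMod.lift_coe]; rfl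

/-- The point with given coordinates at level `n`. -/
def pt (n : ℕ) : (Fin 2 → ZMod (2 ^ n)) →+ M :=
  (coordHom (B.P n) n (B.pow_nsmul_P n)).comp (Pi.evalAddMonoidHom _ 0) +
    (coordHom (B.Q n) n (B.pow_nsmul_Q n)).comp (Pi.evalAddMonoidHom _ 1)

theorem pt_intCast (n : ℕ) (a b : ℤ) :
    B.pt n ![(a : ZMod (2 ^ n)), (b : ZMod (2 ^ n))] = a • B.P n + b • B.Q n := by
  simp [pt, coordHom_intCast]

theorem exists_int_vec {n : ℕ} (v : Fin 2 → ZMod (2 ^ n)) :
    ∃ a b : ℤ, v = ![(a : ZMod (2 ^ n)), (b : ZMod (2 ^ n))] := by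
  obtain ⟨a, ha⟩ := ZMod.intCast_surjective (v 0)
  obtain ⟨b, hb⟩ := ZMod.intCast_surjective (v 1)
  exact ⟨a, b, by ext i; fin_cases i <;> simp [ha, hb]⟩

theorem pow_nsmul_pt (n : ℕ) (v : Fin 2 → ZMod (2 ^ n)) : 2 ^ n • B.pt n v = 0 := by
  rw [← map_nsmul, show (2 ^ n) • v = 0 from funext fun i => by
    rw [Pi.smul_apply, nsmul_eq_mul, ZMod.natCast_self, zero_mul, Pi.zero_apply], map_zero]

theorem indep_level : ∀ (n : ℕ) (a b : ℤ), a • B.P n + b • B.Q n = 0 →
    (2 : ℤ) ^ n ∣ a ∧ (2 : ℤ) ^ n ∣ b := by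
  intro n
  induction n with
  | zero => exact fun a b _ => ⟨by simp, by simp⟩
  | succ n ih =>
    intro a b h
    have h2 : ∀ k : ℕ, 2 ^ k • B.P (k + 1) = B.P 1 ∧ 2 ^ k • B.Q (k + 1) = B.Q 1 := by
      intro k
      induction k with
      | zero => simp
      | succ k ih => rw [pow_succ, mul_nsmul', mul_nsmul', B.P_succ, B.Q_succ]; exact ih
    have h1 : a • B.P 1 + b • B.Q 1 = 0 := by
      have := congrArg (fun x : M => 2 ^ n • x) h
      simp only [nsmul_add, smul_zero] at this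
      rwa [smul_comm, (h2 n).1, smul_comm, (h2 n).2] at this
    obtain ⟨⟨a', rfl⟩, ⟨b', rfl⟩⟩ := B.indep a b h1
    have e : ∀ (k : ℤ) (x : M), (2 * k) • x = k • (2 • x) := fun k x => by
      rw [mul_comm, mul_smul]; norm_cast
    rw [e, e, B.P_succ, B.Q_succ] at h
    obtain ⟨ha, hb⟩ := ih a' b' h
    rw [pow_succ']
    exact ⟨mul_dvd_mul_left 2 ha, mul_dvd_mul_left 2 hb⟩

theorem pt_injective (n : ℕ) : Function.Injective (B.pt n) := by
  refine (injective_iff_map_eq_zero _).2 fun v hv => ?_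
  obtain ⟨a, b, rfl⟩ := exists_int_vec v
  rw [pt_intCast] at hv
  obtain ⟨ha, hb⟩ := B.indep_level n a b hv
  have key : ∀ c : ℤ, (2 : ℤ) ^ n ∣ c → (c : ZMod (2 ^ n)) = 0 := fun c hc => by
    rw [ZMod.intCast_zmod_eq_zero_iff_dvd]; exact_mod_cast hc
  ext i; fin_cases i <;> simp [key _ ha, key _ hb]

theorem exists_pt_eq {n : ℕ} {x : M} (hx : 2 ^ n • x = 0) : ∃ v, B.pt n v = x := by
  have : Finite {y : M // 2 ^ n • y = 0} :=
    Nat.finite_of_card_ne_zero (by rw [B.card_eq]; positivity)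
  let f : (Fin 2 → ZMod (2 ^ n)) → {y : M // 2 ^ n • y = 0} := fun v => ⟨_, B.pow_nsmul_pt n v⟩
  have : NeZero (2 ^ n) := ⟨pow_ne_zero n two_ne_zero⟩
  have hf : Function.Bijective f := by
    refine (Nat.bijective_iff_injective_and_card f).2
      ⟨fun v w h => B.pt_injective n (congrArg Subtype.val h), ?_⟩
    rw [B.card_eq, Nat.card_fun, Nat.card_zmod, Nat.card_fin, ← pow_mul, mul_comm, pow_mul]; norm_num
  obtain ⟨v, hv⟩ := hf.2 ⟨x, hx⟩
  exact ⟨v, congrArg Subtype.val hv⟩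

theorem pt_succ (n : ℕ) (v : Fin 2 → ZMod (2 ^ (n + 1))) :
    2 • B.pt (n + 1) v =
      B.pt n fun i => ZMod.castHom (pow_dvd_pow 2 n.le_succ) (ZMod (2 ^ n)) (v i) := by
  obtain ⟨a, b, rfl⟩ := exists_int_vec v
  have : (fun i => ZMod.castHom (pow_dvd_pow 2 n.le_succ) (ZMod (2 ^ n))
      (![(a : ZMod (2 ^ (n + 1))), (b : ZMod (2 ^ (n + 1)))] i)) =
      ![(a : ZMod (2 ^ n)), (b : ZMod (2 ^ n))] := by
    funext i; fin_cases i <;> simp
  rw [this, pt_intCast, pt_intCast, nsmul_add, smul_comm, B.P_succ, smul_comm, B.Q_succ]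

/-- Two matrices agreeing on all points are equal. -/
theorem mat_ext {n : ℕ} {X Y : Matrix (Fin 2) (Fin 2) (ZMod (2 ^ n))}
    (h : ∀ v, B.pt n (X *ᵥ v) = B.pt n (Y *ᵥ v)) : X = Y :=
  Matrix.ext_of_mulVec_single fun _ => B.pt_injective n (h _)

end TwoBasis

/-- Existence of a compatible system of bases. -/
theorem exists_twoBasis (hcard : ∀ n : ℕ, Nat.card {x : M // 2 ^ n • x = 0} = 4 ^ n) :
    Nonempty (TwoBasis M) := by
  have hdiv : ∀ (n : ℕ) (x : M), 2 ^ n • x = 0 → ∃ y : M, 2 • y = x := by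
    intro n x hx
    let K : ℕ → AddSubgroup M := fun k => (nsmulAddMonoidHom (α := M) (2 ^ k)).ker
    have hmem : ∀ k y, y ∈ K k ↔ 2 ^ k • y = 0 := fun k y => Iff.rfl
    have hK : ∀ k, Nat.card (K k) = 4 ^ k := fun k => hcard k
    have : ∀ k, Finite (K k) := fun k => Nat.finite_of_card_ne_zero (by rw [hK]; positivity)
    let g : K (n + 1) →+ K n := ((nsmulAddMonoidHom (α := M) 2).comp (K (n + 1)).subtype).codRestrict
      (K n) fun y => by
        rw [hmem]
        show 2 ^ n • 2 • (y : M) = 0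
        rw [← mul_nsmul', ← pow_succ]
        exact y.2
    have hker : Nat.card g.ker ≤ 4 := by
      rw [← pow_one (4 : ℕ), ← hK 1]
      refine Nat.card_le_card_of_injective (fun y => (⟨((y : K (n + 1)) : M), ?_⟩ : K 1)) ?_
      · rw [hmem, pow_one]
        exact congrArg Subtype.val y.2
      · intro a b h
        exact Subtype.ext (Subtype.ext (congrArg Subtype.val h :))
    have hrange : g.range = ⊤ := by
      refine AddSubgroup.eq_top_of_card_eq _ (le_antisymm (AddSubgroup.card_le_card_addGroup _) ?_)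
      have hidx := g.ker.card_mul_index
      rw [AddSubgroup.index_ker g, hK, pow_succ'] at hidx
      rw [hK]
      refine Nat.le_of_mul_le_mul_left ?_ (show 0 < 4 by norm_num)
      rw [← hidx]
      exact Nat.mul_le_mul_right _ hker
    obtain ⟨y, hy⟩ := (hrange ▸ AddSubgroup.mem_top (⟨x, hx⟩ : K n) : (⟨x, hx⟩ : K n) ∈ g.range)
    exact ⟨(y : M), congrArg Subtype.val hy⟩
  -- a basis of the `2`-torsion
  have : Finite {x : M // 2 ^ 1 • x = 0} := Nat.finite_of_card_ne_zero (by rw [hcard]; norm_num)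
  let := Fintype.ofFinite {x : M // 2 ^ 1 • x = 0}
  have hc1 : Fintype.card {x : M // 2 ^ 1 • x = 0} = 4 := by
    rw [← Nat.card_eq_fintype_card, hcard, pow_one]
  classical
  have h0mem : 2 ^ 1 • (0 : M) = 0 := smul_zero _
  obtain ⟨p, -, hp⟩ : ∃ p ∈ Finset.univ, p ∉ ({⟨0, h0mem⟩} : Finset {x : M // 2 ^ 1 • x = 0}) :=
    Finset.exists_mem_notMem_of_card_lt_card (by
      rw [Finset.card_univ, hc1, Finset.card_singleton]; norm_num)
  obtain ⟨q, -, hq⟩ : ∃ q ∈ Finset.univ, q ∉ ({⟨0, h0mem⟩, p} : Finset {x : M // 2 ^ 1 • x = 0}) :=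
    Finset.exists_mem_notMem_of_card_lt_card (by
      rw [Finset.card_univ, hc1]
      exact lt_of_le_of_lt Finset.card_le_two (by norm_num))
  simp only [Finset.mem_singleton, Finset.mem_insert, not_or] at hp hq
  have hp0 : (p : M) ≠ 0 := fun h => hp (Subtype.ext h)
  have hq0 : (q : M) ≠ 0 := fun h => hq.1 (Subtype.ext h)
  have hpq : (q : M) ≠ p := fun h => hq.2 (Subtype.ext h)
  have h2p : 2 • (p : M) = 0 := by simp
  have h2q : 2 • (q : M) = 0 := by simp
  -- compatible sequences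
  have seq : ∀ x : M, 2 • x = 0 → ∃ s : ℕ → M, s 0 = 0 ∧ s 1 = x ∧ ∀ n, 2 • s (n + 1) = s n := by
    intro x hx
    have step : ∀ (k : ℕ) (y : {y : M // 2 ^ (k + 1) • y = 0}),
        ∃ z : {z : M // 2 ^ (k + 2) • z = 0}, 2 • (z : M) = y := by
      intro k y
      obtain ⟨z, hz⟩ := hdiv (k + 1) y y.2
      exact ⟨⟨z, by rw [pow_succ, mul_nsmul', hz]; exact y.2⟩, hz⟩
    choose f hf using step
    let t : ∀ k : ℕ, {y : M // 2 ^ (k + 1) • y = 0} := fun k =>
      Nat.rec ⟨x, by simpa using hx⟩ (fun k ih => f k ih) k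
    refine ⟨fun n => match n with | 0 => 0 | k + 1 => (t k).1, rfl, rfl, fun n => ?_⟩
    cases n with
    | zero => exact hx
    | succ k => exact hf k (t k)
  obtain ⟨P, P0, P1, Ps⟩ := seq p h2p
  obtain ⟨Q, Q0, Q1, Qs⟩ := seq q h2q
  refine ⟨⟨P, Q, Ps, Qs, P0, Q0, fun a b h => ?_, hcard⟩⟩
  have two : ∀ (c : ℤ) (x : M), 2 • x = 0 → c • x = if (2 : ℤ) ∣ c then 0 else x := by
    intro c x hx
    split_ifs with hc
    · obtain ⟨k, rfl⟩ := hc
      rw [mul_comm, mul_smul, show (2 : ℤ) • x = 0 by exact_mod_cast hx, smul_zero]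
    · obtain ⟨k, rfl⟩ : ∃ k, c = 2 * k + 1 := ⟨c / 2, by omega⟩
      rw [add_smul, one_smul, mul_comm, mul_smul, show (2 : ℤ) • x = 0 by exact_mod_cast hx,
        smul_zero, zero_add]
  rw [P1, Q1, two a _ h2p, two b _ h2q] at h
  split_ifs at h with ha hb hb
  · exact ⟨ha, hb⟩
  · exact (hq0 (by simpa using h)).elim
  · exact (hp0 (by simpa using h)).elim
  · refine (hpq ?_).elim
    rw [eq_neg_of_add_eq_zero_right h]
    exact (eq_neg_of_add_eq_zero_left (by rwa [two_nsmul] at h2p)).symm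

end Abstract

section Curve

local notation "GQ" => Gal2

variable {E : WeierstrassCurve ℤ}

/-- Galois commutes with integer multiples. -/
theorem smul_zsmul' (σ : GQ) (k : ℤ) (x : EllP.QPoint E) : σ • (k • x) = k • σ • x :=
  map_zsmul (DistribSMul.toAddMonoidHom (EllP.QPoint E) σ) k x

/-- Galois commutes with natural multiples. -/
theorem smul_nsmul' (σ : GQ) (k : ℕ) (x : EllP.QPoint E) : σ • (k • x) = k • σ • x :=
  map_nsmul (DistribSMul.toAddMonoidHom (EllP.QPoint E) σ) k x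

theorem nsmul_smul_eq_zero {k : ℕ} {x : EllP.QPoint E} (h : k • x = 0) (σ : GQ) :
    k • σ • x = 0 := by
  rw [← smul_nsmul', h]; exact smul_zero (A := EllP.QPoint E) σ

theorem natCard_two_pow_torsion (hΔ : E.Δ ≠ 0) (n : ℕ) :
    Nat.card {x : EllP.QPoint E // 2 ^ n • x = 0} = 4 ^ n := by
  have := EllTorsion.isElliptic_map_rat hΔ
  have h := EllTorsion.natCard_torsionBy_rat (E.map (Int.castRingHom ℚ)) (2 ^ n)
    (pow_ne_zero n two_ne_zero)
  rw [← pow_mul, mul_comm, pow_mul, show (2 : ℕ) ^ 2 = 4 from rfl] at h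
  rw [← h]
  refine Nat.card_congr (Equiv.subtypeEquivRight fun x => ?_)
  rw [Submodule.mem_torsionBy_iff, natCast_zsmul]

variable (B : TwoBasis (EllP.QPoint E))

theorem exists_mat (n : ℕ) (σ : GQ) :
    ∃ X : Matrix (Fin 2) (Fin 2) (ZMod (2 ^ n)), ∀ v, B.pt n (X *ᵥ v) = σ • B.pt n v := by
  choose c hc using fun _i : Fin 2 => B.exists_pt_eq (n := n)
    (x := σ • B.pt n (Pi.single _i 1)) (nsmul_smul_eq_zero (B.pow_nsmul_pt n _) σ)
  refine ⟨Matrix.of fun i j => c j i, fun v => ?_⟩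
  obtain ⟨a, b, rfl⟩ := TwoBasis.exists_int_vec v
  have e : (![(a : ZMod (2 ^ n)), (b : ZMod (2 ^ n))]) =
      a • Pi.single 0 1 + b • Pi.single 1 1 := by
    funext i; fin_cases i <;> simp
  have ec : ∀ j : Fin 2, (Matrix.of fun i j => c j i) *ᵥ Pi.single j 1 = c j := by
    intro j; funext i; simp
  rw [e, Matrix.mulVec_add, Matrix.mulVec_smul, Matrix.mulVec_smul, ec, ec, map_add, map_add,
    map_zsmul, map_zsmul, map_zsmul, map_zsmul, hc, hc,
    DistribSMul.smul_add (A := EllP.QPoint E) σ, smul_zsmul', smul_zsmul']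

/-- Galois matrices modulo `2 ^ n`. -/
def mat (n : ℕ) (σ : GQ) : Matrix (Fin 2) (Fin 2) (ZMod (2 ^ n)) := (exists_mat B n σ).choose

theorem pt_mat (n : ℕ) (σ : GQ) (v : Fin 2 → ZMod (2 ^ n)) :
    B.pt n (mat B n σ *ᵥ v) = σ • B.pt n v :=
  (exists_mat B n σ).choose_spec v

theorem mat_one (n : ℕ) : mat B n 1 = 1 :=
  B.mat_ext fun v => by rw [pt_mat, one_smul, Matrix.one_mulVec]

theorem mat_mul (n : ℕ) (σ τ : GQ) : mat B n (σ * τ) = mat B n σ * mat B n τ :=
  B.mat_ext fun v => by rw [← Matrix.mulVec_mulVec, pt_mat, pt_mat, pt_mat, mul_smul]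

theorem mat_castHom (n : ℕ) (σ : GQ) :
    (ZMod.castHom (pow_dvd_pow 2 n.le_succ) (ZMod (2 ^ n))).mapMatrix (mat B (n + 1) σ) =
      mat B n σ := by
  refine B.mat_ext fun v => ?_
  obtain ⟨a, b, rfl⟩ := TwoBasis.exists_int_vec v
  set w : Fin 2 → ZMod (2 ^ (n + 1)) := ![(a : ZMod (2 ^ (n + 1))), (b : ZMod (2 ^ (n + 1)))] with hw
  have hv : (fun i => ZMod.castHom (pow_dvd_pow 2 n.le_succ) (ZMod (2 ^ n)) (w i)) =
      ![(a : ZMod (2 ^ n)), (b : ZMod (2 ^ n))] := by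
    funext i; fin_cases i <;> simp [w]
  have h := congrArg (fun x : EllP.QPoint E => 2 • x) (pt_mat B (n + 1) σ w)
  simp only [← smul_nsmul', TwoBasis.pt_succ] at h
  rw [hv] at h
  rw [pt_mat, ← h, ← hv]
  congr 1
  funext i
  exact (RingHom.map_mulVec _ _ _ i).symm

theorem mat_eq_one_iff (n : ℕ) (σ : GQ) :
    mat B n σ = 1 ↔ ∀ x : EllP.QPoint E, 2 ^ n • x = 0 → σ • x = x := by
  constructor
  · intro h x hx
    obtain ⟨v, rfl⟩ := B.exists_pt_eq hx
    rw [← pt_mat, h, Matrix.one_mulVec]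
  · intro h
    exact B.mat_ext fun v => by rw [pt_mat, Matrix.one_mulVec, h _ (B.pow_nsmul_pt n v)]

theorem dvd_mat_succ_sub (σ : GQ) (i j : Fin 2) (m : ℕ) :
    ((2 : ℕ) : ℤ) ^ m ∣ ((mat B (m + 1) σ i j).val : ℤ) - ((mat B m σ i j).val : ℤ) := by
  have : ∀ k : ℕ, NeZero (2 ^ k) := fun k => ⟨pow_ne_zero k two_ne_zero⟩
  rw [← Nat.cast_pow, ← ZMod.intCast_zmod_eq_zero_iff_dvd, Int.cast_sub, Int.cast_natCast,
    Int.cast_natCast, ZMod.natCast_zmod_val, sub_eq_zero,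
    ← map_natCast (ZMod.castHom (pow_dvd_pow 2 m.le_succ) (ZMod (2 ^ m))), ZMod.natCast_zmod_val]
  exact congrFun (congrFun (mat_castHom B m σ) i) j

/-- The 2-adic matrices. -/
def tmat (σ : GQ) : Mat2 ℤ_[2] :=
  Matrix.of fun i j => PadicInt.ofIntSeq _ (PadicInt.isCauSeq_padicNorm_of_pow_dvd_sub
    (fun m => ((mat B m σ i j).val : ℤ)) 2 (dvd_mat_succ_sub B σ i j))

theorem toZModPow_tmat (m : ℕ) (σ : GQ) :
    (PadicInt.toZModPow m).mapMatrix (tmat B σ) = mat B m σ := by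
  have : NeZero (2 ^ m) := ⟨pow_ne_zero m two_ne_zero⟩
  ext i j
  refine (PadicInt.toZModPow_ofIntSeq_of_pow_dvd_sub _ 2 (dvd_mat_succ_sub B σ i j) m).trans ?_
  rw [Int.cast_natCast, ZMod.natCast_zmod_val]

theorem padic_ext {X Y : Mat2 ℤ_[2]}
    (h : ∀ m, (PadicInt.toZModPow m).mapMatrix X = (PadicInt.toZModPow m).mapMatrix Y) : X = Y := by
  ext i j
  exact PadicInt.ext_of_toZModPow.mp fun m => congrFun (congrFun (h m) i) j

/-- The 2-adic representation. -/
def tateRep : Gal2 →* Mat2 ℤ_[2] where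
  toFun := tmat B
  map_one' := padic_ext fun m => by rw [toZModPow_tmat, map_one, mat_one]
  map_mul' σ τ := padic_ext fun m => by
    rw [map_mul, toZModPow_tmat, toZModPow_tmat, toZModPow_tmat, mat_mul]

theorem toZModPow_tateRep (m : ℕ) (σ : GQ) :
    (PadicInt.toZModPow m).mapMatrix (tateRep B σ) = mat B m σ :=
  toZModPow_tmat B m σ

/-- A matrix identity can be checked on all torsion points. -/
theorem eq_of_forall_pt {X Y : Mat2 ℤ_[2]}
    (h : ∀ m v, B.pt m ((PadicInt.toZModPow m).mapMatrix X *ᵥ v) =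
      B.pt m ((PadicInt.toZModPow m).mapMatrix Y *ᵥ v)) : X = Y :=
  padic_ext fun m => B.mat_ext (h m)

theorem tateRep_eq_one_of_forall {σ : GQ}
    (h : ∀ (n : ℕ) (x : EllP.QPoint E), 2 ^ n • x = 0 → σ • x = x) : tateRep B σ = 1 :=
  padic_ext fun m => by rw [toZModPow_tateRep, map_one, (mat_eq_one_iff B m σ).2 (h m)]

/-- The 2-adic representation is continuous. -/
theorem isCont_tateRep (hΔ : E.Δ ≠ 0) : IsCont (tateRep B) := by
  intro n
  have := EllTorsion.isElliptic_map_rat hΔ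
  obtain ⟨L, hL, h⟩ := EllTorsion.exists_finiteLevel_smul_eq (E.map (Int.castRingHom ℚ)) (2 ^ n)
    (pow_ne_zero n two_ne_zero)
  refine ⟨L, hL, fun σ hσ i j => ?_⟩
  have h1 : mat B n σ = 1 := (mat_eq_one_iff B n σ).2 fun x hx => congrArg Subtype.val
    (h σ hσ ⟨x, by rw [Submodule.mem_torsionBy_iff, natCast_zsmul]; exact hx⟩)
  rw [← Ideal.mem_span_singleton]
  rw [show (2 : ℤ_[2]) = ((2 : ℕ) : ℤ_[2]) from rfl, ← PadicInt.ker_toZModPow, RingHom.mem_ker]
  have := congrFun (congrFun (toZModPow_tateRep B n σ) i) j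
  rw [h1] at this
  rw [Matrix.sub_apply, map_sub]
  rw [RingHom.mapMatrix_apply, Matrix.map_apply] at this
  rw [this]
  fin_cases i <;> fin_cases j <;> simp

end Curve

end FLTAgent.Mod2.CurveRep
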