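import Fermat.Agent.Mod2.CurveBasis
import Fermat.Agent.EllFrob.Interface
import Fermat.Agent.Density.Main

/-!
# Frobenius and determinant of the 2-adic representation of a curve

At an odd good prime `ℓ` Frobenius satisfies `φ² - a_ℓ φ + ℓ = 0` on the 2-adic representation
(`tateRep_frob_rel`); `resRep` is its reduction modulo two. When the reduction is nontrivial the
determinant is the cyclotomic character (`det_tateRep`), by density of Frobenius elements, and
hence the trace of Frobenius is `a_ℓ` (`trace_tateRep`).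
-/

set_option autoImplicit false

noncomputable section

open Matrix WeierstrassCurve
open scoped WeierstrassCurve.Affine

namespace FLTAgent.Mod2.CurveRep

local notation "ℚ̄" => AlgebraicClosure ℚ

/-- The Frobenius relation on `2`-divisible torsion points at an odd good prime. -/
theorem frobenius_relation_two {W : WeierstrassCurve ℤ} {ℓ : ℕ} (hℓ : ℓ.Prime) (hℓ2 : ℓ ≠ 2)
    (hgood : W.IsGoodPrimeFor ℓ) {n : ℕ} {A : ValuationSubring ℚ̄} (hA : A.LiesOverPrime ℓ)
    {σ : Gal2} (hσ : A.IsFrobeniusAt σ ℓ) {P P' : EllP.QPoint W} (hPP : 2 • P' = P)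
    (hP : 2 ^ n • P = 0) :
    σ • σ • P - W.apOfModel ℓ • (σ • P) + (ℓ : ℤ) • P = 0 := by
  classical
  have : Fact ℓ.Prime := ⟨hℓ⟩
  have := GalCommon.charP_residueField hℓ hA
  let : Algebra (ZMod ℓ) (IsLocalRing.ResidueField A) := ZMod.algebra _ ℓ
  have := GalCommon.isAlgClosed_residueField A hℓ hA
  have hΔ := EllFrob.residue_Δ_ne_zero hℓ hgood hA
  set X := σ • σ • P - W.apOfModel ℓ • (σ • P) + (ℓ : ℤ) • P with hX
  set Y := σ • σ • P' - W.apOfModel ℓ • (σ • P') + (ℓ : ℤ) • P' with hY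
  have hXY : 2 • Y = X := by
    rw [hX, hY, nsmul_add, nsmul_sub, smul_comm 2 (W.apOfModel ℓ), smul_comm 2 (ℓ : ℤ)]
    simp only [← smul_nsmul', hPP]
  have hXn : 2 ^ n • X = 0 := by
    rw [hX, nsmul_add, nsmul_sub, smul_comm _ (W.apOfModel ℓ), smul_comm _ (ℓ : ℤ), hP,
      nsmul_smul_eq_zero hP, nsmul_smul_eq_zero (nsmul_smul_eq_zero hP σ), zsmul_zero, zsmul_zero,
      sub_zero, add_zero]
  have hΔ' : (W.reductionMod ℓ).Δ ≠ 0 := by
    rw [WeierstrassCurve.reductionMod, WeierstrassCurve.map_Δ, eq_intCast, Ne,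
      ZMod.intCast_zmod_eq_zero_iff_dvd]
    exact hgood
  have h0 : EllFrob.redQ (ℓ := ℓ) hΔ X = 0 := by
    rw [← hXY, map_nsmul, hY, map_add, map_sub, map_zsmul, map_zsmul, EllFrob.redQ_smul hΔ hσ,
      EllFrob.redQ_smul hΔ hσ,
      show W.apOfModel ℓ = (W.reductionMod ℓ).traceOfFrobenius from rfl, ← EllFrob.frobPoly_apply]
    exact EllFrob.frobRel hΔ' _
  apply (EllP.toModel A).injective
  rw [map_zero]
  refine EllFrob.eq_zero_of_redPoint_eq_zero hΔ (n := 2 ^ n) ?_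
    (by rw [← map_nsmul, hXn, map_zero]) ?_
  · rw [Ne, GalCommon.natCast_residue_eq_zero_iff hℓ hA]
    exact fun h => hℓ2 ((Nat.prime_dvd_prime_iff_eq hℓ Nat.prime_two).mp (hℓ.dvd_of_dvd_pow h))
  · exact EllFrob.castHom_injective _ (h0.trans (map_zero _).symm)

variable {E : WeierstrassCurve ℤ} (B : TwoBasis (EllP.QPoint E))

theorem pt_intCast_smul (n : ℕ) (c : ℤ) (v : Fin 2 → ZMod (2 ^ n)) :
    B.pt n ((c : ZMod (2 ^ n)) • v) = c • B.pt n v := by
  rw [Int.cast_smul_eq_zsmul, map_zsmul]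

/-- A scalar matrix acts by the integer representing it. -/
theorem pt_scalar (n : ℕ) (c : ℤ) (v : Fin 2 → ZMod (2 ^ n)) :
    B.pt n (((c : ZMod (2 ^ n)) • (1 : Matrix (Fin 2) (Fin 2) (ZMod (2 ^ n)))) *ᵥ v) =
      c • B.pt n v := by
  rw [Matrix.smul_mulVec, Matrix.one_mulVec, pt_intCast_smul]

/-- Frobenius at an odd good prime is killed by `X ^ 2 - a_ℓ X + ℓ`. -/
theorem tateRep_frob_rel {ℓ : ℕ} (hℓ : ℓ.Prime) (hℓ2 : ℓ ≠ 2) (hgood : E.IsGoodPrimeFor ℓ)
    {A : ValuationSubring ℚ̄} (hA : A.LiesOverPrime ℓ) {φ : Gal2} (hφ : A.IsFrobeniusAt φ ℓ) :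
    tateRep B φ * tateRep B φ - (E.apOfModel ℓ : ℤ_[2]) • tateRep B φ +
      (ℓ : ℤ_[2]) • (1 : Mat2 ℤ_[2]) = 0 := by
  refine eq_of_forall_pt B fun m v => ?_
  obtain ⟨w, hw⟩ : ∃ w : Fin 2 → ZMod (2 ^ (m + 1)),
      (fun i => ZMod.castHom (pow_dvd_pow 2 m.le_succ) (ZMod (2 ^ m)) (w i)) = v := by
    choose w hw using fun i => ZMod.ringHom_surjective
      (ZMod.castHom (pow_dvd_pow 2 m.le_succ) (ZMod (2 ^ m))) (v i)
    exact ⟨w, funext hw⟩
  have h : 2 • B.pt (m + 1) w = B.pt m v := by rw [TwoBasis.pt_succ, hw]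
  have hrel := frobenius_relation_two hℓ hℓ2 hgood hA hφ h (B.pow_nsmul_pt m v)
  have e1 : (PadicInt.toZModPow m).mapMatrix ((E.apOfModel ℓ : ℤ_[2]) • tateRep B φ) =
      ((E.apOfModel ℓ : ℤ) : ZMod (2 ^ m)) • mat B m φ := by
    rw [← toZModPow_tateRep]; ext i j; simp
  have e2 : (PadicInt.toZModPow m).mapMatrix ((ℓ : ℤ_[2]) • (1 : Mat2 ℤ_[2])) =
      ((ℓ : ℤ) : ZMod (2 ^ m)) • (1 : Matrix (Fin 2) (Fin 2) (ZMod (2 ^ m))) := by
    ext i j; by_cases hij : i = j <;> simp [hij]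
  rw [map_add, map_sub, map_mul, toZModPow_tateRep, e1, e2, map_zero, Matrix.zero_mulVec,
    map_zero, Matrix.add_mulVec, Matrix.sub_mulVec, map_add, map_sub, ← Matrix.mulVec_mulVec,
    pt_mat, pt_mat, Matrix.smul_mulVec, pt_intCast_smul, pt_mat, pt_scalar]
  exact hrel

/-- The residual representation. -/
def resRep : Gal2 →* Mat2 (ZMod 2) :=
  ((PadicInt.toZMod (p := 2)).mapMatrix : Mat2 ℤ_[2] →+* Mat2 (ZMod 2)).toMonoidHom.comp (tateRep B)

theorem resRep_apply (σ : Gal2) (i j : Fin 2) :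
    resRep B σ i j = PadicInt.toZMod (tateRep B σ i j) := rfl

theorem toZMod_eq_zero_iff (x : ℤ_[2]) : PadicInt.toZMod x = 0 ↔ PadicInt.toZModPow 1 x = 0 := by
  rw [← RingHom.mem_ker, PadicInt.ker_toZMod, PadicInt.maximalIdeal_eq_span_p, ← RingHom.mem_ker,
    PadicInt.ker_toZModPow, pow_one]

theorem resRep_eq_one_iff (σ : Gal2) : resRep B σ = 1 ↔ mat B 1 σ = 1 := by
  rw [← toZModPow_tateRep]
  have key : ∀ (i j : Fin 2), PadicInt.toZMod (tateRep B σ i j) = (1 : Mat2 (ZMod 2)) i j ↔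
      PadicInt.toZModPow 1 (tateRep B σ i j) = (1 : Matrix (Fin 2) (Fin 2) (ZMod (2 ^ 1))) i j := by
    intro i j
    have h := toZMod_eq_zero_iff (tateRep B σ i j - (1 : Mat2 ℤ_[2]) i j)
    rw [map_sub, map_sub, sub_eq_zero, sub_eq_zero] at h
    by_cases hij : i = j
    · subst hij; simpa using h
    · simpa [hij] using h
  exact ⟨fun h => Matrix.ext fun i j => (key i j).1 (congrFun (congrFun h i) j),
    fun h => Matrix.ext fun i j => (key i j).2 (congrFun (congrFun h i) j)⟩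

theorem det_resRep_ne_zero (σ : Gal2) : (resRep B σ).det ≠ 0 := by
  intro h
  have := congrArg Matrix.det (congrArg (resRep B) (mul_inv_cancel σ))
  rw [map_mul, Matrix.det_mul, h, zero_mul, map_one, Matrix.det_one] at this
  exact zero_ne_one this

theorem tateRep_trace_det_of_ne {ℓ : ℕ} (hℓ : ℓ.Prime) (hℓ2 : ℓ ≠ 2) (hgood : E.IsGoodPrimeFor ℓ)
    {A : ValuationSubring ℚ̄} (hA : A.LiesOverPrime ℓ) {φ : Gal2} (hφ : A.IsFrobeniusAt φ ℓ)
    (hne : resRep B φ ≠ 1) :
    (tateRep B φ).trace = E.apOfModel ℓ ∧ (tateRep B φ).det = ℓ := by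
  have h := tateRep_frob_rel B hℓ hℓ2 hgood hA hφ
  have h00 := congrFun (congrFun h 0) 0
  have h01 := congrFun (congrFun h 0) 1
  have h10 := congrFun (congrFun h 1) 0
  have h11 := congrFun (congrFun h 1) 1
  simp [Matrix.mul_apply, Fin.sum_univ_two] at h00 h01 h10 h11
  set r := tateRep B φ with hr
  rw [Matrix.trace_fin_two, Matrix.det_fin_two]
  set t : ℤ_[2] := r 0 0 + r 1 1 - E.apOfModel ℓ with ht
  suffices h0 : t = 0 by
    exact ⟨sub_eq_zero.1 h0, by linear_combination (r 0 0) * h0 - h00⟩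
  by_contra ht0
  have e01 : r 0 1 = 0 := (mul_eq_zero.1 (show t * r 0 1 = 0 by linear_combination h01)).resolve_left ht0
  have e10 : r 1 0 = 0 := (mul_eq_zero.1 (show t * r 1 0 = 0 by linear_combination h10)).resolve_left ht0
  have ed : r 0 0 = r 1 1 := sub_eq_zero.1
    ((mul_eq_zero.1 (show t * (r 0 0 - r 1 1) = 0 by linear_combination h00 - h11)).resolve_left ht0)
  have hd := det_resRep_ne_zero B φ
  rw [Matrix.det_fin_two, resRep_apply, resRep_apply, resRep_apply, resRep_apply, ← hr, e01, e10,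
    map_zero, zero_mul, sub_zero, ed] at hd
  have h1 : PadicInt.toZMod (r 1 1) = 1 :=
    Fin.eq_one_of_ne_zero _ fun h => hd (mul_eq_zero.2 (Or.inl h))
  apply hne
  ext i j
  rw [resRep_apply, ← hr]
  fin_cases i <;> fin_cases j <;> simp [e01, e10, ed, h1]

/-- The determinant of the 2-adic representation is the cyclotomic character. -/
theorem det_tateRep (hΔ : E.Δ ≠ 0) (hsome : ∃ h, resRep B h ≠ 1) (g : Gal2) :
    (tateRep B g).det = chi2 g := by
  suffices key : ∀ g, resRep B g ≠ 1 → (tateRep B g).det = chi2 g by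
    by_cases hg : resRep B g = 1
    · obtain ⟨h, hh⟩ := hsome
      have h2 : resRep B (h * g) ≠ 1 := by rwa [map_mul, hg, mul_one]
      have h3 := key _ h2
      rw [map_mul, Matrix.det_mul, map_mul, key h hh] at h3
      have hu : chi2 h * chi2 h⁻¹ = 1 := by rw [← map_mul, mul_inv_cancel, map_one]
      exact (IsUnit.of_mul_eq_one _ hu).mul_left_cancel h3
    · exact key g hg
  intro g
  refine fun hg => PadicInt.ext_of_toZModPow.mp fun m => ?_
  suffices hm : PadicInt.toZModPow (m + 1) (tateRep B g).det = PadicInt.toZModPow (m + 1) (chi2 g) by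
    have h2 := congrArg (ZMod.castHom (pow_dvd_pow 2 m.le_succ) (ZMod (2 ^ m))) hm
    rwa [← RingHom.comp_apply, ← RingHom.comp_apply, PadicInt.zmod_cast_comp_toZModPow m (m + 1)
      m.le_succ] at h2
  let matH : Gal2 →* Matrix (Fin 2) (Fin 2) (ZMod (2 ^ (m + 1))) :=
    { toFun := mat B (m + 1), map_one' := mat_one B _, map_mul' := mat_mul B _ }
  let U : Subgroup Gal2 := matH.ker ⊓ (Reps.cycMod 2 (m + 1)).ker
  have hU : IsOpen (U : Set Gal2) := by
    have := EllTorsion.isElliptic_map_rat hΔ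
    obtain ⟨L, hL, h1⟩ := EllTorsion.exists_finiteLevel_smul_eq (E.map (Int.castRingHom ℚ))
      (2 ^ (m + 1)) (pow_ne_zero _ two_ne_zero)
    obtain ⟨L', hL', h2⟩ := Reps.exists_level_cycMod (p := 2) (m + 1)
    refine Subgroup.isOpen_mono (H₁ := (L ⊔ L').fixingSubgroup) (fun σ hσ => ?_)
      (IntermediateField.fixingSubgroup_isOpen _)
    rw [IntermediateField.mem_fixingSubgroup_iff] at hσ
    refine ⟨?_, h2 σ fun x hx => hσ x (le_sup_right (a := L) hx)⟩
    exact (mat_eq_one_iff B (m + 1) σ).2 fun x hx => congrArg Subtype.val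
      (h1 σ (fun y hy => hσ y (le_sup_left (b := L') hy))
        ⟨x, by rw [Submodule.mem_torsionBy_iff, natCast_zsmul]; exact hx⟩)
  have hres : ∀ u ∈ U, resRep B u = 1 := by
    intro u hu
    refine (resRep_eq_one_iff B u).2 ((mat_eq_one_iff B 1 u).2 fun x hx => ?_)
    refine (mat_eq_one_iff B (m + 1) u).1 hu.1 x ?_
    have hx2 : 2 • x = 0 := by simpa using hx
    rw [pow_succ, mul_nsmul', hx2, nsmul_zero]
  revert hg
  have hdet : ∀ σ : Gal2, PadicInt.toZModPow (m + 1) (tateRep B σ).det = (mat B (m + 1) σ).det :=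
    fun σ => by rw [RingHom.map_det, toZModPow_tateRep]
  rw [hdet]
  show resRep B g ≠ 1 → (mat B (m + 1) g).det = Reps.cycMod 2 (m + 1) g
  refine Density.forall_of_forall_isFrobeniusAt_coprime
    (P := fun g => resRep B g ≠ 1 → (mat B (m + 1) g).det = Reps.cycMod 2 (m + 1) g)
    U hU (insert 2 E.Δ.natAbs.primeFactors) ?_ ?_ ?_ g
  · intro x u hu hx hne
    rw [map_mul, hres u hu, mul_one] at hne
    rw [mat_mul, show mat B (m + 1) u = 1 from hu.1, mul_one, map_mul,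
      show Reps.cycMod 2 (m + 1) u = 1 from hu.2, mul_one]
    exact hx hne
  · intro x k hk hx hne
    obtain ⟨j, hj⟩ := exists_pow_eq_self_of_coprime hk
    rw [← QuotientGroup.mk_pow, ← QuotientGroup.mk_pow, QuotientGroup.eq] at hj
    obtain ⟨hu1, hu2⟩ := hj
    have hr := hres _ ⟨hu1, hu2⟩
    set u := ((x ^ k) ^ j)⁻¹ * x with hu
    have hxu : x = (x ^ k) ^ j * u := by rw [hu, mul_inv_cancel_left]
    have hne' : resRep B (x ^ k) ≠ 1 := fun h => hne (by
      rw [hxu, map_mul, hr, mul_one, map_pow, h, one_pow])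
    have hpow : ∀ (y : Gal2) (n : ℕ), mat B (m + 1) (y ^ n) = mat B (m + 1) y ^ n := fun y n =>
      map_pow matH y n
    rw [hxu, mat_mul, show mat B (m + 1) u = 1 from hu1, mul_one, hpow, Matrix.det_pow, map_mul,
      show Reps.cycMod 2 (m + 1) u = 1 from hu2, mul_one, map_pow (Reps.cycMod 2 (m + 1)),
      hx hne']
  · intro ℓ hℓ hS _ A hA φ hφ hne
    simp only [Finset.mem_insert, not_or] at hS
    have hgood : E.IsGoodPrimeFor ℓ := fun hd => hS.2
      (Nat.mem_primeFactors.2 ⟨hℓ, Int.natCast_dvd.1 hd, Int.natAbs_ne_zero.2 hΔ⟩)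
    have h := (tateRep_trace_det_of_ne B hℓ hS.1 hgood hA hφ hne).2
    rw [← hdet, h, ← Reps.cyc_frobenius (p := 2) hℓ hS.1 hA hφ]
    rfl

/-- The trace of Frobenius at an odd good prime. -/
theorem trace_tateRep (hΔ : E.Δ ≠ 0) (hsome : ∃ h, resRep B h ≠ 1) {ℓ : ℕ} (hℓ : ℓ.Prime)
    (hℓ2 : ℓ ≠ 2) (hgood : E.IsGoodPrimeFor ℓ) {A : ValuationSubring ℚ̄} (hA : A.LiesOverPrime ℓ)
    {φ : Gal2} (hφ : A.IsFrobeniusAt φ ℓ) :
    (tateRep B φ).trace = (E.apOfModel ℓ : ℤ_[2]) := by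
  have hd := det_tateRep B hΔ hsome φ
  rw [show chi2 φ = (ℓ : ℤ_[2]) from Reps.cyc_frobenius hℓ hℓ2 hA hφ] at hd
  have h := tateRep_frob_rel B hℓ hℓ2 hgood hA hφ
  have h00 := congrFun (congrFun h 0) 0
  have h01 := congrFun (congrFun h 0) 1
  have h10 := congrFun (congrFun h 1) 0
  have h11 := congrFun (congrFun h 1) 1
  simp [Matrix.mul_apply, Fin.sum_univ_two] at h00 h01 h10 h11
  set r := tateRep B φ with hr
  rw [Matrix.det_fin_two] at hd
  rw [Matrix.trace_fin_two]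
  set t : ℤ_[2] := r 0 0 + r 1 1 - E.apOfModel ℓ with ht
  refine sub_eq_zero.1 (show t = 0 from ?_)
  by_contra ht0
  have z : ∀ x, t * x = 0 → x = 0 := fun x hx => (mul_eq_zero.1 hx).resolve_left ht0
  have e00 := z (r 0 0) (by linear_combination h00 + hd)
  have e01 := z (r 0 1) (by linear_combination h01)
  rw [e00, e01] at hd
  simp only [zero_mul, sub_zero] at hd
  exact hℓ.ne_zero (Nat.cast_eq_zero.1 hd.symm)

end FLTAgent.Mod2.CurveRep
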