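import Fermat.Agent.Small2.Lifting
import Fermat.Agent.IntStr.Main
import Fermat.Prelude.Sol.S_ModularForm_heckeU_slash_eq_self_of_mem_Gamma0

/-!
# Lifting a mod two eigenform, and lowering the level by `U_p`

An integral form which is an eigenform modulo two gives a residual character of the Hecke algebra
(`exists_residual`), which is dominated by a normalised eigenform (`exists_eigenform_of_residual`,
`lifting_two`). If `p ∣ M`, `U_p` maps level `p M` to level `M` (`exists_lowerU`).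
-/

set_option autoImplicit false
set_option linter.unusedSectionVars false
set_option linter.style.haveILetI false

noncomputable section

open CongruenceSubgroup FLTAgent.Small2
open scoped MatrixGroups ModularForm

namespace FLTAgent.Mod2

variable {N : ℕ}

local notation "S₂" N => CuspForm (CongruenceSubgroup.Gamma0 N) 2

variable [NeZero N]

/-- An integral eigenform modulo two gives a residual character. -/
theorem exists_residual (h2N : 2 ∣ N) (f : S₂ N) (af : ℕ → ℤ)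
    (hfn : ∀ n, coeffL n f = (af n : ℂ)) (h1 : (af 1 : ZMod 2) = 1)
    (heig : ∀ p : ℕ, p.Prime → ∀ n : ℕ, ((af (p * n) : ℤ) : ZMod 2) +
      (if ¬ p ∣ N ∧ p ∣ n then ((af (n / p) : ℤ) : ZMod 2) else 0) = (af p : ZMod 2) * af n) :
    ∃ φ : CuspForm.heckeAlgebra N 2 ∅ →+* ZMod 2, ∀ (t : CuspForm.heckeAlgebra N 2 ∅) (a : ℤ),
      coeffL 1 ((t : Module.End ℂ (S₂ N)) f) = a → φ t = a := by
  have hf : f ∈ CuspForm.intLattice N 2 := mem_intLattice_iff.2 fun n => ⟨af n, hfn n⟩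
  set A := CuspForm.heckeAlgebra N 2 ∅ with hA
  -- integer coefficients of `t f`
  have hint : ∀ (t : A) (n : ℕ), ∃ m : ℤ, coeffL n ((t : Module.End ℂ (S₂ N)) f) = m :=
    fun t => mem_intLattice_iff.1 (CuspForm.mem_intLattice_of_mem_heckeAlgebra one_le_two t.2 hf)
  -- `f` is an eigenform modulo two
  let P : Module.End ℂ (S₂ N) → ℤ → Prop := fun t c =>
    ∃ g ∈ CuspForm.intLattice N 2, t f = (c : ℂ) • f + (2 : ℂ) • g
  have mkP : ∀ (t : Module.End ℂ (S₂ N)) (c : ℤ) (bn : ℕ → ℤ),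
      (∀ n, coeffL n (t f) = bn n) → (∀ n, (bn n : ZMod 2) = (c : ZMod 2) * af n) → P t c := by
    intro t c bn hb hd
    have hd' : ∀ n, (2 : ℤ) ∣ bn n - c * af n := fun n => by
      refine (ZMod.intCast_zmod_eq_zero_iff_dvd _ 2).1 ?_
      push_cast
      rw [hd n, sub_self]
    choose d hd' using hd'
    refine ⟨(2 : ℂ)⁻¹ • (t f - (c : ℂ) • f), mem_intLattice_iff.2 fun n => ⟨d n, ?_⟩, ?_⟩
    · have := congrArg (fun z : ℤ => (z : ℂ)) (hd' n)
      push_cast at this
      simp only [map_smul, map_sub, smul_eq_mul, hb, hfn]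
      rw [this]; ring
    · rw [smul_smul, mul_inv_cancel₀ (by norm_num : (2 : ℂ) ≠ 0), one_smul]; abel
  have hgen : ∀ t ∈ CuspForm.heckeGenerators N 2 ∅, ∃ c, P t c := by
    rintro t (⟨ℓ, hℓ, hℓN, -, rfl⟩ | ⟨q, hqN, hq, -, rfl⟩)
    · refine ⟨af ℓ, mkP _ _ (fun n => af (ℓ * n) + if ℓ ∣ n then (ℓ : ℤ) * af (n / ℓ) else 0)
        (fun n => ?_) fun n => ?_⟩
      · rw [coeffL_T hℓ hℓN]; split_ifs <;> simp [hfn]
      · have hl := heig ℓ hℓ n
        have hl2 : ℓ ≠ 2 := fun e => hℓN (e ▸ h2N)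
        have hodd : ((ℓ : ℕ) : ZMod 2) = 1 := by
          rw [ZMod.natCast_eq_one_iff_odd]; exact hℓ.odd_of_ne_two hl2
        simp only [hℓN, not_false_iff, true_and] at hl
        split_ifs at hl ⊢ <;> simpa [hodd] using hl
    · refine ⟨af q, mkP _ _ (fun n => af (q * n)) (fun n => ?_) fun n => ?_⟩
      · rw [coeffL_U hq, hfn]
      · simpa [hqN] using heig q hq n
  have hP : ∀ t ∈ A, ∃ c, P t c := by
    intro t ht
    induction ht using Algebra.adjoin_induction with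
    | mem x hx => exact hgen x hx
    | algebraMap r => exact ⟨r, 0, zero_mem _, by simp [Int.cast_smul_eq_zsmul]⟩
    | add x y _ _ hx hy =>
      obtain ⟨cx, gx, hgx, ex⟩ := hx
      obtain ⟨cy, gy, hgy, ey⟩ := hy
      refine ⟨cx + cy, gx + gy, add_mem hgx hgy, ?_⟩
      rw [LinearMap.add_apply, ex, ey]; push_cast; module
    | mul x y hxA _ hx hy =>
      obtain ⟨cx, gx, hgx, ex⟩ := hx
      obtain ⟨cy, gy, hgy, ey⟩ := hy
      refine ⟨cy * cx, cy • gx + x gy, add_mem (Submodule.smul_mem _ cy hgx)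
        (CuspForm.mem_intLattice_of_mem_heckeAlgebra one_le_two hxA hgy), ?_⟩
      rw [Module.End.mul_apply, ey, map_add, map_smul, map_smul, ex,
        ← Int.cast_smul_eq_zsmul ℂ cy gx]
      push_cast; module
  -- the residual character
  choose m hm using fun t : A => hint t 1
  have hred : ∀ (t : A) (c : ℤ), P t c → (m t : ZMod 2) = c := by
    rintro t c ⟨g, hg, eg⟩
    obtain ⟨d, hd⟩ := mem_intLattice_iff.1 hg 1
    have : coeffL 1 ((t : Module.End ℂ (S₂ N)) f) = ((c * af 1 + 2 * d : ℤ) : ℂ) := by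
      rw [eg]; simp [hfn, hd]
    rw [hm t, Int.cast_inj] at this
    rw [this]
    push_cast
    rw [h1, show (2 : ZMod 2) = 0 from by decide]; simp
  let φ : A →+* ZMod 2 :=
    { toFun := fun t => (m t : ZMod 2)
      map_one' := by
        rw [hred 1 1 ⟨0, zero_mem _, by simp⟩, Int.cast_one]
      map_mul' := fun s t => by
        obtain ⟨cs, gs, hgs, es⟩ := hP s s.2
        obtain ⟨ct, gt, hgt, et⟩ := hP t t.2
        rw [hred s cs ⟨gs, hgs, es⟩, hred t ct ⟨gt, hgt, et⟩, ← Int.cast_mul, mul_comm cs ct]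
        refine hred (s * t) _ ⟨ct • gs + (s : Module.End ℂ (S₂ N)) gt,
          add_mem (Submodule.smul_mem _ ct hgs)
            (CuspForm.mem_intLattice_of_mem_heckeAlgebra one_le_two s.2 hgt), ?_⟩
        rw [MulMemClass.coe_mul, Module.End.mul_apply, et, map_add, map_smul, map_smul, es,
          ← Int.cast_smul_eq_zsmul ℂ ct gs]
        push_cast; module
      map_zero' := by
        rw [hred 0 0 ⟨0, zero_mem _, by simp⟩, Int.cast_zero]
      map_add' := fun s t => by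
        have : coeffL 1 (((s + t : A) : Module.End ℂ (S₂ N)) f) = ((m s + m t : ℤ) : ℂ) := by
          simp [hm]
        rw [hm, Int.cast_inj] at this
        rw [this, Int.cast_add] }
  refine ⟨φ, fun t a ha => ?_⟩
  rw [hm t, Int.cast_inj] at ha
  show (m t : ZMod 2) = a
  rw [ha]

/-- A residual character is dominated by an eigenform. -/
theorem exists_eigen_char_aux {R : Type} [CommRing R] (ι : R →+* heckeC N)
    (hι : Function.Injective ι) (φ : R →+* ZMod 2) :
    ∃ (g : S₂ N) (χ : R →+* ℂ), coeffL 1 g = 1 ∧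
      (∀ t : R, ((ι t : heckeC N) : Module.End ℂ (S₂ N)) g = χ t • g) ∧
      ∀ t, χ t = 0 → φ t = 0 := by
  haveI := finiteDimensional_of_hasIntegralBasis (IntStr.hasIntegralBasis N)
  haveI hmax : (RingHom.ker φ).IsMaximal :=
    RingHom.ker_isMaximal_of_surjective φ (ZMod.ringHom_surjective φ)
  -- characters of the complex Hecke algebra
  haveI : IsMulCommutative (heckeC N) := ⟨⟨fun s t => Subtype.ext (heckeC_comm s.2 t.2)⟩⟩
  letI : CommRing (heckeC N) :=
    { (inferInstance : Ring (heckeC N)) with mul_comm := IsMulCommutative.is_comm.comm }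
  haveI : IsArtinianRing (heckeC N) := IsArtinianRing.of_finite ℂ _
  haveI : Fintype (MaximalSpectrum (heckeC N)) := Fintype.ofFinite _
  have hle : ∃ M : MaximalSpectrum (heckeC N), M.asIdeal.comap ι ≤ RingHom.ker φ := by
    have hinf : Finset.univ.inf (fun M : MaximalSpectrum (heckeC N) => M.asIdeal.comap ι) ≤
        RingHom.ker φ := by
      intro t ht
      rw [Submodule.mem_finsetInf] at ht
      have hnil : IsNilpotent (ι t) := by
        rw [← mem_nilradical, nilradical_eq_sInf, Ideal.mem_sInf]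
        intro I hI
        haveI : I.IsPrime := hI
        exact ht ⟨I, IsArtinianRing.isMaximal_of_isPrime I⟩ (Finset.mem_univ _)
      obtain ⟨k, hk⟩ := hnil
      have : t ^ k = 0 := by
        exact hι (by rw [map_pow, map_zero, hk])
      exact hmax.isPrime.mem_of_pow_mem k (this ▸ zero_mem _)
    obtain ⟨M, -, hM⟩ := hmax.isPrime.inf_le'.1 hinf
    exact ⟨M, hM⟩
  obtain ⟨M, hM⟩ := hle
  haveI := M.isMaximal
  letI : Field (heckeC N ⧸ M.asIdeal) := Ideal.Quotient.field _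
  haveI : Module.Finite ℂ (heckeC N ⧸ M.asIdeal) :=
    Module.Finite.of_surjective (Ideal.Quotient.mkₐ ℂ M.asIdeal).toLinearMap
      Ideal.Quotient.mk_surjective
  haveI : Algebra.IsIntegral ℂ (heckeC N ⧸ M.asIdeal) := Algebra.IsIntegral.of_finite ℂ _
  let eC : ℂ ≃ₐ[ℂ] (heckeC N ⧸ M.asIdeal) :=
    AlgEquiv.ofBijective (Algebra.ofId ℂ _) IsAlgClosed.algebraMap_bijective_of_isIntegral
  let ψ : heckeC N →ₐ[ℂ] ℂ := eC.symm.toAlgHom.comp (Ideal.Quotient.mkₐ ℂ M.asIdeal)
  have hψ : ∀ t : R, ψ (ι t) = 0 → φ t = 0 := fun t ht => hM (by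
    rw [Ideal.mem_comap, ← Ideal.Quotient.eq_zero_iff_mem]
    exact eC.symm.injective (by simpa [ψ] using ht))
  obtain ⟨g, hg1, hg⟩ := exists_eigenform ψ
  exact ⟨g, ψ.toRingHom.comp ι, hg1, fun t => hg (ι t), fun t ht => hψ t ht⟩

/-- A residual character of the Hecke algebra is dominated by an eigenform. -/
theorem exists_eigen_char (φ : CuspForm.heckeAlgebra N 2 ∅ →+* ZMod 2) :
    ∃ (g : S₂ N) (χ : CuspForm.heckeAlgebra N 2 ∅ →+* ℂ), coeffL 1 g = 1 ∧
      (∀ t : CuspForm.heckeAlgebra N 2 ∅, (t : Module.End ℂ (S₂ N)) g = χ t • g) ∧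
      ∀ t, χ t = 0 → φ t = 0 :=
  exists_eigen_char_aux (R := CuspForm.heckeAlgebra N 2 ∅)
    { toFun := fun t => (⟨t, heckeAlgebra_subset_heckeC t.2⟩ : heckeC N)
      map_one' := rfl
      map_mul' := fun x y =>
        Subtype.ext (map_mul (Subalgebra.val (CuspForm.heckeAlgebra N 2 ∅)) x y)
      map_zero' := rfl
      map_add' := fun _ _ => rfl }
    (fun _ _ h => Subtype.ext (Subtype.mk.inj h)) φ

/-- A complex character dominating a residual one has a maximal ideal above two. -/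
theorem exists_maximal_of_char {A : Type} [CommRing A] [Module.Finite ℤ A] (φ : A →+* ZMod 2)
    (χ : A →+* ℂ) (hψ : ∀ t, χ t = 0 → φ t = 0) :
    ∃ Q : Ideal (integralClosure ℤ ℂ), Q.IsMaximal ∧ ((2 : ℕ) : integralClosure ℤ ℂ) ∈ Q ∧
      ∀ t : A, ∃ c : integralClosure ℤ ℂ, (c : ℂ) = χ t ∧
        ∀ a : ℤ, φ t = a → c - (a : integralClosure ℤ ℂ) ∈ Q := by
  have hmax : (RingHom.ker φ).IsMaximal :=
    RingHom.ker_isMaximal_of_surjective φ (ZMod.ringHom_surjective φ)
  have hchiint : ∀ t : A, χ t ∈ integralClosure ℤ ℂ := fun t =>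
    map_isIntegral_int χ ((Algebra.IsIntegral.of_finite ℤ A).isIntegral t)
  let χ' : A →+* integralClosure ℤ ℂ := χ.codRestrict (integralClosure ℤ ℂ).toSubring hchiint
  letI : Algebra A (integralClosure ℤ ℂ) := χ'.toAlgebra
  haveI : IsScalarTower ℤ A (integralClosure ℤ ℂ) :=
    IsScalarTower.of_algebraMap_eq fun x => by simp
  haveI : Algebra.IsIntegral A (integralClosure ℤ ℂ) := Algebra.IsIntegral.tower_top ℤ
  obtain ⟨Q, hQ, hQc⟩ := Ideal.exists_ideal_over_prime_of_isIntegral_of_isDomain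
    (S := integralClosure ℤ ℂ) (RingHom.ker φ) (fun t ht => by
      refine hψ t ?_
      exact congrArg Subtype.val (RingHom.mem_ker.1 ht))
  have hQmax : Q.IsMaximal :=
    Ideal.isMaximal_of_isIntegral_of_isMaximal_comap Q (by rw [hQc]; exact hmax)
  have hQmem : ∀ t : A, φ t = 0 → χ' t ∈ Q := fun t ht => by
    have : t ∈ Q.comap (algebraMap A (integralClosure ℤ ℂ)) := hQc ▸ ht
    exact this
  refine ⟨Q, hQmax, ?_, fun t => ⟨χ' t, rfl, fun a ha => ?_⟩⟩
  · have := hQmem ((2 : ℕ) : A) (by rw [map_natCast]; decide)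
    rwa [map_natCast] at this
  · have h0 : φ (t - (a : A)) = 0 := by rw [map_sub, map_intCast, sub_eq_zero, ha]
    simpa using hQmem _ h0

/-- A residual character lifts to a normalised eigenform. -/
theorem exists_eigenform_of_residual (φ : CuspForm.heckeAlgebra N 2 ∅ →+* ZMod 2) :
    ∃ (g : S₂ N) (_ : g.IsNormalizedEigenform)
      (𝔪' : Ideal (integralClosure ℤ ℂ)), 𝔪'.IsMaximal ∧
      ((2 : ℕ) : integralClosure ℤ ℂ) ∈ 𝔪' ∧
      ∀ (t : CuspForm.heckeAlgebra N 2 ∅), ∃ c : integralClosure ℤ ℂ,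
        (c : ℂ) = coeffL 1 ((t : Module.End ℂ (S₂ N)) g) ∧
        ∀ a : ℤ, φ t = a → c - (a : integralClosure ℤ ℂ) ∈ 𝔪' := by
  classical
  obtain ⟨g, χ, hg1, hg, hker⟩ := exists_eigen_char φ
  haveI := finite_heckeAlgebra (IntStr.hasIntegralBasis N)
  have hform : g.IsNormalizedEigenform := isNormalizedEigenform_of_eigen hg1
    (fun p => if hp : p.Prime then
      (if hpN : p ∣ N then χ (CuspForm.heckeAlgebra.U hp hpN (Set.notMem_empty p))
        else χ (CuspForm.heckeAlgebra.T hp hpN (Set.notMem_empty p))) else 0)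
    (fun p hp hpN => by
      simpa [hp, hpN] using hg (CuspForm.heckeAlgebra.T hp hpN (Set.notMem_empty p)))
    (fun p hp hpN => by
      simpa [hp, hpN] using hg (CuspForm.heckeAlgebra.U hp hpN (Set.notMem_empty p)))
  obtain ⟨Q, hQ, h2, hc⟩ := exists_maximal_of_char φ χ hker
  refine ⟨g, hform, Q, hQ, h2, fun t => ?_⟩
  obtain ⟨c, hc, hca⟩ := hc t
  exact ⟨c, by rw [hc, hg t, map_smul, hg1, smul_eq_mul, mul_one], hca⟩

/-- An integral eigenform modulo two is congruent to a normalised eigenform. -/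
theorem lifting_two (h2N : 2 ∣ N) (f : S₂ N) (af : ℕ → ℤ) (hfn : ∀ n, coeffL n f = (af n : ℂ))
    (h1 : (af 1 : ZMod 2) = 1)
    (heig : ∀ p : ℕ, p.Prime → ∀ n : ℕ, ((af (p * n) : ℤ) : ZMod 2) +
      (if ¬ p ∣ N ∧ p ∣ n then ((af (n / p) : ℤ) : ZMod 2) else 0) = (af p : ZMod 2) * af n) :
    ∃ (g : S₂ N) (_ : g.IsNormalizedEigenform)
      (𝔪' : Ideal (integralClosure ℤ ℂ)), 𝔪'.IsMaximal ∧
      ((2 : ℕ) : integralClosure ℤ ℂ) ∈ 𝔪' ∧
      ∀ ℓ : ℕ, ℓ.Prime →
        ∃ c : integralClosure ℤ ℂ, (c : ℂ) = ModularFormClass.qCoeff g ℓ ∧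
          c - (af ℓ : integralClosure ℤ ℂ) ∈ 𝔪' := by
  obtain ⟨φ, hφ⟩ := exists_residual h2N f af hfn h1 heig
  obtain ⟨g, hg, Q, hQ, h2, hcong⟩ := exists_eigenform_of_residual φ
  refine ⟨g, hg, Q, hQ, h2, fun ℓ hℓ => ?_⟩
  by_cases hℓN : ℓ ∣ N
  · obtain ⟨c, hc, hca⟩ := hcong (CuspForm.heckeAlgebra.U hℓ hℓN (Set.notMem_empty ℓ))
    refine ⟨c, ?_, hca _ (hφ _ _ ?_)⟩
    · rw [hc, CuspForm.heckeAlgebra.coe_U, coeffL_U hℓ, mul_one]
      rfl
    · rw [CuspForm.heckeAlgebra.coe_U, coeffL_U hℓ, mul_one, hfn]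
  · obtain ⟨c, hc, hca⟩ := hcong (CuspForm.heckeAlgebra.T hℓ hℓN (Set.notMem_empty ℓ))
    refine ⟨c, ?_, hca _ (hφ _ _ ?_)⟩
    · rw [hc, CuspForm.heckeAlgebra.coe_T, coeffL_T, mul_one, if_neg hℓ.not_dvd_one, add_zero]
      rfl
    · rw [CuspForm.heckeAlgebra.coe_T, coeffL_T, mul_one, if_neg hℓ.not_dvd_one, add_zero, hfn]

open P2MW.S_ModularForm_heckeU_slash_eq_self_of_mem_Gamma0.ModularForm.HeckeSlashInvariance in
/-- When `p ∣ M`, the operator `U_p` maps level `p M` to level `M`. -/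
theorem exists_lowerU {p M : ℕ} [NeZero p] [NeZero M] (hpM : p ∣ M)
    (f : CuspForm (CongruenceSubgroup.Gamma0 (p * M)) 2) :
    ∃ g : CuspForm (CongruenceSubgroup.Gamma0 M) 2, ⇑g = ModularForm.heckeU 2 p ⇑f := by
  refine ⟨{ toFun := ModularForm.heckeU 2 p ⇑f
            slash_action_eq' := ?_
            holo' := ModularForm.mdifferentiable_heckeU (CuspFormClass.holo f) 2 p
            zero_at_cusps' := ?_ }, rfl⟩
  · rintro γ ⟨g, hg, rfl⟩
    have hM : (M : ℤ) ∣ g 1 0 :=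
      (ZMod.intCast_zmod_eq_zero_iff_dvd _ _).mp (CongruenceSubgroup.Gamma0_mem.mp hg)
    have hc : (p : ℤ) ∣ g 1 0 := (Int.natCast_dvd_natCast.mpr hpM).trans hM
    rw [heckeU_eq_sum_zmod 2 ⇑f, SlashAction.sum_slash]
    refine (Finset.sum_congr rfl fun x _ => ?_).trans
      (Equiv.sum_comp (affinePerm g ((ZMod.intCast_zmod_eq_zero_iff_dvd _ _).mpr hc))
        (fun x => ⇑f ∣[(2 : ℤ)] ModularForm.heckeMatrix p x.val))
    obtain ⟨g', hg', hmul⟩ := heckeMatrix_mul_of_dvd g hc x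
    have hg'N : g' ∈ CongruenceSubgroup.Gamma0 (p * M) := by
      rw [CongruenceSubgroup.Gamma0_mem, ZMod.intCast_zmod_eq_zero_iff_dvd, hg', Nat.cast_mul]
      exact mul_dvd_mul_left _ hM
    rw [← SlashAction.slash_mul, hmul, SlashAction.slash_mul,
      SlashInvariantFormClass.slash_action_eq f _ (Subgroup.mem_map_of_mem _ hg'N)]
  · intro c hc
    refine CuspFormClass.isZeroAt_heckeU f p ?_
    rw [Subgroup.IsArithmetic.isCusp_iff_isCusp_SL2Z] at hc ⊢
    exact hc

end FLTAgent.Mod2
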