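import Fermat.Agent.Mod2.ThetaHecke
import Fermat.Agent.Mod2.ThetaLift

/-!
# Theta series in characteristic two as homomorphisms from the Hecke algebra

`ringCoeff φ` are the theta coefficients of a class character with values in a ring. A weighted
family of integral forms with eigen coefficients gives a homomorphism from the Hecke algebra
(`exists_hom_of_family`); the cusp forms of `ThetaGenus`, lowered by `U_2`, give one with values
`ringCoeff φ` at level twice the odd part of the discriminant (`exists_hom_theta`).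
-/

set_option autoImplicit false
set_option linter.unusedSectionVars false
set_option linter.style.haveILetI false

noncomputable section

open NumberField Module
open FLTAgent.Small2 (coeffL)
open scoped nonZeroDivisors

namespace FLTAgent.Mod2

section Ring

variable {K : Type} [Field K] [NumberField K] {B : Type} [CommRing B]
  (φ : ClassGroup (𝓞 K) →* Bˣ)

/-- The value of a ring valued character at an ideal. -/
def ringValue (I : Ideal (𝓞 K)) : B := ((φ (idealClass I) : Bˣ) : B)

/-- The coefficients of its theta series. -/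
def ringCoeff (n : ℕ) : B := if n = 0 then 0 else ∑ I ∈ normSet K n, ringValue φ I

theorem ringCoeff_zero : ringCoeff φ 0 = 0 := if_pos rfl

theorem ringCoeff_eq {n : ℕ} (hn : n ≠ 0) :
    ringCoeff φ n = ∑ I ∈ normSet K n, ringValue φ I := if_neg hn

theorem ringValue_span (x : 𝓞 K) : ringValue φ (Ideal.span {x}) = 1 := by
  rw [ringValue, idealClass_principal, map_one, Units.val_one]

theorem ringValue_mul {I J : Ideal (𝓞 K)} (hI : I ≠ ⊥) (hJ : J ≠ ⊥) :
    ringValue φ (I * J) = ringValue φ I * ringValue φ J := by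
  rw [ringValue, ringValue, ringValue, idealClass_mul hI hJ, map_mul, Units.val_mul]

theorem ringCoeff_one : ringCoeff φ 1 = 1 := by
  have : normSet K 1 = {⊤} := by
    ext I
    rw [mem_normSet, Finset.mem_singleton, Ideal.absNorm_eq_one_iff]
  rw [ringCoeff_eq φ one_ne_zero, this, Finset.sum_singleton, ← Ideal.span_singleton_one,
    ringValue_span]

open Classical in
theorem ringSum_filter_dvd {l n : ℕ} {Q : Ideal (𝓞 K)} (hQ : Ideal.absNorm Q = l) (hl : l ≠ 0)
    (hn : n ≠ 0) :
    ∑ I ∈ (normSet K (l * n)).filter (Q ∣ ·), ringValue φ I = ringValue φ Q * ringCoeff φ n := by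
  have hQ0 : Q ≠ ⊥ := fun h => hl (by rw [← hQ, h, Ideal.absNorm_bot])
  rw [ringCoeff_eq φ hn, Finset.mul_sum]
  refine (Finset.sum_bij (fun J _ => Q * J) (fun J hJ => ?_) (fun J _ J' _ h => ?_)
    (fun I hI => ?_) (fun J hJ => ?_)).symm
  · rw [Finset.mem_filter, mem_normSet, map_mul, hQ, mem_normSet.mp hJ]
    exact ⟨rfl, dvd_mul_right Q J⟩
  · exact mul_left_cancel₀ hQ0 h
  · rw [Finset.mem_filter, mem_normSet] at hI
    obtain ⟨hIn, J, rfl⟩ := hI
    rw [map_mul, hQ] at hIn
    exact ⟨J, mem_normSet.mpr (mul_left_cancel₀ hl hIn), rfl⟩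
  · have hJ0 : J ≠ ⊥ := fun h => hn (by rw [← mem_normSet.mp hJ, h, Ideal.absNorm_bot])
    exact (ringValue_mul φ hQ0 hJ0).symm

open Classical in
theorem ringSum_filter_span (hK : finrank ℚ K = 2) {l n : ℕ} (hl : l.Prime) (hn : n ≠ 0) :
    ∑ I ∈ (normSet K (l * n)).filter (Ideal.span {(l : 𝓞 K)} ∣ ·), ringValue φ I =
      if l ∣ n then ringCoeff φ (n / l) else 0 := by
  split_ifs with h
  · obtain ⟨k, rfl⟩ := h
    rw [← mul_assoc, ← sq, ringSum_filter_dvd φ (absNorm_natCast_span hK l)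
      (pow_ne_zero 2 hl.ne_zero) (right_ne_zero_of_mul hn), ringValue_span, one_mul,
      Nat.mul_div_cancel_left k hl.pos]
  · refine Finset.sum_eq_zero fun I hI => absurd ?_ h
    rw [Finset.mem_filter, mem_normSet] at hI
    obtain ⟨hIn, J, rfl⟩ := hI
    rw [map_mul, absNorm_natCast_span hK, sq, mul_assoc] at hIn
    exact Dvd.intro _ (mul_left_cancel₀ hl.ne_zero hIn)

/-- An inert prime. -/
theorem ringCoeff_inert (hK : finrank ℚ K = 2) {l : ℕ} (hl : l.Prime)
    {P : Ideal (𝓞 K)} (hP : P.IsMaximal) (hLP : Ideal.span {(l : 𝓞 K)} = P) (n : ℕ) :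
    ringCoeff φ (l * n) = if l ∣ n then ringCoeff φ (n / l) else 0 := by
  classical
  rcases eq_or_ne n 0 with rfl | hn
  · simp [ringCoeff_zero]
  have hall : (normSet K (l * n)).filter (Ideal.span {(l : 𝓞 K)} ∣ ·) = normSet K (l * n) := by
    refine Finset.filter_true_of_mem fun I hI => ?_
    obtain ⟨M, hM, hMI, hML⟩ := exists_prime_dvd_of_mem_normSet hK hl hI
    rw [hLP] at hML ⊢
    rwa [hP.eq_of_le hM.ne_top (Ideal.dvd_iff_le.mp hML)]
  rw [ringCoeff_eq φ (mul_ne_zero hl.ne_zero hn), ← hall, ringSum_filter_span φ hK hl hn]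

theorem ringCoeff_inert_self (hK : finrank ℚ K = 2) {l : ℕ} (hl : l.Prime)
    {P : Ideal (𝓞 K)} (hP : P.IsMaximal) (hLP : Ideal.span {(l : 𝓞 K)} = P) :
    ringCoeff φ l = 0 := by
  have h := ringCoeff_inert φ hK hl hP hLP 1
  rwa [mul_one, if_neg hl.not_dvd_one] at h

/-- A split prime. -/
theorem ringCoeff_split (hK : finrank ℚ K = 2) {l : ℕ} (hl : l.Prime)
    {P R : Ideal (𝓞 K)} (hP : P.IsMaximal) (hR : R.IsMaximal) (hPn : Ideal.absNorm P = l)
    (hRn : Ideal.absNorm R = l) (hLP : Ideal.span {(l : 𝓞 K)} = P * R) (hne : P ≠ R) :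
    ringValue φ P * ringValue φ R = 1 ∧ ringCoeff φ l = ringValue φ P + ringValue φ R ∧
      ∀ n : ℕ, ringCoeff φ (l * n) + (if l ∣ n then ringCoeff φ (n / l) else 0) =
        ringCoeff φ l * ringCoeff φ n := by
  classical
  have hP0 : P ≠ ⊥ := fun h => hl.ne_zero (by rw [← hPn, h, Ideal.absNorm_bot])
  have hR0 : R ≠ ⊥ := fun h => hl.ne_zero (by rw [← hRn, h, Ideal.absNorm_bot])
  have key : ∀ n : ℕ, ringCoeff φ (l * n) + (if l ∣ n then ringCoeff φ (n / l) else 0) =
      (ringValue φ P + ringValue φ R) * ringCoeff φ n := by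
    intro n
    rcases eq_or_ne n 0 with rfl | hn
    · simp [ringCoeff_zero]
    set S := normSet K (l * n)
    have hunion : S.filter (P ∣ ·) ∪ S.filter (R ∣ ·) = S := by
      rw [← Finset.filter_or]
      refine Finset.filter_true_of_mem fun I hI => ?_
      obtain ⟨M, hM, hMI, hML⟩ := exists_prime_dvd_of_mem_normSet hK hl hI
      rw [hLP] at hML
      rcases hM.isPrime.mul_le.mp (Ideal.dvd_iff_le.mp hML) with h | h
      · exact Or.inl ((hP.eq_of_le hM.ne_top h).symm ▸ hMI)
      · exact Or.inr ((hR.eq_of_le hM.ne_top h).symm ▸ hMI)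
    have hinter : S.filter (P ∣ ·) ∩ S.filter (R ∣ ·) =
        S.filter (Ideal.span {(l : 𝓞 K)} ∣ ·) := by
      rw [← Finset.filter_and, hLP]
      refine Finset.filter_congr fun I _ => ⟨fun h => ?_, fun h =>
        ⟨dvd_trans (dvd_mul_right P R) h, dvd_trans (dvd_mul_left R P) h⟩⟩
      exact ((Ideal.isCoprime_iff_sup_eq.mpr (hP.coprime_of_ne hR hne))).mul_dvd h.1 h.2
    have h := Finset.sum_union_inter (s₁ := S.filter (P ∣ ·)) (s₂ := S.filter (R ∣ ·))
      (f := ringValue φ)
    rw [hunion, hinter, ringSum_filter_dvd φ hPn hl.ne_zero hn,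
      ringSum_filter_dvd φ hRn hl.ne_zero hn, ringSum_filter_span φ hK hl hn,
      ← ringCoeff_eq φ (mul_ne_zero hl.ne_zero hn)] at h
    rw [h, add_mul]
  have h1 : ringCoeff φ l = ringValue φ P + ringValue φ R := by
    simpa [ringCoeff_one, hl.not_dvd_one] using key 1
  refine ⟨?_, h1, fun n => h1 ▸ key n⟩
  rw [← ringValue_mul φ hP0 hR0, ← hLP, ringValue_span]

/-- The relation at a prime not dividing the discriminant, in characteristic two. -/
theorem ringCoeff_unramified (hK : finrank ℚ K = 2) (hB : (2 : B) = 0) {l : ℕ} (hl : l.Prime)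
    (hd : ¬ (l : ℤ) ∣ NumberField.discr K) (n : ℕ) :
    ringCoeff φ (l * n) + (if l ∣ n then ringCoeff φ (n / l) else 0) =
      ringCoeff φ l * ringCoeff φ n := by
  rcases prime_decomposition hK hl with ⟨P, hP, -, hLP⟩ | ⟨P, R, hP, hR, hPn, hRn, hLP⟩
  · rw [ringCoeff_inert φ hK hl hP hLP, ringCoeff_inert_self φ hK hl hP hLP, zero_mul,
      ← two_mul, hB, zero_mul]
  · exact (ringCoeff_split φ hK hl hP hR hPn hRn hLP
      fun e => hd ((eq_of_dvd_discr_iff hK hl hP hR hPn hLP).mpr e)).2.2 n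

/-- The relation at a prime dividing the discriminant. -/
theorem ringCoeff_ramified (hK : finrank ℚ K = 2) {l : ℕ} (hl : l.Prime)
    (hd : (l : ℤ) ∣ NumberField.discr K) :
    (∃ P : Ideal (𝓞 K), P.IsMaximal ∧ Ideal.absNorm P = l ∧ Ideal.span {(l : 𝓞 K)} = P * P ∧
      ringCoeff φ l = ringValue φ P) ∧
    ringCoeff φ l * ringCoeff φ l = 1 ∧
      ∀ n : ℕ, ringCoeff φ (l * n) = ringCoeff φ l * ringCoeff φ n := by
  classical
  rcases prime_decomposition hK hl with ⟨P, hP, -, hLP⟩ | ⟨P, R, hP, hR, hPn, -, hLP⟩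
  · exact absurd hd (not_dvd_discr_of_inert hK hl hP hLP)
  obtain rfl := (eq_of_dvd_discr_iff hK hl hP hR hPn hLP).mp hd
  have hP0 : P ≠ ⊥ := fun h => hl.ne_zero (by rw [← hPn, h, Ideal.absNorm_bot])
  have key : ∀ n : ℕ, ringCoeff φ (l * n) = ringValue φ P * ringCoeff φ n := by
    intro n
    rcases eq_or_ne n 0 with rfl | hn
    · simp [ringCoeff_zero]
    have hall : (normSet K (l * n)).filter (P ∣ ·) = normSet K (l * n) := by
      refine Finset.filter_true_of_mem fun I hI => ?_
      obtain ⟨M, hM, hMI, hML⟩ := exists_prime_dvd_of_mem_normSet hK hl hI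
      rw [hLP] at hML
      have h : P ≤ M := (hM.isPrime.mul_le.mp (Ideal.dvd_iff_le.mp hML)).elim id id
      rwa [hP.eq_of_le hM.ne_top h]
    rw [ringCoeff_eq φ (mul_ne_zero hl.ne_zero hn), ← hall, ringSum_filter_dvd φ hPn hl.ne_zero hn]
  have h1 : ringCoeff φ l = ringValue φ P := by simpa [ringCoeff_one] using key 1
  refine ⟨⟨P, hP, hPn, hLP, h1⟩, ?_, fun n => h1 ▸ key n⟩
  rw [h1, ← ringValue_mul φ hP0 hP0, ← hLP, ringValue_span]

end Ring

/-- An integral weight two cusp form with the given coefficients. -/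
def HasIntForm (L : ℕ) (b : ℕ → ℤ) : Prop :=
  ∃ F : CuspForm (CongruenceSubgroup.Gamma0 L) 2, ∀ n, coeffL n F = (b n : ℂ)

theorem HasIntForm.lower {M : ℕ} [NeZero M] (hM : 2 ∣ M) {b : ℕ → ℤ}
    (h : HasIntForm (2 * M) b) : HasIntForm M fun n => b (2 * n) := by
  obtain ⟨F, hF⟩ := h
  obtain ⟨g, hg⟩ := exists_lowerU hM F
  refine ⟨g, fun n => ?_⟩
  show ModularFormClass.qCoeff (⇑g) n = _
  rw [hg]
  exact (Small2.coeffL_U Nat.prime_two (dvd_mul_right 2 M) F n).trans (hF _)

theorem HasIntForm.lower_pow {m : ℕ} [NeZero m] (e : ℕ) {b : ℕ → ℤ}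
    (h : HasIntForm (2 ^ (e + 1) * m) b) : HasIntForm (2 * m) fun n => b (2 ^ e * n) := by
  induction e generalizing b with
  | zero => simpa using h
  | succ e ih =>
    haveI : NeZero (2 ^ (e + 1) * m) := ⟨mul_ne_zero (pow_ne_zero _ two_ne_zero) (NeZero.ne m)⟩
    have h' : HasIntForm (2 ^ (e + 1) * m) fun n => b (2 * n) :=
      HasIntForm.lower (dvd_mul_of_dvd_left (dvd_pow_self 2 e.succ_ne_zero) m)
        (by rwa [← mul_assoc, ← pow_succ'])
    convert ih h' using 3 with n
    rw [pow_succ']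
    ring

section Eval

variable {N : ℕ} {B : Type} [CommRing B] {ι : Type} [Fintype ι]

local notation "S₂" N => CuspForm (CongruenceSubgroup.Gamma0 N) 2

/-- The integral coefficients of a form of the integral lattice. -/
def intCoeff (f : CuspForm.intLattice N 2) (n : ℕ) : ℤ :=
  (Small2.mem_intLattice_iff.1 f.2 n).choose

theorem coeffL_intCoeff (f : CuspForm.intLattice N 2) (n : ℕ) :
    coeffL n (f : S₂ N) = (intCoeff f n : ℂ) :=
  (Small2.mem_intLattice_iff.1 f.2 n).choose_spec

/-- The coefficient of a weighted family of forms. -/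
def wCoeff (b : ι → B) (h : ι → CuspForm.intLattice N 2) (n : ℕ) : B :=
  ∑ i, b i * (intCoeff (h i) n : B)

theorem intCoeff_eq_of {f : CuspForm.intLattice N 2} {n : ℕ} {z : ℤ}
    (h : coeffL n (f : S₂ N) = (z : ℂ)) : intCoeff f n = z :=
  Int.cast_injective (α := ℂ) ((coeffL_intCoeff f n).symm.trans h)

variable [NeZero N]

/-- The action on the integral lattice. -/
def latAct (t : CuspForm.heckeAlgebra N 2 ∅) (f : CuspForm.intLattice N 2) :
    CuspForm.intLattice N 2 :=
  ⟨(t : Module.End ℂ (S₂ N)) (f : S₂ N),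
    CuspForm.mem_intLattice_of_mem_heckeAlgebra one_le_two t.2 f.2⟩

theorem coe_latAct (t : CuspForm.heckeAlgebra N 2 ∅) (f : CuspForm.intLattice N 2) :
    ((latAct t f : CuspForm.intLattice N 2) : S₂ N) = (t : Module.End ℂ (S₂ N)) (f : S₂ N) := rfl

variable (b : ι → B) (a : ℕ → B)

/-- An element acts on weighted families proportional to `a` by a scalar. -/
def ActsBy (t : CuspForm.heckeAlgebra N 2 ∅) (c : B) : Prop :=
  ∀ (h : ι → CuspForm.intLattice N 2) (x : B), (∀ n, wCoeff b h n = x * a n) →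
    ∀ n, wCoeff b (fun i => latAct t (h i)) n = c * x * a n

variable {b a}

theorem exists_actsBy
    (hgen : ∀ t : CuspForm.heckeAlgebra N 2 ∅,
      (t : Module.End ℂ (S₂ N)) ∈ CuspForm.heckeGenerators N 2 ∅ → ∃ c, ActsBy b a t c)
    (t : CuspForm.heckeAlgebra N 2 ∅) : ∃ c, ActsBy b a t c := by
  obtain ⟨t, ht⟩ := t
  induction ht using Algebra.adjoin_induction with
  | mem x hx => exact hgen ⟨x, _⟩ hx
  | algebraMap r =>
    refine ⟨(r : B), fun h x hh n => ?_⟩
    have e : ∀ i, intCoeff (latAct ⟨algebraMap ℤ _ r, Subalgebra.algebraMap_mem _ r⟩ (h i)) n =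
        r * intCoeff (h i) n := fun i => intCoeff_eq_of (by
      rw [coe_latAct]
      simp [map_zsmul, coeffL_intCoeff])
    have h' := congrArg ((r : B) * ·) (hh n)
    simp only [wCoeff, e, Int.cast_mul, Finset.mul_sum, ← mul_assoc, mul_comm _ (r : B)] at h' ⊢
    exact h'
  | add x y hx hy ihx ihy =>
    obtain ⟨cx, hcx⟩ := ihx
    obtain ⟨cy, hcy⟩ := ihy
    refine ⟨cx + cy, fun h z hh n => ?_⟩
    have e : ∀ i, intCoeff (latAct ⟨x + y, add_mem hx hy⟩ (h i)) n =
        intCoeff (latAct ⟨x, hx⟩ (h i)) n + intCoeff (latAct ⟨y, hy⟩ (h i)) n := fun i =>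
      intCoeff_eq_of (by
        rw [coe_latAct, LinearMap.add_apply, map_add, Int.cast_add, ← coeffL_intCoeff,
          ← coeffL_intCoeff]
        rfl)
    simp only [wCoeff, e, Int.cast_add, mul_add, Finset.sum_add_distrib]
    rw [← wCoeff, ← wCoeff, hcx h z hh n, hcy h z hh n, add_mul, add_mul]
  | mul x y hx hy ihx ihy =>
    obtain ⟨cx, hcx⟩ := ihx
    obtain ⟨cy, hcy⟩ := ihy
    refine ⟨cx * cy, fun h z hh n => ?_⟩
    have e : ∀ i, latAct ⟨x * y, mul_mem hx hy⟩ (h i) = latAct ⟨x, hx⟩ (latAct ⟨y, hy⟩ (h i)) :=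
      fun i => Subtype.ext rfl
    simp only [e]
    rw [hcx (fun i => latAct ⟨y, hy⟩ (h i)) (cy * z) (hcy h z hh) n, ← mul_assoc cx cy z]

theorem ActsBy.unique {t : CuspForm.heckeAlgebra N 2 ∅} {c c' : B}
    (h : ι → CuspForm.intLattice N 2) (hh : ∀ n, wCoeff b h n = a n) (ha : a 1 = 1)
    (hc : ActsBy b a t c) (hc' : ActsBy b a t c') : c = c' := by
  have e1 := hc h 1 (fun n => by rw [hh, one_mul]) 1
  have e2 := hc' h 1 (fun n => by rw [hh, one_mul]) 1
  rw [e1, ha, mul_one, mul_one, mul_one, mul_one] at e2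
  exact e2

/-- A weighted family with eigen coefficients gives a homomorphism from the Hecke algebra. -/
theorem exists_hom_of_family (h : ι → CuspForm.intLattice N 2) (hh : ∀ n, wCoeff b h n = a n)
    (ha : a 1 = 1)
    (hT : ∀ l : ℕ, l.Prime → ¬ l ∣ N → ∀ n,
      a (l * n) + (l : B) * (if l ∣ n then a (n / l) else 0) = a l * a n)
    (hU : ∀ v : ℕ, v.Prime → v ∣ N → ∀ n, a (v * n) = a v * a n) :
    ∃ f : CuspForm.heckeAlgebra N 2 ∅ →+* B,
      (∀ (l : ℕ) (hl : l.Prime) (hlN : ¬ l ∣ N),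
        f (CuspForm.heckeAlgebra.T hl hlN (Set.notMem_empty l)) = a l) ∧
      ∀ (v : ℕ) (hv : v.Prime) (hvN : v ∣ N),
        f (CuspForm.heckeAlgebra.U hv hvN (Set.notMem_empty v)) = a v := by
  have actT : ∀ (l : ℕ) (hl : l.Prime) (hlN : ¬ l ∣ N),
      ActsBy b a (CuspForm.heckeAlgebra.T hl hlN (Set.notMem_empty l)) (a l) := by
    intro l hl hlN g x hg n
    have e : ∀ i, intCoeff (latAct (CuspForm.heckeAlgebra.T hl hlN (Set.notMem_empty l)) (g i)) n =
        intCoeff (g i) (l * n) + (l : ℤ) * if l ∣ n then intCoeff (g i) (n / l) else 0 :=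
      fun i => intCoeff_eq_of (by
        rw [coe_latAct, CuspForm.heckeAlgebra.coe_T, Small2.coeffL_T]
        split_ifs <;> simp [coeffL_intCoeff])
    calc wCoeff b (fun i => latAct (CuspForm.heckeAlgebra.T hl hlN (Set.notMem_empty l)) (g i)) n
        = wCoeff b g (l * n) + (l : B) * (if l ∣ n then wCoeff b g (n / l) else 0) := by
          simp only [wCoeff, e, Int.cast_add, Int.cast_mul, Int.cast_natCast, mul_add,
            Finset.sum_add_distrib]
          congr 1
          split_ifs with hd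
          · rw [Finset.mul_sum]
            exact Finset.sum_congr rfl fun i _ => by ring
          · simp
      _ = a l * x * a n := by
          rw [hg, hg]
          split_ifs with hd
          · have := hT l hl hlN n
            rw [if_pos hd] at this
            linear_combination x * this
          · have := hT l hl hlN n
            rw [if_neg hd] at this
            linear_combination x * this
  have actU : ∀ (v : ℕ) (hv : v.Prime) (hvN : v ∣ N),
      ActsBy b a (CuspForm.heckeAlgebra.U hv hvN (Set.notMem_empty v)) (a v) := by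
    intro v hv hvN g x hg n
    have e : ∀ i, intCoeff (latAct (CuspForm.heckeAlgebra.U hv hvN (Set.notMem_empty v)) (g i)) n =
        intCoeff (g i) (v * n) := fun i => intCoeff_eq_of (by
      rw [coe_latAct, CuspForm.heckeAlgebra.coe_U, Small2.coeffL_U hv, coeffL_intCoeff])
    calc wCoeff b (fun i => latAct (CuspForm.heckeAlgebra.U hv hvN (Set.notMem_empty v)) (g i)) n
        = wCoeff b g (v * n) := by simp only [wCoeff, e]
      _ = a v * x * a n := by rw [hg, hU v hv hvN]; ring
  have hex : ∀ t : CuspForm.heckeAlgebra N 2 ∅, ∃ c, ActsBy b a t c := by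
    refine exists_actsBy ?_
    rintro ⟨t, ht⟩ (⟨l, hl, hlN, -, rfl⟩ | ⟨v, hvN, hv, -, rfl⟩)
    · exact ⟨a l, actT l hl hlN⟩
    · exact ⟨a v, actU v hv hvN⟩
  choose c hc using hex
  let f : CuspForm.heckeAlgebra N 2 ∅ →+* B :=
    { toFun := c
      map_one' := ActsBy.unique h hh ha (hc 1) (fun g x hg n => by
        have : ∀ i, latAct (1 : CuspForm.heckeAlgebra N 2 ∅) (g i) = g i := fun i => Subtype.ext rfl
        simp only [this, hg, one_mul])
      map_mul' := fun s t => ActsBy.unique h hh ha (hc (s * t)) (fun g x hg n => by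
        have : ∀ i, latAct (s * t) (g i) = latAct s (latAct t (g i)) := fun i => Subtype.ext
          (DFunLike.congr_fun (map_mul (Subalgebra.val (CuspForm.heckeAlgebra N 2 ∅)) s t) _)
        simp only [this]
        rw [hc s _ (c t * x) (hc t g x hg) n, ← mul_assoc (c s) (c t) x])
      map_zero' := ActsBy.unique h hh ha (hc 0) (fun g x hg n => by
        have : ∀ i, intCoeff (latAct (0 : CuspForm.heckeAlgebra N 2 ∅) (g i)) n = 0 := fun i =>
          intCoeff_eq_of (by rw [coe_latAct]; simp)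
        simp [wCoeff, this])
      map_add' := fun s t => ActsBy.unique h hh ha (hc (s + t)) (fun g x hg n => by
        have e : ∀ i, intCoeff (latAct (s + t) (g i)) n =
            intCoeff (latAct s (g i)) n + intCoeff (latAct t (g i)) n := fun i => intCoeff_eq_of (by
          rw [coe_latAct, Int.cast_add, ← coeffL_intCoeff, ← coeffL_intCoeff, coe_latAct,
            coe_latAct, ← map_add, ← LinearMap.add_apply]
          rfl)
        simp only [wCoeff, e, Int.cast_add, mul_add, Finset.sum_add_distrib]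
        rw [← wCoeff, ← wCoeff, hc s g x hg n, hc t g x hg n, add_mul, add_mul]) }
  exact ⟨f, fun l hl hlN => ActsBy.unique h hh ha (hc _) (actT l hl hlN),
    fun v hv hvN => ActsBy.unique h hh ha (hc _) (actU v hv hvN)⟩

end Eval

section Main

variable {K : Type} [Field K] [NumberField K] {B : Type} [CommRing B]

/-- The number of ideals of norm `n` in a class, zero for `n = 0`. -/
def classCount (C : ClassGroup (𝓞 K)) (n : ℕ) : ℤ :=
  if n = 0 then 0 else (classIdeals C n).card

theorem sum_classCount [Fintype (ClassGroup (𝓞 K))] (φ : ClassGroup (𝓞 K) →* Bˣ) (n : ℕ) :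
    ∑ C, ((φ C : Bˣ) : B) * (classCount C n : B) = ringCoeff φ n := by
  classical
  rcases eq_or_ne n 0 with rfl | hn
  · simp [classCount, ringCoeff_zero]
  rw [ringCoeff_eq φ hn, ← Finset.sum_fiberwise (normSet K n) idealClass]
  refine Finset.sum_congr rfl fun C _ => ?_
  rw [Finset.sum_congr rfl fun I hI => by rw [ringValue, (Finset.mem_filter.mp hI).2],
    Finset.sum_const, nsmul_eq_mul, classCount, if_neg hn, Int.cast_natCast, mul_comm]
  rfl

/-- The theta series of a ring valued class character is a homomorphism from the Hecke algebra of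
level twice the odd part of the discriminant. -/
theorem exists_hom_theta (hK : finrank ℚ K = 2) (hd : NumberField.discr K < 0)
    (h2 : (2 : ℤ) ∣ NumberField.discr K) (h4 : NumberField.discr K ≠ -4) (hB : (2 : B) = 0)
    (φ : ClassGroup (𝓞 K) →* Bˣ) (E : ClassGroup (𝓞 K))
    (hE : IsUnit (((φ (E ^ 2) : Bˣ) : B) - 1)) [NeZero (2 * oddPart (NumberField.discr K))] :
    ∃ f : CuspForm.heckeAlgebra (2 * oddPart (NumberField.discr K)) 2 ∅ →+* B,
      (∀ (l : ℕ) (hl : l.Prime) (hlN : ¬ l ∣ 2 * oddPart (NumberField.discr K)),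
        f (CuspForm.heckeAlgebra.T hl hlN (Set.notMem_empty l)) = ringCoeff φ l) ∧
      ∀ (v : ℕ) (hv : v.Prime) (hvN : v ∣ 2 * oddPart (NumberField.discr K)),
        f (CuspForm.heckeAlgebra.U hv hvN (Set.notMem_empty v)) = ringCoeff φ v := by
  classical
  set d := NumberField.discr K with hdd
  have hu := unit_eq_one_or_neg_one hK hd h2 h4
  set Q₀ := formOf hK hd 1
  let cnt : ClassGroup (𝓞 K) → ℕ → ℤ := fun C i => classCount C i
  let δ : ClassGroup (𝓞 K) → ℕ → ℤ := fun C n => ∑ ij ∈ Finset.HasAntidiagonal.antidiagonal n,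
    (cnt (C * E ^ 2) ij.1 - cnt C ij.1) * (Q₀.repNum ij.2 : ℤ)
  have hδ : ∀ C, HasIntForm d.natAbs (δ C) := by
    intro C
    let Qs : Bool → BForm := fun s => formOf hK hd (cond s (C * E ^ 2) C)
    let ws : Bool → ℂ := fun s => cond s (1 / 2) (-1 / 2)
    have hw : ∑ s, ws s = 0 := by
      simp [ws]
      ring
    have hD : ∀ s, (Qs s).D = (d.natAbs : ℤ) := fun s => formOf_D hK hd _
    have hG : ∀ (m : ℕ) [NeZero m] (t : ZMod m), IsUnit t →
        ∑ s, ws s * (Qs s).gauss m t 0 0 = 0 := fun m _ t _ => by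
      simp only [Fintype.sum_bool, ws, Qs, cond_true, cond_false, gauss_formOf_mul_sq hK hd]
      ring
    refine ⟨thetaCusp Qs Q₀ ws hw hD (formOf_D hK hd 1) hG, fun n => ?_⟩
    show (UpperHalfPlane.qExpansion 1 (thetaCusp Qs Q₀ ws hw hD (formOf_D hK hd 1) hG)).coeff n = _
    rw [qExpansion_thetaCusp, thetaComboSeries, map_sum]
    simp only [map_smul, PowerSeries.coeff_mul, BForm.series, PowerSeries.coeff_mk, smul_eq_mul,
      Finset.mul_sum, Fintype.sum_bool, ← Finset.sum_add_distrib, δ, Int.cast_sum]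
    refine Finset.sum_congr rfl fun ij _ => ?_
    simp only [ws, Qs, cond_true, cond_false, cnt, classCount]
    rcases eq_or_ne ij.1 0 with h0 | h0
    · simp [h0, BForm.repNum_zero]
      ring
    · rw [repNum_formOf hK hd hu _ h0, repNum_formOf hK hd hu _ h0, if_neg h0, if_neg h0]
      push_cast
      ring
  set v := d.natAbs.factorization 2 with hv
  have hd0 : d.natAbs ≠ 0 := by omega
  have hsplit : d.natAbs = 2 ^ v * oddPart d := (Nat.ordProj_mul_ordCompl_eq_self d.natAbs 2).symm
  have hv1 : 1 ≤ v := Nat.prime_two.factorization_pos_of_dvd hd0 (Int.natCast_dvd.mp h2)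
  haveI : NeZero (oddPart d) := ⟨fun h => hd0 (by rw [hsplit, h, mul_zero])⟩
  have hlow : ∀ C, HasIntForm (2 * oddPart d) fun n => δ C (2 ^ (v - 1) * n) := fun C => by
    refine HasIntForm.lower_pow (v - 1) ?_
    rw [show v - 1 + 1 = v by omega, ← hsplit]
    exact hδ C
  choose G hG using hlow
  let g : ClassGroup (𝓞 K) → CuspForm.intLattice (2 * oddPart d) 2 := fun C =>
    ⟨G C, Small2.mem_intLattice_iff.2 fun n => ⟨_, hG C n⟩⟩
  obtain ⟨-, hc2, hram2⟩ := ringCoeff_ramified φ hK Nat.prime_two h2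
  set c : B := ringCoeff φ 2
  set q : B := ((φ (E ^ 2) : Bˣ) : B)
  obtain ⟨w, hw⟩ := hE.exists_right_inv
  let b : ClassGroup (𝓞 K) → B := fun C => ((φ C : Bˣ) : B) * (-(q * w) * c ^ (v - 1))
  have hpow : ∀ n, ringCoeff φ (2 ^ (v - 1) * n) = c ^ (v - 1) * ringCoeff φ n := by
    intro n
    induction (v - 1) with
    | zero => simp
    | succ e ih => rw [pow_succ', mul_assoc, hram2, ih, pow_succ', mul_assoc]
  have hh : ∀ n, wCoeff b g n = ringCoeff φ n := by
    intro n
    have e1 : ∀ i, ∑ C, ((φ C : Bˣ) : B) * ((cnt (C * E ^ 2) i : B) - cnt C i) =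
        (((φ (E ^ 2))⁻¹ : Bˣ) - 1) * ringCoeff φ i := by
      intro i
      simp only [mul_sub, Finset.sum_sub_distrib, cnt, sum_classCount]
      rw [sub_mul, one_mul]
      congr 1
      rw [← sum_classCount, Finset.mul_sum]
      refine Fintype.sum_equiv (Equiv.mulRight (E ^ 2)) _ _ fun C => ?_
      simp only [Equiv.coe_mulRight, map_mul φ C, Units.val_mul]
      rw [← mul_assoc, mul_left_comm, Units.inv_mul, mul_one]
    have e2 : ∀ C, intCoeff (g C) n = δ C (2 ^ (v - 1) * n) := fun C => intCoeff_eq_of (hG C n)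
    have e3 : ∑ ij ∈ Finset.HasAntidiagonal.antidiagonal (2 ^ (v - 1) * n),
        ringCoeff φ ij.1 * (Q₀.repNum ij.2 : B) = ringCoeff φ (2 ^ (v - 1) * n) := by
      rw [Finset.sum_eq_single ((2 ^ (v - 1) * n, 0) : ℕ × ℕ)]
      · simp [BForm.repNum_zero]
      · intro ij hij hne
        have hj : ij.2 ≠ 0 := fun h => hne (by
          have := Finset.HasAntidiagonal.mem_antidiagonal.mp hij
          exact Prod.ext (by simp only; omega) h)
        obtain ⟨k, hk⟩ := even_repNum Q₀ hj
        rw [hk, ← two_mul, Nat.cast_mul, Nat.cast_two, hB, zero_mul, mul_zero]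
      · exact fun h => absurd (Finset.HasAntidiagonal.mem_antidiagonal.mpr (add_zero _)) h
    calc wCoeff b g n
        = ∑ C, ∑ ij ∈ Finset.HasAntidiagonal.antidiagonal (2 ^ (v - 1) * n),
            (-(q * w) * c ^ (v - 1)) * (((φ C : Bˣ) : B) *
              ((cnt (C * E ^ 2) ij.1 : B) - cnt C ij.1)) * (Q₀.repNum ij.2 : B) := by
          simp only [wCoeff, e2, δ, b, Int.cast_sum, Int.cast_mul, Int.cast_sub, Int.cast_natCast,
            Finset.mul_sum]
          exact Finset.sum_congr rfl fun C _ => Finset.sum_congr rfl fun ij _ => by ring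
      _ = (-(q * w) * c ^ (v - 1)) * ((((φ (E ^ 2))⁻¹ : Bˣ) : B) - 1) *
            ringCoeff φ (2 ^ (v - 1) * n) := by
          rw [← e3, Finset.sum_comm, Finset.mul_sum]
          refine Finset.sum_congr rfl fun ij _ => ?_
          rw [← Finset.sum_mul, ← Finset.mul_sum, e1]
          ring
      _ = (c * c) ^ (v - 1) * ringCoeff φ n := by
          rw [hpow]
          have hq : q * (((φ (E ^ 2))⁻¹ : Bˣ) : B) = 1 := (φ (E ^ 2)).mul_inv
          linear_combination (-w * c ^ (v - 1) * c ^ (v - 1) * ringCoeff φ n) * hq +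
            (c ^ (v - 1) * c ^ (v - 1) * ringCoeff φ n) * hw
      _ = ringCoeff φ n := by rw [hc2, one_pow, one_mul]
  have hNd : ∀ p : ℕ, p.Prime → (p ∣ 2 * oddPart d ↔ (p : ℤ) ∣ d) := by
    intro p hp
    rw [Int.natCast_dvd, hsplit]
    constructor
    · exact fun h => h.trans (mul_dvd_mul_right (dvd_pow_self 2 (by omega)) _)
    · intro h
      rcases hp.dvd_mul.mp h with h | h
      · exact dvd_mul_of_dvd_left (hp.dvd_of_dvd_pow h) _
      · exact dvd_mul_of_dvd_right h _
  refine exists_hom_of_family g hh (ringCoeff_one φ) (fun l hl hlN n => ?_) fun p hp hpN n =>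
    (ringCoeff_ramified φ hK hp ((hNd p hp).mp hpN)).2.2 n
  have hld : ¬ (l : ℤ) ∣ d := (hNd l hl).not.mp hlN
  have hl2 : l ≠ 2 := fun e => hlN (by rw [e]; exact dvd_mul_right 2 _)
  obtain ⟨k, hk⟩ := hl.odd_of_ne_two hl2
  have hl1 : (l : B) = 1 := by rw [hk]; push_cast; rw [hB, zero_mul, zero_add]
  rw [hl1, one_mul]
  exact ringCoeff_unramified φ hK hB hl hld n

end Main

end FLTAgent.Mod2
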