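import Fermat.Agent.Mod2.ThetaGenus

/-!
# Hecke relations for the theta coefficients of a cubic class character

From the decomposition of primes in a quadratic field (`prime_decomposition`) the coefficients
satisfy the Hecke recursion at unramified primes (`thetaCoeff_unramified`), are multiplicative
with value one at ramified ones (`thetaCoeff_ramified`), and are integers
(`exists_int_thetaCoeff`).
-/

set_option autoImplicit false
set_option linter.unusedSectionVars false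

noncomputable section

open NumberField Module
open scoped nonZeroDivisors

namespace FLTAgent.Mod2

variable {K : Type} [Field K] [NumberField K]

theorem mul_self_eq (ω : Basis (Fin 2) ℤ (𝓞 K)) (u : 𝓞 K) :
    u * u = Algebra.trace ℤ (𝓞 K) u • u - Algebra.norm ℤ u • 1 := by
  refine Algebra.leftMulMatrix_injective ω ?_
  rw [map_mul, map_sub, map_smul, map_smul, map_one, Algebra.trace_eq_matrix_trace ω,
    Algebra.norm_eq_matrix_det ω, Matrix.trace_fin_two, Matrix.det_fin_two]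
  ext i j
  simp only [Matrix.sub_apply, Matrix.smul_apply, Matrix.one_apply, Matrix.mul_apply,
    Fin.sum_univ_two, smul_eq_mul]
  fin_cases i <;> fin_cases j <;> simp <;> ring

theorem trace_one_of_two (ω : Basis (Fin 2) ℤ (𝓞 K)) : Algebra.trace ℤ (𝓞 K) 1 = 2 := by
  rw [Algebra.trace_eq_matrix_trace ω, map_one, Matrix.trace_one, Fintype.card_fin]
  norm_num

theorem sq_trace_sub_four_norm (ω : Basis (Fin 2) ℤ (𝓞 K)) (u : 𝓞 K) :
    Algebra.trace ℤ (𝓞 K) u ^ 2 - 4 * Algebra.norm ℤ u =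
      ω.det ![1, u] ^ 2 * NumberField.discr K := by
  rw [← discr_eq_det_sq ω, Algebra.discr_def, Matrix.det_fin_two]
  simp only [Algebra.traceMatrix_apply, Algebra.traceForm_apply, Matrix.cons_val_zero,
    Matrix.cons_val_one, one_mul, mul_one, trace_one_of_two ω]
  rw [mul_self_eq ω u, map_sub, map_smul, map_smul, trace_one_of_two ω, smul_eq_mul, smul_eq_mul]
  ring

theorem intCast_dvd_iff_repr (ω : Basis (Fin 2) ℤ (𝓞 K)) (l : ℤ) (x : 𝓞 K) :
    (l : 𝓞 K) ∣ x ↔ ∀ i, l ∣ ω.repr x i := by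
  constructor
  · rintro ⟨y, rfl⟩ i
    rw [← zsmul_eq_mul, map_zsmul, Finsupp.smul_apply, smul_eq_mul]
    exact dvd_mul_right l _
  · intro h
    choose c hc using h
    refine ⟨∑ i, c i • ω i, ?_⟩
    conv_lhs => rw [← ω.sum_repr x]
    rw [Finset.mul_sum]
    refine Finset.sum_congr rfl fun i _ => ?_
    rw [hc i, mul_smul, zsmul_eq_mul]

theorem exists_not_congr_int (hK : finrank ℚ K = 2) {l : ℕ} (hl : l.Prime) :
    ∃ u : 𝓞 K, ∀ k : ℤ, ¬ ((l : ℤ) : 𝓞 K) ∣ u - k := by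
  set ω := qbasis hK
  by_contra h
  simp only [not_exists, not_forall, not_not] at h
  obtain ⟨k₀, y₀, h₀⟩ := h (ω 0)
  obtain ⟨k₁, y₁, h₁⟩ := h (ω 1)
  have hd : ((l : ℤ) : 𝓞 K) ∣ k₁ • ω 0 - k₀ • ω 1 := by
    refine ⟨k₁ • y₀ - k₀ • y₁, ?_⟩
    simp only [zsmul_eq_mul]
    linear_combination (k₁ : 𝓞 K) * h₀ - (k₀ : 𝓞 K) * h₁
  rw [intCast_dvd_iff_repr ω] at hd
  simp only [map_sub, map_zsmul, Finsupp.sub_apply, Finsupp.smul_apply, Basis.repr_self,
    smul_eq_mul] at hd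
  have h0 : (l : ℤ) ∣ k₁ := by simpa using hd 0
  have h1 : (l : ℤ) ∣ k₀ := by simpa using hd 1
  have h2 : ((l : ℤ) : 𝓞 K) ∣ ω 0 := by
    obtain ⟨j, rfl⟩ := h1
    exact ⟨y₀ + (j : 𝓞 K), by push_cast at h₀ ⊢; linear_combination h₀⟩
  have h3 := (intCast_dvd_iff_repr ω _ _).mp h2 0
  rw [Basis.repr_self, Finsupp.single_eq_same] at h3
  have := Int.le_of_dvd one_pos h3
  have := hl.two_le
  omega

/-- At a prime dividing the discriminant some element is nilpotent but non zero. -/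
theorem exists_sq_dvd_of_dvd_discr (hK : finrank ℚ K = 2) {l : ℕ} (hl : l.Prime)
    (hd : (l : ℤ) ∣ NumberField.discr K) :
    ∃ x : 𝓞 K, ¬ ((l : ℤ) : 𝓞 K) ∣ x ∧ ((l : ℤ) : 𝓞 K) ∣ x * x := by
  set ω := qbasis hK
  obtain ⟨u, hu⟩ := exists_not_congr_int hK hl
  have hdisc := sq_trace_sub_four_norm ω u
  have hsq := mul_self_eq ω u
  simp only [zsmul_eq_mul, mul_one] at hsq
  set t := Algebra.trace ℤ (𝓞 K) u
  set n := Algebra.norm ℤ u
  rcases eq_or_ne l 2 with rfl | hl2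
  · have ht : Even t := by
      obtain ⟨j, hj⟩ := hd
      have h : Even (t ^ 2) := ⟨2 * n + ω.det ![1, u] ^ 2 * j, by
        push_cast at hj
        rw [hj] at hdisc
        linear_combination hdisc⟩
      exact (Int.even_pow.mp h).1
    obtain ⟨s, hs⟩ := ht
    obtain ⟨e, m, hm⟩ : ∃ e m : ℤ, n + e * e = 2 * m := by
      rcases Int.even_or_odd n with ⟨m, hm⟩ | ⟨m, hm⟩
      · exact ⟨0, m, by linear_combination hm⟩
      · exact ⟨1, m + 1, by linear_combination hm⟩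
    refine ⟨u + e, fun h => hu (-e) (by simpa using h),
      ⟨(s : 𝓞 K) * u + (e : 𝓞 K) * u + ((e * e - m : ℤ) : 𝓞 K), ?_⟩⟩
    have hs' : (t : 𝓞 K) = (s : 𝓞 K) + s := by rw [hs]; push_cast; ring
    have hm' : (n : 𝓞 K) + (e : 𝓞 K) * e = 2 * (m : 𝓞 K) := by exact_mod_cast congrArg (fun z : ℤ => (z : 𝓞 K)) hm
    push_cast
    linear_combination hsq + u * hs' - hm'
  · obtain ⟨j, hj⟩ := hd
    obtain ⟨k, hk⟩ := hl.odd_of_ne_two hl2
    refine ⟨2 * u - (t : 𝓞 K), fun ⟨y, hy⟩ => ?_, ⟨((ω.det ![1, u] ^ 2 * j : ℤ) : 𝓞 K), ?_⟩⟩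
    · have hk' : ((l : ℤ) : 𝓞 K) = 2 * (k : 𝓞 K) + 1 := by rw [hk]; push_cast; ring
      refine hu (((k : ℤ) + 1) * t) ⟨((k : 𝓞 K) + 1) * y - u, ?_⟩
      rw [hk'] at hy ⊢
      push_cast
      linear_combination ((k : 𝓞 K) + 1) * hy
    · rw [hj] at hdisc
      have hdisc' := congrArg (fun z : ℤ => (z : 𝓞 K)) hdisc
      push_cast at hdisc' ⊢
      linear_combination 4 * hsq + hdisc'

/-- A prime with a nilpotent element divides the discriminant. -/
theorem dvd_discr_of_sq_dvd (hK : finrank ℚ K = 2) {l : ℕ} (hl : l.Prime) {x : 𝓞 K}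
    (hx : ¬ ((l : ℤ) : 𝓞 K) ∣ x) (hxx : ((l : ℤ) : 𝓞 K) ∣ x * x) :
    (l : ℤ) ∣ NumberField.discr K := by
  set ω := qbasis hK
  have hnil : ∀ z : 𝓞 K, ((l : ℤ) : 𝓞 K) ∣ z * z → (l : ℤ) ∣ Algebra.trace ℤ (𝓞 K) z := by
    intro z hz
    by_cases hz0 : ((l : ℤ) : 𝓞 K) ∣ z
    · obtain ⟨y, rfl⟩ := hz0
      rw [← zsmul_eq_mul, map_zsmul, smul_eq_mul]
      exact dvd_mul_right _ _
    have hN : (l : ℤ) ∣ Algebra.norm ℤ z := by
      have h := map_dvd (Algebra.norm ℤ) hz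
      rw [map_mul, show ((l : ℤ) : 𝓞 K) = algebraMap ℤ (𝓞 K) (l : ℤ) from (eq_intCast _ _).symm,
        Algebra.norm_algebraMap, RingOfIntegers.rank, hK] at h
      have : (l : ℤ) ∣ Algebra.norm ℤ z * Algebra.norm ℤ z :=
        dvd_trans (dvd_pow_self _ two_ne_zero) h
      exact ((Nat.prime_iff_prime_int.mp hl).dvd_mul.mp this).elim id id
    by_contra ht
    obtain ⟨a, b, hab⟩ := ((Nat.prime_iff_prime_int.mp hl).coprime_iff_not_dvd.mpr ht)
    refine hz0 ?_
    have h1 : ((l : ℤ) : 𝓞 K) ∣ (Algebra.trace ℤ (𝓞 K) z : 𝓞 K) * z := by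
      have := mul_self_eq ω z
      simp only [zsmul_eq_mul, mul_one] at this
      rw [show (Algebra.trace ℤ (𝓞 K) z : 𝓞 K) * z = z * z + (Algebra.norm ℤ z : 𝓞 K) by
        rw [this]; ring]
      exact dvd_add hz (Int.cast_dvd_cast _ _ hN)
    have e : z = ((l : ℤ) : 𝓞 K) * ((a : 𝓞 K) * z) +
        (b : 𝓞 K) * ((Algebra.trace ℤ (𝓞 K) z : 𝓞 K) * z) := by
      have := congrArg (fun n : ℤ => (n : 𝓞 K)) hab
      push_cast at this ⊢
      linear_combination -z * this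
    rw [e]
    exact dvd_add (dvd_mul_right _ _) (h1.mul_left _)
  have hrow : ∀ j, (l : ℤ) ∣ Algebra.trace ℤ (𝓞 K) (x * ω j) := fun j =>
    hnil _ (by rw [mul_mul_mul_comm]; exact hxx.mul_right _)
  rw [← ZMod.intCast_zmod_eq_zero_iff_dvd, ← NumberField.discr_eq_discr _ ω, Algebra.discr_def,
    Int.cast_det]
  have : Fact l.Prime := ⟨hl⟩
  refine Matrix.exists_vecMul_eq_zero_iff.mp ⟨fun i => (ω.repr x i : ZMod l), fun h => hx ?_, ?_⟩
  · rw [intCast_dvd_iff_repr ω]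
    exact fun i => (ZMod.intCast_zmod_eq_zero_iff_dvd _ _).mp (congrFun h i)
  · funext j
    have h := (ZMod.intCast_zmod_eq_zero_iff_dvd _ _).mpr (hrow j)
    conv at h => rw [← ω.sum_repr x, Finset.sum_mul]
    simp only [map_sum, smul_mul_assoc, map_zsmul, smul_eq_mul, Int.cast_sum, Int.cast_mul] at h
    simpa [Matrix.vecMul, dotProduct, Algebra.traceMatrix_apply, Algebra.traceForm_apply] using h

theorem absNorm_natCast_span (hK : finrank ℚ K = 2) (l : ℕ) :
    Ideal.absNorm (Ideal.span {(l : 𝓞 K)}) = l ^ 2 := by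
  rw [Ideal.absNorm_span_singleton, ← map_natCast (algebraMap ℤ (𝓞 K)), Algebra.norm_algebraMap,
    RingOfIntegers.rank, hK, Int.natAbs_pow, Int.natAbs_natCast]

/-- The three ways a prime decomposes. -/
theorem prime_decomposition (hK : finrank ℚ K = 2) {l : ℕ} (hl : l.Prime) :
    (∃ P : Ideal (𝓞 K), P.IsMaximal ∧ Ideal.absNorm P = l ^ 2 ∧ Ideal.span {(l : 𝓞 K)} = P) ∨
    ∃ P R : Ideal (𝓞 K), P.IsMaximal ∧ R.IsMaximal ∧ Ideal.absNorm P = l ∧ Ideal.absNorm R = l ∧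
      Ideal.span {(l : 𝓞 K)} = P * R := by
  set L : Ideal (𝓞 K) := Ideal.span {(l : 𝓞 K)}
  have hL : Ideal.absNorm L = l ^ 2 := absNorm_natCast_span hK l
  have hLtop : L ≠ ⊤ := fun h => by
    rw [h, Ideal.absNorm_top] at hL
    have := Nat.one_lt_pow two_ne_zero hl.one_lt
    omega
  obtain ⟨P, hP, hLP⟩ := Ideal.exists_le_maximal L hLtop
  obtain ⟨R, hR⟩ := Ideal.dvd_iff_le.mpr hLP
  have hPR : Ideal.absNorm P * Ideal.absNorm R = l ^ 2 := by rw [← map_mul, ← hR, hL]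
  obtain ⟨i, hi, hPi⟩ := (Nat.dvd_prime_pow hl).mp (Dvd.intro _ hPR)
  interval_cases i
  · exfalso
    exact hP.ne_top (Ideal.absNorm_eq_one_iff.mp (by simpa using hPi))
  · right
    rw [pow_one] at hPi
    have hRn : Ideal.absNorm R = l := by
      rw [hPi, sq] at hPR
      exact mul_left_cancel₀ hl.ne_zero hPR
    have hR0 : R ≠ ⊥ := fun h => hl.ne_zero (by rw [← hRn, h, Ideal.absNorm_bot])
    exact ⟨P, R, hP, (Ideal.isPrime_of_irreducible_absNorm (hRn ▸ hl)).isMaximal hR0, hPi, hRn, hR⟩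
  · left
    refine ⟨P, hP, hPi, ?_⟩
    rw [hPi] at hPR
    have : Ideal.absNorm R = 1 := (mul_eq_left₀ (pow_ne_zero 2 hl.ne_zero)).mp hPR
    rw [hR, Ideal.absNorm_eq_one_iff.mp this, Ideal.mul_top]

/-- A prime is ramified exactly when it divides the discriminant. -/
theorem eq_of_dvd_discr_iff (hK : finrank ℚ K = 2) {l : ℕ} (hl : l.Prime) {P R : Ideal (𝓞 K)}
    (hP : P.IsMaximal) (hR : R.IsMaximal) (hPn : Ideal.absNorm P = l)
    (h : Ideal.span {(l : 𝓞 K)} = P * R) : (l : ℤ) ∣ NumberField.discr K ↔ P = R := by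
  constructor
  · intro hd
    by_contra hne
    obtain ⟨x, hx, hxx⟩ := exists_sq_dvd_of_dvd_discr hK hl hd
    refine hx ?_
    rw [Int.cast_natCast, ← Ideal.mem_span_singleton, h] at hxx ⊢
    rw [Ideal.mul_eq_inf_of_isCoprime (Ideal.isCoprime_iff_sup_eq.mpr (hP.coprime_of_ne hR hne))] at hxx ⊢
    exact ⟨(hP.isPrime.mem_or_mem hxx.1).elim id id, (hR.isPrime.mem_or_mem hxx.2).elim id id⟩
  · rintro rfl
    obtain ⟨x, hxP, hx⟩ : ∃ x ∈ P, x ∉ Ideal.span {(l : 𝓞 K)} := by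
      by_contra hcon
      simp only [not_exists, not_and, not_not] at hcon
      have h1 : P = Ideal.span {(l : 𝓞 K)} :=
        le_antisymm hcon (h.le.trans Ideal.mul_le_left)
      have := congrArg Ideal.absNorm h1
      rw [hPn, absNorm_natCast_span hK] at this
      have := Nat.lt_pow_self (n := 1) hl.one_lt
      nlinarith [hl.two_le]
    refine dvd_discr_of_sq_dvd hK hl (x := x) (fun hd => hx ?_) ?_
    · rwa [Int.cast_natCast, ← Ideal.mem_span_singleton] at hd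
    · rw [Int.cast_natCast, ← Ideal.mem_span_singleton, h]
      exact Ideal.mul_mem_mul hxP hxP

theorem not_dvd_discr_of_inert (hK : finrank ℚ K = 2) {l : ℕ} (hl : l.Prime) {P : Ideal (𝓞 K)}
    (hP : P.IsMaximal) (h : Ideal.span {(l : 𝓞 K)} = P) : ¬ (l : ℤ) ∣ NumberField.discr K := by
  intro hd
  obtain ⟨x, hx, hxx⟩ := exists_sq_dvd_of_dvd_discr hK hl hd
  refine hx ?_
  rw [Int.cast_natCast, ← Ideal.mem_span_singleton, h] at hxx ⊢
  exact (hP.isPrime.mem_or_mem hxx).elim id id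

theorem coprime_absNorm_of_sup_eq_top (hK : finrank ℚ K = 2) (m : ℕ) {e : Ideal (𝓞 K)}
    (htop : Ideal.span {(m : 𝓞 K)} ⊔ e = ⊤) : (Ideal.absNorm e).Coprime m := by
  obtain ⟨w', hw', u, hu, huw⟩ :=
    Submodule.mem_sup.mp (htop.ge (Submodule.mem_top (x := (1 : 𝓞 K))))
  obtain ⟨w, rfl⟩ := Ideal.mem_span_singleton.mp hw'
  have hu' : u = (1 : ℤ) • (1 : 𝓞 K) + (-(m : ℤ)) • w := by
    simp only [one_smul, neg_smul, natCast_zsmul, nsmul_eq_mul]
    linear_combination huw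
  have hdvd : (Ideal.absNorm e : ℤ) ∣ Algebra.norm ℤ u := by
    have h := Ideal.absNorm_dvd_absNorm_of_le ((Ideal.span_singleton_le_iff_mem e).mpr hu)
    rw [Ideal.absNorm_span_singleton] at h
    exact Int.natCast_dvd.mpr h
  rw [← Nat.isCoprime_iff_coprime]
  refine IsCoprime.of_isCoprime_of_dvd_left ?_ hdvd
  rw [hu', norm_combo (qbasis hK), map_one]
  exact ⟨1, (Algebra.norm ℤ (1 + w) - 1 - Algebra.norm ℤ w) - (m : ℤ) * Algebra.norm ℤ w, by ring⟩

/-- The ideals of given norm. -/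
def normSet (K : Type) [Field K] [NumberField K] (n : ℕ) : Finset (Ideal (𝓞 K)) :=
  (Ideal.finite_setOfPred_absNorm_eq (S := 𝓞 K) n).toFinset

theorem mem_normSet {n : ℕ} {I : Ideal (𝓞 K)} : I ∈ normSet K n ↔ Ideal.absNorm I = n := by
  simp [normSet]

variable (ψ : ClassGroup (𝓞 K) →* ℂˣ)

/-- The value of the character at an ideal. -/
def idealValue (I : Ideal (𝓞 K)) : ℂ := ((ψ (idealClass I) : ℂˣ) : ℂ)

theorem idealClass_mul {I J : Ideal (𝓞 K)} (hI : I ≠ ⊥) (hJ : J ≠ ⊥) :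
    idealClass (I * J) = idealClass I * idealClass J := by
  have hI' := mem_nonZeroDivisors_of_ne_zero hI
  have hJ' := mem_nonZeroDivisors_of_ne_zero hJ
  rw [idealClass, idealClass, idealClass, dif_pos hI', dif_pos hJ', dif_pos (mul_mem hI' hJ'),
    ← map_mul]
  rfl

theorem idealClass_principal (x : 𝓞 K) : idealClass (Ideal.span {x}) = 1 := by
  rw [idealClass]
  split_ifs with h
  · exact (ClassGroup.mk0_eq_one_iff h).mpr ⟨⟨x, rfl⟩⟩
  · rfl

theorem thetaCoeff_eq_sum {n : ℕ} (hn : n ≠ 0) :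
    thetaCoeff ψ n = ∑ I ∈ normSet K n, idealValue ψ I := by
  classical
  rw [thetaCoeff, dif_neg hn, normSet, ← Finset.sum_attach _ (idealValue ψ)]
  refine Finset.sum_congr rfl fun I _ => ?_
  have hI0 : (I : Ideal (𝓞 K)) ≠ ⊥ := fun h => hn (by
    have := I.2
    simp only [Set.Finite.mem_toFinset, Set.mem_ofPred_eq, h, Ideal.absNorm_bot] at this
    exact this.symm)
  rw [idealValue, idealClass, dif_pos (mem_nonZeroDivisors_of_ne_zero hI0),
    dif_pos (mem_nonZeroDivisors_of_ne_zero hI0)]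

theorem thetaCoeff_zero : thetaCoeff ψ 0 = 0 := by simp [thetaCoeff]

theorem thetaCoeff_one : thetaCoeff ψ 1 = 1 := by
  have : normSet K 1 = {⊤} := by
    ext I
    rw [mem_normSet, Finset.mem_singleton, Ideal.absNorm_eq_one_iff]
  rw [thetaCoeff_eq_sum ψ one_ne_zero, this, Finset.sum_singleton, idealValue,
    ← Ideal.span_singleton_one, idealClass_principal, map_one, Units.val_one]

open Classical in
theorem sum_filter_dvd {l n : ℕ} {Q : Ideal (𝓞 K)} (hQ : Ideal.absNorm Q = l) (hl : l ≠ 0)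
    (hn : n ≠ 0) :
    ∑ I ∈ (normSet K (l * n)).filter (Q ∣ ·), idealValue ψ I =
      idealValue ψ Q * thetaCoeff ψ n := by
  have hQ0 : Q ≠ ⊥ := fun h => hl (by rw [← hQ, h, Ideal.absNorm_bot])
  rw [thetaCoeff_eq_sum ψ hn, Finset.mul_sum]
  refine (Finset.sum_bij (fun J _ => Q * J) (fun J hJ => ?_) (fun J _ J' _ h => ?_)
    (fun I hI => ?_) (fun J hJ => ?_)).symm
  · rw [Finset.mem_filter, mem_normSet, map_mul, hQ, mem_normSet.mp hJ]
    exact ⟨rfl, dvd_mul_right Q J⟩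
  · exact mul_left_cancel₀ hQ0 h
  · rw [Finset.mem_filter, mem_normSet] at hI
    obtain ⟨hIn, J, rfl⟩ := hI
    rw [map_mul, hQ] at hIn
    exact ⟨J, mem_normSet.mpr (mul_left_cancel₀ hl hIn), rfl⟩
  · have hJ0 : J ≠ ⊥ := fun h => hn (by rw [← mem_normSet.mp hJ, h, Ideal.absNorm_bot])
    rw [idealValue, idealValue, idealValue, idealClass_mul hQ0 hJ0, map_mul, Units.val_mul]

open Classical in
theorem sum_filter_dvd_span (hK : finrank ℚ K = 2) {l n : ℕ} (hl : l.Prime) (hn : n ≠ 0) :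
    ∑ I ∈ (normSet K (l * n)).filter (Ideal.span {(l : 𝓞 K)} ∣ ·), idealValue ψ I =
      if l ∣ n then thetaCoeff ψ (n / l) else 0 := by
  split_ifs with h
  · obtain ⟨k, rfl⟩ := h
    rw [← mul_assoc, ← sq, sum_filter_dvd ψ (absNorm_natCast_span hK l) (pow_ne_zero 2 hl.ne_zero)
      (right_ne_zero_of_mul hn), idealValue, idealClass_principal, map_one, Units.val_one, one_mul,
      Nat.mul_div_cancel_left k hl.pos]
  · refine Finset.sum_eq_zero fun I hI => absurd ?_ h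
    rw [Finset.mem_filter, mem_normSet] at hI
    obtain ⟨hIn, J, rfl⟩ := hI
    rw [map_mul, absNorm_natCast_span hK, sq, mul_assoc] at hIn
    exact Dvd.intro _ (mul_left_cancel₀ hl.ne_zero hIn)

theorem exists_prime_dvd_of_mem_normSet (hK : finrank ℚ K = 2) {l n : ℕ} (hl : l.Prime)
    {I : Ideal (𝓞 K)} (hI : I ∈ normSet K (l * n)) :
    ∃ M : Ideal (𝓞 K), M.IsMaximal ∧ M ∣ I ∧ M ∣ Ideal.span {(l : 𝓞 K)} := by
  have hne : Ideal.span {(l : 𝓞 K)} ⊔ I ≠ ⊤ := fun h => by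
    have hc := coprime_absNorm_of_sup_eq_top hK l h
    rw [mem_normSet.mp hI, Nat.coprime_mul_iff_left, Nat.coprime_self] at hc
    exact hl.ne_one hc.1
  obtain ⟨M, hM, hle⟩ := Ideal.exists_le_maximal _ hne
  exact ⟨M, hM, Ideal.dvd_iff_le.mpr (le_sup_right.trans hle),
    Ideal.dvd_iff_le.mpr (le_sup_left.trans hle)⟩

theorem int_of_cube_root {z : ℂ} (hz : z ^ 3 = 1) : ∃ c : ℤ, (c : ℂ) = z + z ^ 2 := by
  rcases mul_eq_zero.mp (show (z - 1) * (z ^ 2 + z + 1) = 0 by linear_combination hz) with h | h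
  · exact ⟨2, by rw [sub_eq_zero.mp h]; norm_num⟩
  · exact ⟨-1, by push_cast; linear_combination -h⟩

variable {ψ}

/-- The Hecke relation at a prime not dividing the discriminant. -/
theorem thetaCoeff_unramified (hK : finrank ℚ K = 2) (hψ3 : ψ ^ 3 = 1) {l : ℕ} (hl : l.Prime)
    (hd : ¬ (l : ℤ) ∣ NumberField.discr K) :
    ∃ c ε : ℤ, Odd ε ∧ thetaCoeff ψ l = c ∧ ∀ n : ℕ, thetaCoeff ψ (l * n) =
      c * thetaCoeff ψ n + ε * if l ∣ n then thetaCoeff ψ (n / l) else 0 := by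
  classical
  have h3 : ∀ C, ((ψ C : ℂˣ) : ℂ) ^ 3 = 1 := fun C => by
    rw [← Units.val_pow_eq_pow_val, ← MonoidHom.pow_apply, hψ3, MonoidHom.one_apply, Units.val_one]
  have key : ∀ c ε : ℤ, (∀ n : ℕ, n ≠ 0 → thetaCoeff ψ (l * n) =
      c * thetaCoeff ψ n + ε * if l ∣ n then thetaCoeff ψ (n / l) else 0) →
      thetaCoeff ψ l = c ∧ ∀ n : ℕ, thetaCoeff ψ (l * n) =
        c * thetaCoeff ψ n + ε * if l ∣ n then thetaCoeff ψ (n / l) else 0 := by
    intro c ε h
    refine ⟨?_, fun n => ?_⟩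
    · simpa [thetaCoeff_one, hl.not_dvd_one] using h 1 one_ne_zero
    · rcases eq_or_ne n 0 with rfl | hn
      · simp [thetaCoeff_zero]
      · exact h n hn
  rcases prime_decomposition hK hl with ⟨P, hP, -, hLP⟩ | ⟨P, R, hP, hR, hPn, hRn, hLP⟩
  · refine ⟨0, 1, odd_one, key 0 1 fun n hn => ?_⟩
    have hall : (normSet K (l * n)).filter (Ideal.span {(l : 𝓞 K)} ∣ ·) = normSet K (l * n) := by
      refine Finset.filter_true_of_mem fun I hI => ?_
      obtain ⟨M, hM, hMI, hML⟩ := exists_prime_dvd_of_mem_normSet hK hl hI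
      rw [hLP] at hML ⊢
      rwa [hP.eq_of_le hM.ne_top (Ideal.dvd_iff_le.mp hML)]
    rw [thetaCoeff_eq_sum ψ (mul_ne_zero hl.ne_zero hn), ← hall,
      sum_filter_dvd_span ψ hK hl hn]
    simp
  · have hne : P ≠ R := fun e => hd ((eq_of_dvd_discr_iff hK hl hP hR hPn hLP).mpr e)
    have hP0 : P ≠ ⊥ := fun h => hl.ne_zero (by rw [← hPn, h, Ideal.absNorm_bot])
    have hR0 : R ≠ ⊥ := fun h => hl.ne_zero (by rw [← hRn, h, Ideal.absNorm_bot])
    have hinv : idealValue ψ P * idealValue ψ R = 1 := by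
      rw [idealValue, idealValue, ← Units.val_mul, ← map_mul, ← idealClass_mul hP0 hR0, ← hLP,
        idealClass_principal, map_one, Units.val_one]
    have hP3 : idealValue ψ P ^ 3 = 1 := h3 _
    obtain ⟨c, hc⟩ := int_of_cube_root hP3
    have hR2 : idealValue ψ R = idealValue ψ P ^ 2 := by
      linear_combination idealValue ψ P ^ 2 * hinv - idealValue ψ R * hP3
    refine ⟨c, -1, by norm_num, key c (-1) fun n hn => ?_⟩
    set S := normSet K (l * n)
    have hunion : S.filter (P ∣ ·) ∪ S.filter (R ∣ ·) = S := by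
      rw [← Finset.filter_or]
      refine Finset.filter_true_of_mem fun I hI => ?_
      obtain ⟨M, hM, hMI, hML⟩ := exists_prime_dvd_of_mem_normSet hK hl hI
      rw [hLP] at hML
      rcases hM.isPrime.mul_le.mp (Ideal.dvd_iff_le.mp hML) with h | h
      · exact Or.inl ((hP.eq_of_le hM.ne_top h).symm ▸ hMI)
      · exact Or.inr ((hR.eq_of_le hM.ne_top h).symm ▸ hMI)
    have hinter : S.filter (P ∣ ·) ∩ S.filter (R ∣ ·) =
        S.filter (Ideal.span {(l : 𝓞 K)} ∣ ·) := by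
      rw [← Finset.filter_and, hLP]
      refine Finset.filter_congr fun I _ => ⟨fun h => ?_, fun h =>
        ⟨dvd_trans (dvd_mul_right P R) h, dvd_trans (dvd_mul_left R P) h⟩⟩
      exact ((Ideal.isCoprime_iff_sup_eq.mpr (hP.coprime_of_ne hR hne))).mul_dvd h.1 h.2
    have h := Finset.sum_union_inter (s₁ := S.filter (P ∣ ·)) (s₂ := S.filter (R ∣ ·))
      (f := idealValue ψ)
    rw [hunion, hinter, sum_filter_dvd ψ hPn hl.ne_zero hn, sum_filter_dvd ψ hRn hl.ne_zero hn,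
      sum_filter_dvd_span ψ hK hl hn, ← thetaCoeff_eq_sum ψ (mul_ne_zero hl.ne_zero hn), hR2] at h
    rw [hc]
    push_cast
    linear_combination h

/-- The Hecke relation at a prime dividing the discriminant. -/
theorem thetaCoeff_ramified (hK : finrank ℚ K = 2) (hψ3 : ψ ^ 3 = 1) {l : ℕ} (hl : l.Prime)
    (hd : (l : ℤ) ∣ NumberField.discr K) :
    thetaCoeff ψ l = 1 ∧ ∀ n : ℕ, thetaCoeff ψ (l * n) = thetaCoeff ψ n := by
  classical
  rcases prime_decomposition hK hl with ⟨P, hP, -, hLP⟩ | ⟨P, R, hP, hR, hPn, -, hLP⟩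
  · exact absurd hd (not_dvd_discr_of_inert hK hl hP hLP)
  obtain rfl := (eq_of_dvd_discr_iff hK hl hP hR hPn hLP).mp hd
  have hP0 : P ≠ ⊥ := fun h => hl.ne_zero (by rw [← hPn, h, Ideal.absNorm_bot])
  have h1 : idealValue ψ P = 1 := by
    have h2 : idealValue ψ P * idealValue ψ P = 1 := by
      rw [idealValue, ← Units.val_mul, ← map_mul, ← idealClass_mul hP0 hP0, ← hLP,
        idealClass_principal, map_one, Units.val_one]
    have h3 : idealValue ψ P ^ 3 = 1 := by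
      rw [idealValue, ← Units.val_pow_eq_pow_val, ← MonoidHom.pow_apply, hψ3, MonoidHom.one_apply,
        Units.val_one]
    linear_combination h3 - idealValue ψ P * h2
  have key : ∀ n : ℕ, n ≠ 0 → thetaCoeff ψ (l * n) = thetaCoeff ψ n := by
    intro n hn
    have hall : (normSet K (l * n)).filter (P ∣ ·) = normSet K (l * n) := by
      refine Finset.filter_true_of_mem fun I hI => ?_
      obtain ⟨M, hM, hMI, hML⟩ := exists_prime_dvd_of_mem_normSet hK hl hI
      rw [hLP] at hML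
      have h : P ≤ M := (hM.isPrime.mul_le.mp (Ideal.dvd_iff_le.mp hML)).elim id id
      rwa [hP.eq_of_le hM.ne_top h]
    rw [thetaCoeff_eq_sum ψ (mul_ne_zero hl.ne_zero hn), ← hall,
      sum_filter_dvd ψ hPn hl.ne_zero hn, h1, one_mul]
  refine ⟨by simpa [thetaCoeff_one] using key 1 one_ne_zero, fun n => ?_⟩
  rcases eq_or_ne n 0 with rfl | hn
  · rw [mul_zero]
  · exact key n hn

/-- The coefficients are integers. -/
theorem exists_int_thetaCoeff (hK : finrank ℚ K = 2) (hψ3 : ψ ^ 3 = 1) (n : ℕ) :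
    ∃ a : ℤ, (a : ℂ) = thetaCoeff ψ n := by
  induction n using Nat.strong_induction_on with
  | _ n ih =>
    rcases eq_or_ne n 0 with rfl | h0
    · exact ⟨0, by simp [thetaCoeff_zero]⟩
    rcases eq_or_ne n 1 with rfl | h1
    · exact ⟨1, by simp [thetaCoeff_one]⟩
    have hl := Nat.minFac_prime h1
    obtain ⟨k, hk⟩ := Nat.minFac_dvd n
    have hk0 : k ≠ 0 := fun h => h0 (by rw [hk, h, mul_zero])
    have hkn : k < n := by
      rw [hk]
      exact lt_mul_of_one_lt_left (Nat.pos_of_ne_zero hk0) hl.one_lt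
    obtain ⟨a, ha⟩ := ih k hkn
    by_cases hd : (n.minFac : ℤ) ∣ NumberField.discr K
    · exact ⟨a, by rw [hk, (thetaCoeff_ramified hK hψ3 hl hd).2 k, ha]⟩
    obtain ⟨c, ε, -, -, h⟩ := thetaCoeff_unramified hK hψ3 hl hd
    obtain ⟨b, hb⟩ := ih (k / n.minFac) (lt_of_le_of_lt (Nat.div_le_self k _) hkn)
    refine ⟨c * a + ε * if n.minFac ∣ k then b else 0, ?_⟩
    conv_rhs => rw [hk, h k]
    split_ifs <;> push_cast <;> simp [ha, hb]

end FLTAgent.Mod2
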