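import Mathlib
import Fermat.Prelude.Def_FLTPrelim_Modularity
import Fermat.Agent.Mod2.ThetaHecke
import Fermat.Agent.Mod2.ThetaLift

/-!
# A weight two eigenform congruent modulo two to a dihedral weight one theta series

`exists_eigenform_congr_theta`: for a cubic class character of an imaginary quadratic field
ramified at two there is such an eigenform of level twice the odd part of the discriminant. The
theta series times one congruent to `1` gives a cusp form of level `|d|`, `U_2` lowers the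
`2`-part of the level (`HasModTwoForm.lower_pow`), and the mod two eigensystem is lifted.
-/

set_option autoImplicit false
set_option linter.style.haveILetI false

noncomputable section

open NumberField

namespace FLTAgent.Mod2

variable {K : Type} [Field K] [NumberField K]

/-- An integral weight two cusp form of the given level congruent to `A` modulo two. -/
def HasModTwoForm (A : ℕ → ℤ) (L : ℕ) : Prop :=
  ∃ F : CuspForm (CongruenceSubgroup.Gamma0 L) 2, ∃ b : ℕ → ℤ,
    (∀ n, Small2.coeffL n F = (b n : ℂ)) ∧ ∀ n, (b n : ZMod 2) = (A n : ZMod 2)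

theorem HasModTwoForm.lower {A : ℕ → ℤ} {M : ℕ} [NeZero M] (hM : 2 ∣ M)
    (hA : ∀ n, A (2 * n) = A n) (h : HasModTwoForm A (2 * M)) : HasModTwoForm A M := by
  obtain ⟨F, b, hb, hbA⟩ := h
  obtain ⟨g, hg⟩ := exists_lowerU hM F
  refine ⟨g, fun n => b (2 * n), fun n => ?_, fun n => by rw [hbA, hA]⟩
  show ModularFormClass.qCoeff (⇑g) n = _
  rw [hg]
  exact (Small2.coeffL_U Nat.prime_two (dvd_mul_right 2 M) F n).trans (hb _)

theorem HasModTwoForm.lower_pow {A : ℕ → ℤ} {m : ℕ} [NeZero m] (hA : ∀ n, A (2 * n) = A n) (e : ℕ)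
    (h : HasModTwoForm A (2 ^ (e + 1) * m)) : HasModTwoForm A (2 * m) := by
  induction e with
  | zero => simpa using h
  | succ e ih =>
    haveI : NeZero (2 ^ (e + 1) * m) := ⟨mul_ne_zero (pow_ne_zero _ two_ne_zero) (NeZero.ne m)⟩
    refine ih (HasModTwoForm.lower (dvd_mul_of_dvd_left (dvd_pow_self 2 e.succ_ne_zero) m) hA ?_)
    rwa [← mul_assoc, ← pow_succ']

/-- The theta series of a cubic class character of an imaginary quadratic field, ramified at two,
is congruent modulo two to a normalised eigenform of weight two and level twice the odd part of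
the discriminant; the eigenvalue is `1` at all primes dividing the discriminant, two included. -/
theorem exists_eigenform_congr_theta (hK : Module.finrank ℚ K = 2)
    (hd : NumberField.discr K < 0) (h2 : (2 : ℤ) ∣ NumberField.discr K)
    (ψ : ClassGroup (𝓞 K) →* ℂˣ) (hψ3 : ψ ^ 3 = 1) (hψ : ψ ≠ 1) :
    ∃ (g : CuspForm (CongruenceSubgroup.Gamma0 (2 * oddPart (NumberField.discr K))) 2)
      (_ : g.IsNormalizedEigenform) (𝔪 : Ideal (integralClosure ℤ ℂ)),
      𝔪.IsMaximal ∧ ((2 : ℕ) : integralClosure ℤ ℂ) ∈ 𝔪 ∧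
      (∀ ℓ : ℕ, ℓ.Prime → ∃ (c : integralClosure ℤ ℂ) (a : ℤ),
        (c : ℂ) = ModularFormClass.qCoeff g ℓ ∧ (a : ℂ) = thetaCoeff ψ ℓ ∧
          c - (a : integralClosure ℤ ℂ) ∈ 𝔪) ∧
      ∀ ℓ : ℕ, ℓ.Prime → (ℓ : ℤ) ∣ NumberField.discr K → thetaCoeff ψ ℓ = 1 := by
  set d := NumberField.discr K with hdd
  choose A hA using exists_int_thetaCoeff (ψ := ψ) hK hψ3
  have hram : ∀ p : ℕ, p.Prime → (p : ℤ) ∣ d → A p = 1 ∧ ∀ n, A (p * n) = A n := fun p hp hpd => by
    obtain ⟨h1, h2⟩ := thetaCoeff_ramified hK hψ3 hp hpd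
    exact ⟨Int.cast_injective (α := ℂ) (by rw [hA, h1, Int.cast_one]),
      fun n => Int.cast_injective (α := ℂ) (by rw [hA, hA, h2 n])⟩
  obtain ⟨E, hE⟩ : ∃ E, ψ E ≠ 1 := by
    by_contra h
    simp only [not_exists, not_not] at h
    exact hψ (MonoidHom.ext h)
  have hE2 : ψ (E ^ 2) ≠ 1 := fun h => hE (by
    have h3 : ψ E ^ 3 = 1 := by rw [← MonoidHom.pow_apply, hψ3, MonoidHom.one_apply]
    rw [map_pow] at h
    rwa [pow_succ, h, one_mul] at h3)
  obtain ⟨F, r, hr0, hreven, hF⟩ := exists_cuspForm_theta hK hd h2 ψ E hE2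
  let b : ℕ → ℤ := fun n => ∑ ij ∈ Finset.HasAntidiagonal.antidiagonal n, A ij.1 * (r ij.2 : ℤ)
  have hb : ∀ n, (b n : ZMod 2) = (A n : ZMod 2) := by
    intro n
    simp only [b, Int.cast_sum, Int.cast_mul, Int.cast_natCast]
    rw [Finset.sum_eq_single ((n, 0) : ℕ × ℕ)]
    · simp [hr0]
    · intro ij hij hne
      have hj : ij.2 ≠ 0 := fun h => hne (by
        have := Finset.HasAntidiagonal.mem_antidiagonal.mp hij
        exact Prod.ext (by simp only; omega) h)
      rw [(ZMod.natCast_eq_zero_iff (r ij.2) 2).mpr (even_iff_two_dvd.mp (hreven _ hj)), mul_zero]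
    · exact fun h => absurd (Finset.HasAntidiagonal.mem_antidiagonal.mpr (add_zero n)) h
  have hform : HasModTwoForm A d.natAbs := ⟨F, b, fun n => by
    show (UpperHalfPlane.qExpansion 1 F).coeff n = _
    rw [hF n]
    simp only [b, Int.cast_sum, Int.cast_mul, Int.cast_natCast, hA], hb⟩
  set v := d.natAbs.factorization 2 with hv
  have hd0 : d.natAbs ≠ 0 := by omega
  have hsplit : d.natAbs = 2 ^ v * oddPart d := (Nat.ordProj_mul_ordCompl_eq_self d.natAbs 2).symm
  have hv1 : 1 ≤ v := Nat.prime_two.factorization_pos_of_dvd hd0 (Int.natCast_dvd.mp h2)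
  haveI : NeZero (oddPart d) := ⟨fun h => hd0 (by rw [hsplit, h, mul_zero])⟩
  haveI : NeZero (2 * oddPart d) := ⟨mul_ne_zero two_ne_zero (NeZero.ne _)⟩
  obtain ⟨G, bG, hbG, hbGA⟩ : HasModTwoForm A (2 * oddPart d) := by
    refine HasModTwoForm.lower_pow (hram 2 Nat.prime_two h2).2 (v - 1) ?_
    rw [show v - 1 + 1 = v by omega, ← hsplit]
    exact hform
  have hNd : ∀ p : ℕ, p.Prime → (p ∣ 2 * oddPart d ↔ (p : ℤ) ∣ d) := by
    intro p hp
    rw [Int.natCast_dvd, hsplit]
    constructor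
    · exact fun h => h.trans (mul_dvd_mul_right (dvd_pow_self 2 (by omega)) _)
    · intro h
      rcases hp.dvd_mul.mp h with h | h
      · exact dvd_mul_of_dvd_left (hp.dvd_of_dvd_pow h) _
      · exact dvd_mul_of_dvd_right h _
  have heig : ∀ p : ℕ, p.Prime → ∀ n : ℕ, ((bG (p * n) : ℤ) : ZMod 2) +
      (if ¬ p ∣ 2 * oddPart d ∧ p ∣ n then ((bG (n / p) : ℤ) : ZMod 2) else 0) =
        (bG p : ZMod 2) * bG n := by
    intro p hp n
    simp only [hbGA]
    by_cases hpd : (p : ℤ) ∣ d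
    · rw [if_neg fun h => h.1 ((hNd p hp).mpr hpd), (hram p hp hpd).2 n, (hram p hp hpd).1]
      simp
    · obtain ⟨c, ε, hε, hc, hrel⟩ := thetaCoeff_unramified hK hψ3 hp hpd
      have hcA : A p = c := Int.cast_injective (α := ℂ) (by rw [hA, hc])
      have hn : A (p * n) = c * A n + ε * if p ∣ n then A (n / p) else 0 := by
        refine Int.cast_injective (α := ℂ) ?_
        rw [hA, hrel n]
        split_ifs <;> push_cast <;> simp [hA]
      have hε' : (ε : ZMod 2) = 1 := by
        obtain ⟨k, rfl⟩ := hε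
        push_cast
        rw [show (2 : ZMod 2) = 0 from by decide, zero_mul, zero_add]
      simp only [(hNd p hp).not.mpr hpd, not_false_iff, true_and, hn, hcA]
      split_ifs
      · push_cast
        rw [hε', one_mul, add_assoc, CharTwo.add_self_eq_zero, add_zero]
      · simp
  have h1 : (bG 1 : ZMod 2) = 1 := by
    have : A 1 = 1 := Int.cast_injective (α := ℂ) (by rw [hA, thetaCoeff_one, Int.cast_one])
    rw [hbGA, this, Int.cast_one]
  obtain ⟨g, hg, Q, hQ, hQ2, hcong⟩ := lifting_two (dvd_mul_right 2 _) G bG hbG h1 heig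
  refine ⟨g, hg, Q, hQ, hQ2, fun ℓ hℓ => ?_, fun ℓ hℓ hℓd => (thetaCoeff_ramified hK hψ3 hℓ hℓd).1⟩
  obtain ⟨c, hc, hca⟩ := hcong ℓ hℓ
  refine ⟨c, A ℓ, hc, hA ℓ, ?_⟩
  obtain ⟨k, hk⟩ : (2 : ℤ) ∣ bG ℓ - A ℓ := by
    refine (ZMod.intCast_zmod_eq_zero_iff_dvd _ 2).mp ?_
    rw [Int.cast_sub, hbGA, sub_self]
  have e : (bG ℓ : integralClosure ℤ ℂ) - (A ℓ : integralClosure ℤ ℂ) =
      ((2 : ℕ) : integralClosure ℤ ℂ) * (k : integralClosure ℤ ℂ) := by
    rw [← Int.cast_sub, hk]
    push_cast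
    rfl
  have := Q.add_mem hca (e ▸ Q.mul_mem_right (k : integralClosure ℤ ℂ) hQ2)
  rwa [sub_add_sub_cancel] at this

end FLTAgent.Mod2
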