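import Fermat.Agent.BadQ.CoeffGauss
import Fermat.Agent.MazurP.QEigenSeries
import Fermat.Agent.MazurP.ThetaKer

/-!
# Logarithmic derivatives of reduced series in characteristic two

`sred A x` is the reduction of an integral scaling of the series `x`, defined up to a constant,
and `dl A x` its logarithmic derivative: additive (`dl_mul`) and compatible with `qExpand` and
twists (`dl_qExpand`, `dl_twist`). In characteristic two such a derivative satisfies
`c(2n) = c(n)²` (`coeff_qDlog_two_mul`).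
-/

set_option autoImplicit false
set_option linter.unusedSectionVars false

noncomputable section

open ModularCurve

namespace FLTAgent.Mod2

open FLTAgent.MazurP (qTheta qDlog)
open FLTAgent.BadQ (gV gval Scalable incl redSer)
open FLTAgent.Kronecker (twist)

section Any

variable {k : Type*} [Field k]

theorem qDlog_C_mul {t : k} (ht : t ≠ 0) (x : LaurentSeries k) :
    qDlog (HahnSeries.C t * x) = qDlog x := by
  rcases eq_or_ne x 0 with rfl | hx
  · rw [mul_zero]
  · rw [MazurP.qDlog_mul ((map_ne_zero HahnSeries.C).mpr ht) hx, MazurP.qDlog_C, zero_add]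

/-- A logarithmic derivative has no polar part. -/
theorem coeff_qDlog_of_neg (x : LaurentSeries k) {n : ℤ} (hn : n < 0) :
    (qDlog x).coeff n = 0 := by
  rcases eq_or_ne x 0 with rfl | hx
  · simp [MazurP.qDlog_zero]
  rcases eq_or_ne (qDlog x) 0 with h | h
  · simp [h]
  refine HahnSeries.coeff_eq_zero_of_lt_order (lt_of_lt_of_le hn ?_)
  by_contra hlt
  push Not at hlt
  have h1 := HahnSeries.coeff_mul_order_add_order (qDlog x) x
  rw [mul_comm, ← MazurP.qTheta_eq_mul_qDlog hx, MazurP.qTheta_coeff,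
    HahnSeries.coeff_eq_zero_of_lt_order (x := x) (by omega), mul_zero, eq_comm,
    mul_eq_zero] at h1
  rcases h1 with h1 | h1 <;> rw [HahnSeries.leadingCoeff_eq_zero] at h1
  exacts [h h1, hx h1]

/-- In characteristic two `c (2 n) = c (n) ^ 2` for a logarithmic derivative. -/
theorem coeff_qDlog_two_mul [CharP k 2] (x : LaurentSeries k) (n : ℤ) :
    (qDlog x).coeff (2 * n) = (qDlog x).coeff n ^ 2 := by
  rcases eq_or_ne x 0 with rfl | hx
  · simp [MazurP.qDlog_zero]
  have : Fact (Nat.Prime 2) := ⟨Nat.prime_two⟩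
  set d := qDlog x with hd
  have htwo : ∀ y : LaurentSeries k, qTheta (qTheta y) = qTheta y := fun y => by
    ext m
    rw [MazurP.qTheta_coeff, MazurP.qTheta_coeff, ← mul_assoc]
    congr 1
    rw [← Int.cast_mul]
    refine (CharP.intCast_eq_intCast k 2).mpr ?_
    rcases Int.even_or_odd m with ⟨j, rfl⟩ | ⟨j, rfl⟩
    · exact Int.modEq_iff_dvd.mpr ⟨j - 2 * j * j, by push_cast; ring⟩
    · exact Int.modEq_iff_dvd.mpr ⟨-(j + 2 * j * j), by push_cast; ring⟩
  have h1 : qTheta x = x * d := MazurP.qTheta_eq_mul_qDlog hx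
  have h2 : x * (qTheta d + d * d) = x * d := by
    calc x * (qTheta d + d * d) = x * qTheta d + d * (x * d) := by ring
      _ = qTheta (x * d) := by rw [MazurP.qTheta_mul, ← h1]
      _ = x * d := by rw [← h1, htwo]
  have h3 := congrArg (fun y : LaurentSeries k => y.coeff (2 * n)) (mul_left_cancel₀ hx h2)
  simp only [HahnSeries.coeff_add, MazurP.qTheta_coeff] at h3
  have h20 : ((2 * n : ℤ) : k) = 0 := by
    rw [Int.cast_mul, show ((2 : ℤ) : k) = 0 from by exact_mod_cast CharP.cast_eq_zero k 2, zero_mul]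
  rw [h20, zero_mul, zero_add, ← pow_two, Kronecker.pow_char_eq_qExpand 2] at h3
  have h4 := ModularCurve.qExpand_coeff_mul 2 (coeffMap (frobenius k 2) d) n
  rw [← h3]
  exact_mod_cast h4

/-- In characteristic two a series in `q²` has zero derivative. -/
theorem qTheta_qExpand_two [CharP k 2] (x : LaurentSeries k) : qTheta (qExpand k 2 x) = 0 := by
  rw [MazurP.qTheta_qExpand, show ((2 : ℕ) : LaurentSeries k) = 0 from by
    rw [← map_natCast HahnSeries.C, CharP.cast_eq_zero, map_zero], zero_mul]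

end Any

variable {K : Type*} [Field K] (A : ValuationSubring K)

local notation "kA" => IsLocalRing.ResidueField A
local notation "π" => IsLocalRing.residue A

/-- The reduction of an integral scaling (junk `0` if there is none). -/
def sred (x : LaurentSeries K) : LaurentSeries kA :=
  open Classical in
  if h : Scalable A π x then gval A π (HahnSeries.C h.exists_smul.choose * x) else 0

/-- The logarithmic derivative of the reduction. -/
def dl (x : LaurentSeries K) : LaurentSeries kA := qDlog (sred A x)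

variable {A}

theorem sred_spec {x : LaurentSeries K} (hx : Scalable A π x) :
    ∃ c : K, c ≠ 0 ∧ HahnSeries.C c * x ∈ gV A π ∧ sred A x = gval A π (HahnSeries.C c * x) ∧
      sred A x ≠ 0 := by
  obtain ⟨h1, h2, h3⟩ := hx.exists_smul.choose_spec
  refine ⟨_, h1, h2, ?_, ?_⟩
  · rw [sred, dif_pos hx]
  · rwa [sred, dif_pos hx]

theorem sred_ne_zero {x : LaurentSeries K} (hx : Scalable A π x) : sred A x ≠ 0 := by
  obtain ⟨c, -, -, -, h⟩ := sred_spec hx
  exact h

theorem scalable_ne_zero {x : LaurentSeries K} (hx : Scalable A π x) : x ≠ 0 := by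
  rintro rfl
  obtain ⟨c, -, h1, h2, h⟩ := sred_spec hx
  exact h (by rw [h2, mul_zero, BadQ.gval_zero])

/-- Any integral scaling with nonzero reduction has the same reduction up to a constant. -/
theorem exists_sred_eq {x : LaurentSeries K} (hx : Scalable A π x) {c : K} (hc : c ≠ 0)
    (hm : HahnSeries.C c * x ∈ gV A π) (hn : gval A π (HahnSeries.C c * x) ≠ 0) :
    ∃ t : kA, t ≠ 0 ∧ sred A x = HahnSeries.C t * gval A π (HahnSeries.C c * x) := by
  obtain ⟨d, hd, hdm, hds, hdn⟩ := sred_spec hx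
  obtain ⟨hi, hir⟩ := BadQ.inv_mem_gV A π hm hn
  have he : HahnSeries.C (d / c) = HahnSeries.C d * x * (HahnSeries.C c * x)⁻¹ := by
    rw [mul_inv, mul_mul_mul_comm, mul_inv_cancel₀ (scalable_ne_zero hx), mul_one,
      ← map_inv₀ HahnSeries.C, ← map_mul, div_eq_mul_inv]
  have hA : d / c ∈ A :=
    BadQ.mem_of_C_mem_gV A π IsLocalRing.residue_surjective (he ▸ mul_mem hdm hi)
  have hsplit : HahnSeries.C d * x =
      HahnSeries.C ((⟨d / c, hA⟩ : A) : K) * (HahnSeries.C c * x) := by
    rw [← mul_assoc, ← map_mul, div_mul_cancel₀ _ hc]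
  have hs : sred A x = HahnSeries.C (π ⟨d / c, hA⟩) * gval A π (HahnSeries.C c * x) := by
    rw [hds, hsplit, BadQ.gval_mul A π (BadQ.gval_C A π _).1 hm, (BadQ.gval_C A π _).2]
  refine ⟨π ⟨d / c, hA⟩, fun h0 => hdn ?_, hs⟩
  rw [hs, h0, map_zero, zero_mul]

theorem scalable_of_gV {x : LaurentSeries K} {c : K} (hc : c ≠ 0)
    (hm : HahnSeries.C c * x ∈ gV A π) (hn : gval A π (HahnSeries.C c * x) ≠ 0) :
    Scalable A π x :=
  ⟨c⁻¹, inv_ne_zero hc, _, hm, hn, by rw [← mul_assoc, ← map_mul, inv_mul_cancel₀ hc, map_one,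
    one_mul]⟩

theorem scalable_C {c : K} (hc : c ≠ 0) : Scalable A π (HahnSeries.C c) :=
  scalable_of_gV (c := c⁻¹) (inv_ne_zero hc)
    (by rw [← map_mul, inv_mul_cancel₀ hc, map_one]; exact one_mem _)
    (by rw [← map_mul, inv_mul_cancel₀ hc, map_one, BadQ.gval_one]; exact one_ne_zero)

theorem exists_sred_C {c : K} (hc : c ≠ 0) :
    ∃ t : kA, t ≠ 0 ∧ sred A (HahnSeries.C c) = HahnSeries.C t := by
  have e : HahnSeries.C c⁻¹ * HahnSeries.C c = (1 : LaurentSeries K) := by
    rw [← map_mul, inv_mul_cancel₀ hc, map_one]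
  obtain ⟨t, ht, h⟩ := exists_sred_eq (A := A) (scalable_C hc) (inv_ne_zero hc)
    (by rw [e]; exact one_mem _) (by rw [e, BadQ.gval_one]; exact one_ne_zero)
  rw [e, BadQ.gval_one, mul_one] at h
  exact ⟨t, ht, h⟩

theorem exists_sred_mul {x y : LaurentSeries K} (hx : Scalable A π x) (hy : Scalable A π y) :
    Scalable A π (x * y) ∧
      ∃ t : kA, t ≠ 0 ∧ sred A (x * y) = HahnSeries.C t * (sred A x * sred A y) := by
  obtain ⟨c, hc, hcm, hcs, hcn⟩ := sred_spec hx
  obtain ⟨d, hd, hdm, hds, hdn⟩ := sred_spec hy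
  have e : HahnSeries.C (c * d) * (x * y) = HahnSeries.C c * x * (HahnSeries.C d * y) := by
    rw [map_mul, mul_mul_mul_comm]
  have hm : HahnSeries.C (c * d) * (x * y) ∈ gV A π := e ▸ mul_mem hcm hdm
  have hg : gval A π (HahnSeries.C (c * d) * (x * y)) = sred A x * sred A y := by
    rw [e, BadQ.gval_mul A π hcm hdm, hcs, hds]
  have hn : gval A π (HahnSeries.C (c * d) * (x * y)) ≠ 0 := hg ▸ mul_ne_zero hcn hdn
  have hxy := scalable_of_gV (mul_ne_zero hc hd) hm hn
  obtain ⟨t, ht, h⟩ := exists_sred_eq hxy (mul_ne_zero hc hd) hm hn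
  exact ⟨hxy, t, ht, hg ▸ h⟩

theorem dl_C (c : K) (hc : c ≠ 0) : dl A (HahnSeries.C c) = 0 := by
  obtain ⟨t, -, h⟩ := exists_sred_C (A := A) hc
  rw [dl, h, MazurP.qDlog_C]

theorem dl_mul {x y : LaurentSeries K} (hx : Scalable A π x) (hy : Scalable A π y) :
    dl A (x * y) = dl A x + dl A y := by
  obtain ⟨-, t, ht, h⟩ := exists_sred_mul hx hy
  rw [dl, h, qDlog_C_mul ht, MazurP.qDlog_mul (sred_ne_zero hx) (sred_ne_zero hy)]
  rfl

theorem scalable_mul {x y : LaurentSeries K} (hx : Scalable A π x) (hy : Scalable A π y) :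
    Scalable A π (x * y) :=
  (exists_sred_mul hx hy).1

theorem scalable_one : Scalable A π (1 : LaurentSeries K) := by
  simpa using scalable_C (A := A) (one_ne_zero' K)

theorem scalable_prod {ι : Type*} (s : Finset ι) {x : ι → LaurentSeries K}
    (hx : ∀ i ∈ s, Scalable A π (x i)) :
    Scalable A π (∏ i ∈ s, x i) ∧ dl A (∏ i ∈ s, x i) = ∑ i ∈ s, dl A (x i) := by
  classical
  induction s using Finset.induction with
  | empty =>
    rw [Finset.prod_empty, Finset.sum_empty]
    exact ⟨scalable_one, by simpa using dl_C (A := A) 1 one_ne_zero⟩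
  | insert i s hi ih =>
    obtain ⟨h1, h2⟩ := ih fun j hj => hx j (Finset.mem_insert_of_mem hj)
    rw [Finset.prod_insert hi, Finset.sum_insert hi]
    exact ⟨scalable_mul (hx i (Finset.mem_insert_self i s)) h1,
      by rw [dl_mul (hx i (Finset.mem_insert_self i s)) h1, h2]⟩

theorem scalable_pow {x : LaurentSeries K} (hx : Scalable A π x) (n : ℕ) :
    Scalable A π (x ^ n) ∧ dl A (x ^ n) = n • dl A x := by
  induction n with
  | zero => simpa using And.intro (scalable_one (A := A)) (dl_C (A := A) 1 one_ne_zero)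
  | succ n ih => exact ⟨pow_succ x n ▸ scalable_mul ih.1 hx,
      by rw [pow_succ, dl_mul ih.1 hx, ih.2, succ_nsmul]⟩

theorem scalable_qExpand (n : ℕ) [NeZero n] {x : LaurentSeries K} (hx : Scalable A π x) :
    Scalable A π (qExpand K n x) ∧
      ∃ t : kA, t ≠ 0 ∧ sred A (qExpand K n x) = HahnSeries.C t * qExpand kA n (sred A x) := by
  obtain ⟨c, hc, hcm, hcs, hcn⟩ := sred_spec hx
  obtain ⟨h1, h2⟩ := BadQ.gval_qExpand A π n hcm
  have e : qExpand K n (HahnSeries.C c * x) = HahnSeries.C c * qExpand K n x := by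
    rw [map_mul, qExpand_C]
  rw [e] at h1 h2
  rw [← hcs] at h2
  have hn : gval A π (HahnSeries.C c * qExpand K n x) ≠ 0 :=
    h2 ▸ (map_ne_zero_iff _ (qExpand_injective n)).mpr hcn
  have hs := scalable_of_gV hc h1 hn
  obtain ⟨t, ht, h⟩ := exists_sred_eq hs hc h1 hn
  exact ⟨hs, t, ht, h2 ▸ h⟩

theorem dl_qExpand (n : ℕ) [NeZero n] {x : LaurentSeries K} (hx : Scalable A π x) :
    dl A (qExpand K n x) = (n : LaurentSeries kA) * qExpand kA n (dl A x) := by
  obtain ⟨-, t, ht, h⟩ := scalable_qExpand n hx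
  rw [dl, h, qDlog_C_mul ht, MazurP.qDlog_qExpand]
  rfl

theorem scalable_twist (u : Aˣ) {x : LaurentSeries K} (hx : Scalable A π x) :
    Scalable A π (twist (Units.map A.subtype.toMonoidHom u) x) ∧
      ∃ t : kA, t ≠ 0 ∧ sred A (twist (Units.map A.subtype.toMonoidHom u) x) =
        HahnSeries.C t * twist (Units.map (π).toMonoidHom u) (sred A x) := by
  obtain ⟨c, hc, hcm, hcs, hcn⟩ := sred_spec hx
  obtain ⟨a, b, hb, hab⟩ := hcm
  set uK : Kˣ := Units.map A.subtype.toMonoidHom u
  set uk : (kA)ˣ := Units.map (π).toMonoidHom u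
  have hi : ∀ w, incl A (twist u w) = twist uK (incl A w) := fun w =>
    Kronecker.coeffMap_twist A.subtype u w
  have hr : ∀ w, redSer A π (twist u w) = twist uk (redSer A π w) := fun w =>
    Kronecker.coeffMap_twist π u w
  have hb' : redSer A π (twist u b) ≠ 0 := by
    rw [hr]; exact MazurP.twist_ne_zero _ hb
  have he : HahnSeries.C c * twist uK x = twist uK (HahnSeries.C c * x) := by
    rw [map_mul]
    congr 1
    ext i
    rcases eq_or_ne i 0 with rfl | hi
    · simp
    · simp [HahnSeries.C_apply, HahnSeries.coeff_single_of_ne hi]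
  have h' : HahnSeries.C c * twist uK x * incl A (twist u b) = incl A (twist u a) := by
    rw [he, hi, hi, ← map_mul, hab]
  have hg : gval A π (HahnSeries.C c * twist uK x) = twist uk (sred A x) := by
    rw [BadQ.gval_eq A π hb' h', hcs, BadQ.gval_eq A π hb hab, map_div₀, hr, hr]
  have hm : HahnSeries.C c * twist uK x ∈ gV A π := ⟨_, _, hb', h'⟩
  have hn : gval A π (HahnSeries.C c * twist uK x) ≠ 0 := hg ▸ MazurP.twist_ne_zero _ hcn
  have hs := scalable_of_gV hc hm hn
  obtain ⟨t, ht, h⟩ := exists_sred_eq hs hc hm hn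
  exact ⟨hs, t, ht, hg ▸ h⟩

theorem dl_twist (u : Aˣ) {x : LaurentSeries K} (hx : Scalable A π x) :
    dl A (twist (Units.map A.subtype.toMonoidHom u) x) =
      twist (Units.map (π).toMonoidHom u) (dl A x) := by
  obtain ⟨-, t, ht, h⟩ := scalable_twist u hx
  rw [dl, h, qDlog_C_mul ht, MazurP.qDlog_twist]
  rfl

end FLTAgent.Mod2
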