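import Fermat.Agent.Mod2.HeckeGroup
import Fermat.Agent.Mazur.Eis.Cong
import Fermat.Agent.EllP.Unramified
import Fermat.Agent.FlatJ.Main
import Fermat.Agent.FlatHopf.Dual

/-!
# `ρ̄` is très ramifiée at `2`, hence not in the `2`-torsion of `J₀(M)`, `M` odd

An element of inertia at `2` moving `ρ̄` moves integers of the field cut out by `ρ̄` by less than
`2` (`valuation_sub_lt`), so by flatness it fixes the `2`-torsion of `J₀(M)` fixed by the kernel
of `ρ̄` (`smul_eq_of_flat`). Thus equivariant maps from the classes killed by the maximal ideal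
to `J₀(M)` vanish (`map_eigenPt_eq_zero`).
-/

set_option autoImplicit false
set_option linter.unusedSectionVars false
set_option synthInstance.maxSize 2000

noncomputable section

open Matrix ModularCurve AlgebraicCurve

namespace FLTAgent.Mod2

open FLTAgent.Mazur.Eis (valuation_natCast_eq_one valuation_prime_lt_one valuation_prime_ne_zero)

local notation "Qb" => AlgebraicClosure ℚ
local notation "Γℚ" => (AlgebraicClosure ℚ ≃ₐ[ℚ] AlgebraicClosure ℚ)

theorem involutions_eq : ∀ a b : Mat2 (ZMod 2), a ≠ 1 → a * a = 1 → b * b = 1 →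
    a * b * (a * b) = 1 → b = 1 ∨ b = a := by
  decide

theorem pow_three_of_sq : ∀ a : Mat2 (ZMod 2), a ≠ 1 → a * a = 1 → a ^ 3 ≠ 1 := by decide

variable {D : Setup} {A : ValuationSubring Qb}

/-- An element of inertia at `2` moving `ρ̄` moves a number of the field it cuts out by less than
`2`: the quadratic subfield is `ℚ₂^nr(√(-2m))`. -/
theorem valuation_sub_lt (hA : A.LiesOverPrime 2) {τ : Γℚ} (hτ : τ ∈ A.inertiaSubgroupIn ℚ)
    (hτρ : D.rho τ ≠ 1) {a : Qb} (ha : a ∈ A)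
    (hfix : ∀ σ ∈ A.inertiaSubgroupIn ℚ, D.rho σ = 1 → σ a = a) :
    A.valuation (τ a - a) < A.valuation (2 : Qb) := by
  have h2m : (2 : ℕ) ∣ 2 * D.m := dvd_mul_right 2 _
  obtain ⟨hsq, -⟩ := D.ram 2 Nat.prime_two h2m A hA
  have hm : ¬ 2 ∣ D.m := D.odd_m.not_two_dvd_nat
  set v2 := A.valuation (2 : Qb) with hv2
  have hv0 : v2 ≠ 0 := by simp [hv2]
  have hv1 : v2 < 1 := by exact_mod_cast valuation_prime_lt_one (l := 2) hA
  -- the square root
  obtain ⟨x, hx⟩ := IsAlgClosed.exists_pow_nat_eq (-((2 * D.m : ℕ) : Qb)) two_pos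
  have hx0 : x ≠ 0 := fun h => by
    rw [h, zero_pow two_ne_zero, eq_comm, neg_eq_zero, Nat.cast_eq_zero] at hx
    exact (NeZero.ne (2 * D.m)) hx
  have hvx : A.valuation x ^ 2 = v2 := by
    rw [← map_pow, hx, Valuation.map_neg, Nat.cast_mul, map_mul,
      valuation_natCast_eq_one Nat.prime_two hA hm, mul_one, Nat.cast_ofNat]
  have hHx : ∀ σ : Γℚ, D.rho σ = 1 → σ x = x := fun σ hσ =>
    (D.sign_field σ x hx).mpr (by rw [hσ, one_pow])
  have hτx : τ x = -x := by
    have h1 : τ x ≠ x := fun h =>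
      pow_three_of_sq _ hτρ (hsq τ hτ) ((D.sign_field τ x hx).mp h)
    have h2 : τ x ^ 2 = x ^ 2 := by rw [← map_pow, hx, map_neg, map_natCast]
    exact (sq_eq_sq_iff_eq_or_eq_neg.mp h2).resolve_left h1
  -- the two halves
  have hττ : τ (τ a) = a :=
    hfix (τ * τ) (mul_mem hτ hτ) (by rw [map_mul, hsq τ hτ])
  have hτa : ∀ σ ∈ A.inertiaSubgroupIn ℚ, D.rho σ = 1 → σ (τ a) = τ a := fun σ hσ hσ1 => by
    have h := hfix (τ⁻¹ * σ * τ) (mul_mem (mul_mem (inv_mem hτ) hσ) hτ) (by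
      rw [map_mul, map_mul, hσ1, mul_one, ← map_mul, inv_mul_cancel, map_one])
    have h' := congrArg τ h
    rwa [← AlgEquiv.mul_apply, mul_assoc, mul_inv_cancel_left, AlgEquiv.mul_apply] at h'
  have hI : ∀ y : Qb, (∀ σ ∈ A.inertiaSubgroupIn ℚ, D.rho σ = 1 → σ y = y) → τ y = y →
      ∀ σ ∈ A.inertiaSubgroupIn ℚ, σ y = y := by
    intro y hy hτy σ hσ
    have hst := hsq (τ * σ) (mul_mem hτ hσ)
    rw [map_mul] at hst
    rcases involutions_eq _ _ hτρ (hsq τ hτ) (hsq σ hσ) hst with h | h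
    · exact hy σ hσ h
    · have h1 := hy (τ⁻¹ * σ) (mul_mem (inv_mem hτ) hσ)
        (by rw [map_mul, h, ← map_mul, inv_mul_cancel, map_one])
      calc σ y = τ ((τ⁻¹ * σ) y) := by rw [← AlgEquiv.mul_apply, mul_inv_cancel_left]
        _ = y := by rw [h1, hτy]
  set u := (a + τ a) / 2 with hu
  set w := (a - τ a) / (2 * x) with hw
  have huI : ∀ σ ∈ A.inertiaSubgroupIn ℚ, σ u = u := hI u
    (fun σ hσ h => by rw [hu, map_div₀, map_add, hfix σ hσ h, hτa σ hσ h, map_ofNat])
    (by rw [hu, map_div₀, map_add, hττ, map_ofNat, add_comm])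
  have hwI : ∀ σ ∈ A.inertiaSubgroupIn ℚ, σ w = w := hI w
    (fun σ hσ h => by
      rw [hw, map_div₀, map_sub, map_mul, hfix σ hσ h, hτa σ hσ h, hHx σ h, map_ofNat])
    (by rw [hw, map_div₀, map_sub, map_mul, hττ, hτx, map_ofNat, mul_neg, div_neg, ← neg_div,
      neg_sub])
  have hauw : a = u + w * x := by rw [hu, hw]; field_simp; ring
  have hτa' : τ a - a = -(2 * (w * x)) := by rw [hw]; field_simp; ring
  -- the odd part is small
  have hwx : A.valuation (w * x) < 1 := by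
    by_contra hge
    push Not at hge
    have hw0 : w ≠ 0 := fun h => by simp [h] at hge
    obtain ⟨j, hj⟩ := EllP.exists_valuation_eq_zpow Nat.prime_two hA hw0 hwI
    have hodd : A.valuation (w * x) ^ 2 = v2 ^ (2 * j + 1) := by
      rw [map_mul, mul_pow, hvx, hj, Nat.cast_ofNat, ← zpow_natCast (v2 ^ j), ← _root_.zpow_mul,
        zpow_add_one₀ hv0, mul_comm j]
      rfl
    have hne : ∀ k : ℤ, A.valuation (w * x) ^ 2 ≠ v2 ^ (2 * k) := fun k h => by
      rw [hodd] at h
      have := zpow_right_injective₀ (pos_of_ne_zero hv0) hv1.ne h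
      omega
    have hle : A.valuation (w * x) ≤ 1 := by
      have ha1 : A.valuation (u + w * x) ≤ 1 := hauw ▸ (A.valuation_le_one_iff a).mpr ha
      rcases eq_or_ne u 0 with hu0 | hu0
      · rwa [hu0, zero_add] at ha1
      · obtain ⟨k, hk⟩ := EllP.exists_valuation_eq_zpow Nat.prime_two hA hu0 huI
        have hne' : A.valuation u ≠ A.valuation (w * x) := fun h => hne k (by
          rw [← h, hk, Nat.cast_ofNat, ← zpow_natCast (v2 ^ k), ← _root_.zpow_mul, mul_comm k]; rfl)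
        rw [Valuation.map_add_of_distinct_val _ hne'] at ha1
        exact (le_max_right _ _).trans ha1
    exact hne 0 (by rw [le_antisymm hle hge, one_pow, mul_zero, zpow_zero])
  rw [hτa', Valuation.map_neg, map_mul]
  exact mul_lt_of_lt_one_right (pos_of_ne_zero hv0) hwx

/-- On `2`-torsion of `J₀(M)`, `M` odd, a class fixed by the kernel of `ρ̄` in inertia is fixed by
inertia. -/
theorem smul_eq_of_flat {M : ℕ} [NeZero M] (hM : ¬ 2 ∣ M) (hA : A.LiesOverPrime 2) {τ : Γℚ}
    (hτ : τ ∈ A.inertiaSubgroupIn ℚ) (hτρ : D.rho τ ≠ 1) {z : JZero M} (hz : 2 • z = 0)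
    (hfix : ∀ σ ∈ A.inertiaSubgroupIn ℚ, D.rho σ = 1 → σ • z = z) : τ • z = z := by
  have : Fact (Nat.Prime 2) := ⟨Nat.prime_two⟩
  let act : Γℚ →* AddMonoid.End (HVec M (ZMod 2)) :=
    { toFun := fun σ => (Matrix.toLin' (Reps.galMat M 2 σ)).toAddMonoidHom
      map_one' := AddMonoidHom.ext fun x => by
        show Matrix.toLin' (Reps.galMat M 2 1) x = x
        rw [map_one, Matrix.toLin'_one]; rfl
      map_mul' := fun σ σ' => AddMonoidHom.ext fun x => by
        show Matrix.toLin' (Reps.galMat M 2 (σ * σ')) x =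
          Matrix.toLin' (Reps.galMat M 2 σ) (Matrix.toLin' (Reps.galMat M 2 σ') x)
        rw [map_mul, Matrix.toLin'_mul]; rfl }
  let : DistribMulAction Γℚ (HVec M (ZMod 2)) := DistribMulAction.compHom _ act
  have hact : ∀ σ x, jPt (act σ x) = σ • jPt x := fun σ x => by
    rw [smul_jPt]; exact congrArg jPt (Matrix.toLin'_apply (Reps.galMat M 2 σ) x)
  have hmodel : FlatHopf.HasFlatModel 2 act :=
    FlatJ.hasModel_of_injective M 2 hM jPt (fun σ x => hact σ x) jPt_injective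
  obtain ⟨H, hH⟩ := FlatHopf.hasOrder_of_hasModel (FlatHopf.hasFlatModel_iff.mp hmodel)
  have hzt : z ∈ Reps.tors M 2 := by
    rw [Pic0.mem_torsion]; exact_mod_cast hz
  obtain ⟨g, rfl⟩ : ∃ g, jPt g = z :=
    ⟨Reps.coordTors M 2 ⟨z, hzt⟩, congrArg Subtype.val ((Reps.coordTors M 2).symm_apply_apply _)⟩
  have hgfix : ∀ σ ∈ A.inertiaSubgroupIn ℚ, D.rho σ = 1 → act σ g = g := fun σ h1 h2 =>
    jPt_injective (by rw [hact]; exact hfix σ h1 h2)
  set w := act τ g - g with hw
  have hw2 : (2 : ℕ) • w = 0 := by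
    exact ZModModule.char_nsmul_eq_zero 2 w
  have hsmall : ∀ h ∈ H, A.valuation (h (g + w) - h g) ^ (2 - 1) < A.valuation ((2 : ℕ) : Qb) := by
    intro h hh
    rw [hw, add_sub_cancel, hH.equivariant h hh τ g, pow_one, Nat.cast_ofNat]
    exact valuation_sub_lt hA hτ hτρ ((A.valuation_le_one_iff _).mp
      (Mazur.Eis.valuation_apply_le_one Nat.prime_two hH hA hh g))
      fun σ h1 h2 => by
        have := hH.equivariant h hh σ g
        rw [hgfix σ h1 h2] at this
        exact this.symm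
  have hw0 : w = 0 := Mazur.Eis.eq_zero_of_small_sub Nat.prime_two hH hA hw2
    fun h hh x => Mazur.Eis.small_sub_everywhere Nat.prime_two hH hA hsmall hh x
  rw [← hact]
  exact congrArg jPt (sub_eq_zero.mp hw0)

variable {L M : ℕ} [NeZero L] [NeZero M]

/-- An equivariant image of the classes killed by the maximal ideal in `J₀(M)`, `M` odd, is zero. -/
theorem map_eigenPt_eq_zero (hM : ¬ 2 ∣ M) (S : ResSys L D) (φ : JZero L →+ JZero M)
    (hφ : ∀ (σ : Γℚ) (z : JZero L), φ (σ • z) = σ • φ z) (x : eigenSet S.θ) :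
    φ (eigenPt S.θ x) = 0 := by
  obtain ⟨A, hA, -⟩ := GalCommon.exists_place_frobenius Nat.prime_two
  obtain ⟨hsq, τ, hτ, hτρ⟩ := D.ram 2 Nat.prime_two (dvd_mul_right 2 _) A hA
  have hP := hasRel_eigenRep S
  set ψ : eigenSet S.θ →+ JZero M := φ.comp (eigenPt S.θ) with hψ
  have hψσ : ∀ σ y, ψ (eigenRep S.θ σ y) = σ • ψ y := fun σ y => by
    show φ (eigenPt S.θ (eigenRep S.θ σ y)) = _
    rw [eigenPt_eigenRep, hφ]
    rfl
  have hfix : ∀ y, ψ (eigenRep S.θ τ y) = ψ y := fun y => by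
    rw [hψσ]
    refine smul_eq_of_flat hM hA hτ hτρ ?_ fun σ _ hσ1 => by
      rw [← hψσ, hP.eq_one_of_rho hσ1]; rfl
    show 2 • φ (eigenPt S.θ y) = 0
    rw [← map_nsmul, show 2 • eigenPt S.θ y = 0 from two_nsmul_jPt _, map_zero]
  obtain ⟨g, hg⟩ := exists_conj_trace hτρ (hsq τ hτ)
  have hh : ∀ y, ψ (eigenRep S.θ (τ * (g * τ * g⁻¹)) y) = ψ y := fun y => by
    rw [map_mul, Module.End.mul_apply, hfix, map_mul, map_mul, Module.End.mul_apply,
      Module.End.mul_apply, hψσ g, hfix, ← hψσ, ← Module.End.mul_apply, ← map_mul,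
      mul_inv_cancel, map_one, Module.End.one_apply]
  have h1 := congrArg ψ (LinearMap.congr_fun (hP.order_three hg) x)
  rw [Module.End.mul_apply, hh, hh, LinearMap.add_apply, Module.End.one_apply, map_add, hh,
    left_eq_add] at h1
  exact h1

end FLTAgent.Mod2
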