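import Fermat.Agent.BadQ.AtkinLehner
import Fermat.Agent.HeckeH.Final
import Fermat.Agent.Kronecker.NormProduct
import Fermat.Agent.Kronecker.Inputs

/-!
# The Fricke involution of the function field of `X₀(N)` over `ℚ̄`

`fricke N` sends `j(dz)` to `j(Nz/d)`; it is an involution (`fricke_fricke`) commuting with
Galois (`fricke_ringAut`), and its series is the expansion at the cusp `0` (`coeffMap_fricke`,
`cuspZero`). The last theorem gives the `q`-expansion of the transformed norm `N_α (β y)` at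
every prime (`exists_qExpand_fricke_norm`).
-/

set_option autoImplicit false
set_option linter.style.haveILetI false
set_option maxHeartbeats 1000000
set_option synthInstance.maxHeartbeats 400000

noncomputable section

open UpperHalfPlane ModularCurve AlgebraicCurve CongruenceSubgroup Filter
open scoped MatrixGroups

namespace FLTAgent.Mod2

open FLTAgent.Modular
open FLTAgent.HeckeH (glM cuspHom hasQExp_cuspHom cuspSer_eq heckeIdx heckeBeta heckeBetaT wFricke)
open FLTAgent.Kronecker (jSeries laurentBaseChange_full_eq_adjoin normAlpha twist)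
open FLTAgent.ModularCosets (DivIdx qScale qScale_eq)
open FLTAgent.BadQ (jAt jSeries_mem_bar)

local notation "Qb" => AlgebraicClosure ℚ

variable {N : ℕ} [NeZero N]

/-- Two homomorphisms of the function field agree if they agree on constants and on `j (d z)`. -/
theorem ringHom_ext_bar {S : Type*} [Field S] (φ ψ : modularFunctionFieldBar N →+* S)
    (hc : ∀ c : Qb, φ (algebraMap Qb _ c) = ψ (algebraMap Qb _ c))
    (hj : ∀ d : DivIdx N, φ (jAt d) = ψ (jAt d)) : φ = ψ := by
  refine RingHom.ext fun z => ?_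
  obtain ⟨x, hx⟩ := z
  have hx' : x ∈ IntermediateField.adjoin Qb
      (Set.range fun d : DivIdx N => jSeries Qb (d : ℕ)) := by
    rw [← laurentBaseChange_full_eq_adjoin]; exact hx
  induction hx' using IntermediateField.adjoin_induction with
  | mem a ha =>
    obtain ⟨d, rfl⟩ := ha
    exact hj d
  | algebraMap c => exact hc c
  | add a b ha hb iha ihb =>
    rw [← laurentBaseChange_full_eq_adjoin] at ha hb
    rw [show (⟨a + b, hx⟩ : modularFunctionFieldBar N) = ⟨a, ha⟩ + ⟨b, hb⟩ from rfl, map_add φ,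
      map_add ψ, iha, ihb]
  | inv a ha iha =>
    rw [← laurentBaseChange_full_eq_adjoin] at ha
    rw [show (⟨a⁻¹, hx⟩ : modularFunctionFieldBar N) = (⟨a, ha⟩)⁻¹ from rfl, map_inv₀ φ,
      map_inv₀ ψ, iha]
  | mul a b ha hb iha ihb =>
    rw [← laurentBaseChange_full_eq_adjoin] at ha hb
    rw [show (⟨a * b, hx⟩ : modularFunctionFieldBar N) = ⟨a, ha⟩ * ⟨b, hb⟩ from rfl, map_mul φ,
      map_mul ψ, iha, ihb]

theorem twistSeries_one (y : LaurentSeries ℂ) : twistSeries 1 y = y := by
  ext k; simp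

theorem coe_S_smul (z : ℍ) : ((ModularGroup.S • z : ℍ) : ℂ) = -(z : ℂ)⁻¹ := by
  rw [UpperHalfPlane.modular_S_smul, UpperHalfPlane.coe_mk, inv_neg]

theorem jSeries_complex (d : ℕ) [NeZero d] :
    jSeries ℂ d = ModularCurve.qExpand ℂ d (coeffEmb ℂ jq) := by
  rw [jSeries, qScale_eq, ← ModularCosets.coeffEmb_jq_eq]

/-- The expansion of `j (d z)` at the cusp `0`. -/
theorem hasQExp_jMulFun_S (d : ℕ) [NeZero d] (hd : d ∣ N) :
    HasQExp N (fun z => jMulFun d (ModularGroup.S • z)) (jSeries ℂ (N / d)) := by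
  have hq : N / d ≠ 0 := fun h => by
    rcases Nat.div_eq_zero_iff.mp h with h0 | h0
    · exact NeZero.ne d h0
    · exact absurd (Nat.le_of_dvd (NeZero.pos N) hd) (not_le.mpr h0)
  haveI : NeZero (N / d) := ⟨hq⟩
  have h := (hasQExp_jFun.comp_affine one_ne_zero 1 d (0 : ℤ)
    (φ := fun z => ModularCosets.triSmul 1 0 d z)
    fun z => by rw [ModularCosets.coe_triSmul]).qExpand (N / d)
  have hper : ((N / d : ℕ) : ℝ) * ((d : ℝ) * 1) = N := by
    rw [mul_one, ← Nat.cast_mul, Nat.div_mul_cancel hd]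
  have hu : (Units.mk0 (Complex.exp (2 * Real.pi * Complex.I * ((0 : ℤ) : ℂ) /
      ((d : ℂ) * ((1 : ℝ) : ℂ)))) (Complex.exp_ne_zero _)) = 1 := Units.ext (by simp)
  rw [hper, hu, twistSeries_one, qExpand_one_apply, ← jSeries_complex] at h
  refine h.congr (Eventually.of_forall fun z => ?_)
  show jFun (ModularCosets.triSmul 1 0 d z) =
    jFun (ModularForm.heckeDiagMatrix d • (ModularGroup.S • z))
  rw [← jFun_smul ModularGroup.S (ModularCosets.triSmul 1 0 d z)]
  congr 1
  refine UpperHalfPlane.ext ?_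
  rw [ModularForm.coe_heckeDiagMatrix_smul (NeZero.ne d), coe_S_smul, coe_S_smul,
    ModularCosets.coe_triSmul]
  have hz := z.ne_zero
  have hd0 : (d : ℂ) ≠ 0 := by exact_mod_cast NeZero.ne d
  push_cast
  field_simp
  rw [add_zero, div_self hz]

variable (ι : Qb →+* ℂ)

/-- The expansion at the cusp `0`, in `exp (2πi z / N)`. -/
def cuspZero : modularFunctionFieldBar N →+* LaurentSeries ℂ :=
  (cuspHom (M := N) ModularGroup.S).toRingHom.comp (Torsion.embFC N ι)

theorem cuspZero_algebraMap (c : Qb) :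
    cuspZero ι (algebraMap Qb (modularFunctionFieldBar N) c) =
      algebraMap ℂ (LaurentSeries ℂ) (ι c) := by
  have h : Torsion.embFC N ι (algebraMap Qb (modularFunctionFieldBar N) c) =
      algebraMap ℂ (FC N) (ι c) := Subtype.ext (by
    show coeffMap ι (algebraMap Qb (LaurentSeries Qb) c) = algebraMap ℂ (LaurentSeries ℂ) (ι c)
    rw [ModularCosets.algebraMap_eq_HC, ModularCosets.algebraMap_eq_HC, HahnSeries.C_apply,
      HahnSeries.C_apply, coeffMap_single])
  show cuspHom ModularGroup.S (Torsion.embFC N ι _) = _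
  rw [h, AlgHom.commutes]

theorem cuspZero_jAt (d : DivIdx N) : cuspZero ι (jAt d) = jSeries ℂ (N / (d : ℕ)) := by
  show cuspHom ModularGroup.S (Torsion.embFC N ι (jAt d)) = _
  refine cuspSer_eq ?_
  have h : ((Torsion.embFC N ι (jAt d) : FC N) : LaurentSeries ℂ) =
      coeffEmb ℂ (ModularCurve.qExpand ℚ (d : ℕ) jq) := by
    rw [Torsion.coe_embFC]
    show coeffMap ι (jSeries Qb (d : ℕ)) = _
    rw [Kronecker.coeffMap_jSeries, jSeries_complex, coeffEmb, ModularCurve.coeffMap_qExpand]
  rw [h, ev_jq_qExpand]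
  exact hasQExp_jMulFun_S (d : ℕ) d.dvd

theorem coe_aeval_jAt (P : MvPolynomial (DivIdx N) Qb) :
    ((MvPolynomial.aeval (fun d : DivIdx N => (jAt d : modularFunctionFieldBar N)) P :
      modularFunctionFieldBar N) : LaurentSeries Qb) =
      MvPolynomial.aeval (fun d : DivIdx N => jSeries Qb (d : ℕ)) P := by
  induction P using MvPolynomial.induction_on with
  | C c => simp only [MvPolynomial.aeval_C]; rfl
  | add P Q hP hQ => simp only [map_add, AddMemClass.coe_add, hP, hQ]
  | mul_X P d hP => simp only [map_mul, MulMemClass.coe_mul, MvPolynomial.aeval_X, hP]; rfl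

theorem cuspZero_aeval (P : MvPolynomial (DivIdx N) Qb) :
    cuspZero ι (MvPolynomial.aeval (fun d : DivIdx N => (jAt d : modularFunctionFieldBar N)) P) =
      coeffMap ι (MvPolynomial.aeval (fun d : DivIdx N => jSeries Qb (N / (d : ℕ))) P) := by
  induction P using MvPolynomial.induction_on with
  | C c =>
    simp only [MvPolynomial.aeval_C]
    rw [cuspZero_algebraMap, ModularCosets.algebraMap_eq_HC, ModularCosets.algebraMap_eq_HC,
      HahnSeries.C_apply, HahnSeries.C_apply, coeffMap_single]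
  | add P Q hP hQ => simp only [map_add, hP, hQ]
  | mul_X P d hP =>
    simp only [map_mul, MvPolynomial.aeval_X, hP, cuspZero_jAt, Kronecker.coeffMap_jSeries]

/-- An endomorphism of the function field sending `j (d z)` to `j (N z / d)`. -/
theorem exists_fricke :
    ∃ w : modularFunctionFieldBar N →ₐ[Qb] modularFunctionFieldBar N,
      ∀ d : DivIdx N, (w (jAt d) : LaurentSeries Qb) = jSeries Qb (N / (d : ℕ)) := by
  let ι₀ : Qb →+* ℂ := FLTAgent.Reduction.barToC
  obtain ⟨e, he⟩ := FLTAgent.Kronecker.exists_ringHom_of_relations (K := Qb)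
    (fun d : DivIdx N => jSeries Qb (d : ℕ))
    (fun d : DivIdx N => jSeries Qb (N / (d : ℕ))) (fun P => by
      have hinj : Function.Injective (coeffMap ι₀) := fun a b h => HahnSeries.ext (funext fun n =>
        ι₀.injective (congrArg (fun x : LaurentSeries ℂ => x.coeff n) h))
      rw [← map_eq_zero_iff _ hinj, ← cuspZero_aeval, map_eq_zero, ← coe_aeval_jAt,
        ZeroMemClass.coe_eq_zero])
  let c := IntermediateField.equivOfEq (laurentBaseChange_full_eq_adjoin Qb N)
  let φ : modularFunctionFieldBar N →ₐ[Qb] LaurentSeries Qb := e.comp c.toAlgHom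
  have hmem : ∀ x, φ x ∈ (modularFunctionFieldBar N).toSubalgebra := fun x => by
    show e (c x) ∈ modularFunctionFieldBar N
    generalize c x = z
    obtain ⟨z, hz⟩ := z
    induction hz using IntermediateField.adjoin_induction with
    | mem y hy =>
      obtain ⟨d, rfl⟩ := hy
      rw [he d]
      exact jSeries_mem_bar (Nat.div_dvd_of_dvd d.dvd)
    | algebraMap r =>
      change e (algebraMap Qb (IntermediateField.adjoin Qb _) r) ∈ _
      rw [AlgHom.commutes]
      exact IntermediateField.algebraMap_mem _ _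
    | add y y' hy hy' ihy ihy' =>
      have := add_mem ihy ihy'
      rw [← map_add] at this
      exact this
    | inv y hy ihy =>
      have := inv_mem ihy
      rw [← map_inv₀] at this
      exact this
    | mul y y' hy hy' ihy ihy' =>
      have := mul_mem ihy ihy'
      rw [← map_mul] at this
      exact this
  refine ⟨φ.codRestrict _ hmem, fun d => ?_⟩
  show e (c (jAt d)) = _
  rw [← he d]
  exact congrArg e (Subtype.ext rfl)

variable (N) in
/-- The Fricke involution `j (d z) ↦ j (N z / d)`. -/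
def fricke : modularFunctionFieldBar N →ₐ[Qb] modularFunctionFieldBar N :=
  (exists_fricke (N := N)).choose

theorem fricke_jAt (d : DivIdx N) :
    fricke N (jAt d) = jAt ⟨N / (d : ℕ), Nat.mem_divisors.mpr
      ⟨Nat.div_dvd_of_dvd d.dvd, NeZero.ne N⟩⟩ :=
  Subtype.ext ((exists_fricke (N := N)).choose_spec d)

/-- The Fricke involution is an involution. -/
theorem fricke_fricke (y : modularFunctionFieldBar N) : fricke N (fricke N y) = y :=
  DFunLike.congr_fun (ringHom_ext_bar ((fricke N).toRingHom.comp (fricke N).toRingHom)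
    (RingHom.id _) (fun c => by
      show fricke N (fricke N (algebraMap Qb _ c)) = _
      rw [AlgHom.commutes, AlgHom.commutes]; rfl)
    fun d => by
      show fricke N (fricke N (jAt d)) = jAt d
      rw [fricke_jAt, fricke_jAt]
      exact congrArg jAt (Subtype.ext (Nat.div_div_self d.dvd (NeZero.ne N)))) y

theorem fricke_ringAut (σ : Qb ≃ₐ[ℚ] Qb) (y : modularFunctionFieldBar N) :
    fricke N (arithmeticRingAut (modularFunctionFieldFull N) σ y) =
      arithmeticRingAut (modularFunctionFieldFull N) σ (fricke N y) := by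
  let τ : modularFunctionFieldBar N →+* modularFunctionFieldBar N :=
    (arithmeticRingAut (modularFunctionFieldFull N) σ).toRingHom
  have hτ : ∀ d : DivIdx N, τ (jAt d) = jAt d := fun d =>
    Subtype.ext (FLTAgent.Kronecker.coeffMap_jSeries Qb _ _)
  have hτc : ∀ r : Qb, τ (algebraMap Qb _ r) = algebraMap Qb _ (σ r) :=
    arithmeticRingAut_algebraMap _ σ
  exact DFunLike.congr_fun (ringHom_ext_bar ((fricke N).toRingHom.comp τ)
    (τ.comp (fricke N).toRingHom) (fun c => by
      show fricke N (τ (algebraMap Qb _ c)) = τ (fricke N (algebraMap Qb _ c))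
      rw [hτc, AlgHom.commutes, AlgHom.commutes, hτc])
    fun d => by
      show fricke N (τ (jAt d)) = τ (fricke N (jAt d))
      rw [hτ, fricke_jAt, hτ]) y

theorem coeffMap_fricke (y : modularFunctionFieldBar N) :
    coeffMap ι (fricke N y : LaurentSeries Qb) = cuspZero ι y :=
  DFunLike.congr_fun (ringHom_ext_bar
    ((coeffMap ι).comp ((modularFunctionFieldBar N).toSubfield.subtype.comp (fricke N).toRingHom))
    (cuspZero ι) (fun c => by
      show coeffMap ι ((fricke N (algebraMap Qb _ c) : modularFunctionFieldBar N) :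
        LaurentSeries Qb) = _
      rw [AlgHom.commutes, cuspZero_algebraMap]
      show coeffMap ι (algebraMap Qb (LaurentSeries Qb) c) = _
      rw [ModularCosets.algebraMap_eq_HC, ModularCosets.algebraMap_eq_HC, HahnSeries.C_apply,
        HahnSeries.C_apply, coeffMap_single])
    fun d => by
      show coeffMap ι ((fricke N (jAt d) : modularFunctionFieldBar N) : LaurentSeries Qb) = _
      rw [fricke_jAt, cuspZero_jAt]
      exact Kronecker.coeffMap_jSeries Qb ι _) y

theorem det_wFricke_ne : (wFricke N).det ≠ 0 := by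
  rw [HeckeH.det_wFricke]; exact_mod_cast NeZero.ne N

theorem glM_wFricke_smul (z : ℍ) :
    glM (wFricke N) det_wFricke_ne • z =
      ModularGroup.S • (ModularForm.heckeDiagMatrix N • z) := by
  have hd : (ModularCosets.diagOne (N : ℤ)).det ≠ 0 := by
    rw [ModularCosets.det_diagOne]; exact_mod_cast NeZero.ne N
  have hS : ((ModularGroup.S : SL(2, ℤ)) : HeckeH.M2).det ≠ 0 := by
    rw [ModularGroup.S.2]; exact one_ne_zero
  have e : wFricke N = ((ModularGroup.S : SL(2, ℤ)) : HeckeH.M2) * ModularCosets.diagOne (N : ℤ) := by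
    ext a b
    fin_cases a <;> fin_cases b <;>
      simp [wFricke, ModularGroup.S, ModularCosets.diagOne, Matrix.mul_apply]
  rw [HeckeH.glM_mul_smul hS hd det_wFricke_ne e, HeckeH.glM_SL, HeckeH.glM_diagOne_eq]

theorem glM_pos {M : HeckeH.M2} (h : M.det ≠ 0) (hp : 0 < M.det) :
    0 < (glM M h).val.det :=
  HeckeH.det_glM_pos h hp

theorem det_wFricke_pos : 0 < (wFricke N).det := by
  rw [HeckeH.det_wFricke]; exact_mod_cast NeZero.pos N

/-- The transformed function is `z ↦ f (- 1 / (N z))`. -/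
theorem ev_fricke (y : modularFunctionFieldBar N) :
    ev ((Torsion.embFC N ι (fricke N y) : FC N) : LaurentSeries ℂ) =
      fun z => ev ((Torsion.embFC N ι y : FC N) : LaurentSeries ℂ)
        (glM (wFricke N) det_wFricke_ne • z) := by
  have h := (hasQExp_cuspHom (M := N) ModularGroup.S (Torsion.embFC N ι y)).comp_mul N
    (φ := fun z => ModularForm.heckeDiagMatrix N • z)
    fun z => ModularForm.coe_heckeDiagMatrix_smul (NeZero.ne N) z
  have hs : cuspHom ModularGroup.S (Torsion.embFC N ι y) =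
      ((Torsion.embFC N ι (fricke N y) : FC N) : LaurentSeries ℂ) :=
    (coeffMap_fricke ι y).symm
  rw [hs] at h
  have h' := h.congr (g := fun z => ev ((Torsion.embFC N ι y : FC N) : LaurentSeries ℂ)
    (glM (wFricke N) det_wFricke_ne • z))
    (Eventually.of_forall fun z => by simp only [glM_wFricke_smul])
  have h1 := (hasQExp_ev (Torsion.embFC N ι (fricke N y))).qExpand N
  rw [mul_one] at h1
  exact (isMero_ev _).eq_of_hasQExp (HeckeH.natCast_pos_real N)
    ((isMero_ev _).comp_glSmul (glM_pos _ det_wFricke_pos)) h1 h'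

variable {ℓ : ℕ} [NeZero ℓ]

omit [NeZero N] [NeZero ℓ] in
theorem det_heckeBeta_ne (hℓ : ℓ.Prime) (i : heckeIdx N ℓ) : (heckeBeta i).det ≠ 0 := by
  rw [HeckeH.det_heckeBeta]; exact_mod_cast hℓ.ne_zero

theorem coe_glM_smul {M : HeckeH.M2} (h : M.det ≠ 0) (hp : 0 < M.det) (z : ℍ) :
    ((glM M h • z : ℍ) : ℂ) =
      ((M 0 0 : ℂ) * z + (M 0 1 : ℂ)) / ((M 1 0 : ℂ) * z + (M 1 1 : ℂ)) := by
  rw [coe_smul_of_det_pos (glM_pos h hp)]
  simp [num, denom, HeckeH.val_glM]

/-- The series of one translate. -/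
def transSeries (u : ℂˣ) (s : LaurentSeries ℂ) (i : heckeIdx N ℓ) : LaurentSeries ℂ :=
  match i.1 with
  | some j => twistSeries (u ^ (j : ℕ)) s
  | none => ModularCurve.qExpand ℂ ℓ (ModularCurve.qExpand ℂ ℓ s)

theorem hasQExp_translate (hℓ : ℓ.Prime) {g : ℍ → ℂ} {s : LaurentSeries ℂ}
    (hg : HasQExp 1 g s) (i : heckeIdx N ℓ) :
    HasQExp ℓ (fun z => g (glM (heckeBeta i) (det_heckeBeta_ne hℓ i) • z))
      (transSeries (ModularCosets.zetaU ℓ) s i) := by
  have hpos : ∀ i : heckeIdx N ℓ, 0 < (heckeBeta i).det := fun i => by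
    rw [HeckeH.det_heckeBeta]; exact_mod_cast hℓ.pos
  obtain ⟨_ | j, hi⟩ := i
  · have h := (hg.comp_affine one_ne_zero ℓ 1 (0 : ℤ)
      (φ := fun z => glM (heckeBeta (N := N) ⟨none, hi⟩) (det_heckeBeta_ne hℓ _) • z)
      fun z => by
        rw [coe_glM_smul _ (hpos _)]
        simp [HeckeH.heckeBeta_none]).qExpand ℓ
    have hu : (Units.mk0 (Complex.exp (2 * Real.pi * Complex.I * ((0 : ℤ) : ℂ) /
        (((1 : ℕ) : ℂ) * ((1 : ℝ) : ℂ)))) (Complex.exp_ne_zero _)) = 1 := Units.ext (by simp)
    rw [hu, twistSeries_one, Nat.cast_one, one_mul, mul_one] at h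
    exact h
  · have h := hg.comp_affine one_ne_zero 1 ℓ ((j : ℕ) : ℤ)
      (φ := fun z => glM (heckeBeta (N := N) ⟨some j, hi⟩) (det_heckeBeta_ne hℓ _) • z)
      fun z => by
        rw [coe_glM_smul _ (hpos _)]
        simp [HeckeH.heckeBeta_some]
    have hu : (Units.mk0 (Complex.exp (2 * Real.pi * Complex.I * (((j : ℕ) : ℤ) : ℂ) /
        ((ℓ : ℂ) * ((1 : ℝ) : ℂ)))) (Complex.exp_ne_zero _)) =
          ModularCosets.zetaU ℓ ^ (j : ℕ) := Units.ext (by
      rw [Units.val_pow_eq_pow_val, ModularCosets.zetaU, Units.val_mk0, Units.val_mk0,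
        ← Complex.exp_nat_mul]
      congr 1
      push_cast
      ring)
    rw [hu, qExpand_one_apply, mul_one] at h
    exact h

theorem coeffMap_twist_series (u : Qbˣ) (x : LaurentSeries Qb) :
    coeffMap ι (twist u x) = twistSeries (Units.map ι.toMonoidHom u) (coeffMap ι x) := by
  ext k
  rw [coeffMap_coeff, Kronecker.twist_coeff, map_mul, twistSeries_coeff, coeffMap_coeff,
    ← map_zpow, Units.coe_map]
  rfl

/-- The expansion of the Fricke transform of `N_α (β y)`, at every prime. -/
theorem exists_qExpand_fricke_norm (hℓ : ℓ.Prime) (y : modularFunctionFieldBar N) :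
    ∃ ζ : Qbˣ, IsPrimitiveRoot (ζ : Qb) ℓ ∧
      ModularCurve.qExpand Qb ℓ ((fricke N (normAlpha Qb N ℓ (heckeBetaBar Qb N ℓ y)) :
          modularFunctionFieldBar N) : LaurentSeries Qb) =
        (if ℓ ∣ N then 1 else ModularCurve.qExpand Qb ℓ
            (ModularCurve.qExpand Qb ℓ (fricke N y : LaurentSeries Qb))) *
          ∏ b : Fin ℓ, twist (ζ ^ (b : ℕ)) (fricke N y : LaurentSeries Qb) := by
  classical
  let ι : Qb →+* ℂ := FLTAgent.Reduction.barToC
  haveI : NeZero (ℓ : Qb) := ⟨Nat.cast_ne_zero.mpr hℓ.ne_zero⟩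
  obtain ⟨r, hr⟩ := HasEnoughRootsOfUnity.exists_primitiveRoot Qb ℓ
  obtain ⟨e, -, he⟩ := (hr.map_of_injective ι.injective).eq_pow_of_pow_eq_one
    (IsPrimitiveRoot.pow_eq_one (IsPrimitiveRoot.coe_units_iff.mpr (ModularCosets.zetaU_primitive ℓ)))
  have hre : IsPrimitiveRoot (r ^ e) ℓ := by
    refine IsPrimitiveRoot.of_map_of_injective (f := ι) ?_ ι.injective
    rw [map_pow, he]
    exact IsPrimitiveRoot.coe_units_iff.mpr (ModularCosets.zetaU_primitive ℓ)
  let ζ : Qbˣ := (hre.isUnit hℓ.ne_zero).unit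
  have hζ : Units.map ι.toMonoidHom ζ = ModularCosets.zetaU ℓ := Units.ext (by
    rw [Units.coe_map, IsUnit.unit_spec]
    exact (map_pow ι r e).trans he)
  refine ⟨ζ, by rw [IsUnit.unit_spec]; exact hre, ?_⟩
  set N₀ := normAlpha Qb N ℓ (heckeBetaBar Qb N ℓ y) with hN₀
  obtain ⟨hα, hβ, hP', hfin, hFI, hNF⟩ := Kronecker.heckeInputs_bar N ℓ
  have hnorm := HeckeH.ev_norm_beta ι hℓ hfin (HeckeH.finrankAlong_alphaBar N hℓ) y
  set fy := ev ((Torsion.embFC N ι y : FC N) : LaurentSeries ℂ) with hfy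
  set g := ev ((Torsion.embFC N ι (fricke N y) : FC N) : LaurentSeries ℂ) with hg
  -- the transformed norm as a function
  have hfun : ev ((Torsion.embFC N ι (fricke N N₀) : FC N) : LaurentSeries ℂ) =
      nfH (∏ i : heckeIdx N ℓ, fun z => g (glM (heckeBeta i) (det_heckeBeta_ne hℓ i) • z)) := by
    rw [ev_fricke]
    have hN₀' : ev ((Torsion.embFC N ι N₀ : FC N) : LaurentSeries ℂ) =
        nfH (∏ i : heckeIdx N ℓ, fun z => fy
          (glM (heckeBetaT i) (HeckeH.heckeBetaT_det_ne hℓ i) • z)) := hnorm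
    rw [hN₀', ← nfH_comp_glSmul (HeckeH.isMeroRaw_prod_translates hℓ (isMero_ev _))
      (glM_pos _ det_wFricke_pos)]
    congr 1
    funext z
    rw [Finset.prod_apply, Finset.prod_apply]
    refine Finset.prod_congr rfl fun i _ => ?_
    rw [hg, ev_fricke]
    show fy _ = fy _
    have h1 : (heckeBetaT i * wFricke N).det ≠ 0 := by
      rw [Matrix.det_mul]; exact mul_ne_zero (HeckeH.heckeBetaT_det_ne hℓ i) det_wFricke_ne
    rw [← HeckeH.glM_mul_smul (HeckeH.heckeBetaT_det_ne hℓ i) det_wFricke_ne h1 rfl,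
      ← HeckeH.glM_mul_smul det_wFricke_ne (det_heckeBeta_ne hℓ i) h1
        (HeckeH.wFricke_mul_heckeBeta i).symm]
  have h1 := (hasQExp_ev (Torsion.embFC N ι (fricke N N₀))).qExpand ℓ
  rw [mul_one, hfun] at h1
  have h2 := (HasQExp.finprod Finset.univ fun i (_ : i ∈ Finset.univ) =>
    hasQExp_translate (N := N) hℓ (hasQExp_ev (Torsion.embFC N ι (fricke N y))) i).nfH
      (HeckeH.natCast_pos_real ℓ)
  have heq := h1.unique (HeckeH.natCast_pos_real ℓ) h2
  have hinj : Function.Injective (coeffMap ι) := fun a b h => HahnSeries.ext (funext fun n =>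
    ι.injective (congrArg (fun x : LaurentSeries ℂ => x.coeff n) h))
  apply hinj
  rw [ModularCurve.coeffMap_qExpand, map_mul, map_prod]
  simp only [coeffMap_twist_series, map_pow, hζ]
  rw [← Torsion.coe_embFC, heq, ← Torsion.coe_embFC]
  set s := ((Torsion.embFC N ι (fricke N y) : FC N) : LaurentSeries ℂ) with hs
  by_cases h : ℓ ∣ N
  · rw [if_pos h, map_one, one_mul, ← Equiv.prod_comp (HeckeH.idxEquivU h)]
    rfl
  · rw [if_neg h, ModularCurve.coeffMap_qExpand, ModularCurve.coeffMap_qExpand,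
      ← Torsion.coe_embFC, ← Equiv.prod_comp (HeckeH.idxEquivT h).symm, Fintype.prod_option]
    rfl

end FLTAgent.Mod2
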