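import Fermat.Agent.Mod2.HeckeMultOne
import Mathlib.Analysis.SpecialFunctions.Complex.CircleAddChar
import Mathlib.Analysis.Fourier.FiniteAbelian.PontryaginDuality

/-!
# Double annihilation in the localised Hecke ring

Modulo a power of two, an element killing everything that an ideal containing that power kills
lies in the ideal (`mem_of_forall_annihilator`): the localised lattice is free and self-dual, and
in a finite module with a perfect pairing a subgroup is the orthogonal of its orthogonal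
(`mem_of_forall_orthogonal`).
-/

set_option autoImplicit false
set_option linter.style.haveILetI false
set_option linter.unusedSectionVars false
set_option maxHeartbeats 1000000

noncomputable section

open Matrix

namespace FLTAgent.Mod2

variable {L : ℕ} [NeZero L] {θ : Reps.TZ L →+* ZMod 2}

/-- In a finite module with a perfect pairing, a vector is in a subgroup as soon as it is
orthogonal to the orthogonal of the subgroup. -/
theorem mem_of_forall_orthogonal {ι : Type*} [Fintype ι] [DecidableEq ι] {N : ℕ} [NeZero N]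
    (Q : Matrix ι ι (ZMod N)) (hQ : Function.Injective fun x : ι → ZMod N => x ᵥ* Q)
    (U : AddSubgroup (ι → ZMod N)) (z : ι → ZMod N)
    (h : ∀ x : ι → ZMod N, (∀ u ∈ U, (x ᵥ* Q) ⬝ᵥ u = 0) → (x ᵥ* Q) ⬝ᵥ z = 0) : z ∈ U := by
  classical
  let V := ι → ZMod N
  let β : V → AddChar V ℂ := fun x =>
    ZMod.stdAddChar.compAddMonoidHom
      (AddMonoidHom.mk' (fun y : V => (x ᵥ* Q) ⬝ᵥ y) fun a b => dotProduct_add _ a b)
  have hβ : ∀ x y, β x y = ZMod.stdAddChar ((x ᵥ* Q) ⬝ᵥ y) := fun x y => rfl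
  have hstd : ∀ a : ZMod N, ZMod.stdAddChar a = (1 : ℂ) → a = 0 := fun a ha =>
    ZMod.injective_stdAddChar (ha.trans (AddChar.map_zero_eq_one _).symm)
  have hinj : Function.Injective β := fun x y hxy => hQ (funext fun i => by
    have h1 := congrArg (fun ψ : AddChar V ℂ => ψ (Pi.single i 1)) hxy
    simp only [hβ, dotProduct_single, mul_one] at h1
    exact ZMod.injective_stdAddChar h1)
  have hsurj : Function.Surjective β :=
    ((Fintype.bijective_iff_injective_and_card β).mpr ⟨hinj, (AddChar.card_eq (α := V)).symm⟩).2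
  by_contra hz
  have hne : (QuotientAddGroup.mk z : V ⧸ U) ≠ 0 := fun h0 =>
    hz ((QuotientAddGroup.eq_zero_iff z).mp h0)
  obtain ⟨ψ, hψ⟩ := (AddChar.exists_apply_ne_zero (a := (QuotientAddGroup.mk z : V ⧸ U))).mpr hne
  obtain ⟨x, hx⟩ := hsurj (ψ.compAddMonoidHom (QuotientAddGroup.mk' U))
  have hev : ∀ y, ZMod.stdAddChar ((x ᵥ* Q) ⬝ᵥ y) = ψ (QuotientAddGroup.mk y : V ⧸ U) := fun y =>
    (hβ x y).symm.trans (congrArg (fun c : AddChar V ℂ => c y) hx)
  refine hψ ?_
  rw [← hev, h x fun u hu => hstd _ ?_, AddChar.map_zero_eq_one]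
  rw [hev, (QuotientAddGroup.eq_zero_iff u).mpr hu, AddChar.map_zero_eq_one]

theorem red_add (n : ℕ) (v w : HVec L ℤ_[2]) : red n (v + w) = red n v + red n w :=
  funext fun i => map_add _ (v i) (w i)

theorem red_neg (n : ℕ) (v : HVec L ℤ_[2]) : red n (-v) = -red n v :=
  funext fun i => map_neg _ (v i)

theorem red_sub (n : ℕ) (v w : HVec L ℤ_[2]) : red n (v - w) = red n v - red n w :=
  funext fun i => map_sub _ (v i) (w i)

theorem red_zero (n : ℕ) : red n (0 : HVec L ℤ_[2]) = 0 := funext fun _ => map_zero _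

theorem red_two_pow_smul (n : ℕ) (v : HVec L ℤ_[2]) : red n ((2 : ℤ_[2]) ^ n • v) = 0 :=
  funext fun i => by
    simp only [red, Pi.smul_apply, smul_eq_mul, map_mul, map_pow, map_ofNat, Pi.zero_apply]
    rw [show ((2 : ZMod (2 ^ n))) ^ n = 0 by exact_mod_cast ZMod.natCast_self (2 ^ n), zero_mul]

theorem val_two_pow_smul (n : ℕ) (v : LocLat θ) :
    LocLat.val ((2 : locHecke θ) ^ n • v) = (2 : ℤ_[2]) ^ n • LocLat.val v := by
  rw [← map_ofNat (algebraMap ℤ_[2] (locHecke θ)) 2, ← map_pow]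
  exact (LocLat.val).map_smul _ v

theorem red_val_eq_zero {n : ℕ} {v : LocLat θ} :
    red n (LocLat.val v) = 0 ↔ ∃ w : LocLat θ, v = (2 : locHecke θ) ^ n • w := by
  refine ⟨fun h => ?_, fun ⟨w, hw⟩ => by rw [hw, val_two_pow_smul, red_two_pow_smul]⟩
  obtain ⟨w, hw, hvw⟩ := exists_two_pow_smul n (LocLat.val_mem v) h
  exact ⟨LocLat.of w hw, LocLat.val_injective
    (hvw.trans (by rw [val_two_pow_smul, LocLat.val_of]))⟩

theorem red_val_smul (n : ℕ) {a : locHecke θ}
    {A : Matrix (Fin (Period.rankH L)) (Fin (Period.rankH L)) ℤ_[2]}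
    (hA : ∀ v : LocLat θ,
      LocLat.val ((a : Module.End ℤ_[2] (LocLat θ)) v) = A *ᵥ LocLat.val v) (v : LocLat θ) :
    red n (LocLat.val (a • v)) =
      A.map (PadicInt.toZModPow n) *ᵥ red n (LocLat.val v) := by
  rw [show LocLat.val (a • v) = A *ᵥ LocLat.val v from hA v]
  exact funext fun i => RingHom.map_mulVec _ _ _ i

/-- An element killing modulo `2 ^ n` everything that an ideal containing `2 ^ n` kills lies in the
ideal. -/
theorem mem_of_forall_annihilator (b : Module.Basis (Fin 2) (locHecke θ) (LocLat θ))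
    (I : Ideal (locHecke θ)) (n : ℕ) (hn : (2 : locHecke θ) ^ n ∈ I) (t : locHecke θ)
    (ht : ∀ r : locHecke θ, (∀ a ∈ I, ∃ c, a * r = 2 ^ n * c) → ∃ c, t * r = 2 ^ n * c) :
    t ∈ I := by
  classical
  haveI : NeZero (2 ^ n) := ⟨pow_ne_zero n two_ne_zero⟩
  obtain ⟨g, hg⟩ := exists_projector θ (ZMod (2 ^ n))
  obtain ⟨P, hP, hPt⟩ := exists_pairing L
  set G := tauMat L (ZMod (2 ^ n)) g with hG
  set Q : Matrix (Fin (Period.rankH L)) (Fin (Period.rankH L)) (ZMod (2 ^ n)) :=
    (Int.castRingHom (ZMod (2 ^ n))).mapMatrix P with hQdef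
  have hQ : IsUnit Q := by
    rw [Matrix.isUnit_iff_isUnit_det, hQdef, ← RingHom.map_det, eq_intCast,
      ZMod.coe_int_isUnit_iff_isCoprime]
    have h2 : IsCoprime (2 : ℤ) P.det := Int.prime_two.coprime_iff_not_dvd.mpr hP
    exact_mod_cast h2.pow_left
  have hQinj := Matrix.vecMul_injective_of_isUnit hQ
  have hQt : ∀ s : Reps.TZ L,
      (tauMat L (ZMod (2 ^ n)) s)ᵀ * Q = Q * tauMat L (ZMod (2 ^ n)) s := fun s => by
    have h := congrArg (Int.castRingHom (ZMod (2 ^ n))).mapMatrix (hPt s)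
    simp only [map_mul] at h
    exact h
  -- the matrices extending the Hecke ring
  have hspan : ∀ A ∈ heckeSpan L,
      (A.map (PadicInt.toZModPow n))ᵀ * Q = Q * A.map (PadicInt.toZModPow n) ∧
        G * A.map (PadicInt.toZModPow n) = A.map (PadicInt.toZModPow n) * G := by
    intro A hA
    induction hA using Submodule.span_induction with
    | mem x hx =>
      obtain ⟨s, rfl⟩ := hx
      have e : (tauMat L ℤ_[2] s).map (PadicInt.toZModPow n) = tauMat L (ZMod (2 ^ n)) s := by
        ext i j; simp [tauMat]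
      rw [e]
      exact ⟨hQt s, by rw [hG, ← map_mul, ← map_mul, mul_comm]⟩
    | zero => simp
    | add x y _ _ hx hy =>
      rw [Matrix.map_add _ (map_add _), Matrix.transpose_add, Matrix.add_mul, Matrix.mul_add,
        Matrix.mul_add, Matrix.add_mul, hx.1, hy.1, hx.2, hy.2]
      exact ⟨rfl, rfl⟩
    | smul c x _ hx =>
      have e : (c • x).map (PadicInt.toZModPow n) =
          PadicInt.toZModPow n c • x.map (PadicInt.toZModPow n) := by
        ext i j; simp
      rw [e, Matrix.transpose_smul, Matrix.smul_mul, Matrix.mul_smul, Matrix.mul_smul,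
        Matrix.smul_mul, hx.1, hx.2]
      exact ⟨rfl, rfl⟩
  have hadj : ∀ A : Matrix (Fin (Period.rankH L)) (Fin (Period.rankH L)) ℤ_[2], (A.map (PadicInt.toZModPow n))ᵀ * Q = Q * A.map (PadicInt.toZModPow n) →
      ∀ x y : HVec L (ZMod (2 ^ n)),
      (x ᵥ* Q) ⬝ᵥ (A.map (PadicInt.toZModPow n) *ᵥ y) =
        ((A.map (PadicInt.toZModPow n) *ᵥ x) ᵥ* Q) ⬝ᵥ y := fun A hA x y => by
    rw [dotProduct_mulVec, vecMul_vecMul, ← hA, ← vecMul_vecMul, vecMul_transpose]
  have hGfix : ∀ v : LocLat θ, G *ᵥ red n (LocLat.val v) = red n (LocLat.val v) := fun v =>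
    hg.fix _ (LocLat.val_mem v n)
  -- the subgroup: the image of the ideal, and what the projector kills
  let W : AddSubgroup (HVec L (ZMod (2 ^ n))) :=
    AddSubgroup.map (AddMonoidHom.mk' (fun w : LocLat θ => red n (LocLat.val w)) fun v w => by
      rw [map_add, red_add]) (I • (⊤ : Submodule (locHecke θ) (LocLat θ))).toAddSubgroup
  let U : AddSubgroup (HVec L (ZMod (2 ^ n))) :=
    AddSubgroup.comap (Matrix.mulVecLin G).toAddMonoidHom W
  have hmemU : ∀ y, y ∈ U ↔ ∃ w ∈ I • (⊤ : Submodule (locHecke θ) (LocLat θ)),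
      red n (LocLat.val w) = G *ᵥ y := fun y => Iff.rfl
  have key : ∀ j, red n (LocLat.val (t • b j)) ∈ U := by
    intro j
    refine mem_of_forall_orthogonal Q hQinj U _ fun x hx => ?_
    have hzero : ∀ x : HVec L (ZMod (2 ^ n)), (∀ y, (x ᵥ* Q) ⬝ᵥ y = 0) → x = 0 := fun x h =>
      hQinj ((dotProduct_eq_zero _ h).trans (zero_vecMul _).symm)
    have hGx : G *ᵥ x = x := by
      refine sub_eq_zero.mp (hzero _ fun y => ?_)
      have e : (G *ᵥ x) ᵥ* Q = (x ᵥ* Q) ᵥ* G := by
        rw [vecMul_vecMul, hG, ← hQt, ← vecMul_vecMul, vecMul_transpose]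
      rw [sub_vecMul, sub_dotProduct, e, ← dotProduct_mulVec, ← dotProduct_sub]
      refine hx _ ((hmemU _).mpr ⟨0, zero_mem _, ?_⟩)
      rw [map_zero, red_zero, mulVec_sub, sub_eq_zero.mpr (hg.fix _ (hg.mem y))]
    obtain ⟨x₀, hx₀, hx₀x⟩ := exists_red_eq (hGx ▸ hg.mem x : IsAtMax θ x)
    set v := LocLat.of x₀ hx₀ with hv
    have hvx : red n (LocLat.val v) = x := hx₀x
    have hr : ∀ i, ∃ c, t * b.repr v i = 2 ^ n * c := fun i => ht _ fun a ha => by
      obtain ⟨A, hA, hA'⟩ := exists_extend a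
      have h0 : red n (LocLat.val (a • v)) = 0 := by
        rw [red_val_smul n hA', hvx]
        refine hzero _ fun y => ?_
        rw [← hadj A (hspan A hA).1]
        refine hx _ ((hmemU _).mpr ?_)
        obtain ⟨y₀, hy₀, hy₀y⟩ := exists_red_eq (hg.mem y : IsAtMax θ (G *ᵥ y))
        refine ⟨a • LocLat.of y₀ hy₀, Submodule.smul_mem_smul ha Submodule.mem_top, ?_⟩
        rw [red_val_smul n hA', LocLat.val_of, hy₀y, mulVec_mulVec, mulVec_mulVec, (hspan A hA).2]
      obtain ⟨w, hw⟩ := red_val_eq_zero.mp h0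
      exact ⟨b.repr w i, by simpa using congrArg (fun z => b.repr z i) hw⟩
    choose c hc using hr
    have htv : red n (LocLat.val (t • v)) = 0 := red_val_eq_zero.mpr
      ⟨∑ i, c i • b i, b.repr.injective (Finsupp.ext fun i => by
        rw [map_smul, map_smul, Finsupp.smul_apply, Finsupp.smul_apply, b.repr_sum_self,
          smul_eq_mul, smul_eq_mul, hc])⟩
    obtain ⟨A, hA, hA'⟩ := exists_extend t
    rw [red_val_smul n hA', hvx] at htv
    rw [red_val_smul n hA', hadj A (hspan A hA).1, htv, zero_vecMul, zero_dotProduct]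
  obtain ⟨w, hw, hwz⟩ := (hmemU _).mp (key 0)
  rw [hGfix] at hwz
  obtain ⟨u, hu⟩ := red_val_eq_zero.mp (show red n (LocLat.val (t • b 0 - w)) = 0 by
    rw [map_sub, red_sub, hwz, sub_self])
  have hmem : t • b 0 ∈ I • (⊤ : Submodule (locHecke θ) (LocLat θ)) := by
    rw [eq_add_of_sub_eq hu]
    exact add_mem (Submodule.smul_mem_smul hn Submodule.mem_top) hw
  have hcoord : ∀ z ∈ I • (⊤ : Submodule (locHecke θ) (LocLat θ)), b.repr z 0 ∈ I := by
    intro z hz
    refine Submodule.smul_induction_on hz (fun a ha m _ => ?_) fun x y hx hy => ?_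
    · rw [map_smul, Finsupp.smul_apply, smul_eq_mul]
      exact I.mul_mem_right _ ha
    · rw [map_add, Finsupp.add_apply]
      exact add_mem hx hy
  simpa using hcoord _ hmem

end FLTAgent.Mod2
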