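import Fermat.Agent.Mod2.HeckeDefs
import Fermat.Agent.BadOdd.Frobenius
import Fermat.Agent.BadOdd.AnyLevel
import Fermat.Agent.BadOdd.DvdOrdRed

/-!
# The lattice at an odd prime `v` dividing the level exactly once

Inertia is unipotent of echelon two (`sub_one_mul_sub_one`), Frobenius is `v U_v` on the image of
the monodromy and `U_v` on its coimage (`frob_mul_sub_one`, `sub_one_mul_frob`). At a
non-Eisenstein system the torsion fixed by inertia lifts to fixed lattice vectors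
(`exists_fixed_lift`).
-/

set_option autoImplicit false

noncomputable section

open Matrix CuspForm ModularCurve

namespace FLTAgent.Mod2

local notation "Qb" => AlgebraicClosure ℚ
local notation "Γℚ" => (AlgebraicClosure ℚ ≃ₐ[ℚ] AlgebraicClosure ℚ)

variable {M v : ℕ} [NeZero M] [NeZero (M * v)]

/-- Inertia is unipotent of echelon two on the whole lattice. -/
theorem sub_one_mul_sub_one (hv : v.Prime) (hv2 : v ≠ 2) (hvM : ¬ v ∣ M)
    (A : ValuationSubring Qb) (hA : A.LiesOverPrime v) {σ τ : Γℚ}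
    (hσ : σ ∈ A.inertiaSubgroupIn ℚ) (hτ : τ ∈ A.inertiaSubgroupIn ℚ) :
    (galM (M * v) σ - 1) * (galM (M * v) τ - 1) = 0 := by
  have : NeZero v := ⟨hv.ne_zero⟩
  exact BadOdd.sub_one_mul_sub_one A 2 (Ne.symm hv2) hv hvM hA hσ hτ

/-- Frobenius is `v U_v` on the image of the monodromy. -/
theorem frob_mul_sub_one (hv : v.Prime) (hv2 : v ≠ 2) (hvM : ¬ v ∣ M)
    (A : ValuationSubring Qb) (hA : A.LiesOverPrime v) {φ τ : Γℚ}
    (hφ : A.IsFrobeniusAt φ v) (hτ : τ ∈ A.inertiaSubgroupIn ℚ) :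
    galM (M * v) φ * (galM (M * v) τ - 1) =
      v • (tauMat (M * v) ℤ_[2] (Reps.heckeGenOf (M * v) ⟨v, hv⟩) *
        (galM (M * v) τ - 1)) := by
  have := Fact.mk hv
  exact BadOdd.frob_mul_sub_one A (Ne.symm hv2) hA hφ hτ hvM

/-- Frobenius is `U_v` on the coimage of the monodromy. -/
theorem sub_one_mul_frob (hv : v.Prime) (hv2 : v ≠ 2) (hvM : ¬ v ∣ M)
    (A : ValuationSubring Qb) (hA : A.LiesOverPrime v) {φ τ : Γℚ}
    (hφ : A.IsFrobeniusAt φ v) (hτ : τ ∈ A.inertiaSubgroupIn ℚ) :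
    (galM (M * v) τ - 1) * galM (M * v) φ =
      tauMat (M * v) ℤ_[2] (Reps.heckeGenOf (M * v) ⟨v, hv⟩) * (galM (M * v) τ - 1) := by
  have := Fact.mk hv
  exact BadOdd.sub_one_mul_frob A (Ne.symm hv2) hA hφ hτ hvM

/-- Away from the Eisenstein part, the torsion fixed by inertia lifts to lattice vectors fixed by
inertia: the component group is Eisenstein.

The Eisenstein operator `T_ℓ - ℓ - 1` is a unit at `θ` and sends fixed torsion to classes with fixed
lifts, the divisibility of orders at the glued points being taken at a level divisible by `4`,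
reached with `U_2`, also a unit at `θ` (`BadOdd.exists_fixed_lift_atMax`). -/
theorem exists_fixed_lift (hv : v.Prime) (hv2 : v ≠ 2) (hvM : ¬ v ∣ M)
    (θ : Reps.TZ (M * v) →+* ZMod 2) {ℓ : ℕ} (hℓ : ℓ.Prime) (hℓ2 : ℓ ≠ 2) (hℓL : ¬ ℓ ∣ M * v)
    (hne : θ (Reps.heckeTOf hℓ hℓL) = 1) (h2 : 2 ∣ M)
    (hU2 : θ (Reps.heckeGenOf (M * v) ⟨2, Nat.prime_two⟩) = 1)
    (A : ValuationSubring Qb) (hA : A.LiesOverPrime v) (n : ℕ)
    (x : HVec (M * v) (ZMod (2 ^ n))) (hx : IsAtMax θ x)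
    (hfix : ∀ τ ∈ A.inertiaSubgroupIn ℚ, galMod (M * v) n τ *ᵥ x = x) :
    ∃ w : HVec (M * v) ℤ_[2], (fun i => PadicInt.toZModPow n (w i)) = x ∧
      ∀ τ ∈ A.inertiaSubgroupIn ℚ, galM (M * v) τ *ᵥ w = w := by
  have := Fact.mk hv
  exact BadOdd.exists_fixed_lift_atMax A hA hv2 hvM h2
    (fun M' _ hqM' h4 n hn => BadOdd.dvdOrdRed_of_four_dvd A hA hqM' h4 hn)
    θ hℓ hℓ2 hℓL hne hU2 n x hx hfix

end FLTAgent.Mod2
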