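import Fermat.Agent.Mod2.HeckeResidual
import Fermat.Agent.Mod2.FlatFix
import Fermat.Agent.BadOdd.Frobenius
import Fermat.Agent.Reps.Inputs

/-!
# The localised classes die in the Jacobian of lower level

An equivariant map from the localised lattice to a level at which some inertia element moving
`ρ̄` fixes the relevant two-torsion is zero (`tower_map_eq_zero`, `mulVec_locLat_eq_zero`). So
at a prime `r ∣ 2 m` both corestrictions vanish, the Atkin-Lehner involution is `-U_r`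
(`thetaP_mulVec_val`) and `U_r` is an involution (`locT_U_mul_self`).
-/

set_option autoImplicit false
set_option linter.unusedSectionVars false
set_option linter.style.haveILetI false
set_option maxHeartbeats 1000000
set_option synthInstance.maxHeartbeats 400000

noncomputable section

open Matrix ModularCurve AlgebraicCurve

namespace FLTAgent.Mod2

local notation "Qb" => AlgebraicClosure ℚ
local notation "Γℚ" => (AlgebraicClosure ℚ ≃ₐ[ℚ] AlgebraicClosure ℚ)

section Pt

variable {L : ℕ} [NeZero L]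

/-- The class modulo `2 ^ n` of a lattice vector. -/
def latPt (n : ℕ) : HVec L ℤ_[2] →+ JZero L :=
  ((Reps.tors L (2 ^ n)).subtype.comp (Reps.coordTors L (2 ^ n)).symm.toAddMonoidHom).comp
    (AddMonoidHom.mk' (red n) fun _ _ => funext fun _ => map_add _ _ _)

theorem latPt_apply (n : ℕ) (v : HVec L ℤ_[2]) :
    latPt n v = ((Reps.coordTors L (2 ^ n)).symm (red n v) : JZero L) := rfl

theorem latPt_mem (n : ℕ) (v : HVec L ℤ_[2]) : latPt n v ∈ Reps.tors L (2 ^ n) :=
  ((Reps.coordTors L (2 ^ n)).symm (red n v)).2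

theorem pow_smul_latPt (n : ℕ) (v : HVec L ℤ_[2]) : (2 ^ n) • latPt n v = 0 :=
  Reps.nsmul_eq_zero_of_mem_torsion L (latPt_mem n v)

theorem latPt_zero_left (v : HVec L ℤ_[2]) : latPt 0 v = 0 := by
  have h := pow_smul_latPt 0 v
  rwa [pow_zero, one_smul] at h

theorem latPt_eq_zero {n : ℕ} {v : HVec L ℤ_[2]} : latPt n v = 0 ↔ red n v = 0 := by
  rw [latPt_apply, ZeroMemClass.coe_eq_zero, map_eq_zero_iff _ (AddEquiv.injective _)]

theorem coordTors_latPt (n : ℕ) (v : HVec L ℤ_[2]) :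
    Reps.coordTors L (2 ^ n) ⟨latPt n v, latPt_mem n v⟩ = red n v :=
  (Reps.coordTors L (2 ^ n)).apply_symm_apply _

theorem latPt_galM (n : ℕ) (σ : Γℚ) (v : HVec L ℤ_[2]) :
    latPt n (galM L σ *ᵥ v) = σ • latPt n v := by
  have h := Reps.galModel_coord L 2 n σ ⟨latPt n v, latPt_mem n v⟩
  rw [coordTors_latPt] at h
  have e : red n (galM L σ *ᵥ v) =
      (PadicInt.toZModPow n).mapMatrix ((Reps.galModel L 2).M σ) *ᵥ red n v := red_galM n σ v
  rw [latPt_apply, e, ← h, AddEquiv.symm_apply_apply]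
  rfl

theorem latPt_two_smul (n : ℕ) (v : HVec L ℤ_[2]) : 2 • latPt (n + 1) v = latPt n v := by
  haveI : NeZero (2 * 2 ^ n) := ⟨by positivity⟩
  have key : ∀ (N : ℕ) [NeZero N] (_ : N = 2 * 2 ^ n) (x : Reps.tors L N) (hd : 2 ^ n ∣ N)
      (hx : 2 • (x : JZero L) ∈ Reps.tors L (2 ^ n)),
      Reps.coordTors L (2 ^ n) ⟨2 • (x : JZero L), hx⟩ =
        fun i => ZMod.castHom hd (ZMod (2 ^ n)) (Reps.coordTors L N x i) := by
    rintro N _ rfl x hd hx
    exact Reps.coordTors_nsmul L x hx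
  have hx : 2 • latPt (n + 1) v ∈ Reps.tors L (2 ^ n) := by
    rw [Pic0.mem_torsion]
    have := pow_smul_latPt (n + 1) v
    rw [← natCast_zsmul, smul_smul] at *
    simpa [pow_succ] using this
  have h := key (2 ^ (n + 1)) (pow_succ' 2 n) ⟨_, latPt_mem (n + 1) v⟩
    (pow_dvd_pow 2 n.le_succ) hx
  rw [coordTors_latPt] at h
  refine congrArg Subtype.val ((Reps.coordTors L (2 ^ n)).injective
    (h.trans (Eq.trans ?_ (coordTors_latPt n v).symm)))
  funext i
  exact congrFun (congrArg DFunLike.coe (PadicInt.zmod_cast_comp_toZModPow n (n + 1) n.le_succ)) _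

theorem latPt_two_mul (n : ℕ) (v : HVec L ℤ_[2]) :
    latPt (n + 1) ((2 : ℤ_[2]) • v) = latPt n v := by
  rw [two_smul, map_add, ← two_nsmul, latPt_two_smul]

end Pt

section Kill

variable {L M : ℕ} [NeZero L] [NeZero M] {D : Setup} {S : ResSys L D}
  (b : Module.Basis (Fin 2) (locHecke S.θ) (LocLat S.θ))

include b in
/-- A compatible system of equivariant maps to a Jacobian where `τ` fixes the two-torsion fixed by
the kernel of `ρ̄` vanishes. -/
theorem tower_map_eq_zero {τ : Γℚ} (hτ : D.rho τ ≠ 1) (hτ2 : D.rho τ * D.rho τ = 1)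
    (hfix : ∀ z : JZero M, 2 • z = 0 → (∀ σ, D.rho σ = 1 → σ • z = z) → τ • z = z)
    (Φ : ℕ → LocLat S.θ →+ JZero M) (hΦ : ∀ n σ v, Φ n (galLoc S.θ σ v) = σ • Φ n v)
    (h0 : ∀ v, Φ 0 v = 0) (hsucc : ∀ n v, 2 • Φ (n + 1) v = Φ n v) (n : ℕ) (v : LocLat S.θ) :
    Φ n v = 0 := by
  induction n generalizing v with
  | zero => exact h0 v
  | succ n ih =>
    exact map_locLat_eq_zero b (Φ (n + 1)) (hΦ _) (fun w => by rw [hsucc, ih]) hτ hτ2 hfix v

include b in
/-- An equivariant integral matrix to the lattice of level `M` kills the localised lattice. -/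
theorem mulVec_locLat_eq_zero {τ : Γℚ} (hτ : D.rho τ ≠ 1) (hτ2 : D.rho τ * D.rho τ = 1)
    (hfix : ∀ z : JZero M, 2 • z = 0 → (∀ σ, D.rho σ = 1 → σ • z = z) → τ • z = z)
    (P : Matrix (Fin (Period.rankH M)) (Fin (Period.rankH L)) ℤ_[2])
    (hP : ∀ σ, galM M σ * P = P * galM L σ) (v : LocLat S.θ) : P *ᵥ LocLat.val v = 0 := by
  let Φ : ℕ → LocLat S.θ →+ JZero M := fun n => (latPt n).comp
    ((Matrix.toLin' P).comp LocLat.val).toAddMonoidHom
  refine ext_red fun n => (latPt_eq_zero.mp ?_).trans (funext fun i => (map_zero _).symm)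
  refine tower_map_eq_zero b hτ hτ2 hfix Φ (fun m σ w => ?_) (fun w => latPt_zero_left _)
    (fun m w => latPt_two_smul m _) n v
  show latPt m (Matrix.toLin' P (LocLat.val (galLoc S.θ σ w))) =
    σ • latPt m (Matrix.toLin' P (LocLat.val w))
  rw [Matrix.toLin'_apply, Matrix.toLin'_apply, val_galLoc, mulVec_mulVec, ← hP, ← mulVec_mulVec,
    latPt_galM]

end Kill

/-- At a prime of residual ramification some element of inertia moving `ρ̄` fixes what the kernel of
`ρ̄` fixes in the two-torsion of a level prime to it. -/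
theorem exists_inertia_fixing {D : Setup} {M r : ℕ} [NeZero M] (hr : r.Prime) (hr2m : r ∣ 2 * D.m)
    (hrM : ¬ r ∣ M) {A : ValuationSubring Qb} (hA : A.LiesOverPrime r) :
    ∃ τ ∈ A.inertiaSubgroupIn ℚ, D.rho τ ≠ 1 ∧ D.rho τ * D.rho τ = 1 ∧
      ∀ z : JZero M, 2 • z = 0 → (∀ σ, D.rho σ = 1 → σ • z = z) → τ • z = z := by
  obtain ⟨hsq, τ, hτ, hτρ⟩ := D.ram r hr hr2m A hA
  refine ⟨τ, hτ, hτρ, hsq τ hτ, fun z hz hfix => ?_⟩
  by_cases h2 : r = 2
  · subst h2
    exact smul_eq_of_flat hrM hA hτ hτρ hz fun σ _ h => hfix σ h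
  · refine Reps.inertia_smul_torsion M Nat.prime_two hr hrM h2 hA hτ (m := 1) ?_
    rw [pow_one, Pic0.mem_torsion]
    exact_mod_cast hz

section Involution

variable {M r : ℕ} [NeZero M] [Fact r.Prime] {D : Setup} (hrM : ¬ r ∣ M) (hr : r ∣ 2 * D.m)
  {S : ResSys (M * r) D} (b : Module.Basis (Fin 2) (locHecke S.θ) (LocLat S.θ))

include hr b

/-- Corestriction kills the localised lattice, also after the involution. -/
theorem corP_mulVec_eq_zero (v : LocLat S.θ) :
    BadOdd.corP M r 2 *ᵥ LocLat.val v = 0 ∧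
      BadOdd.corP M r 2 *ᵥ (BadOdd.thetaP hrM 2 *ᵥ LocLat.val v) = 0 := by
  obtain ⟨A, hA, -⟩ := GalCommon.exists_place_frobenius (Fact.out : r.Prime)
  obtain ⟨τ, -, hτ, hτ2, hfix⟩ := exists_inertia_fixing (Fact.out : r.Prime) hr hrM hA
  refine ⟨mulVec_locLat_eq_zero b hτ hτ2 hfix _ (fun σ => BadOdd.galP_corP hrM σ) v, ?_⟩
  rw [mulVec_mulVec]
  refine mulVec_locLat_eq_zero b hτ hτ2 hfix _ (fun σ => ?_) v
  show BadOdd.galP 2 M σ * (BadOdd.corP M r 2 * BadOdd.thetaP hrM 2) =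
    BadOdd.corP M r 2 * BadOdd.thetaP hrM 2 * BadOdd.galP 2 (M * r) σ
  rw [← Matrix.mul_assoc, BadOdd.galP_corP hrM, Matrix.mul_assoc, BadOdd.galP_thetaP hrM,
    Matrix.mul_assoc]

/-- The Atkin-Lehner involution is `-U` on the localised lattice. -/
theorem thetaP_mulVec_val (v : LocLat S.θ) :
    BadOdd.thetaP hrM 2 *ᵥ LocLat.val v =
      -LocLat.val (locT S.θ (Reps.heckeGenOf (M * r) ⟨r, Fact.out⟩) • v) := by
  have h := congrArg (· *ᵥ (BadOdd.thetaP hrM 2 *ᵥ LocLat.val v))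
    (BadOdd.resP_mul_corP (p := 2) (q := r) (M := M) hrM)
  beta_reduce at h
  rw [← mulVec_mulVec, (corP_mulVec_eq_zero hrM hr b v).2, mulVec_zero, add_mulVec, one_mulVec,
    ← mulVec_mulVec, mulVec_mulVec (LocLat.val v) (BadOdd.thetaP hrM 2), BadOdd.thetaP_mul_self,
    one_mulVec] at h
  exact eq_neg_of_add_eq_zero_left h.symm

include hrM in
/-- `U` is an involution on the localised lattice. -/
theorem locT_U_mul_self :
    locT S.θ (Reps.heckeGenOf (M * r) ⟨r, Fact.out⟩) *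
      locT S.θ (Reps.heckeGenOf (M * r) ⟨r, Fact.out⟩) = 1 := by
  refine Subtype.ext (LinearMap.ext fun v => LocLat.val_injective ?_)
  set U := locT S.θ (Reps.heckeGenOf (M * r) ⟨r, Fact.out⟩)
  show LocLat.val (U • U • v) = LocLat.val v
  have h := congrArg (· *ᵥ LocLat.val v) (BadOdd.resP_mul_corP (p := 2) (q := r) (M := M) hrM)
  beta_reduce at h
  rw [← mulVec_mulVec, (corP_mulVec_eq_zero hrM hr b v).1, mulVec_zero, add_mulVec, one_mulVec,
    ← mulVec_mulVec, thetaP_mulVec_val hrM hr b, mulVec_neg] at h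
  exact (add_neg_eq_zero.mp h.symm).symm

end Involution

end FLTAgent.Mod2
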