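import Fermat.Agent.Mod2.TwoDeep

/-!
# The ordinary line of the localised lattice

`ordinary_line`: a saturated Hecke submodule which receives `τ - 1` for inertia and `φ - U` for
Frobenius and whose classes killed by the maximal ideal are fixed by `τ₀` has inertia acting by
the cyclotomic character `χ` and Frobenius by `χ(φ) U`. A unit entry of `τ₀ - 1` gives a basis
adapted to it.
-/

set_option autoImplicit false
set_option linter.unusedSectionVars false

noncomputable section

open Matrix ModularCurve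
open scoped Pointwise

namespace FLTAgent.Mod2

local notation "Qb" => AlgebraicClosure ℚ
local notation "Γℚ" => (AlgebraicClosure ℚ ≃ₐ[ℚ] AlgebraicClosure ℚ)

variable {L : ℕ} [NeZero L] {D : Setup} {S : ResSys L D}

theorem conj_mem_inertia {A : ValuationSubring Qb} {r : ℕ} {φ τ : Γℚ}
    (hφ : A.IsFrobeniusAt φ r) (hτ : τ ∈ A.inertiaSubgroupIn ℚ) :
    φ * τ * φ⁻¹ ∈ A.inertiaSubgroupIn ℚ := by
  have h := GalCommon.mem_inertia_conj hτ φ
  rwa [show φ • A = A from hφ.mem_decompositionSubgroup] at h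

/-- A saturated submodule receiving `τ - 1` and `φ - U`, with classes killed by the maximal ideal
fixed by inertia, forces the ordinary shape. -/
theorem ordinary_line (b : Module.Basis (Fin 2) (locHecke S.θ) (LocLat S.θ))
    {A : ValuationSubring Qb} {r : ℕ} {τ₀ : Γℚ} (hτ₀ : τ₀ ∈ A.inertiaSubgroupIn ℚ)
    (hρ : D.rho τ₀ ≠ 1) (hρ2 : D.rho τ₀ * D.rho τ₀ = 1) {U : locHecke S.θ} (hU : U * U = 1)
    (X : Submodule (locHecke S.θ) (LocLat S.θ))
    (hI : ∀ τ ∈ A.inertiaSubgroupIn ℚ, ∀ v, galLoc S.θ τ v - v ∈ X)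
    (hF : ∀ φ : Γℚ, A.IsFrobeniusAt φ r → ∀ v, galLoc S.θ φ v - U • v ∈ X)
    (hsat : ∀ v, (2 : locHecke S.θ) • v ∈ X → v ∈ X)
    (hfix : ∀ v ∈ X, red2 (LocLat.val v) ∈ eigenSet S.θ →
      red2 (LocLat.val (galLoc S.θ τ₀ v)) = red2 (LocLat.val v)) :
    ∀ v ∈ X, (∀ σ ∈ A.inertiaSubgroupIn ℚ, galLoc S.θ σ v = cycLoc S.θ σ • v) ∧
      ∀ φ : Γℚ, A.IsFrobeniusAt φ r → galLoc S.θ φ v = (cycLoc S.θ φ * U) • v := by
  obtain ⟨i, j, hu⟩ := exists_isUnit_entry b hρ hρ2
  set e : LocLat S.θ := galLoc S.θ τ₀ (b j) - b j with he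
  set u := b.repr e i with hu'
  have heX : e ∈ X := hI τ₀ hτ₀ (b j)
  -- the basis `e, b k`
  obtain ⟨k, hk⟩ : ∃ k : Fin 2, k ≠ i := exists_ne i
  have hcases : ∀ l : Fin 2, l = i ∨ l = k := by
    intro l; fin_cases l <;> fin_cases i <;> fin_cases k <;> simp at hk ⊢
  have hli : LinearIndependent (locHecke S.θ) ![e, b k] := by
    refine LinearIndependent.pair_iff.mpr fun s t h => ?_
    have h1 := congrArg (fun x => b.repr x i) h
    simp only [map_add, map_smul, Finsupp.add_apply, Finsupp.smul_apply, smul_eq_mul,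
      Module.Basis.repr_self, map_zero, Finsupp.zero_apply, ← hu',
      Finsupp.single_eq_of_ne (Ne.symm hk), mul_zero, add_zero] at h1
    have hs : s = 0 := (hu.mul_left_eq_zero).mp h1
    have h2 := congrArg (fun x => b.repr x k) h
    simp [hs] at h2
    exact ⟨hs, h2⟩
  have hsp : ⊤ ≤ Submodule.span (locHecke S.θ) (Set.range ![e, b k]) := by
    rw [← b.span_eq, Submodule.span_le]
    rintro _ ⟨l, rfl⟩
    have hkmem : b k ∈ Submodule.span (locHecke S.θ) (Set.range ![e, b k]) :=
      Submodule.subset_span ⟨1, rfl⟩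
    have hemem : e ∈ Submodule.span (locHecke S.θ) (Set.range ![e, b k]) :=
      Submodule.subset_span ⟨0, rfl⟩
    rcases hcases l with rfl | rfl
    · obtain ⟨w, hw⟩ := hu.exists_left_inv
      have hsum : e = u • b l + b.repr e k • b k := by
        conv_lhs => rw [← b.sum_repr e]
        rw [Finset.sum_eq_add_of_mem l k (Finset.mem_univ _) (Finset.mem_univ _) (Ne.symm hk)
          fun m _ hm => absurd (hcases m) (by tauto)]
      have : b l = w • e - (w * b.repr e k) • b k := by
        rw [mul_smul]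
        nth_rewrite 1 [hsum]
        rw [smul_add, add_sub_cancel_right, smul_smul, hw, one_smul]
      rw [this]
      exact sub_mem (Submodule.smul_mem _ _ hemem) (Submodule.smul_mem _ _ hkmem)
    · exact hkmem
  let b' := Module.Basis.mk hli hsp
  have hb0 : b' 0 = e := Module.Basis.mk_apply hli hsp 0
  have hb1 : b' 1 = b k := Module.Basis.mk_apply hli hsp 1
  have hdec : ∀ v, v = b'.repr v 0 • e + b'.repr v 1 • b k := fun v => by
    conv_lhs => rw [← b'.sum_repr v, Fin.sum_univ_two, hb0, hb1]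
  -- the submodule is the line
  have hline : ∀ v ∈ X, b'.repr v 1 = 0 := fun v hv => by
    set β := b'.repr v 1 with hβ
    have hβX : β • b k ∈ X := by
      have : β • b k = v - b'.repr v 0 • e := by rw [eq_sub_iff_add_eq', ← hdec]
      rw [this]
      exact sub_mem hv (X.smul_mem _ heX)
    by_contra hne
    obtain ⟨n, hn⟩ : ∃ n, ¬ (2 : locHecke S.θ) ^ n ∣ β := by
      by_contra hall
      push Not at hall
      exact hne (eq_zero_of_forall_mem_span β fun n => Ideal.mem_span_singleton.mpr (hall n))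
    have key : ∀ n (γ : locHecke S.θ), γ • b k ∈ X → ¬ (2 : locHecke S.θ) ^ n ∣ γ →
        ∃ c : locHecke S.θ, c • b k ∈ X ∧ ¬ (2 : locHecke S.θ) ∣ c := by
      intro n
      induction n with
      | zero => exact fun γ _ h => absurd (by simp) h
      | succ n ih =>
        intro γ hγ h
        by_cases h2 : (2 : locHecke S.θ) ∣ γ
        · obtain ⟨δ, rfl⟩ := h2
          refine ih δ (hsat _ (by rwa [← mul_smul])) fun hd => h ?_
          rw [pow_succ']
          exact mul_dvd_mul_left 2 hd
        · exact ⟨γ, hγ, h2⟩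
    obtain ⟨c, hc, hc2⟩ := key n β hβX hn
    obtain ⟨t, hs2, hs⟩ := exists_socle b hc2
    set s := t * c with hs_def
    have hsX : ∀ w, s • w ∈ X := fun w => by
      rw [hdec w, smul_add, smul_smul, smul_smul]
      refine add_mem (X.smul_mem _ heX) ?_
      rw [hs_def, show t * c * b'.repr w 1 = t * b'.repr w 1 * c by ring, mul_smul]
      exact X.smul_mem _ hc
    have h := hfix _ (hsX (b j)) (red2_socle_mem hs (b j))
    have h0 : red2 (LocLat.val (s • e)) = 0 := by
      have h' : red2 (LocLat.val (s • galLoc S.θ τ₀ (b j))) = red2 (LocLat.val (s • b j)) := by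
        rw [← (galLoc S.θ τ₀).map_smul]; exact h
      rw [he, smul_sub, map_sub]
      funext l
      show PadicInt.toZMod (_ - _) = 0
      rw [map_sub, sub_eq_zero]
      exact congrFun h' l
    have hd := dvd_coord b h0 i
    rw [map_smul, Finsupp.smul_apply, smul_eq_mul] at hd
    exact hs2 (hu.dvd_mul_right.mp hd)
  have hrep : ∀ v, b'.repr v 1 = 0 → v = b'.repr v 0 • e := fun v h => by
    conv_lhs => rw [hdec v, h, zero_smul, add_zero]
  -- the matrix of an element preserving the line
  have hdet : ∀ g : Γℚ, b'.repr (galLoc S.θ g e) 1 = 0 →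
      b'.repr (galLoc S.θ g e) 0 * b'.repr (galLoc S.θ g (b k)) 1 = cycLoc S.θ g := fun g h => by
    rw [← det_galBasis b' g, Matrix.det_fin_two]
    simp only [galBasis_apply, hb0, hb1, h, mul_zero, sub_zero]
  have h1k : b'.repr (b k) 1 = 1 := by rw [← hb1, b'.repr_self, Finsupp.single_eq_same]
  intro v hv
  have hσe : ∀ σ ∈ A.inertiaSubgroupIn ℚ, galLoc S.θ σ e = cycLoc S.θ σ • e := fun σ hσ => by
    have h0 : b'.repr (galLoc S.θ σ e) 1 = 0 := by
      have h := hline _ (add_mem (hI σ hσ e) heX)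
      rwa [sub_add_cancel] at h
    have h1 : b'.repr (galLoc S.θ σ (b k)) 1 = 1 := by
      have h := hline _ (hI σ hσ (b k))
      rw [map_sub, Finsupp.sub_apply, h1k, sub_eq_zero] at h
      exact h
    have := hdet σ h0
    rw [h1, mul_one] at this
    rw [hrep _ h0, this]
  have hφe : ∀ φ : Γℚ, A.IsFrobeniusAt φ r → galLoc S.θ φ e = (cycLoc S.θ φ * U) • e :=
    fun φ hφ => by
    have h0 : b'.repr (galLoc S.θ φ e) 1 = 0 := by
      refine hline _ ?_
      have e' : galLoc S.θ φ e =
          galLoc S.θ (φ * τ₀ * φ⁻¹) (galLoc S.θ φ (b j)) - galLoc S.θ φ (b j) := by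
        rw [← Module.End.mul_apply, ← galLoc_mul, inv_mul_cancel_right, galLoc_mul,
          Module.End.mul_apply, he, map_sub]
      rw [e']
      exact hI _ (conj_mem_inertia hφ hτ₀) _
    have h1 : b'.repr (galLoc S.θ φ (b k)) 1 = U := by
      have h := hline _ (hF φ hφ (b k))
      rw [map_sub, map_smul, Finsupp.sub_apply, Finsupp.smul_apply, h1k, smul_eq_mul, mul_one,
        sub_eq_zero] at h
      exact h
    have := hdet φ h0
    rw [h1] at this
    rw [hrep _ h0, ← this, mul_assoc, hU, mul_one]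
  rw [hrep v (hline v hv)]
  refine ⟨fun σ hσ => ?_, fun φ hφ => ?_⟩
  · rw [map_smul, hσe σ hσ, smul_comm]
  · rw [map_smul, hφe φ hφ, smul_comm]

end FLTAgent.Mod2
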