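import Fermat.Agent.Mod2.HeckeMultOne
import Fermat.Agent.Mod2.HeckeOdd
import Fermat.Agent.Mod2.HeckeOldKill
import Fermat.Agent.Mod2.HeckeTwoLine

/-!
# The localised lattice at the primes dividing `2 m`

At such a prime, two included, `U` is an involution on the localised lattice (`U_mul_U_eq_one`)
and inertia and Frobenius satisfy the exact relations of the special shape (`special_at_bad`).
-/

set_option autoImplicit false

noncomputable section

open Matrix CuspForm ModularCurve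
open scoped Pointwise

namespace FLTAgent.Mod2

local notation "Qb" => AlgebraicClosure ℚ
local notation "Γℚ" => (AlgebraicClosure ℚ ≃ₐ[ℚ] AlgebraicClosure ℚ)

variable {L : ℕ} [NeZero L] {D : Setup}

/-- At a prime dividing `2 m` (two included) `U` is an involution at `θ`. -/
theorem U_mul_U_eq_one (hL : LevelHyp D L) (S : ResSys L D) (r : Nat.Primes) (hrL : (r : ℕ) ∣ L)
    (hr : (r : ℕ) ∣ 2 * D.m) :
    locT S.θ (Reps.heckeGenOf L r) * locT S.θ (Reps.heckeGenOf L r) = 1 := by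
  have hsq := hL.squarefree
  obtain ⟨M, rfl⟩ : ∃ M, L = M * r := ⟨L / r, (Nat.div_mul_cancel hrL).symm⟩
  have : NeZero M := ⟨fun h => NeZero.ne (M * (r : ℕ)) (by rw [h, zero_mul])⟩
  have : Fact (r : ℕ).Prime := ⟨r.2⟩
  have hrM : ¬ (r : ℕ) ∣ M := fun h => r.2.not_isUnit (hsq r (Nat.mul_dvd_mul_right h _))
  obtain ⟨b⟩ := nonempty_basis_locLattice hL S
  exact locT_U_mul_self hrM hr b

/-- The exact local relations at a prime dividing `2 m`, two included. -/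
theorem special_at_bad (hL : LevelHyp D L) (S : ResSys L D) (r : Nat.Primes) (hrL : (r : ℕ) ∣ L)
    (hr : (r : ℕ) ∣ 2 * D.m) (A : ValuationSubring Qb) (hA : A.LiesOverPrime r)
    {σ τ φ : Γℚ} (hσ : σ ∈ A.inertiaSubgroupIn ℚ) (hτ : τ ∈ A.inertiaSubgroupIn ℚ)
    (hφ : A.IsFrobeniusAt φ r) {x : HVec L ℤ_[2]} (hx : x ∈ locLattice S.θ) :
    ((galM L σ - Reps.cyc 2 σ • 1) * (galM L τ - 1)) *ᵥ x = 0 ∧
    ((galM L φ - Reps.cyc 2 φ • tauMat L ℤ_[2] (Reps.heckeGenOf L r)) * (galM L σ - 1)) *ᵥ x = 0 ∧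
    ((galM L σ - Reps.cyc 2 σ • 1) *
      (galM L φ - tauMat L ℤ_[2] (Reps.heckeGenOf L r))) *ᵥ x = 0 := by
  have hsq := hL.squarefree
  obtain ⟨M, rfl⟩ : ∃ M, L = M * r := ⟨L / r, (Nat.div_mul_cancel hrL).symm⟩
  have : NeZero M := ⟨fun h => NeZero.ne (M * (r : ℕ)) (by rw [h, zero_mul])⟩
  have : Fact (r : ℕ).Prime := ⟨r.2⟩
  have hrM : ¬ (r : ℕ) ∣ M := fun h => r.2.not_isUnit (hsq r (Nat.mul_dvd_mul_right h _))
  by_cases h2 : (r : ℕ) = 2
  · -- the ordinary shape at two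
    obtain ⟨r, hr'⟩ := r
    simp only at h2
    subst h2
    obtain ⟨b⟩ := nonempty_basis_locLattice hL S
    obtain ⟨hinv, τ₀, hτ₀, hρ⟩ := D.ram 2 Nat.prime_two hr A hA
    obtain ⟨X, hI, hF, hsat, hfix⟩ := exists_deep hrM b hA
    have key := ordinary_line b (r := 2) hτ₀ hρ (hinv τ₀ hτ₀) (locT_U_mul_self hrM hr b) X hI hF
      hsat (fun v hv he => hfix v hv he τ₀ hτ₀)
    obtain ⟨v, rfl⟩ : ∃ v : LocLat S.θ, LocLat.val v = x := ⟨⟨x, hx⟩, rfl⟩
    set U := locT S.θ (Reps.heckeGenOf (M * 2) ⟨2, Nat.prime_two⟩) with hU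
    have hc : ∀ (g : Γℚ) (w : LocLat S.θ),
        LocLat.val (cycLoc S.θ g • w) = Reps.cyc 2 g • LocLat.val w := fun g w => by
      show LocLat.val (Reps.cyc 2 g • w) = _
      rw [LinearMap.map_smul]
    have e1 : ∀ (g : Γℚ) (w : LocLat S.θ), (galM (M * 2) g - Reps.cyc 2 g • 1) *ᵥ LocLat.val w =
        LocLat.val (galLoc S.θ g w - cycLoc S.θ g • w) := fun g w => by
      rw [sub_mulVec, smul_mulVec, one_mulVec, map_sub, val_galLoc, hc]
    have e2 : (galM (M * 2) τ - 1) *ᵥ LocLat.val v = LocLat.val (galLoc S.θ τ v - v) := by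
      rw [sub_mulVec, one_mulVec, map_sub, val_galLoc]
    have e3 : (galM (M * 2) σ - 1) *ᵥ LocLat.val v = LocLat.val (galLoc S.θ σ v - v) := by
      rw [sub_mulVec, one_mulVec, map_sub, val_galLoc]
    have e4 : (galM (M * 2) φ - tauMat (M * 2) ℤ_[2] (Reps.heckeGenOf (M * 2) ⟨2, hr'⟩)) *ᵥ
        LocLat.val v = LocLat.val (galLoc S.θ φ v - U • v) := by
      rw [sub_mulVec, map_sub, val_galLoc, hU, val_locT_smul]
    have e5 : ∀ w : LocLat S.θ,
        (galM (M * 2) φ - Reps.cyc 2 φ • tauMat (M * 2) ℤ_[2]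
          (Reps.heckeGenOf (M * 2) ⟨2, hr'⟩)) *ᵥ LocLat.val w =
        LocLat.val (galLoc S.θ φ w - (cycLoc S.θ φ * U) • w) := fun w => by
      rw [sub_mulVec, smul_mulVec, map_sub, val_galLoc, mul_smul, hc, hU, val_locT_smul]
    refine ⟨?_, ?_, ?_⟩
    · rw [← mulVec_mulVec, e2, e1, (key _ (hI τ hτ v)).1 σ hσ, sub_self, map_zero]
    · rw [← mulVec_mulVec, e3, e5, (key _ (hI σ hσ v)).2 φ hφ, sub_self, map_zero]
    · rw [← mulVec_mulVec, e4, e1, (key _ (hF φ hφ v)).1 σ hσ, sub_self, map_zero]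
  · -- monodromy at an odd prime
    have hcσ : Reps.cyc 2 σ = 1 := Reps.cyc_inertia r.2 h2 hA hσ
    have hcφ : Reps.cyc 2 φ = ((r : ℕ) : ℤ_[2]) := Reps.cyc_frobenius r.2 h2 hA hφ
    set U := tauMat (M * r) ℤ_[2] (Reps.heckeGenOf (M * r) r) with hU
    have h1 := sub_one_mul_sub_one r.2 h2 hrM A hA hσ hτ
    have h3 := frob_mul_sub_one r.2 h2 hrM A hA hφ hσ
    have h4 := sub_one_mul_frob r.2 h2 hrM A hA hφ hσ
    change galM (M * r) φ * _ = (r : ℕ) • (U * _) at h3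
    change _ = U * _ at h4
    have hcomm : galM (M * r) σ * U = U * galM (M * r) σ :=
      (galM_commute (Reps.heckeGenOf (M * r) r) σ).eq
    refine ⟨?_, ?_, ?_⟩
    · rw [hcσ, one_smul, h1, zero_mulVec]
    · rw [hcφ, sub_mul, h3, Matrix.smul_mul, Nat.cast_smul_eq_nsmul, sub_self, zero_mulVec]
    · rw [hcσ, one_smul, mul_sub, h4, sub_mul, one_mul, hcomm, mul_sub, mul_one, sub_self,
        zero_mulVec]

end FLTAgent.Mod2
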