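import Fermat.Agent.Mod2.HeckeOldLoc
import Fermat.Agent.Reps.Unramified

/-!
# The Galois action on the localised lattice and its determinant

`galLoc` is the action, linear over the localised Hecke ring, and `galBasis b` its matrix in a
basis. From the relation `g + χ(g) g⁻¹ ∈ Hecke` modulo powers of two (`exists_trace_rel`) and an
element which is residually not scalar, the determinant is the cyclotomic character
(`det_galBasis`, `det_eq_cyc_of_basis`).
-/

set_option autoImplicit false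
set_option linter.unusedSectionVars false

noncomputable section

open Matrix

namespace FLTAgent.Mod2

local notation "Qb" => AlgebraicClosure ℚ
local notation "Γℚ" => (AlgebraicClosure ℚ ≃ₐ[ℚ] AlgebraicClosure ℚ)

variable {L : ℕ} [NeZero L] {θ : Reps.TZ L →+* ZMod 2}

theorem galM_commute (t : Reps.TZ L) (σ : Γℚ) :
    Commute (galM L σ) (tauMat L ℤ_[2] t) :=
  (Reps.galModel L 2).commute_hecke σ t

theorem red_galM (n : ℕ) (σ : Γℚ) (v : HVec L ℤ_[2]) :
    red n (galM L σ *ᵥ v) = galMod L n σ *ᵥ red n v :=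
  funext fun i => RingHom.map_mulVec _ _ _ i

theorem galMod_commute (n : ℕ) (t : Reps.TZ L) (σ : Γℚ) :
    Commute (galMod L n σ) (tauMat L (ZMod (2 ^ n)) t) := by
  have h := (galM_commute t σ).map (PadicInt.toZModPow n).mapMatrix
  have e : (PadicInt.toZModPow n).mapMatrix (tauMat L ℤ_[2] t) = tauMat L (ZMod (2 ^ n)) t := by
    ext i j; simp [tauMat]
  rwa [e] at h

/-- The Galois action preserves the localised lattice. -/
theorem galM_mem_locLattice (θ : Reps.TZ L →+* ZMod 2) (σ : Γℚ) {x : HVec L ℤ_[2]}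
    (hx : x ∈ locLattice θ) : galM L σ *ᵥ x ∈ locLattice θ := fun n => by
  obtain ⟨N, hN⟩ : IsAtMax θ (red n x) := hx n
  show IsAtMax θ (red n _)
  rw [red_galM]
  exact ⟨N, fun c hc => by
    rw [mulVec_mulVec, ← (galMod_commute n _ σ).eq, ← mulVec_mulVec, hN c hc, mulVec_zero]⟩

theorem exists_two_pow_smul (n : ℕ) {v : HVec L ℤ_[2]} (hv : v ∈ locLattice θ)
    (h : red n v = 0) : ∃ w ∈ locLattice θ, v = (2 : ℤ_[2]) ^ n • w := by
  have h1 : ∀ i, ∃ w : ℤ_[2], v i = 2 ^ n * w := fun i => by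
    have : v i ∈ RingHom.ker (PadicInt.toZModPow (p := 2) n) := congrFun h i
    rw [PadicInt.ker_toZModPow, Ideal.mem_span_singleton] at this
    exact_mod_cast this
  choose w hw using h1
  have hvw : v = (2 : ℤ_[2]) ^ n • w := funext fun i => by rw [hw i]; rfl
  refine ⟨w, ?_, hvw⟩
  clear hw h
  subst hvw
  induction n generalizing w with
  | zero => simpa using hv
  | succ n ih =>
    refine ih w (mem_locLattice_of_two_mul ?_)
    rwa [smul_smul, ← pow_succ']

theorem mul_galM_comm (σ : Γℚ) (t : Reps.TZ L) (x : HVec L ℤ_[2]) :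
    galM L σ *ᵥ (tauMat L ℤ_[2] t *ᵥ x) = tauMat L ℤ_[2] t *ᵥ (galM L σ *ᵥ x) := by
  rw [mulVec_mulVec, mulVec_mulVec, (galM_commute t σ).eq]

variable (θ) in
/-- The image of an element of the localised lattice. -/
def galVec (σ : Γℚ) (v : LocLat θ) : LocLat θ :=
  ⟨galM L σ *ᵥ LocLat.val v, galM_mem_locLattice θ σ (LocLat.val_mem v)⟩

theorem val_galVec (σ : Γℚ) (v : LocLat θ) :
    LocLat.val (galVec θ σ v) = galM L σ *ᵥ LocLat.val v := rfl

variable (θ) in
/-- The Galois action on the localised lattice, linear over the Hecke ring. -/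
def galLoc (σ : Γℚ) : Module.End (locHecke θ) (LocLat θ) where
  toFun v := galVec θ σ v
  map_add' v w := LocLat.val_injective (by
    show galM L σ *ᵥ LocLat.val (v + w) = galM L σ *ᵥ LocLat.val v + galM L σ *ᵥ LocLat.val w
    rw [map_add, mulVec_add])
  map_smul' a v := by
    obtain ⟨a, ha⟩ := a
    refine LocLat.val_injective ?_
    show galM L σ *ᵥ LocLat.val (a v) =
      LocLat.val (a (galVec θ σ v))
    induction ha using Algebra.adjoin_induction generalizing v with
    | mem x hx =>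
      obtain ⟨t, rfl⟩ := hx
      rw [val_locEnd, val_locEnd, mul_galM_comm]
      rfl
    | algebraMap r =>
      rw [Module.algebraMap_end_apply, Module.algebraMap_end_apply, LinearMap.map_smul,
        LinearMap.map_smul, mulVec_smul]
      rfl
    | add x y hx hy hx' hy' =>
      rw [LinearMap.add_apply, LinearMap.add_apply, map_add, map_add, mulVec_add, hx', hy']
    | mul x y hx hy hx' hy' =>
      rw [Module.End.mul_apply, Module.End.mul_apply, hx']
      exact congrArg (LocLat.val ∘ x) (LocLat.val_injective (hy' v))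

theorem val_galLoc (σ : Γℚ) (v : LocLat θ) :
    LocLat.val (galLoc θ σ v) = galM L σ *ᵥ LocLat.val v := rfl

theorem galLoc_mul (σ τ : Γℚ) : galLoc θ (σ * τ) = galLoc θ σ * galLoc θ τ :=
  LinearMap.ext fun v => LocLat.val_injective (by
    rw [Module.End.mul_apply, val_galLoc, val_galLoc, val_galLoc, map_mul, mulVec_mulVec])

theorem galLoc_one : galLoc θ 1 = 1 :=
  LinearMap.ext fun v => LocLat.val_injective (by
    rw [Module.End.one_apply, val_galLoc, map_one, one_mulVec])

variable (θ) in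
/-- `galLoc` as a homomorphism. -/
def galLocHom : Γℚ →* Module.End (locHecke θ) (LocLat θ) where
  toFun := galLoc θ
  map_one' := galLoc_one
  map_mul' := galLoc_mul

theorem val_locT_smul (t : Reps.TZ L) (v : LocLat θ) :
    LocLat.val (locT θ t • v) = tauMat L ℤ_[2] t *ᵥ LocLat.val v := rfl

/-- The trace relation on the whole Galois group, modulo `2 ^ n`. -/
theorem exists_trace_rel (n : ℕ) (g : Γℚ) : ∃ t : Reps.TZ L,
    galMod L n g + Reps.cycMod 2 n g • galMod L n g⁻¹ = tauMat L (ZMod (2 ^ n)) t := by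
  obtain ⟨L₁, hL₁, hfix₁⟩ := (Reps.galModel L 2).continuous_level n
  obtain ⟨L₂, hL₂, hfix₂⟩ := Reps.exists_level_cycMod (p := 2) n
  refine Reps.forall_of_frobenius (P := fun g => ∃ t : Reps.TZ L,
    galMod L n g + Reps.cycMod 2 n g • galMod L n g⁻¹ = tauMat L (ZMod (2 ^ n)) t)
    (L₁ ⊔ L₂) (insert 2 L.primeFactors) ?_ ?_ ?_ g
  · intro g u hu ⟨t, ht⟩
    have h1 : ∀ x ∈ L₁, u x = x := fun x hx => hu x (le_sup_left (a := L₁) hx)
    have h2 : ∀ x ∈ L₂, u x = x := fun x hx => hu x (le_sup_right (b := L₂) hx)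
    have h1' : ∀ x ∈ L₁, u⁻¹ x = x := fun x hx => by
      conv_lhs => rw [← h1 x hx]
      exact u.symm_apply_apply x
    refine ⟨t, ?_⟩
    have e : galMod L n u = 1 := hfix₁ u h1
    have e' : galMod L n u⁻¹ = 1 := hfix₁ _ h1'
    rw [map_mul, map_mul, e, mul_one, hfix₂ u h2, mul_one, _root_.mul_inv_rev, map_mul, e', one_mul]
    exact ht
  · intro g k ⟨t, ht⟩
    refine ⟨Reps.luc t ((Reps.cycMod 2 n g).val : Reps.TZ L) k, ?_⟩
    have hinv : galMod L n g * galMod L n g⁻¹ = 1 := by rw [← map_mul, mul_inv_cancel, map_one]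
    have hinv' : galMod L n g⁻¹ * galMod L n g = 1 := by rw [← map_mul, inv_mul_cancel, map_one]
    have key := Reps.pow_add_pow_eq_luc (tauMat L (ZMod (2 ^ n)))
      (x := galMod L n g) (y := Reps.cycMod 2 n g • galMod L n g⁻¹) (a := t)
      (d := ((Reps.cycMod 2 n g).val : Reps.TZ L))
      (Commute.smul_right (hinv.trans hinv'.symm) _) ht
      (by
        rw [mul_smul_comm, hinv, map_natCast, ← map_natCast (algebraMap (ZMod (2 ^ n))
          (Matrix (Fin (Period.rankH L)) (Fin (Period.rankH L)) (ZMod (2 ^ n)))),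
          ZMod.natCast_zmod_val, Algebra.algebraMap_eq_smul_one]) k
    rw [_root_.smul_pow, ← map_pow, ← map_pow, ← map_pow, inv_pow] at key
    exact key
  · intro ℓ hℓ hS A hA φ hφ
    rw [Finset.mem_insert, Nat.mem_primeFactors, not_or] at hS
    have hℓL : ¬ ℓ ∣ L := fun h => hS.2 ⟨hℓ, h, NeZero.ne L⟩
    refine ⟨Reps.heckeTOf hℓ hℓL, ?_⟩
    have h := congrArg (PadicInt.toZModPow n).mapMatrix
      ((Reps.galModel L 2).frobenius_rel ℓ hℓ hℓL hS.1 A hA φ hφ)
    rw [map_add, map_sub, map_mul, map_mul, map_natCast, map_zero,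
      Reps.GalModel.toZModPow_mapMatrix_tau] at h
    change galMod L n φ * galMod L n φ - tauMat L (ZMod (2 ^ n)) (Reps.heckeTOf hℓ hℓL) *
      galMod L n φ + ((ℓ : Matrix (Fin (Period.rankH L)) (Fin (Period.rankH L)) (ZMod (2 ^ n)))) = 0
      at h
    have h3 := congrArg (· * galMod L n φ⁻¹) h
    have hinv : galMod L n φ * galMod L n φ⁻¹ = 1 := by rw [← map_mul, mul_inv_cancel, map_one]
    simp only [add_mul, sub_mul, mul_assoc, hinv, mul_one, zero_mul] at h3
    rw [show Reps.cycMod 2 n φ = (ℓ : ZMod (2 ^ n)) by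
      show PadicInt.toZModPow n (Reps.cyc 2 φ) = _
      rw [Reps.cyc_frobenius hℓ hS.1 hA hφ, map_natCast],
      Nat.cast_smul_eq_nsmul, nsmul_eq_mul]
    rw [sub_add_eq_add_sub, sub_eq_zero] at h3
    exact h3

theorem isUnit_or_mem {θ : Reps.TZ L →+* ZMod 2} [IsLocalRing (locHecke θ)] {t : Reps.TZ L}
    (h : θ t = 0) : locT θ t ∈ IsLocalRing.maximalIdeal (locHecke θ) := by
  rw [IsLocalRing.mem_maximalIdeal, mem_nonunits_iff]
  intro hu
  obtain ⟨b, hb⟩ := hu.exists_right_inv
  obtain ⟨s, c, rfl⟩ := exists_locT_sub b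
  refine (IsLocalRing.maximalIdeal.isMaximal (locHecke θ)).ne_top
    (Ideal.eq_top_of_isUnit_mem _ ?_ (isUnit_locT (θ := θ) (t := 1 - t * s)
      (by rw [map_sub, map_one, map_mul, h, zero_mul, sub_zero])))
  have e : locT θ (1 - t * s) = 2 * (locT θ t * c) := by
    rw [← locTHom_apply, map_sub, map_one, map_mul, locTHom_apply, locTHom_apply, ← hb]
    ring
  rw [e]
  exact Ideal.mul_mem_right _ _ (two_mem_of_isMaximal _)

/-- The residue field of the localised Hecke ring has two elements. -/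
theorem residue_eq_zero_or_one [IsLocalRing (locHecke θ)] (a : locHecke θ) :
    IsLocalRing.residue _ a = 0 ∨ IsLocalRing.residue _ a = 1 := by
  obtain ⟨t, b, rfl⟩ := exists_locT_sub a
  have h2 : IsLocalRing.residue _ (2 * b) = 0 :=
    IsLocalRing.residue_eq_zero_iff _ |>.mpr (Ideal.mul_mem_right _ _ (two_mem_of_isMaximal _))
  rw [map_add, h2, add_zero]
  rcases (show θ t = 0 ∨ θ t = 1 by generalize θ t = z; revert z; decide) with h | h
  · exact Or.inl ((IsLocalRing.residue_eq_zero_iff _).mpr (isUnit_or_mem h))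
  · right
    rw [← sub_eq_zero, ← map_one (IsLocalRing.residue (locHecke θ)), ← map_sub,
      IsLocalRing.residue_eq_zero_iff]
    rw [show locT θ t - 1 = locT θ (t - 1) by rw [← locTHom_apply, ← locTHom_apply, map_sub, map_one]]
    exact isUnit_or_mem (by rw [map_sub, map_one, h, sub_self])

theorem det_sub_mul_entries {R : Type*} [CommRing R] {A B : Matrix (Fin 2) (Fin 2) R} {c t : R}
    {I : Ideal R} (hAB : A * B = 1)
    (h : ∀ i j, (A + c • B - t • (1 : Matrix (Fin 2) (Fin 2) R)) i j ∈ I) :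
    (A.det - c) * A 0 1 ∈ I ∧ (A.det - c) * A 1 0 ∈ I ∧ (A.det - c) * (A 0 0 - A 1 1) ∈ I := by
  have hB : A.det • B = A.adjugate := by
    rw [← Matrix.one_mul B, ← Matrix.smul_mul, ← Matrix.adjugate_mul, Matrix.mul_assoc, hAB,
      Matrix.mul_one]
  have hd : ∀ i j, (A.det • A + c • A.adjugate - (A.det * t) • (1 : Matrix (Fin 2) (Fin 2) R)) i j
      ∈ I := fun i j => by
    have := I.mul_mem_left A.det (h i j)
    rw [← hB, smul_comm c A.det B, mul_smul, ← smul_add, ← smul_sub]
    exact this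
  rw [Matrix.adjugate_fin_two] at hd
  refine ⟨?_, ?_, ?_⟩
  · have := hd 0 1
    simp at this
    convert this using 1; ring
  · have := hd 1 0
    simp at this
    convert this using 1; ring
  · have := sub_mem (hd 0 0) (hd 1 1)
    simp at this
    convert this using 1; ring

variable {D : Setup}

variable {S : ResSys L D}

/-- The Galois matrices in a basis. -/
def galBasis (b : Module.Basis (Fin 2) (locHecke S.θ) (LocLat S.θ)) :
    Γℚ →* Matrix (Fin 2) (Fin 2) (locHecke S.θ) where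
  toFun σ := LinearMap.toMatrix b b (galLoc S.θ σ)
  map_one' := by rw [galLoc_one]; exact LinearMap.toMatrix_one b
  map_mul' σ τ := by rw [galLoc_mul]; exact LinearMap.toMatrix_mul b _ _

theorem galBasis_apply (b : Module.Basis (Fin 2) (locHecke S.θ) (LocLat S.θ)) (σ : Γℚ)
    (i j : Fin 2) : galBasis b σ i j = b.repr (galLoc S.θ σ (b j)) i :=
  LinearMap.toMatrix_apply b b _ i j

/-- The cyclotomic character in the localised ring. -/
def cycLoc (θ : Reps.TZ L →+* ZMod 2) : Γℚ →* locHecke θ :=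
  (algebraMap ℤ_[2] (locHecke θ)).toMonoidHom.comp (Reps.cyc 2)

/-- The trace relation in a basis, modulo every power of two. -/
theorem galBasis_congr (b : Module.Basis (Fin 2) (locHecke S.θ) (LocLat S.θ)) (σ : Γℚ) (n : ℕ) :
    ∃ t : locHecke S.θ, ∀ i j,
      (galBasis b σ + cycLoc S.θ σ • galBasis b σ⁻¹ -
        t • (1 : Matrix (Fin 2) (Fin 2) (locHecke S.θ))) i j ∈
          Ideal.span {(2 : locHecke S.θ) ^ n} := by
  obtain ⟨t, ht⟩ := exists_trace_rel (L := L) n σ
  refine ⟨locT S.θ t, fun i j => ?_⟩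
  set w : LocLat S.θ :=
    galLoc S.θ σ (b j) + cycLoc S.θ σ • galLoc S.θ σ⁻¹ (b j) - locT S.θ t • b j with hw
  have hval : LocLat.val w = galM L σ *ᵥ LocLat.val (b j) +
      Reps.cyc 2 σ • (galM L σ⁻¹ *ᵥ LocLat.val (b j)) -
        tauMat L ℤ_[2] t *ᵥ LocLat.val (b j) := by
    have e1 : cycLoc S.θ σ • galLoc S.θ σ⁻¹ (b j) = Reps.cyc 2 σ • galLoc S.θ σ⁻¹ (b j) := rfl
    rw [hw, e1, map_sub, map_add, LinearMap.map_smul]
    rfl
  have h0 : red n (LocLat.val w) = 0 := by
    rw [hval]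
    have e := congrArg (fun X => X *ᵥ red n (LocLat.val (b j))) ht
    simp only [add_mulVec, smul_mulVec] at e
    rw [← red_galM, ← red_galM, ← red_tauMat] at e
    rw [← sub_eq_zero] at e
    rw [← e]
    funext k
    simp [red, Reps.cycMod]
  obtain ⟨u, hu, hwu⟩ := exists_two_pow_smul n (LocLat.val_mem w) h0
  obtain ⟨u', hu'⟩ : ∃ u' : LocLat S.θ, LocLat.val u' = u := ⟨⟨u, hu⟩, rfl⟩
  have hwu' : w = ((2 : locHecke S.θ) ^ n) • u' := by
    refine LocLat.val_injective (hwu.trans ?_)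
    have e2 : ((2 : locHecke S.θ) ^ n) • u' = ((2 : ℤ_[2]) ^ n) • u' := by
      rw [← map_ofNat (algebraMap ℤ_[2] (locHecke S.θ)) 2, ← map_pow]
      rfl
    rw [e2, LinearMap.map_smul, hu']
  refine Ideal.mem_span_singleton'.mpr ⟨b.repr u' i, ?_⟩
  have h5 := congrArg (fun x => b.repr x i) hwu'
  simp only [hw, map_add, map_sub, map_smul, Finsupp.add_apply, Finsupp.sub_apply,
    Finsupp.smul_apply, smul_eq_mul, Module.Basis.repr_self] at h5
  simp only [Matrix.sub_apply, Matrix.add_apply, Matrix.smul_apply, smul_eq_mul, galBasis_apply]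
  rw [mul_comm, ← h5]
  rcases eq_or_ne i j with rfl | h
  · rw [Finsupp.single_eq_same, Matrix.one_apply_eq]
  · rw [Finsupp.single_eq_of_ne h, Matrix.one_apply_ne h]

theorem eq_zero_of_forall_mem_span {θ : Reps.TZ L →+* ZMod 2} (a : locHecke θ)
    (ha : ∀ n : ℕ, a ∈ Ideal.span {(2 : locHecke θ) ^ n}) : a = 0 := by
  refine Subtype.ext (LinearMap.ext fun v => LocLat.val_injective (ext_red fun n => ?_))
  obtain ⟨c, rfl⟩ := Ideal.mem_span_singleton'.mp (ha n)
  rw [mul_comm, ← map_ofNat (algebraMap ℤ_[2] (locHecke θ)) 2, ← map_pow]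
  show red n (LocLat.val ((algebraMap ℤ_[2] (Module.End ℤ_[2] (LocLat θ)) (2 ^ n)) ((c : Module.End ℤ_[2] (LocLat θ)) v))) = red n (LocLat.val 0)
  rw [Module.algebraMap_end_apply, LinearMap.map_smul, map_zero]
  funext k
  simp only [red, Pi.smul_apply, smul_eq_mul, map_mul, map_pow, map_ofNat, Pi.zero_apply, map_zero]
  rw [show ((2 : ZMod (2 ^ n))) ^ n = 0 by exact_mod_cast ZMod.natCast_self (2 ^ n), zero_mul]

/-- A Frobenius with odd trace is not scalar modulo the maximal ideal. -/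
theorem exists_not_scalar [IsLocalRing (locHecke S.θ)]
    (b : Module.Basis (Fin 2) (locHecke S.θ) (LocLat S.θ)) :
    ∃ φ, IsLocalRing.residue _ (galBasis b φ 0 1) ≠ 0 ∨
      IsLocalRing.residue _ (galBasis b φ 1 0) ≠ 0 ∨
      IsLocalRing.residue _ (galBasis b φ 0 0) ≠ IsLocalRing.residue _ (galBasis b φ 1 1) := by
  obtain ⟨ℓ, hℓ, hℓ2, hℓL, A, φ, hA, hφ, htr⟩ := exists_trace_one D L
  refine ⟨φ, ?_⟩
  by_contra hcon
  push Not at hcon
  obtain ⟨e01, e10, e00⟩ := hcon
  have ht₀ : S.θ (Reps.heckeTOf hℓ hℓL) = 1 := (S.good ℓ hℓ hℓL A hA φ hφ).trans htr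
  have h : (galM L φ * galM L φ - tauMat L ℤ_[2] (Reps.heckeTOf hℓ hℓL) * galM L φ +
      (ℓ : Matrix (Fin (Period.rankH L)) (Fin (Period.rankH L)) ℤ_[2])) *ᵥ LocLat.val (b 0) =
        (0 : Matrix (Fin (Period.rankH L)) (Fin (Period.rankH L)) ℤ_[2]) *ᵥ LocLat.val (b 0) :=
    congrArg (· *ᵥ LocLat.val (b 0))
      ((Reps.galModel L 2).frobenius_rel ℓ hℓ hℓL hℓ2 A hA φ hφ)
  rw [zero_mulVec, add_mulVec, sub_mulVec, ← mulVec_mulVec, ← mulVec_mulVec, Matrix.natCast_mulVec,
    Nat.cast_smul_eq_nsmul] at h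
  have hrel : galLoc S.θ φ (galLoc S.θ φ (b 0)) -
      locT S.θ (Reps.heckeTOf hℓ hℓL) • galLoc S.θ φ (b 0) + ℓ • b 0 = 0 := by
    refine LocLat.val_injective ?_
    rw [LinearMap.map_zero, LinearMap.map_add, LinearMap.map_sub, map_nsmul, val_locT_smul,
      val_galLoc, val_galLoc]
    exact h
  have h1 := congrArg (fun x => b.repr x 0) hrel
  simp only [map_add, map_sub, map_smul, map_nsmul, Finsupp.add_apply, Finsupp.sub_apply,
    Finsupp.smul_apply, map_zero, Finsupp.zero_apply, Module.Basis.repr_self,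
    Finsupp.single_eq_same, smul_eq_mul, nsmul_eq_mul, mul_one] at h1
  have hsq : b.repr (galLoc S.θ φ (galLoc S.θ φ (b 0))) 0 = (galBasis b φ * galBasis b φ) 0 0 := by
    rw [← map_mul, galBasis_apply, galLoc_mul, Module.End.mul_apply]
  rw [hsq, Matrix.mul_apply, Fin.sum_univ_two, ← galBasis_apply b φ 0 0] at h1
  have h2 := congrArg (IsLocalRing.residue (locHecke S.θ)) h1
  rw [map_add, map_sub, map_add, map_mul, map_mul, map_mul, map_natCast, map_zero, e01, zero_mul,
    add_zero] at h2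
  have hrt : IsLocalRing.residue _ (locT S.θ (Reps.heckeTOf hℓ hℓL)) = 1 := by
    rcases residue_eq_zero_or_one (locT S.θ (Reps.heckeTOf hℓ hℓL)) with h | h
    · exact absurd (isUnit_locT ht₀) (by
        rw [← mem_nonunits_iff, ← IsLocalRing.mem_maximalIdeal]
        exact (IsLocalRing.residue_eq_zero_iff _).mp h)
    · exact h
  have hr2 : (2 : IsLocalRing.ResidueField (locHecke S.θ)) = 0 := by
    rw [← map_ofNat (IsLocalRing.residue (locHecke S.θ)) 2]
    exact (IsLocalRing.residue_eq_zero_iff _).mpr (two_mem_of_isMaximal _)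
  obtain ⟨k, hk⟩ := hℓ.odd_of_ne_two hℓ2
  rw [hrt, hk, one_mul, Nat.cast_add, Nat.cast_mul, Nat.cast_ofNat, hr2, zero_mul, zero_add,
    Nat.cast_one] at h2
  rcases residue_eq_zero_or_one (galBasis b φ 0 0) with h | h <;> rw [h] at h2 <;> simp at h2

/-- A non-scalar element has cyclotomic determinant. -/
theorem det_of_not_scalar [IsLocalRing (locHecke S.θ)]
    (b : Module.Basis (Fin 2) (locHecke S.θ) (LocLat S.θ)) (σ : Γℚ)
    (hσ : IsLocalRing.residue _ (galBasis b σ 0 1) ≠ 0 ∨
      IsLocalRing.residue _ (galBasis b σ 1 0) ≠ 0 ∨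
      IsLocalRing.residue _ (galBasis b σ 0 0) ≠ IsLocalRing.residue _ (galBasis b σ 1 1)) :
    (galBasis b σ).det = cycLoc S.θ σ := by
  refine sub_eq_zero.mp (eq_zero_of_forall_mem_span _ fun n => ?_)
  obtain ⟨t, ht⟩ := galBasis_congr b σ n
  obtain ⟨h1, h2, h3⟩ := det_sub_mul_entries
    (by rw [← map_mul, mul_inv_cancel, map_one]) ht
  have key : ∀ x, IsLocalRing.residue _ x ≠ 0 →
      ((galBasis b σ).det - cycLoc S.θ σ) * x ∈ Ideal.span {(2 : locHecke S.θ) ^ n} →
      (galBasis b σ).det - cycLoc S.θ σ ∈ Ideal.span {(2 : locHecke S.θ) ^ n} := fun x hx hm =>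
    (Ideal.mul_unit_mem_iff_mem _ ((IsLocalRing.residue_ne_zero_iff_isUnit x).mp hx)).mp hm
  rcases hσ with h | h | h
  · exact key _ h h1
  · exact key _ h h2
  · exact key _ (by rw [map_sub, sub_ne_zero]; exact h) h3

/-- The determinant of the Galois action in a basis is the cyclotomic character. -/
theorem det_galBasis (b : Module.Basis (Fin 2) (locHecke S.θ) (LocLat S.θ)) (σ : Γℚ) :
    (galBasis b σ).det = cycLoc S.θ σ := by
  have hloc : IsLocalRing (locHecke S.θ) := locHecke_isLocalRing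
  obtain ⟨φ, hφ⟩ := exists_not_scalar b
  by_cases hσ : IsLocalRing.residue _ (galBasis b σ 0 1) ≠ 0 ∨
      IsLocalRing.residue _ (galBasis b σ 1 0) ≠ 0 ∨
      IsLocalRing.residue _ (galBasis b σ 0 0) ≠ IsLocalRing.residue _ (galBasis b σ 1 1)
  · exact det_of_not_scalar b σ hσ
  · push Not at hσ
    obtain ⟨e01, e10, e00⟩ := hσ
    have hu : IsLocalRing.residue _ (galBasis b σ 0 0) = 1 := by
      rcases residue_eq_zero_or_one (galBasis b σ 0 0) with h | h
      · have h1 := congrArg (IsLocalRing.residue (locHecke S.θ)) (congrFun (congrFun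
          (show galBasis b σ * galBasis b σ⁻¹ = 1 by rw [← map_mul, mul_inv_cancel, map_one]) 0) 0)
        rw [Matrix.mul_apply, Fin.sum_univ_two, Matrix.one_apply_eq, map_add, map_mul, map_mul,
          map_one, h, e01, zero_mul, zero_mul, add_zero] at h1
        exact absurd h1 zero_ne_one
      · exact h
    have h1 := det_of_not_scalar b (σ * φ) (by
      simp only [map_mul (galBasis b), Matrix.mul_apply, Fin.sum_univ_two, map_add, map_mul, e01,
        e10, ← e00, hu, one_mul, zero_mul, add_zero, zero_add]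
      exact hφ)
    rw [map_mul, Matrix.det_mul, det_of_not_scalar b φ hφ, map_mul] at h1
    exact ((Group.isUnit φ).map (cycLoc S.θ)).mul_right_cancel h1

/-- The form used by `HeckeMultOne`. -/
theorem det_eq_cyc_of_basis (S : ResSys L D)
    (b : Module.Basis (Fin 2) (locHecke S.θ) (LocLat S.θ)) (σ : Γℚ)
    (g : Matrix (Fin 2) (Fin 2) (locHecke S.θ))
    (hg : ∀ j, galM L σ *ᵥ LocLat.val (b j) = LocLat.val (∑ i, g i j • b i)) :
    g.det = algebraMap ℤ_[2] (locHecke S.θ) (Reps.cyc 2 σ) := by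
  refine Eq.trans ?_ (det_galBasis b σ)
  congr 1
  ext i j
  rw [galBasis_apply, show galLoc S.θ σ (b j) = ∑ k, g k j • b k from
    LocLat.val_injective ((val_galLoc σ _).trans (hg j)), b.repr_sum_self]

end FLTAgent.Mod2
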