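import Fermat.Agent.Mod2.HeckeDefs
import Fermat.Agent.MazurP.ResidualAlgebra

/-!
# The Galois action on the classes killed by the maximal ideal of `ρ̄`

`HasRel` says that a representation satisfies the characteristic polynomials of `ρ̄`; then it
factors through `ρ̄` (`HasRel.eq_of_rho`), is zero if a transposition acts trivially
(`HasRel.eq_zero_of_fixed`), and has as many vectors as pairs of vectors fixed by a transposition
(`HasRel.card_eq_sq`).
`eigenRep θ`, the action on the classes killed by the maximal ideal, has it (`hasRel_eigenRep`).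
-/

set_option autoImplicit false
set_option linter.unusedSectionVars false

noncomputable section

open Matrix CuspForm ModularCurve AlgebraicCurve

namespace FLTAgent.Mod2

local notation "Qb" => AlgebraicClosure ℚ
local notation "Γℚ" => (AlgebraicClosure ℚ ≃ₐ[ℚ] AlgebraicClosure ℚ)

theorem two_trans_conj : ∀ a : Mat2 (ZMod 2), a ≠ 1 → a * a = 1 →
    ∃ g : Mat2 (ZMod 2), g.det ≠ 0 ∧ g ^ 6 = 1 ∧ (a * (g * a * g ^ 5)).trace = 1 := by
  decide

theorem trace_one_sq : ∀ a : Mat2 (ZMod 2), a * a = 1 → a.trace = 0 := by decide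

theorem det_eq_one_of_ne_zero {x : ZMod 2} (h : x ≠ 0) : x = 1 := by
  revert h; revert x; decide

theorem sq_eq_one_of_trace_zero : ∀ a : Mat2 (ZMod 2), a.det ≠ 0 → a.trace = 0 → a * a = 1 := by
  decide

section Rep

variable (D : Setup) {V : Type*} [AddCommGroup V] [Module (ZMod 2) V]
  (P : Γℚ →* Module.End (ZMod 2) V)

/-- Galois satisfies the characteristic polynomials of `ρ̄`. -/
def HasRel : Prop :=
  ∀ σ, P σ * P σ + (D.rho σ).trace • P σ + 1 = 0

variable {D P}

theorem det_rho (σ : Γℚ) : (D.rho σ).det ≠ 0 := by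
  intro h
  have h1 := congrArg Matrix.det (map_mul D.rho σ σ⁻¹)
  rw [mul_inv_cancel, map_one, Matrix.det_one, Matrix.det_mul, h, zero_mul] at h1
  exact one_ne_zero h1

theorem add_self_end (f : Module.End (ZMod 2) V) : f + f = 0 := by
  have h : ((1 : ZMod 2) + 1) • f = 0 := by rw [show (1 : ZMod 2) + 1 = 0 from by decide, zero_smul]
  rwa [add_smul, one_smul] at h

theorem eq_of_add_eq_zero {f g : Module.End (ZMod 2) V} (h : f + g = 0) : f = g := by
  have h1 := congrArg (fun e => e + g) h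
  simpa [add_assoc, add_self_end] using h1

theorem HasRel.sq_eq_one (h : HasRel D P) {σ : Γℚ} (hσ : D.rho σ * D.rho σ = 1) :
    P σ * P σ = 1 := by
  have h1 := h σ
  rw [trace_one_sq _ hσ, zero_smul, add_zero] at h1
  exact eq_of_add_eq_zero h1

theorem HasRel.order_three (h : HasRel D P) {σ : Γℚ} (hσ : (D.rho σ).trace = 1) :
    P σ * P σ = P σ + 1 := by
  have h1 := h σ
  rw [hσ, one_smul, add_assoc] at h1
  exact eq_of_add_eq_zero h1

theorem isUnit_rep (σ : Γℚ) : P σ * P σ⁻¹ = 1 ∧ P σ⁻¹ * P σ = 1 := by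
  constructor <;> rw [← map_mul] <;> simp

/-- The kernel of `ρ̄` acts trivially. -/
theorem HasRel.eq_one_of_rho (h : HasRel D P) {n : Γℚ} (hn : D.rho n = 1) : P n = 1 := by
  have hn2 : P n * P n = 1 := h.sq_eq_one (by rw [hn, one_mul])
  have hcomm : ∀ s : Γℚ, D.rho s * D.rho s = 1 → P n * P s = P s * P n := fun s hs => by
    have hs2 := h.sq_eq_one hs
    have hns : P (n * s) * P (n * s) = 1 := h.sq_eq_one (by rw [map_mul, hn, one_mul, hs])
    rw [map_mul] at hns
    have c1 : ∀ z : Module.End (ZMod 2) V, P n * (P n * z) = z := fun z => by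
      rw [← mul_assoc, hn2, one_mul]
    have c2 : ∀ z : Module.End (ZMod 2) V, P s * (P s * z) = z := fun z => by
      rw [← mul_assoc, hs2, one_mul]
    refine Eq.symm ?_
    calc P s * P n = P s * P n * (P n * P s * (P n * P s)) := by rw [hns, mul_one]
      _ = P n * P s := by simp only [mul_assoc]; rw [c1, c2]
  obtain ⟨s, hs⟩ := D.surj !![0, 1; 1, 0] (by decide)
  obtain ⟨s', hs'⟩ := D.surj !![1, 1; 0, 1] (by decide)
  have hu : (D.rho (s * s')).trace = 1 := by rw [map_mul, hs, hs']; decide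
  have hc : P n * P (s * s') = P (s * s') * P n := by
    rw [map_mul, ← mul_assoc, hcomm s (by rw [hs]; decide), mul_assoc,
      hcomm s' (by rw [hs']; decide), mul_assoc]
  have hk := h.order_three hu
  have hnk : P (n * (s * s')) * P (n * (s * s')) = P (n * (s * s')) + 1 :=
    h.order_three (by rw [map_mul D.rho n, hn, one_mul, hu])
  rw [map_mul P n, mul_assoc (P n), ← mul_assoc (P (s * s')) (P n), ← hc,
    mul_assoc (P n) (P (s * s')), ← mul_assoc (P n) (P n), hn2, one_mul, hk] at hnk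
  have h1 : P (s * s') = P n * P (s * s') := add_right_cancel hnk
  have hu1 := (isUnit_rep (P := P) (s * s')).1
  calc P n = P n * (P (s * s') * P (s * s')⁻¹) := by rw [hu1, mul_one]
    _ = 1 := by rw [← mul_assoc, ← h1, hu1]

theorem HasRel.eq_of_rho (h : HasRel D P) {σ σ' : Γℚ} (hσ : D.rho σ = D.rho σ') : P σ = P σ' := by
  have h1 : D.rho (σ'⁻¹ * σ) = 1 := by
    rw [map_mul, hσ, ← map_mul, inv_mul_cancel, map_one]
  calc P σ = P (σ' * (σ'⁻¹ * σ)) := by rw [mul_inv_cancel_left]
    _ = P σ' := by rw [map_mul, h.eq_one_of_rho h1, mul_one]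

theorem rho_inv {g : Γℚ} (h6 : D.rho g ^ 6 = 1) : D.rho g⁻¹ = D.rho g ^ 5 := by
  calc D.rho g⁻¹ = D.rho g⁻¹ * D.rho g ^ 6 := by rw [h6, mul_one]
    _ = D.rho g ^ 5 := by
        rw [show (6 : ℕ) = 1 + 5 from rfl, pow_add, pow_one, ← mul_assoc, ← map_mul,
          inv_mul_cancel, map_one, one_mul]

theorem exists_conj_trace {τ : Γℚ} (hτ : D.rho τ ≠ 1) (hτ2 : D.rho τ * D.rho τ = 1) :
    ∃ g : Γℚ, (D.rho (τ * (g * τ * g⁻¹))).trace = 1 := by
  obtain ⟨G, hG, hG6, htr⟩ := two_trans_conj _ hτ hτ2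
  obtain ⟨g, rfl⟩ := D.surj G hG
  exact ⟨g, by rw [map_mul, map_mul, map_mul, rho_inv hG6]; exact htr⟩

/-- An element of order two acting trivially kills the space. -/
theorem HasRel.eq_zero_of_fixed (h : HasRel D P) {τ : Γℚ} (hτ : D.rho τ ≠ 1)
    (hτ2 : D.rho τ * D.rho τ = 1) (hfix : P τ = 1) (x : V) : x = 0 := by
  obtain ⟨g, hg⟩ := exists_conj_trace hτ hτ2
  have hk := h.order_three hg
  rw [map_mul, map_mul, map_mul, hfix, one_mul, mul_one, (isUnit_rep (P := P) g).1, one_mul] at hk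
  have h1 : (1 : Module.End (ZMod 2) V) = 0 := by
    rw [hk, add_self_end]
  simpa using LinearMap.congr_fun h1 x

/-- The space is two copies of the classes fixed by a transposition. -/
theorem HasRel.card_eq_sq (h : HasRel D P) {τ : Γℚ} (hτ : D.rho τ ≠ 1)
    (hτ2 : D.rho τ * D.rho τ = 1) :
    Nat.card V = Nat.card {x : V // P τ x = x} * Nat.card {x : V // P τ x = x} := by
  obtain ⟨g, hg⟩ := exists_conj_trace hτ hτ2
  set s' := g * τ * g⁻¹ with hs'
  have hk : ∀ x, P (τ * s') (P (τ * s') x) = P (τ * s') x + x := fun x => by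
    simpa using LinearMap.congr_fun (h.order_three hg) x
  have ht : ∀ x, P τ (P τ x) = x := fun x => by
    simpa using LinearMap.congr_fun (h.sq_eq_one hτ2) x
  have hs2 : P s' * P s' = 1 := by
    rw [← map_mul, hs', show g * τ * g⁻¹ * (g * τ * g⁻¹) = g * (τ * τ) * g⁻¹ by group, map_mul,
      map_mul, map_mul, h.sq_eq_one hτ2, mul_one, (isUnit_rep (P := P) g).1]
  have hth : ∀ x, P τ (P (τ * s') x) = P (τ * s') (P τ x) + P τ x := fun x => by
    have e1 : P (τ * s') (P (τ * s') (P τ x) + P τ x) = P τ x := by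
      rw [map_add, hk]
      rw [add_right_comm, ← two_smul (ZMod 2), show (2 : ZMod 2) = 0 from by decide, zero_smul,
        zero_add]
    have hinj : Function.Injective (P (τ * s')) := fun a b hab => by
      have := congrArg (P (τ * s')⁻¹) hab
      rwa [← Module.End.mul_apply, ← Module.End.mul_apply, (isUnit_rep (P := P) _).2,
        Module.End.one_apply, Module.End.one_apply] at this
    refine hinj ?_
    rw [e1, map_mul, Module.End.mul_apply, Module.End.mul_apply, ht, ← Module.End.mul_apply (P s'),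
      hs2, Module.End.one_apply]
  have hadd : ∀ z : V, z + z = 0 := fun z => by
    rw [← two_smul (ZMod 2), show (2 : ZMod 2) = 0 from by decide, zero_smul]
  rw [← Nat.card_prod]
  refine (Nat.card_congr (Equiv.ofBijective
    (fun p : {x : V // P τ x = x} × {x : V // P τ x = x} => p.1.1 + P (τ * s') p.2.1)
    ⟨?_, ?_⟩)).symm
  · rintro ⟨⟨a, ha⟩, ⟨b, hb⟩⟩ ⟨⟨a', ha'⟩, ⟨b', hb'⟩⟩ he
    simp only at he
    have h1 := congrArg (P τ) he
    simp only [map_add, hth, ha, hb, ha', hb'] at h1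
    rw [← add_assoc, ← add_assoc, he] at h1
    have hb2 : b = b' := add_left_cancel h1
    subst hb2
    have ha2 : a = a' := add_right_cancel he
    subst ha2
    rfl
  · intro x
    refine ⟨⟨⟨x + P (τ * s') (x + P τ x), ?_⟩, ⟨x + P τ x, ?_⟩⟩, ?_⟩
    · rw [map_add (P τ), hth, map_add (P τ), ht, add_comm (P τ x) x,
        show P τ x + (P (τ * s') (x + P τ x) + (x + P τ x)) =
          P (τ * s') (x + P τ x) + x + (P τ x + P τ x) by abel, hadd, add_zero, add_comm]
    · rw [map_add, ht, add_comm]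
    · simp only
      rw [add_assoc, hadd, add_zero]

end Rep

section Eigen

variable {L : ℕ} [NeZero L] {D : Setup}

/-- A class with coordinates `x`. -/
def jPt : HVec L (ZMod 2) →+ JZero L :=
  (Reps.tors L 2).subtype.comp (Reps.coordTors L 2).symm.toAddMonoidHom

theorem jPt_injective : Function.Injective (jPt (L := L)) :=
  Subtype.val_injective.comp (Reps.coordTors L 2).symm.injective

theorem two_nsmul_jPt (x : HVec L (ZMod 2)) : (2 : ℕ) • jPt x = 0 :=
  Reps.nsmul_eq_zero_of_mem_torsion L ((Reps.coordTors L 2).symm x).2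

theorem heckeOperatorBar_jPt (ℓ : Nat.Primes) (x : HVec L (ZMod 2)) :
    heckeOperatorBar L ℓ (jPt x) = jPt (tauMat L (ZMod 2) (Reps.heckeGenOf L ℓ) *ᵥ x) := by
  have h := Reps.coordTors_hecke L 2 ℓ ((Reps.coordTors L 2).symm x)
  rw [AddEquiv.apply_symm_apply] at h
  exact (congrArg Subtype.val ((Reps.coordTors L 2).symm_apply_eq.mpr h.symm)).symm

theorem smul_jPt (σ : Γℚ) (x : HVec L (ZMod 2)) :
    σ • jPt x = jPt (Reps.galMat L 2 σ *ᵥ x) := by
  have h := Reps.galMat_mulVec L 2 σ ((Reps.coordTors L 2).symm x)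
  rw [AddEquiv.apply_symm_apply] at h
  exact (congrArg Subtype.val ((Reps.coordTors L 2).symm_apply_eq.mpr h)).symm

theorem galMat_mem_eigenSet (θ : Reps.TZ L →+* ZMod 2) (σ : Γℚ) {x : HVec L (ZMod 2)}
    (hx : x ∈ eigenSet θ) : Reps.galMat L 2 σ *ᵥ x ∈ eigenSet θ := fun c hc => by
  rw [tauMat, RingHom.comp_apply, mulVec_mulVec, ← (Reps.galMat_commute L 2 σ c).eq,
    ← mulVec_mulVec]
  exact (congrArg _ (hx c hc)).trans (mulVec_zero _)

/-- Galois on the classes killed by the maximal ideal. -/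
def eigenRep (θ : Reps.TZ L →+* ZMod 2) : Γℚ →* Module.End (ZMod 2) (eigenSet θ) where
  toFun σ := (Matrix.toLin' (Reps.galMat L 2 σ)).restrict fun _ hx => galMat_mem_eigenSet θ σ hx
  map_one' := LinearMap.ext fun x => Subtype.ext (by simp [LinearMap.coe_restrict_apply])
  map_mul' σ τ := LinearMap.ext fun x => Subtype.ext (by
    simp [LinearMap.coe_restrict_apply, Module.End.mul_apply, Matrix.toLin'_mul, map_mul])

/-- The class of a vector killed by the maximal ideal. -/
def eigenPt (θ : Reps.TZ L →+* ZMod 2) : eigenSet θ →+ JZero L :=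
  jPt.comp (eigenSet θ).toAddSubgroup.subtype

theorem eigenPt_injective (θ : Reps.TZ L →+* ZMod 2) : Function.Injective (eigenPt θ) :=
  jPt_injective.comp Subtype.val_injective

theorem eigenPt_eigenRep (θ : Reps.TZ L →+* ZMod 2) (σ : Γℚ) (x : eigenSet θ) :
    eigenPt θ (eigenRep θ σ x) = σ • eigenPt θ x :=
  (smul_jPt σ x.1).symm

theorem tauMat_mulVec_of_mem (θ : Reps.TZ L →+* ZMod 2) {x : HVec L (ZMod 2)}
    (hx : x ∈ eigenSet θ) (c : Reps.TZ L) : tauMat L (ZMod 2) c *ᵥ x = θ c • x := by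
  have h : ∀ e : ZMod 2, θ c = e → tauMat L (ZMod 2) c *ᵥ x = e • x := by
    intro e he
    fin_cases e
    · exact (hx c he).trans (zero_smul _ x).symm
    · have h1 := hx (c - 1) (by rw [map_sub, map_one, he]; rfl)
      rw [map_sub, map_one, sub_mulVec, one_mulVec, sub_eq_zero] at h1
      exact h1.trans (one_smul _ x).symm
  exact h _ rfl

theorem heckeOperatorBar_eigenPt (θ : Reps.TZ L →+* ZMod 2) (ℓ : Nat.Primes) (x : eigenSet θ) :
    heckeOperatorBar L ℓ (eigenPt θ x) = eigenPt θ (θ (Reps.heckeGenOf L ℓ) • x) := by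
  show heckeOperatorBar L ℓ (jPt x.1) = jPt (θ (Reps.heckeGenOf L ℓ) • x.1)
  rw [heckeOperatorBar_jPt, tauMat_mulVec_of_mem θ x.2]

theorem trace_rho_pow (σ : Γℚ) (k : ℕ) :
    (D.rho (σ ^ k)).trace = Reps.luc (D.rho σ).trace 1 k := by
  have h := Reps.trace_pow_eq_luc (R := ZMod 2) (V := Fin 2 → ZMod 2)
    (Module.finrank_fin_fun _) (Matrix.toLin' (D.rho σ)) k
  rw [← Matrix.toLin'_pow, Matrix.trace_toLin'_eq, Matrix.trace_toLin'_eq, LinearMap.det_toLin',
    det_eq_one_of_ne_zero (det_rho σ), ← map_pow] at h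
  exact h

/-- The relations of `ρ̄` on the classes killed by the maximal ideal. -/
theorem hasRel_eigenRep (S : ResSys L D) : HasRel D (eigenRep S.θ) := by
  intro σ
  obtain ⟨K₁, hK₁, hfix₁⟩ := Reps.exists_level_galMat L 2
  obtain ⟨K₂, hK₂, hfix₂⟩ := D.cont
  refine Reps.forall_of_frobenius (P := fun σ => eigenRep S.θ σ * eigenRep S.θ σ +
    (D.rho σ).trace • eigenRep S.θ σ + 1 = 0) (K₁ ⊔ K₂) (insert 2 L.primeFactors) ?_ ?_ ?_ σ
  · intro g u hu hg
    have h1 : eigenRep S.θ (g * u) = eigenRep S.θ g := by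
      have h : eigenRep S.θ u = 1 := LinearMap.ext fun x => Subtype.ext (by
        show Matrix.toLin' (Reps.galMat L 2 u) x.1 = x.1
        rw [hfix₁ u fun a ha => hu a (le_sup_left (b := K₂) ha), Matrix.toLin'_one]
        rfl)
      rw [map_mul, h, mul_one]
    have h2 : D.rho (g * u) = D.rho g := by
      rw [map_mul, hfix₂ u fun a ha => hu a (le_sup_right (a := K₁) ha), mul_one]
    simp only [h1, h2]
    exact hg
  · intro g k hg
    have hg' : eigenRep S.θ g * eigenRep S.θ g -
        algebraMap (ZMod 2) _ (D.rho g).trace * eigenRep S.θ g + algebraMap (ZMod 2) _ 1 = 0 := by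
      rw [map_one, ← Algebra.smul_def, sub_eq_add_neg, ← neg_smul, ZModModule.neg_eq_self]
      exact hg
    have hk := MazurP.quadratic_pow hg' k
    rw [← trace_rho_pow, ← map_pow, one_pow, map_one, ← Algebra.smul_def, sub_eq_add_neg,
      ← neg_smul, ZModModule.neg_eq_self] at hk
    exact hk
  · intro ℓ hℓ hℓS A hA φ hφ
    simp only [Finset.mem_insert, Nat.mem_primeFactors, not_or] at hℓS
    have hℓL : ¬ ℓ ∣ L := fun h => hℓS.2 ⟨hℓ, h, NeZero.ne L⟩
    refine LinearMap.ext fun x => eigenPt_injective S.θ ?_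
    have h := Reps.frobenius_rel_torsion L Nat.prime_two hℓ hℓL hℓS.1 hA hφ (m := 1)
      (x := eigenPt S.θ x) (by rw [pow_one]; exact ((Reps.coordTors L 2).symm x.1).2)
    rw [← eigenPt_eigenRep, ← eigenPt_eigenRep, heckeOperatorBar_eigenPt, Reps.heckeGenOf_T L hℓ hℓL,
      S.good ℓ hℓ hℓL A hA φ hφ, ← map_nsmul, ← map_sub, ← map_add] at h
    have hodd : (ℓ : ZMod 2) = 1 := ZMod.natCast_eq_one_iff_odd.mpr (hℓ.odd_of_ne_two hℓS.1)
    rw [← Nat.cast_smul_eq_nsmul (ZMod 2), hodd, one_smul, ZModModule.sub_eq_add] at h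
    rw [LinearMap.zero_apply, map_zero, LinearMap.add_apply, LinearMap.add_apply,
      Module.End.mul_apply, LinearMap.smul_apply, Module.End.one_apply]
    exact h

end Eigen

end FLTAgent.Mod2
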