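import Fermat.Agent.Mod2.HeckeGen
import Fermat.Agent.Mod2.HeckeGroup

/-!
# The localised lattice is free of rank two

If the classes killed by the maximal ideal number four, two vectors span the localised lattice
over the localised Hecke ring (`exists_span_pair`); two vectors are also independent
(`exists_injective_pair`), so there is a basis (`nonempty_basis_of_card`).
-/

set_option autoImplicit false
set_option linter.unusedSectionVars false
set_option linter.style.haveILetI false
set_option maxHeartbeats 1000000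

noncomputable section

open Matrix CuspForm ModularCurve

namespace FLTAgent.Mod2

variable {L : ℕ} [NeZero L] {θ : Reps.TZ L →+* ZMod 2}

/-- An element of the localised lattice from a vector. -/
def LocLat.of (v : HVec L ℤ_[2]) (hv : v ∈ locLattice θ) : LocLat θ := ⟨v, hv⟩

theorem LocLat.val_of (v : HVec L ℤ_[2]) (hv : v ∈ locLattice θ) :
    LocLat.val (LocLat.of v hv) = v := rfl

theorem red2_add (v w : HVec L ℤ_[2]) : red2 (v + w) = red2 v + red2 w :=
  funext fun i => map_add _ (v i) (w i)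

theorem red2_smul (a : ℤ_[2]) (v : HVec L ℤ_[2]) : red2 (a • v) = PadicInt.toZMod a • red2 v :=
  funext fun i => map_mul _ a (v i)

variable (L) in
/-- The span of the Hecke matrices. -/
def heckeSpan : Submodule ℤ_[2] (Matrix (Fin (Period.rankH L)) (Fin (Period.rankH L)) ℤ_[2]) :=
  Submodule.span ℤ_[2] (Set.range (tauMat L ℤ_[2]))

theorem heckeSpan_mul {A B : Matrix (Fin (Period.rankH L)) (Fin (Period.rankH L)) ℤ_[2]}
    (hA : A ∈ heckeSpan L) (hB : B ∈ heckeSpan L) : A * B ∈ heckeSpan L := by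
  have h : A * B ∈ heckeSpan L * heckeSpan L := Submodule.mul_mem_mul hA hB
  rw [heckeSpan, Submodule.span_mul_span] at h
  refine Submodule.span_mono ?_ h
  rintro _ ⟨_, ⟨s, rfl⟩, _, ⟨t, rfl⟩, rfl⟩
  exact ⟨s * t, map_mul _ s t⟩

theorem exists_extend (a : locHecke θ) : ∃ A ∈ heckeSpan L, ∀ v : LocLat θ,
    LocLat.val ((a : Module.End ℤ_[2] (LocLat θ)) v) = A *ᵥ LocLat.val v := by
  obtain ⟨a, ha⟩ := a
  show ∃ A ∈ heckeSpan L, ∀ v : LocLat θ, LocLat.val (a v) = A *ᵥ LocLat.val v
  induction ha using Algebra.adjoin_induction with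
  | mem x hx =>
    obtain ⟨t, rfl⟩ := hx
    exact ⟨_, Submodule.subset_span ⟨t, rfl⟩, val_locEnd θ t⟩
  | algebraMap r =>
    refine ⟨r • 1, (heckeSpan L).smul_mem r
      (Submodule.subset_span ⟨1, map_one (tauMat L ℤ_[2])⟩), fun v => ?_⟩
    rw [Module.algebraMap_end_apply, LinearMap.map_smul, smul_mulVec, one_mulVec]
  | add x y hx hy hx' hy' =>
    obtain ⟨A, hA, hA'⟩ := hx'
    obtain ⟨B, hB, hB'⟩ := hy'
    exact ⟨A + B, add_mem hA hB, fun v => by
      rw [LinearMap.add_apply, map_add, hA', hB', add_mulVec]⟩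
  | mul x y hx hy hx' hy' =>
    obtain ⟨A, hA, hA'⟩ := hx'
    obtain ⟨B, hB, hB'⟩ := hy'
    exact ⟨A * B, heckeSpan_mul hA hB, fun v => by
      rw [Module.End.mul_apply, hA', hB', mulVec_mulVec]⟩

theorem mem_heckeSpan_of_close (P : Matrix (Fin (Period.rankH L)) (Fin (Period.rankH L)) ℤ_[2])
    (h : ∀ n : ℕ, ∃ t : Reps.TZ L, ∀ v, red n (P *ᵥ v) = red n (tauMat L ℤ_[2] t *ᵥ v)) :
    P ∈ heckeSpan L := by
  rw [← Submodule.Quotient.mk_eq_zero]
  have hbot := Ideal.iInf_pow_smul_eq_bot_of_isLocalRing (I := IsLocalRing.maximalIdeal ℤ_[2])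
    (M := Matrix (Fin (Period.rankH L)) (Fin (Period.rankH L)) ℤ_[2] ⧸ heckeSpan L)
    (IsLocalRing.maximalIdeal.isMaximal _).ne_top
  rw [← Submodule.mem_bot ℤ_[2], ← hbot, Submodule.mem_iInf]
  intro n
  obtain ⟨t, ht⟩ := h n
  have hdiv : ∀ i j, ∃ c : ℤ_[2], P i j - tauMat L ℤ_[2] t i j = (2 : ℤ_[2]) ^ n * c := fun i j => by
    have h1 := congrFun (ht (Pi.single j 1)) i
    simp only [red, mulVec_single, op_smul_eq_smul, one_smul, Matrix.col_apply] at h1
    have h2 : P i j - tauMat L ℤ_[2] t i j ∈ RingHom.ker (PadicInt.toZModPow (p := 2) n) := by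
      rw [RingHom.mem_ker, map_sub, h1, sub_self]
    rw [PadicInt.ker_toZModPow, Ideal.mem_span_singleton] at h2
    exact_mod_cast h2
  choose c hc using hdiv
  have e : Submodule.Quotient.mk (p := heckeSpan L) P =
      (2 : ℤ_[2]) ^ n • Submodule.Quotient.mk (p := heckeSpan L) (Matrix.of c) := by
    rw [← Submodule.Quotient.mk_smul, Submodule.Quotient.eq]
    have : P - (2 : ℤ_[2]) ^ n • Matrix.of c = tauMat L ℤ_[2] t := by
      ext i j
      rw [Matrix.sub_apply, Matrix.smul_apply, Matrix.of_apply, smul_eq_mul, ← hc, sub_sub_cancel]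
    rw [this]
    exact Submodule.subset_span ⟨t, rfl⟩
  rw [e]
  refine Submodule.smul_mem_smul (Ideal.pow_mem_pow ?_ n) Submodule.mem_top
  rw [PadicInt.maximalIdeal_eq_span_p, Ideal.mem_span_singleton]
  simp

variable (θ) in
/-- Two classes span a free submodule of full rank. -/
theorem exists_injective_pair :
    ∃ w : Fin 2 → LocLat θ, ∀ a : Fin 2 → locHecke θ, ∑ i, a i • w i = 0 → a = 0 := by
  obtain ⟨g, b, w₀, e, hspan, hdet⟩ := exists_generators L
  obtain ⟨P, hPmem, hPfix, -, hPred⟩ := exists_locProj θ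
  have hP : P ∈ heckeSpan L := mem_heckeSpan_of_close P fun n => by
    obtain ⟨t, ht⟩ := exists_projector θ (ZMod (2 ^ n))
    exact ⟨t, fun v => (hPred n t ht v).trans (red_tauMat n t v).symm⟩
  set w' : Fin 2 → HVec L ℤ_[2] := fun i a => (w₀ i a : ℤ_[2])
  have hdet' : (genMat L b w' e).det ≠ 0 := by
    rw [show w' = fun i a => Int.castRingHom ℤ_[2] (w₀ i a) from rfl,
      ← det_genMat_map L (Int.castRingHom ℤ_[2]) b w₀ e, eq_intCast, Int.cast_ne_zero]
    exact hdet
  -- the span of the Hecke matrices is spanned by the `b j`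
  have hS : heckeSpan L ≤ Submodule.span ℤ_[2] (Set.range fun j => tauMat L ℤ_[2] (b j)) := by
    refine Submodule.span_le.mpr ?_
    rintro _ ⟨t, rfl⟩
    obtain ⟨c, hc⟩ := (Submodule.mem_span_range_iff_exists_fun ℤ).mp
      (hspan ▸ Submodule.mem_top : t ∈ Submodule.span ℤ (Set.range b))
    refine (Submodule.mem_span_range_iff_exists_fun ℤ_[2]).mpr ⟨fun j => (c j : ℤ_[2]), ?_⟩
    rw [← hc, map_sum]
    exact Finset.sum_congr rfl fun j _ => by rw [map_zsmul, Int.cast_smul_eq_zsmul]
  have hindep : ∀ A : Fin 2 → Matrix (Fin (Period.rankH L)) (Fin (Period.rankH L)) ℤ_[2],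
      (∀ i, A i ∈ heckeSpan L) → ∑ i, A i *ᵥ w' i = 0 → ∀ i, A i = 0 := by
    intro A hA h0 i
    choose c hc using fun i => (Submodule.mem_span_range_iff_exists_fun ℤ_[2]).mp (hS (hA i))
    have h : genMat L b w' e *ᵥ (fun k => c (e.symm k).1 (e.symm k).2) = 0 := by
      rw [← h0]
      funext a
      rw [Finset.sum_apply]
      simp only [mulVec, dotProduct, genMat, Matrix.of_apply]
      rw [← Equiv.sum_comp e, Fintype.sum_prod_type]
      refine Finset.sum_congr rfl fun i _ => ?_
      simp only [Equiv.symm_apply_apply, ← hc i]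
      show _ = ((∑ j, c i j • tauMat L ℤ_[2] (b j)) *ᵥ w' i) a
      rw [sum_mulVec, Finset.sum_apply]
      exact Finset.sum_congr rfl fun j _ => by
        rw [smul_mulVec, Pi.smul_apply, smul_eq_mul, mul_comm]
        rfl
    have hz := Matrix.eq_zero_of_mulVec_eq_zero hdet' h
    rw [← hc i]
    refine Finset.sum_eq_zero fun j _ => ?_
    have := congrFun hz (e (i, j))
    rw [Equiv.symm_apply_apply, Pi.zero_apply] at this
    rw [this, zero_smul]
  refine ⟨fun i => LocLat.of (P *ᵥ w' i) (hPmem _), fun a ha => funext fun i => ?_⟩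
  choose A hA hA' using fun i => exists_extend (a i)
  have h0 : ∑ i, (A i * P) *ᵥ w' i = 0 := by
    have := congrArg LocLat.val ha
    rw [map_sum, map_zero] at this
    rw [← this]
    exact Finset.sum_congr rfl fun i _ => by
      rw [← mulVec_mulVec]; exact ((hA' i (LocLat.of (P *ᵥ w' i) (hPmem _))).symm :)
  refine Subtype.ext (LinearMap.ext fun v => LocLat.val_injective ?_)
  have hi := hindep _ (fun i => heckeSpan_mul (hA i) hP) h0 i
  rw [hA', ← hPfix _ (LocLat.val_mem v), mulVec_mulVec, hi, zero_mulVec]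
  exact (map_zero (LocLat.val (θ := θ))).symm

theorem isAtMax_of_mem_eigenSet {x : HVec L (ZMod 2)} (hx : x ∈ eigenSet θ) : IsAtMax θ x :=
  ⟨1, fun c hc => hx _ (by rw [map_prod, Fin.prod_univ_one, hc])⟩

theorem finrank_eigenSet_eq_two (h4 : Nat.card (eigenSet θ) = 4) :
    Module.finrank (ZMod 2) (eigenSet θ) = 2 := by
  have h := Module.natCard_eq_pow_finrank (K := ZMod 2) (V := eigenSet θ)
  rw [h4, Nat.card_zmod] at h
  exact (Nat.pow_right_injective le_rfl (h.symm.trans (by norm_num : (4 : ℕ) = 2 ^ 2)))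

/-- Modulo the maximal ideal, the classes at `θ` are spanned by two of them. -/
theorem exists_span_mod (h4 : Nat.card (eigenSet θ) = 4) :
    ∃ e : Fin 2 → HVec L (ZMod 2), (∀ i, IsAtMax θ (e i)) ∧
      ∀ x : HVec L (ZMod 2), IsAtMax θ x → ∃ a : Fin 2 → ZMod 2,
        x - ∑ i, a i • e i ∈ Submodule.span (ZMod 2)
          {z | ∃ c y, θ c = 0 ∧ IsAtMax θ y ∧ tauMat L (ZMod 2) c *ᵥ y = z} := by
  classical
  obtain ⟨g, hg⟩ := exists_projector θ (ZMod 2)
  set mW : Submodule (ZMod 2) (HVec L (ZMod 2)) := Submodule.span (ZMod 2)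
    {z | ∃ c y, θ c = 0 ∧ IsAtMax θ y ∧ tauMat L (ZMod 2) c *ᵥ y = z} with hmW
  set G := Matrix.toLin' (tauMat L (ZMod 2) g) with hG
  set U : Submodule (ZMod 2) (HVec L (ZMod 2)) := mW ⊔ LinearMap.range (1 - G) with hU
  -- the pairing
  obtain ⟨P, hP, hPt⟩ := exists_pairing L
  set Q : Matrix (Fin (Period.rankH L)) (Fin (Period.rankH L)) (ZMod 2) :=
    (Int.castRingHom (ZMod 2)).mapMatrix P with hQdef
  have hQdet : Q.det ≠ 0 := by
    rw [hQdef, ← RingHom.map_det, eq_intCast, Ne, ZMod.intCast_zmod_eq_zero_iff_dvd]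
    exact_mod_cast hP
  have hQ : IsUnit Q := (Matrix.isUnit_iff_isUnit_det Q).mpr (isUnit_iff_ne_zero.mpr hQdet)
  have hQt : ∀ t : Reps.TZ L, (tauMat L (ZMod 2) t)ᵀ * Q = Q * tauMat L (ZMod 2) t := fun t => by
    have h := congrArg (Int.castRingHom (ZMod 2)).mapMatrix (hPt t)
    simp only [map_mul] at h
    exact h
  have hadj : ∀ (t : Reps.TZ L) (x y : HVec L (ZMod 2)),
      (x ᵥ* Q) ⬝ᵥ (tauMat L (ZMod 2) t *ᵥ y) = ((tauMat L (ZMod 2) t *ᵥ x) ᵥ* Q) ⬝ᵥ y :=
    fun t x y => by
      rw [dotProduct_mulVec, vecMul_vecMul, ← hQt, ← vecMul_vecMul, vecMul_transpose]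
  have hnd : ∀ x, (∀ y, (x ᵥ* Q) ⬝ᵥ y = 0) → x = 0 := fun x h =>
    (Matrix.vecMul_injective_iff_isUnit.mpr hQ)
      ((dotProduct_eq_zero _ h).trans (zero_vecMul _).symm)
  let β : HVec L (ZMod 2) ≃ₗ[ZMod 2] Module.Dual (ZMod 2) (HVec L (ZMod 2)) :=
    LinearEquiv.ofBijective
      { toFun := fun x => dotProductEquiv (ZMod 2) _ (x ᵥ* Q)
        map_add' := fun x y => by rw [add_vecMul, map_add]
        map_smul' := fun a x => by rw [smul_vecMul, map_smul, RingHom.id_apply] }
      ⟨fun x y h => Matrix.vecMul_injective_iff_isUnit.mpr hQ ((dotProductEquiv _ _).injective h),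
        fun f => by
          obtain ⟨x, hx⟩ := Matrix.vecMul_surjective_iff_isUnit.mpr hQ ((dotProductEquiv _ _).symm f)
          exact ⟨x, (dotProductEquiv _ _).eq_symm_apply.mp hx⟩⟩
  have hann : (U.dualAnnihilator).comap β.toLinearMap = eigenSet θ := by
    ext x
    rw [Submodule.mem_comap, Submodule.mem_dualAnnihilator]
    show (∀ u ∈ U, (x ᵥ* Q) ⬝ᵥ u = 0) ↔ _
    constructor
    · intro h c hc
      have hx : tauMat L (ZMod 2) g *ᵥ x = x := by
        refine (sub_eq_zero.mp (hnd _ fun y => ?_)).symm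
        rw [sub_vecMul, sub_dotProduct, ← hadj, ← dotProduct_sub]
        exact h _ (Submodule.mem_sup_right ⟨y, by
          simp [hG, Matrix.toLin'_apply]⟩)
      have hx' : IsAtMax θ x := hx ▸ hg.mem x
      refine hnd _ fun y => ?_
      have h1 := h _ (Submodule.mem_sup_left (Submodule.subset_span
        ⟨c, tauMat L (ZMod 2) g *ᵥ y, hc, hg.mem y, rfl⟩) :
          tauMat L (ZMod 2) c *ᵥ (tauMat L (ZMod 2) g *ᵥ y) ∈ U)
      rwa [hadj, hadj, hg.fix _ (hx'.tau c)] at h1
    · intro hx u hu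
      have hgx := hg.fix x (isAtMax_of_mem_eigenSet hx)
      obtain ⟨m, hm, r, ⟨y, rfl⟩, rfl⟩ := Submodule.mem_sup.mp hu
      rw [dotProduct_add]
      have h1 : (x ᵥ* Q) ⬝ᵥ m = 0 := by
        clear hu
        induction hm using Submodule.span_induction with
        | mem z hz =>
          obtain ⟨c, y, hc, -, rfl⟩ := hz
          rw [hadj, hx c hc, zero_vecMul, zero_dotProduct]
        | zero => rw [dotProduct_zero]
        | add a b _ _ ha hb => rw [dotProduct_add, ha, hb, add_zero]
        | smul a z _ hz => rw [dotProduct_smul, hz, smul_zero]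
      rw [h1, zero_add, LinearMap.sub_apply, Module.End.one_apply, dotProduct_sub, hG,
        Matrix.toLin'_apply, hadj, hgx, sub_self]
  have hUdim : Module.finrank (ZMod 2) (HVec L (ZMod 2) ⧸ U) = 2 := by
    have h1 := Subspace.finrank_add_finrank_dualAnnihilator_eq U
    have h2 := Submodule.finrank_quotient_add_finrank U
    have h3 : Module.finrank (ZMod 2) U.dualAnnihilator = 2 := by
      refine Eq.trans ?_ (finrank_eigenSet_eq_two h4)
      rw [← hann, Submodule.comap_equiv_eq_map_symm, LinearEquiv.finrank_map_eq]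
    omega
  let B := Module.finBasisOfFinrankEq _ _ hUdim
  choose e he using fun i => Submodule.Quotient.mk_surjective U (B i)
  refine ⟨fun i => tauMat L (ZMod 2) g *ᵥ e i, fun i => hg.mem _, fun x hx => ?_⟩
  refine ⟨fun i => B.repr (Submodule.Quotient.mk x) i, ?_⟩
  set a : Fin 2 → ZMod 2 := fun i => B.repr (Submodule.Quotient.mk x) i with ha
  have hmem : x - ∑ i, a i • e i ∈ U := by
    rw [← Submodule.Quotient.eq, ← Submodule.mkQ_apply U (∑ i, a i • e i), map_sum]
    simp only [map_smul, Submodule.mkQ_apply, he, ha]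
    exact (B.sum_repr _).symm
  obtain ⟨m, hm, r, ⟨y, rfl⟩, hmr⟩ := Submodule.mem_sup.mp hmem
  have happ := congrArg G hmr
  rw [map_add, map_sub, map_sum] at happ
  have hGx : G x = x := hg.fix x hx
  have hGm : G m = m := by
    refine hg.fix m ?_
    clear happ hmr
    induction hm using Submodule.span_induction with
    | mem z hz => obtain ⟨c, y', -, hy, rfl⟩ := hz; exact hy.tau c
    | zero => exact ⟨0, fun c _ => mulVec_zero _⟩
    | add a b _ _ ha hb => exact ha.add hb
    | smul a z _ hz =>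
      obtain ⟨N, hN⟩ := hz
      exact ⟨N, fun c hc => by rw [mulVec_smul, hN c hc, smul_zero]⟩
  have hGG : G ((1 - G) y) = 0 := by
    rw [LinearMap.sub_apply, Module.End.one_apply, map_sub, sub_eq_zero]
    exact (hg.fix _ (hg.mem y)).symm
  simp only [map_smul] at happ
  rw [hGx, hGm, hGG, add_zero] at happ
  show x - ∑ i, a i • G (e i) ∈ mW
  rw [← happ]
  exact hm

/-- The localised lattice is generated by two elements. -/
theorem exists_span_pair (h4 : Nat.card (eigenSet θ) = 4) :
    ∃ v : Fin 2 → LocLat θ, Submodule.span (locHecke θ) (Set.range v) = ⊤ := by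
  haveI := locHecke_isLocalRing (θ := θ)
  obtain ⟨e, he, hspan⟩ := exists_span_mod h4
  choose v₀ hv₀ hv using fun i => exists_red2_eq (he i)
  refine ⟨fun i => LocLat.of (v₀ i) (hv₀ i), ?_⟩
  set S := Submodule.span (locHecke θ) (Set.range fun i => LocLat.of (v₀ i) (hv₀ i))
  set 𝔐 := IsLocalRing.maximalIdeal (locHecke θ) with h𝔐
  have hnon : ∀ c, θ c = 0 → locT θ c ∈ 𝔐 := by
    intro c hc
    rw [IsLocalRing.mem_maximalIdeal, mem_nonunits_iff]
    intro hu
    obtain ⟨u, hu⟩ := hu
    obtain ⟨t, b, hb⟩ := exists_locT_sub (↑u⁻¹ : locHecke θ)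
    obtain ⟨x, hx0, hx⟩ := MazurP.exists_mod_eigvec (p := 2) (HeckeH.heckeMatHom L)
      (HeckeH.heckeMatHom_injective L) θ
    obtain ⟨w, hw, hwx⟩ := exists_red2_eq (isAtMax_of_mem_eigenSet (x := x) hx)
    refine hx0 ?_
    have h1 : (((↑u⁻¹ : locHecke θ) * locT θ c : locHecke θ) : Module.End ℤ_[2] (LocLat θ))
        (LocLat.of w hw) = LocLat.of w hw := by
      rw [← hu, Units.inv_mul]; rfl
    rw [hb, add_mul, mul_assoc, two_mul] at h1
    have h2 := congrArg (fun z => red2 (LocLat.val z)) h1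
    simp only [Subalgebra.coe_add, LinearMap.add_apply, map_add, red2_add] at h2
    rw [← two_nsmul, show ∀ z : HVec L (ZMod 2), 2 • z = 0 from fun z => ZModModule.char_nsmul_eq_zero 2 z,
      add_zero] at h2
    rw [← hwx]
    refine (h2.symm.trans ?_ :)
    show red2 (LocLat.val (locEnd θ t (locEnd θ c (LocLat.of w hw)))) = 0
    rw [val_locEnd, val_locEnd, red2_tauMat, red2_tauMat, LocLat.val_of, hwx,
      show tauMat L (ZMod 2) c *ᵥ x = 0 from hx c hc, mulVec_zero]
  have h2mem : (2 : locHecke θ) ∈ 𝔐 := two_mem_of_isMaximal 𝔐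
  have hlift : ∀ z, z ∈ Submodule.span (ZMod 2)
      {z | ∃ c y, θ c = 0 ∧ IsAtMax θ y ∧ tauMat L (ZMod 2) c *ᵥ y = z} →
      ∃ w ∈ 𝔐 • (⊤ : Submodule (locHecke θ) (LocLat θ)), red2 (LocLat.val w) = z := by
    intro z hz
    induction hz using Submodule.span_induction with
    | mem z hz =>
      obtain ⟨c, y, hc, hy, rfl⟩ := hz
      obtain ⟨w, hw, rfl⟩ := exists_red2_eq hy
      exact ⟨locT θ c • LocLat.of w hw, Submodule.smul_mem_smul (hnon c hc) Submodule.mem_top,
        (congrArg red2 (val_locEnd θ c _)).trans (red2_tauMat c w)⟩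
    | zero => exact ⟨0, zero_mem _, funext fun i => by simp [red2]⟩
    | add a b _ _ ha hb =>
      obtain ⟨w, hw, rfl⟩ := ha
      obtain ⟨w', hw', rfl⟩ := hb
      exact ⟨w + w', add_mem hw hw', by rw [map_add, red2_add]⟩
    | smul a z _ hz =>
      obtain ⟨w, hw, rfl⟩ := hz
      fin_cases a
      · exact ⟨0, zero_mem _,
          (show red2 (LocLat.val (0 : LocLat θ)) = 0 from funext fun i => by simp [red2]).trans
            (zero_smul (ZMod 2) _).symm⟩
      · exact ⟨w, hw, (one_smul _ _).symm⟩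
  haveI : Module.Finite (locHecke θ) (LocLat θ) :=
    Module.Finite.of_restrictScalars_finite ℤ_[2] _ _
  rw [eq_top_iff]
  refine Submodule.le_of_le_smul_of_le_jacobson_bot (I := 𝔐) Module.Finite.fg_top
    (IsLocalRing.jacobson_eq_maximalIdeal ⊥ bot_ne_top).ge fun x _ => ?_
  obtain ⟨a, ha⟩ := hspan _ (isAtMax_red2 (LocLat.val_mem x))
  obtain ⟨w, hw, hwz⟩ := hlift _ ha
  set s : LocLat θ := ∑ i, ((a i).val : locHecke θ) • LocLat.of (v₀ i) (hv₀ i) with hs
  have hsS : s ∈ S := sum_mem fun i _ =>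
    S.smul_mem _ (Submodule.subset_span ⟨i, rfl⟩)
  have hred : red2 (LocLat.val (x - s - w)) = 0 := by
    have hsum : red2 (LocLat.val s) = ∑ i, a i • e i := by
      funext j
      simp only [hs, map_sum, Finset.sum_apply, red2, Nat.cast_smul_eq_nsmul, map_nsmul,
        Pi.smul_apply, map_sum]
      refine Finset.sum_congr rfl fun i _ => ?_
      rw [nsmul_eq_mul, smul_eq_mul, ZMod.natCast_zmod_val]
      exact congrArg (a i * ·) (congrFun (hv i) j)
    funext j
    have h1 := congrFun hwz j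
    have h2 := congrFun hsum j
    simp only [red2, map_sub, Pi.sub_apply, Pi.zero_apply, map_sub] at h1 h2 ⊢
    rw [h1, h2]
    exact sub_self _
  obtain ⟨r, hr, hr'⟩ := exists_two_smul (LocLat.val_mem _) hred
  have hx : x - s - w = (2 : locHecke θ) • LocLat.of r hr := by
    refine LocLat.val_injective (hr'.trans ?_)
    rw [two_smul, two_smul, map_add]
    rfl
  refine Submodule.mem_sup.mpr ⟨s, hsS, w + (2 : locHecke θ) • LocLat.of r hr,
    add_mem hw (Submodule.smul_mem_smul h2mem Submodule.mem_top), ?_⟩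
  rw [← hx]
  abel

/-- Multiplicity one gives freeness. -/
theorem nonempty_basis_of_card (h4 : Nat.card (eigenSet θ) = 4) :
    Nonempty (Module.Basis (Fin 2) (locHecke θ) (LocLat θ)) := by
  haveI : Module.Finite (locHecke θ) (LocLat θ) :=
    Module.Finite.of_restrictScalars_finite ℤ_[2] _ _
  obtain ⟨v, hv⟩ := exists_span_pair h4
  obtain ⟨w, hw⟩ := exists_injective_pair θ
  let f := Fintype.linearCombination (locHecke θ) v
  let i := Fintype.linearCombination (locHecke θ) w
  have hf : Function.Surjective f := by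
    rw [← LinearMap.range_eq_top, Fintype.range_linearCombination, hv]
  have hi : Function.Injective i := (injective_iff_map_eq_zero i).mpr fun a ha =>
    hw a (by simpa [i, Fintype.linearCombination_apply] using ha)
  have hb := OrzechProperty.bijective_of_surjective_of_injective i f hi hf
  exact ⟨Module.Basis.ofEquivFun (LinearEquiv.ofBijective f hb).symm⟩

end FLTAgent.Mod2
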