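import Fermat.Agent.Mod2.HeckeDefs
import Fermat.Agent.MazurP.ResidualAlgebra

/-!
# Localisation of the period lattice at a residual eigensystem

`red n` and `red2` reduce lattice vectors; `exists_projector` and the limit `exists_locProj`
project onto the localised lattice. Operators congruent to one at `θ` are units of the localised
Hecke ring (`isUnit_locT`), which is local (`locHecke_isLocalRing`).
-/

set_option autoImplicit false
set_option linter.unusedSectionVars false
set_option linter.style.haveILetI false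

noncomputable section

open Matrix CuspForm ModularCurve

namespace FLTAgent.Mod2

/-! ### Limits of compatible sequences -/

theorem exists_padic_limit (s : ℕ → ℤ)
    (hs : ∀ m n : ℕ, n ≤ m → (s m : ZMod (2 ^ n)) = (s n : ZMod (2 ^ n))) :
    ∃ x : ℤ_[2], ∀ n : ℕ, PadicInt.toZModPow n x = (s n : ZMod (2 ^ n)) := by
  have key : ∀ (n : ℕ) (a b : ℤ_[2]),
      a ≡ b [SMOD (IsLocalRing.maximalIdeal ℤ_[2] ^ n • ⊤ : Submodule ℤ_[2] ℤ_[2])] ↔
        PadicInt.toZModPow n a = PadicInt.toZModPow n b := by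
    intro n a b
    rw [SModEq.sub_mem, smul_eq_mul, Ideal.mul_top, PadicInt.maximalIdeal_eq_span_p,
      Ideal.span_singleton_pow, ← PadicInt.ker_toZModPow, RingHom.mem_ker, map_sub, sub_eq_zero]
  obtain ⟨x, hx⟩ := IsPrecomplete.prec' (I := IsLocalRing.maximalIdeal ℤ_[2])
    (fun n => (s n : ℤ_[2])) (fun {m n} hmn => (key m _ _).mpr (by
      rw [map_intCast, map_intCast]; exact (hs n m hmn).symm))
  exact ⟨x, fun n => ((key n _ _).mp (hx n)).symm.trans (map_intCast _ _)⟩

theorem toZMod_eq_of_ringHom (f : ℤ_[2] →+* ZMod 2) (x : ℤ_[2]) : f x = PadicInt.toZMod x := by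
  have h := PadicInt.toZMod_spec x
  rw [PadicInt.maximalIdeal_eq_span_p, Ideal.mem_span_singleton'] at h
  obtain ⟨y, hy⟩ := h
  have e : x = y * ((2 : ℕ) : ℤ_[2]) + (ZMod.cast (PadicInt.toZMod x) : ℤ_[2]) := by rw [hy]; ring
  conv_lhs => rw [e]
  rw [map_add, map_mul, map_natCast, ZMod.natCast_self, mul_zero, zero_add,
    ← ZMod.natCast_val, map_natCast, ZMod.natCast_zmod_val]

/-- An inverse of an element of an integral algebra lies in the algebra. -/
theorem mem_of_mul_eq_one {R B : Type*} [CommRing R] [Ring B] [Algebra R B] (A : Subalgebra R B)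
    {a b : B} (ha : a ∈ A) (hab : a * b = 1) (hb : IsIntegral R b) : b ∈ A := by
  obtain ⟨p, hp, hp0⟩ := hb
  set n := p.natDegree with hn
  rcases Nat.eq_zero_or_pos n with h0 | h0
  · have : p = 1 := hp.natDegree_eq_zero.mp (hn ▸ h0)
    rw [this, Polynomial.eval₂_one] at hp0
    have hb1 : b = 1 := by rw [← mul_one b, hp0, mul_zero]
    exact hb1 ▸ one_mem A
  have hpow : ∀ i : ℕ, a ^ i * b ^ i = 1 := fun i => by
    induction i with
    | zero => simp
    | succ i ih => rw [pow_succ, pow_succ', mul_assoc, ← mul_assoc a, hab, one_mul, ih]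
  rw [Polynomial.eval₂_eq_sum_range, Finset.sum_range_succ] at hp0
  have h1 := congrArg (fun x => a ^ (n - 1) * x) hp0
  simp only [mul_add, mul_zero, Finset.mul_sum, ← hn] at h1
  have hlast : a ^ (n - 1) * (algebraMap R B (p.coeff n) * b ^ n) = b := by
    rw [hn, hp.coeff_natDegree, map_one, one_mul, ← hn, show n = n - 1 + 1 by omega, pow_succ,
      Nat.add_sub_cancel, ← mul_assoc, hpow, one_mul]
  rw [hlast, add_comm, add_eq_zero_iff_eq_neg] at h1
  rw [h1]
  refine neg_mem (sum_mem fun i hi => ?_)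
  have hi' : i < n := Finset.mem_range.mp hi
  have e : a ^ (n - 1) = a ^ (n - 1 - i) * a ^ i := by rw [← pow_add]; congr 1; omega
  rw [← mul_assoc, ← (Algebra.commutes (p.coeff i) (a ^ (n - 1))), e, mul_assoc, mul_assoc, hpow,
    mul_one]
  exact mul_mem (A.algebraMap_mem _) (pow_mem ha _)

variable {L : ℕ} [NeZero L] {θ : Reps.TZ L →+* ZMod 2}

/-! ### Vectors killed by a power of the maximal ideal -/

theorem tauMat_mulVec_map {R S : Type*} [CommRing R] [CommRing S] (f : R →+* S) (t : Reps.TZ L)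
    (v : HVec L R) : f ∘ (tauMat L R t *ᵥ v) = tauMat L S t *ᵥ (f ∘ v) :=
  tauMat_map f t v

theorem IsAtMax.map {R S : Type*} [CommRing R] [CommRing S] (f : R →+* S) {x : HVec L R}
    (hx : IsAtMax θ x) : IsAtMax θ (f ∘ x) := by
  obtain ⟨N, hN⟩ := hx
  refine ⟨N, fun c hc => ?_⟩
  rw [← tauMat_mulVec_map, hN c hc]
  exact funext fun i => map_zero f

/-- On a vector killed by a power of the maximal ideal an element fixed by it is zero. -/
theorem IsAtMax.eq_zero {R : Type*} [CommRing R] {x : HVec L R} (hx : IsAtMax θ x)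
    {t : Reps.TZ L} (ht : θ t = 1) (h : tauMat L R t *ᵥ x = 0) : x = 0 := by
  obtain ⟨N, hN⟩ := hx
  have key : ∀ k : ℕ, tauMat L R ((1 - t) ^ k) *ᵥ x = x := fun k => by
    induction k with
    | zero => rw [pow_zero, map_one, one_mulVec]
    | succ k ih =>
      rw [pow_succ, map_mul, ← mulVec_mulVec, map_sub, map_one, sub_mulVec, one_mulVec, h, sub_zero,
        ih]
  have h0 := hN (fun _ => 1 - t) fun _ => by rw [map_sub, map_one, ht, sub_self]
  rwa [Finset.prod_const, Finset.card_univ, Fintype.card_fin, key] at h0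

theorem IsAtMax.sub {R : Type*} [CommRing R] {x y : HVec L R} (hx : IsAtMax θ x)
    (hy : IsAtMax θ y) : IsAtMax θ (x - y) := by
  obtain ⟨M, hM⟩ := hy
  rw [sub_eq_add_neg]
  exact hx.add ⟨M, fun c hc => by rw [mulVec_neg, hM c hc, neg_zero]⟩

variable (θ) in
/-- An element acting as the projection onto the vectors at `θ`. -/
structure IsProjector (R : Type*) [CommRing R] (g : Reps.TZ L) : Prop where
  map_eq_one : θ g = 1
  mem : ∀ x : HVec L R, IsAtMax θ (tauMat L R g *ᵥ x)
  fix : ∀ x : HVec L R, IsAtMax θ x → tauMat L R g *ᵥ x = x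

theorem IsProjector.unique {R : Type*} [CommRing R] {g h : Reps.TZ L} (hg : IsProjector θ R g)
    (hh : IsProjector θ R h) (x : HVec L R) : tauMat L R g *ᵥ x = tauMat L R h *ᵥ x := by
  rw [← hh.fix _ (hg.mem x)]
  conv_rhs => rw [← hg.fix _ (hh.mem x)]
  rw [mulVec_mulVec, mulVec_mulVec, ← map_mul, ← map_mul, mul_comm]

theorem IsProjector.map {R S : Type*} [CommRing R] [CommRing S] {g : Reps.TZ L}
    (hg : IsProjector θ R g) (f : R →+* S) (hf : Function.Surjective f) : IsProjector θ S g := by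
  have hmem : ∀ x : HVec L S, IsAtMax θ (tauMat L S g *ᵥ x) := fun x => by
    obtain ⟨x', rfl⟩ := hf.comp_left x
    rw [← tauMat_mulVec_map]
    exact (hg.mem x').map f
  refine ⟨hg.map_eq_one, hmem, fun x hx => sub_eq_zero.mp (((hmem x).sub hx).eq_zero hg.map_eq_one ?_)⟩
  obtain ⟨x', rfl⟩ := hf.comp_left x
  rw [mulVec_sub, ← tauMat_mulVec_map, ← tauMat_mulVec_map, hg.fix _ (hg.mem x'), sub_self]

/-- In a finite module some element congruent to one kills a power of an ideal. -/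
theorem exists_kill_pow {T V : Type*} [CommRing T] [AddCommGroup V] [Module T V] [Finite V]
    (I : Ideal T) : ∃ (N : ℕ) (r : T), r - 1 ∈ I ∧
      ∀ c ∈ I ^ N, ∀ x : V, r • c • x = 0 := by
  have : IsArtinian T V := isArtinian_of_finite
  let W : ℕ →o (Submodule T V)ᵒᵈ :=
    ⟨fun n => OrderDual.toDual (I ^ n • (⊤ : Submodule T V)),
      fun a b hab => OrderDual.toDual_le_toDual.mpr
        (Submodule.smul_mono_left (Ideal.pow_le_pow_right hab))⟩
  obtain ⟨N, hN⟩ := IsArtinian.monotone_stabilizes W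
  have hIW : I ^ N • (⊤ : Submodule T V) ≤ I • (I ^ N • ⊤) := by
    have h := OrderDual.toDual_inj.mp (hN (N + 1) (Nat.le_succ N))
    rw [pow_succ', Submodule.mul_smul] at h
    exact h.le
  obtain ⟨r, hr, hr0⟩ := Submodule.exists_sub_one_mem_and_smul_eq_zero_of_fg_of_le_smul I _
    (Submodule.fg_def.mpr ⟨_, Set.toFinite _, Submodule.span_eq _⟩) hIW
  exact ⟨N, r, hr, fun c hc x => hr0 _ (Submodule.smul_mem_smul hc Submodule.mem_top)⟩

variable (θ) in
theorem exists_projector (R : Type*) [CommRing R] [Finite R] : ∃ g, IsProjector θ R g := by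
  classical
  let ρ : Reps.TZ L →+* Module.End R (HVec L R) :=
    (Matrix.toLinAlgEquiv' (R := R)).toRingEquiv.toRingHom.comp (tauMat L R)
  let := Module.compHom (HVec L R) ρ
  obtain ⟨N, r, hr, hr0⟩ := exists_kill_pow (T := Reps.TZ L) (V := HVec L R) (RingHom.ker θ)
  have hr1 : θ r = 1 := by simpa [RingHom.mem_ker, sub_eq_zero] using hr
  -- `r` times a product of `N` elements of the ideal kills everything
  have hkill : ∀ (c : Fin N → Reps.TZ L), (∀ i, θ (c i) = 0) → ∀ x,
      tauMat L R r *ᵥ (tauMat L R (∏ i, c i) *ᵥ x) = 0 := by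
    intro c hc x
    refine hr0 _ ?_ x
    have h := Ideal.prod_mem_prod (s := Finset.univ) (I := fun _ : Fin N => RingHom.ker θ) (x := c)
      fun i _ => hc i
    rwa [Finset.prod_const, Finset.card_univ, Fintype.card_fin] at h
  have hN' : ∀ x : HVec L R, IsAtMax θ x → ∀ c : Fin N → Reps.TZ L, (∀ i, θ (c i) = 0) →
      tauMat L R (∏ i, c i) *ᵥ x = 0 := fun x hx c hc => (hx.tau _).eq_zero hr1 (hkill c hc x)
  refine ⟨1 - (1 - r) ^ (N + 1), ?_, fun x => ?_, fun x hx => ?_⟩
  · rw [map_sub, map_pow, map_sub, map_one, hr1, sub_self, zero_pow N.succ_ne_zero, sub_zero]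
  · obtain ⟨s, hs⟩ : r ∣ 1 - (1 - r) ^ (N + 1) := by
      simpa using sub_dvd_pow_sub_pow (1 : Reps.TZ L) (1 - r) (N + 1)
    refine ⟨N, fun c hc => ?_⟩
    rw [hs, mulVec_mulVec, ← map_mul, show (∏ i, c i) * (r * s) = r * ((∏ i, c i) * s) by ring,
      map_mul, map_mul, ← mulVec_mulVec, ← mulVec_mulVec, hkill c hc]
  · have h := hN' x hx (fun _ => 1 - r) fun _ => by rw [map_sub, map_one, hr1, sub_self]
    rw [Finset.prod_const, Finset.card_univ, Fintype.card_fin] at h
    rw [map_sub, map_one, sub_mulVec, one_mulVec, pow_succ', map_mul, ← mulVec_mulVec, h,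
      mulVec_zero, sub_zero]

/-- Nilpotence of each element of the kernel is enough. -/
theorem IsAtMax.of_forall_pow {R : Type*} [CommRing R] [Finite R] {x : HVec L R}
    (h : ∀ c, θ c = 0 → ∃ k : ℕ, tauMat L R (c ^ k) *ᵥ x = 0) : IsAtMax θ x := by
  obtain ⟨g, hg⟩ := exists_projector θ R
  obtain ⟨k, hk⟩ := h (1 - g) (by rw [map_sub, map_one, hg.map_eq_one, sub_self])
  set y := x - tauMat L R g *ᵥ x with hy
  have hgy : tauMat L R (1 - g) *ᵥ x = y := by rw [map_sub, map_one, sub_mulVec, one_mulVec]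
  have hpow : ∀ j : ℕ, tauMat L R ((1 - g) ^ (j + 1)) *ᵥ x = y := fun j => by
    induction j with
    | zero => rw [pow_one, hgy]
    | succ j ih =>
      rw [pow_succ', map_mul, ← mulVec_mulVec, ih, map_sub, map_one, sub_mulVec, one_mulVec, hy,
        mulVec_sub, hg.fix _ (hg.mem x), sub_self, sub_zero]
  have h0 : y = 0 := by
    rcases k with _ | k
    · rw [pow_zero, map_one, one_mulVec] at hk
      rw [hy, hk, mulVec_zero, sub_zero]
    · rwa [hpow] at hk
  rw [hy, sub_eq_zero] at h0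
  rw [h0]
  exact hg.mem x

/-! ### The projection of the lattice -/

/-- Reduction modulo `2 ^ n`. -/
def red (n : ℕ) (v : HVec L ℤ_[2]) : HVec L (ZMod (2 ^ n)) := fun i => PadicInt.toZModPow n (v i)

theorem mem_locLattice {v : HVec L ℤ_[2]} :
    v ∈ locLattice θ ↔ ∀ n, IsAtMax θ (red n v) := Iff.rfl

theorem red_tauMat (n : ℕ) (t : Reps.TZ L) (v : HVec L ℤ_[2]) :
    red n (tauMat L ℤ_[2] t *ᵥ v) = tauMat L (ZMod (2 ^ n)) t *ᵥ red n v :=
  tauMat_map _ t v

theorem ext_red {v w : HVec L ℤ_[2]} (h : ∀ n, red n v = red n w) : v = w :=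
  funext fun i => PadicInt.ext_of_toZModPow.mp fun n => congrFun (h n) i

theorem IsAtMax.cast {m n : ℕ} (hnm : n ≤ m) {v : HVec L (ZMod (2 ^ m))} (hv : IsAtMax θ v) :
    IsAtMax θ (ZMod.castHom (pow_dvd_pow 2 hnm) (ZMod (2 ^ n)) ∘ v) := hv.map _

variable (θ) in
/-- The projection onto the localised lattice. -/
theorem exists_locProj : ∃ P : Matrix (Fin (Period.rankH L)) (Fin (Period.rankH L)) ℤ_[2],
    (∀ v, P *ᵥ v ∈ locLattice θ) ∧ (∀ v ∈ locLattice θ, P *ᵥ v = v) ∧
    (∀ t, P * tauMat L ℤ_[2] t = tauMat L ℤ_[2] t * P) ∧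
    ∀ n g, IsProjector θ (ZMod (2 ^ n)) g → ∀ v,
      red n (P *ᵥ v) = tauMat L (ZMod (2 ^ n)) g *ᵥ red n v := by
  classical
  choose g hg using fun n : ℕ => exists_projector θ (ZMod (2 ^ n))
  have hcomp : ∀ m n : ℕ, n ≤ m →
      tauMat L (ZMod (2 ^ n)) (g m) = tauMat L (ZMod (2 ^ n)) (g n) := fun m n hnm =>
    Matrix.mulVec_injective (funext fun x =>
      ((hg m).map (ZMod.castHom (pow_dvd_pow 2 hnm) (ZMod (2 ^ n)))
        (ZMod.ringHom_surjective _)).unique (hg n) x)
  choose P hP using fun i j => exists_padic_limit (fun n => HeckeH.heckeMatHom L (g n) i j)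
    fun m n hnm => congrFun (congrFun (hcomp m n hnm) i) j
  have hred : ∀ n v, red n (Matrix.of P *ᵥ v) = tauMat L (ZMod (2 ^ n)) (g n) *ᵥ red n v := by
    intro n v
    funext i
    simp [red, Matrix.mulVec, dotProduct, tauMat, hP]
  refine ⟨Matrix.of P, fun v n => ?_, fun v hv => ext_red fun n => ?_, fun t => ?_,
    fun n g' hg' v => ?_⟩
  · show IsAtMax θ (red n _)
    rw [hred]; exact (hg n).mem _
  · rw [hred]; exact (hg n).fix _ (hv n)
  · refine Matrix.mulVec_injective (funext fun v => ext_red fun n => ?_)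
    rw [← mulVec_mulVec, ← mulVec_mulVec, hred, red_tauMat, red_tauMat, hred, mulVec_mulVec,
      mulVec_mulVec, ← map_mul, ← map_mul, mul_comm]
  · rw [hred]; exact (hg n).unique hg' _

/-- The quotient by the localised lattice has no torsion. -/
theorem mem_locLattice_of_two_mul {v : HVec L ℤ_[2]} (h : (2 : ℤ_[2]) • v ∈ locLattice θ) :
    v ∈ locLattice θ := by
  obtain ⟨P, hP, hPfix, -, -⟩ := exists_locProj θ
  have h1 := hPfix _ h
  rw [mulVec_smul] at h1
  rw [← smul_right_injective (HVec L ℤ_[2]) (two_ne_zero' ℤ_[2]) h1]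
  exact hP v

/-- Vectors at `θ` lift to the localised lattice. -/
theorem exists_red_eq {n : ℕ} {x : HVec L (ZMod (2 ^ n))} (hx : IsAtMax θ x) :
    ∃ v ∈ locLattice θ, red n v = x := by
  obtain ⟨P, hP, -, -, hred⟩ := exists_locProj θ
  obtain ⟨g, hg⟩ := exists_projector θ (ZMod (2 ^ n))
  obtain ⟨v, rfl⟩ : ∃ v, red n v = x :=
    (ZMod.ringHom_surjective (PadicInt.toZModPow (p := 2) n)).comp_left x
  exact ⟨P *ᵥ v, hP v, (hred n g hg v).trans (hg.fix _ hx)⟩

/-- Reduction modulo two. -/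
def red2 (v : HVec L ℤ_[2]) : HVec L (ZMod 2) := fun i => PadicInt.toZMod (v i)

theorem red2_tauMat (t : Reps.TZ L) (v : HVec L ℤ_[2]) :
    red2 (tauMat L ℤ_[2] t *ᵥ v) = tauMat L (ZMod 2) t *ᵥ red2 v := tauMat_map _ t v

/-- `ZMod (2 ^ 1)` is `ZMod 2`. -/
def oneEquiv : ZMod (2 ^ 1) ≃+* ZMod 2 := ZMod.ringEquivCongr (pow_one 2)

theorem red2_eq (v : HVec L ℤ_[2]) : red2 v = oneEquiv ∘ red 1 v := funext fun i =>
  (toZMod_eq_of_ringHom (oneEquiv.toRingHom.comp (PadicInt.toZModPow 1)) (v i)).symm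

theorem isAtMax_red2 {v : HVec L ℤ_[2]} (hv : v ∈ locLattice θ) : IsAtMax θ (red2 v) := by
  rw [red2_eq]
  exact (hv 1).map oneEquiv.toRingHom

theorem exists_red2_eq {x : HVec L (ZMod 2)} (hx : IsAtMax θ x) :
    ∃ v ∈ locLattice θ, red2 v = x := by
  obtain ⟨v, hv, h⟩ := exists_red_eq (hx.map oneEquiv.symm.toRingHom)
  refine ⟨v, hv, ?_⟩
  rw [red2_eq, h]
  exact funext fun i => oneEquiv.apply_symm_apply (x i)

theorem red2_eq_zero {v : HVec L ℤ_[2]} : red2 v = 0 ↔ ∃ w, v = (2 : ℤ_[2]) • w := by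
  constructor
  · intro h
    have h1 : ∀ i, ∃ w : ℤ_[2], v i = 2 * w := fun i => by
      have : v i ∈ RingHom.ker (PadicInt.toZMod (p := 2)) := congrFun h i
      rw [PadicInt.ker_toZMod, PadicInt.maximalIdeal_eq_span_p, Ideal.mem_span_singleton] at this
      exact_mod_cast this
    choose w hw using h1
    exact ⟨w, funext fun i => by rw [hw i]; rfl⟩
  · rintro ⟨w, rfl⟩
    exact funext fun i => by
      simp [red2, show (PadicInt.toZMod (2 : ℤ_[2]) : ZMod 2) = 0 from (map_ofNat _ 2).trans rfl]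

theorem exists_two_smul {v : HVec L ℤ_[2]} (hv : v ∈ locLattice θ) (h : red2 v = 0) :
    ∃ w ∈ locLattice θ, v = (2 : ℤ_[2]) • w := by
  obtain ⟨w, rfl⟩ := red2_eq_zero.mp h
  exact ⟨w, mem_locLattice_of_two_mul hv, rfl⟩

/-! ### Units of the localised Hecke ring -/

/-- An element congruent to one at `θ` is invertible on the localised lattice. -/
theorem exists_tauMat_mulVec_eq {t : Reps.TZ L} (ht : θ t = 1) {v : HVec L ℤ_[2]}
    (hv : v ∈ locLattice θ) : ∃ w ∈ locLattice θ, tauMat L ℤ_[2] t *ᵥ w = v := by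
  classical
  have h : ∀ n, ∃ y : HVec L (ZMod (2 ^ n)), IsAtMax θ y ∧
      tauMat L (ZMod (2 ^ n)) t *ᵥ y = red n v := by
    intro n
    obtain ⟨N, hN⟩ : IsAtMax θ (red n v) := hv n
    refine ⟨tauMat L _ (∑ i ∈ Finset.range N, (1 - t) ^ i) *ᵥ red n v, (hv n).tau _, ?_⟩
    have h1 := hN (fun _ => 1 - t) fun _ => by rw [map_sub, map_one, ht, sub_self]
    rw [Finset.prod_const, Finset.card_univ, Fintype.card_fin] at h1
    rw [mulVec_mulVec, ← map_mul,
      show t * ∑ i ∈ Finset.range N, (1 - t) ^ i = 1 - (1 - t) ^ N by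
        have := mul_neg_geom_sum (1 - t) N
        rwa [sub_sub_cancel] at this,
      map_sub, map_one, sub_mulVec, one_mulVec, h1, sub_zero]
  choose y hy hty using h
  have hcomp : ∀ m n (hnm : n ≤ m),
      ZMod.castHom (pow_dvd_pow 2 hnm) (ZMod (2 ^ n)) ∘ y m = y n := by
    intro m n hnm
    refine sub_eq_zero.mp (((hy m).cast hnm).sub (hy n) |>.eq_zero ht ?_)
    rw [mulVec_sub, ← tauMat_mulVec_map, hty, hty, sub_eq_zero]
    funext i
    exact congrFun (congrArg DFunLike.coe (PadicInt.zmod_cast_comp_toZModPow n m hnm)) (v i)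
  choose w hw using fun i => exists_padic_limit (fun n => ((y n i).val : ℤ)) fun m n hnm => by
    rw [Int.cast_natCast, Int.cast_natCast, ZMod.natCast_zmod_val]
    conv_rhs => rw [← congrFun (hcomp m n hnm) i]
    rw [Function.comp_apply, ← ZMod.natCast_zmod_val (y m i), map_natCast, ZMod.natCast_zmod_val]
  have hred : ∀ n, red n w = y n := fun n => funext fun i => by
    rw [red, hw i n, Int.cast_natCast, ZMod.natCast_zmod_val]
  refine ⟨w, fun n => ?_, ext_red fun n => ?_⟩
  · show IsAtMax θ (red n w)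
    rw [hred]; exact hy n
  · rw [red_tauMat, hred, hty]

theorem eq_zero_of_tauMat_mulVec {t : Reps.TZ L} (ht : θ t = 1) {v : HVec L ℤ_[2]}
    (hv : v ∈ locLattice θ) (h : tauMat L ℤ_[2] t *ᵥ v = 0) : v = 0 := ext_red fun n => by
  rw [show red n (0 : HVec L ℤ_[2]) = 0 from funext fun i => map_zero _]
  refine IsAtMax.eq_zero (x := red n v) (hv n) ht ?_
  rw [← red_tauMat, h]
  exact funext fun i => map_zero _

instance LocLat.instFinite (θ : Reps.TZ L →+* ZMod 2) : Module.Finite ℤ_[2] (LocLat θ) :=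
  inferInstanceAs (Module.Finite ℤ_[2] ↥(locLattice θ))

/-- `t ↦ locT θ t` as a ring homomorphism. -/
def locTHom (θ : Reps.TZ L →+* ZMod 2) : Reps.TZ L →+* locHecke θ where
  toFun := locT θ
  map_one' := Subtype.ext (LinearMap.ext fun v => LocLat.val_injective (by
    show LocLat.val (locEnd θ 1 v) = LocLat.val v
    rw [val_locEnd, map_one, one_mulVec]))
  map_mul' t s := Subtype.ext (LinearMap.ext fun v => LocLat.val_injective (by
    show LocLat.val (locEnd θ (t * s) v) = LocLat.val (locEnd θ t (locEnd θ s v))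
    rw [val_locEnd, val_locEnd, val_locEnd, map_mul, mulVec_mulVec]))
  map_zero' := Subtype.ext (LinearMap.ext fun v => LocLat.val_injective (by
    show LocLat.val (locEnd θ 0 v) = LocLat.val (0 : LocLat θ)
    rw [val_locEnd, map_zero, map_zero, zero_mulVec]))
  map_add' t s := Subtype.ext (LinearMap.ext fun v => LocLat.val_injective (by
    show LocLat.val (locEnd θ (t + s) v) = LocLat.val (locEnd θ t v + locEnd θ s v)
    rw [val_locEnd, map_add, map_add, add_mulVec, val_locEnd, val_locEnd]))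

theorem locTHom_apply (t : Reps.TZ L) : locTHom θ t = locT θ t := rfl

/-- Elements congruent to one at `θ` are units of the localised ring. -/
theorem isUnit_locT {t : Reps.TZ L} (ht : θ t = 1) : IsUnit (locT θ t) := by
  have hbij : Function.Bijective (locEnd θ t) := by
    refine ⟨(injective_iff_map_eq_zero _).mpr fun v hv => LocLat.val_injective ?_, fun v => ?_⟩
    · rw [map_zero]
      refine eq_zero_of_tauMat_mulVec ht (LocLat.val_mem v) ?_
      rw [← val_locEnd, hv, map_zero]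
    · obtain ⟨w, hw, hwv⟩ := exists_tauMat_mulVec_eq ht (LocLat.val_mem v)
      exact ⟨⟨w, hw⟩, LocLat.val_injective ((val_locEnd θ t _).trans hwv)⟩
  obtain ⟨u, hu⟩ := (Module.End.isUnit_iff _).mpr hbij
  have hab : locEnd θ t * ↑u⁻¹ = 1 := by rw [← hu, Units.mul_inv]
  have hmem : (↑u⁻¹ : Module.End ℤ_[2] (LocLat θ)) ∈ locHecke θ :=
    mem_of_mul_eq_one _ (locT θ t).2 hab (Algebra.IsIntegral.isIntegral _)
  exact ⟨⟨locT θ t, ⟨_, hmem⟩, Subtype.ext hab,
    Subtype.ext (show (↑u⁻¹ : Module.End ℤ_[2] (LocLat θ)) * locEnd θ t = 1 by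
      rw [← hu, Units.inv_mul])⟩, rfl⟩

/-- Modulo two every element of the localised ring is a Hecke operator. -/
theorem exists_locT_sub (a : locHecke θ) : ∃ t b, a = locT θ t + 2 * b := by
  obtain ⟨a, ha⟩ := a
  induction ha using Algebra.adjoin_induction with
  | mem x hx =>
    obtain ⟨t, rfl⟩ := hx
    exact ⟨t, 0, by rw [mul_zero, add_zero]; rfl⟩
  | algebraMap r =>
    have h := PadicInt.toZMod_spec r
    rw [PadicInt.maximalIdeal_eq_span_p, Ideal.mem_span_singleton'] at h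
    obtain ⟨y, hy⟩ := h
    set k : ℕ := (PadicInt.toZMod r).val
    have e : r = (k : ℤ_[2]) + 2 * y := by
      rw [show (k : ℤ_[2]) = (ZMod.cast (PadicInt.toZMod r) : ℤ_[2]) from ZMod.natCast_val _,
        mul_comm]
      have : (2 : ℤ_[2]) = ((2 : ℕ) : ℤ_[2]) := by norm_num
      rw [this, hy]; ring
    refine ⟨(k : Reps.TZ L), algebraMap ℤ_[2] (locHecke θ) y, ?_⟩
    show algebraMap ℤ_[2] (locHecke θ) r = _
    rw [← locTHom_apply, map_natCast, e, map_add, map_mul, map_natCast, map_ofNat]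
  | add x y hx hy hx' hy' =>
    obtain ⟨t, b, h⟩ := hx'
    obtain ⟨t', b', h'⟩ := hy'
    refine ⟨t + t', b + b', ?_⟩
    rw [show (⟨x + y, _⟩ : locHecke θ) = ⟨x, hx⟩ + ⟨y, hy⟩ from rfl, h, h', ← locTHom_apply,
      ← locTHom_apply, ← locTHom_apply, map_add]
    ring
  | mul x y hx hy hx' hy' =>
    obtain ⟨t, b, h⟩ := hx'
    obtain ⟨t', b', h'⟩ := hy'
    refine ⟨t * t', b * locT θ t' + locT θ t * b' + 2 * b * b', ?_⟩
    rw [show (⟨x * y, _⟩ : locHecke θ) = ⟨x, hx⟩ * ⟨y, hy⟩ from rfl, h, h', ← locTHom_apply,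
      ← locTHom_apply, ← locTHom_apply, map_mul]
    ring

theorem two_mem_of_isMaximal (𝔐 : Ideal (locHecke θ)) [𝔐.IsMaximal] : (2 : locHecke θ) ∈ 𝔐 := by
  haveI : Algebra.IsIntegral ℤ_[2] (locHecke θ) := ⟨fun a =>
    (isIntegral_algHom_iff (locHecke θ).val Subtype.val_injective).mp
      (Algebra.IsIntegral.isIntegral _)⟩
  have h := IsLocalRing.eq_maximalIdeal
    (Ideal.isMaximal_comap_of_isIntegral_of_isMaximal (R := ℤ_[2]) 𝔐)
  have h2 : (2 : ℤ_[2]) ∈ 𝔐.comap (algebraMap ℤ_[2] (locHecke θ)) := by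
    rw [h, PadicInt.maximalIdeal_eq_span_p]
    exact_mod_cast Ideal.mem_span_singleton_self ((2 : ℕ) : ℤ_[2])
  rwa [Ideal.mem_comap, map_ofNat] at h2

variable (θ) in
theorem exists_val_ne_zero : ∃ v ∈ locLattice θ, v ≠ 0 := by
  obtain ⟨x, hx0, hx⟩ := MazurP.exists_mod_eigvec (p := 2) (HeckeH.heckeMatHom L)
    (HeckeH.heckeMatHom_injective L) θ
  have hmax : IsAtMax θ x := ⟨1, fun c hc => hx _ (by rw [map_prod, Fin.prod_univ_one, hc])⟩
  obtain ⟨v, hv, hvx⟩ := exists_red2_eq hmax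
  exact ⟨v, hv, fun h0 => hx0 (hvx.symm.trans (h0 ▸ funext fun i => map_zero _))⟩

theorem nontrivial_locHecke : Nontrivial (locHecke θ) := by
  obtain ⟨v, hv, hv0⟩ := exists_val_ne_zero θ
  refine ⟨0, 1, fun h => hv0 ?_⟩
  have := LinearMap.congr_fun (congrArg Subtype.val h) (⟨v, hv⟩ : LocLat θ)
  exact (congrArg LocLat.val this).symm.trans (map_zero _)

/-- The localised Hecke ring is local. -/
theorem locHecke_isLocalRing : IsLocalRing (locHecke θ) := by
  haveI := nontrivial_locHecke (θ := θ)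
  refine IsLocalRing.of_isUnit_or_isUnit_one_sub_self fun a => ?_
  obtain ⟨t, b, rfl⟩ := exists_locT_sub a
  have key : ∀ (c : Reps.TZ L) (d : locHecke θ), θ c = 1 → IsUnit (locT θ c + 2 * d) := by
    intro c d hc
    by_contra hu
    obtain ⟨𝔐, h𝔐, hmem⟩ := exists_max_ideal_of_mem_nonunits hu
    refine h𝔐.ne_top (Ideal.eq_top_of_isUnit_mem _ ?_ (isUnit_locT hc))
    simpa using 𝔐.sub_mem hmem (𝔐.mul_mem_right d (two_mem_of_isMaximal 𝔐))
  have h01 : θ t = 1 ∨ θ (1 - t) = 1 := by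
    rcases (show θ t = 0 ∨ θ t = 1 by generalize θ t = z; revert z; decide) with h | h
    · exact Or.inr (by rw [map_sub, map_one, h, sub_zero])
    · exact Or.inl h
  rcases h01 with h | h
  · exact Or.inl (key _ _ h)
  · refine Or.inr ?_
    have e : 1 - (locT θ t + 2 * b) = locT θ (1 - t) + 2 * -b := by
      rw [← locTHom_apply, ← locTHom_apply, map_sub, map_one]; ring
    rw [e]
    exact key _ _ h

end FLTAgent.Mod2
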