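import Fermat.Agent.Mod2.HeckePairing
import Fermat.Agent.Mod2.HeckeLoc
import Fermat.Agent.HeckeH.Eigen
import Fermat.Agent.IntStr.Main

/-!
# Two integral vectors generate the period lattice up to finite index, freely

`exists_generators`: for generators `t_j` of the Hecke ring some two integral vectors `w_i` make
the square matrix of the `t_j w_i` (`genMat`) nonsingular, so the lattice has twice the rank of
the Hecke ring. The vectors are found through the pairing of cusp forms with Hecke operators.
-/

set_option autoImplicit false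
set_option linter.unusedSectionVars false
set_option linter.style.haveILetI false

noncomputable section

open Matrix CuspForm ModularCurve CongruenceSubgroup

namespace FLTAgent.Mod2

variable (N : ℕ) [NeZero N]

/-- The matrix with columns `t_j w_i`. -/
def genMat {R : Type*} [CommRing R] {g : ℕ} (b : Fin g → Reps.TZ N) (w : Fin 2 → HVec N R)
    (e : Fin 2 × Fin g ≃ Fin (Period.rankH N)) :
    Matrix (Fin (Period.rankH N)) (Fin (Period.rankH N)) R :=
  Matrix.of fun a c => (tauMat N R (b (e.symm c).2) *ᵥ w (e.symm c).1) a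

theorem det_genMat_map {R S : Type*} [CommRing R] [CommRing S] (f : R →+* S) {g : ℕ}
    (b : Fin g → Reps.TZ N) (w : Fin 2 → HVec N R)
    (e : Fin 2 × Fin g ≃ Fin (Period.rankH N)) :
    f (genMat N b w e).det = (genMat N b (fun i a => f (w i a)) e).det := by
  rw [RingHom.map_det]
  congr 1
  ext a c
  exact congrFun (tauMat_map f (b (e.symm c).2) (w (e.symm c).1)) a

/-- The functional `x ↦ a₁ (f)` on periods, `x` the periods of `(f₀, f₁)`. -/
def coeffFun (i : Fin 2) : HVec N ℂ →ₗ[ℂ] ℂ :=
  (LinearMap.applyₗ' ℂ (1 : Reps.TZ N)).comp ((IntStr.heckePairing N 2).comp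
    (((![LinearMap.fst ℂ _ _, LinearMap.snd ℂ _ _] i)).comp (HeckeH.periodCoord N).symm.toLinearMap))

theorem periodCoord_hecke (t : Reps.TZ N)
    (p : CuspForm (Gamma0 N) 2 × CuspForm (Gamma0 N) 2) :
    tauMat N ℂ t *ᵥ HeckeH.periodCoord N p =
      HeckeH.periodCoord N ((t : Module.End ℂ (CuspForm (Gamma0 N) 2)) p.1,
        (t : Module.End ℂ (CuspForm (Gamma0 N) 2)) p.2) :=
  HeckeH.mulVec_periodCoord N (HeckeH.heckeMat_spec N t p)

theorem heckePairing_one (t : Reps.TZ N) (f : CuspForm (Gamma0 N) 2) :
    IntStr.heckePairing N 2 ((t : Module.End ℂ (CuspForm (Gamma0 N) 2)) f) 1 =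
      IntStr.heckePairing N 2 f t := by
  rw [IntStr.heckePairing_apply, IntStr.heckePairing_apply]
  rfl

/-- The period lattice has twice the rank of the Hecke ring, and two vectors generate it. -/
theorem exists_generators :
    ∃ (g : ℕ) (b : Fin g → Reps.TZ N) (w : Fin 2 → HVec N ℤ)
      (e : Fin 2 × Fin g ≃ Fin (Period.rankH N)),
      Submodule.span ℤ (Set.range b) = ⊤ ∧ (genMat N b w e).det ≠ 0 := by
  classical
  haveI := HeckeH.moduleFinite_heckeAlgebra N
  haveI : Module.Free ℤ (Reps.TZ N) := by
    let f := (HeckeH.heckeMatHom N).toAddMonoidHom.toIntLinearMap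
    haveI : Module.Free ℤ (LinearMap.range f) := inferInstance
    exact Module.Free.of_equiv (LinearEquiv.ofInjective f (HeckeH.heckeMatHom_injective N)).symm
  set g := Module.finrank ℤ (Reps.TZ N)
  let B : Module.Basis (Fin g) ℤ (Reps.TZ N) := Module.finBasis ℤ _
  haveI := Period.finiteDimensional_cuspForm_two (N := N)
  have hS : Module.finrank ℂ (CuspForm (Gamma0 N) 2) = g := by
    rw [((LinearEquiv.ofBijective _ (IntStr.heckePairing_two_bijective N)).trans
      (B.constr ℂ).symm).finrank_eq, Module.finrank_fin_fun]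
  have hr : Fintype.card (Fin 2 × Fin g) = Period.rankH N := by
    rw [Fintype.card_prod, Fintype.card_fin, Fintype.card_fin]
    have h := (HeckeH.periodCoord N).finrank_eq
    rw [Module.finrank_prod, hS, Module.finrank_fin_fun] at h
    omega
  let e := Fintype.equivFinOfCardEq hr
  refine ⟨g, B, ?_⟩
  suffices h : ∃ w : Fin 2 → HVec N ℤ, (genMat N B w e).det ≠ 0 by
    obtain ⟨w, hw⟩ := h
    exact ⟨w, e, B.span_eq, hw⟩
  -- a solution over `ℂ`
  obtain ⟨P, hP, hPt⟩ := exists_pairing N
  set Q : Matrix (Fin (Period.rankH N)) (Fin (Period.rankH N)) ℂ := P.map (Int.cast : ℤ → ℂ)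
  have hQdet : Q.det ≠ 0 := by
    rw [show Q = (Int.castRingHom ℂ).mapMatrix P from rfl, ← RingHom.map_det, eq_intCast,
      Int.cast_ne_zero]
    exact fun h => hP (h ▸ dvd_zero _)
  have hQ : IsUnit Q := (Matrix.isUnit_iff_isUnit_det Q).mpr (isUnit_iff_ne_zero.mpr hQdet)
  have hQt : ∀ t : Reps.TZ N, (tauMat N ℂ t)ᵀ * Q = Q * tauMat N ℂ t := fun t => by
    have h := congrArg (Int.castRingHom ℂ).mapMatrix (hPt t)
    simp only [map_mul] at h
    exact h
  choose w hw using fun i : Fin 2 => Matrix.vecMul_surjective_iff_isUnit.mpr hQ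
    (fun a => coeffFun N i (Pi.single a 1))
  have hμ : ∀ i x, coeffFun N i x = w i ⬝ᵥ Q *ᵥ x := fun i x => by
    rw [dotProduct_mulVec, show w i ᵥ* Q = _ from hw i, dotProduct]
    conv_lhs => rw [pi_eq_sum_univ' x, map_sum]
    exact Finset.sum_congr rfl fun a _ => by rw [map_smul, smul_eq_mul, mul_comm]
  have hC : (genMat N B w e).det ≠ 0 := by
    intro h0
    obtain ⟨y, hy0, hy⟩ := Matrix.exists_vecMul_eq_zero_iff.mpr h0
    obtain ⟨x, rfl⟩ := Matrix.mulVec_surjective_iff_isUnit.mpr hQ y
    obtain ⟨p, rfl⟩ := (HeckeH.periodCoord N).surjective x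
    have key : ∀ i j, coeffFun N i (tauMat N ℂ (B j) *ᵥ HeckeH.periodCoord N p) = 0 := by
      intro i j
      have h := congrFun hy (e (i, j))
      simp only [Matrix.vecMul, genMat, Matrix.of_apply, Equiv.symm_apply_apply,
        Pi.zero_apply] at h
      rw [hμ, mulVec_mulVec, ← hQt, ← mulVec_mulVec, dotProduct_mulVec, vecMul_transpose]
      exact (dotProduct_comm _ _).trans h
    have hzero : ∀ f : CuspForm (Gamma0 N) 2, (∀ j, IntStr.heckePairing N 2 f (B j) = 0) → f = 0 :=
      fun f hf => (IntStr.heckePairing_two_bijective N).1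
        ((B.ext fun j => (hf j).trans rfl).trans (map_zero _).symm)
    have h1 : p.1 = 0 := hzero _ fun j => by
      have := key 0 j
      rw [periodCoord_hecke] at this
      simp only [coeffFun, LinearMap.comp_apply, LinearEquiv.coe_coe, LinearEquiv.symm_apply_apply,
        Matrix.cons_val_zero, LinearMap.fst_apply, LinearMap.applyₗ'_apply_apply] at this
      rwa [heckePairing_one] at this
    have h2 : p.2 = 0 := hzero _ fun j => by
      have := key 1 j
      rw [periodCoord_hecke] at this
      simp only [coeffFun, LinearMap.comp_apply, LinearEquiv.coe_coe, LinearEquiv.symm_apply_apply,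
        Matrix.cons_val_one, Matrix.cons_val_fin_one, LinearMap.snd_apply,
        LinearMap.applyₗ'_apply_apply] at this
      rwa [heckePairing_one] at this
    exact hy0 (by rw [show p = 0 from Prod.ext h1 h2, map_zero, mulVec_zero])
  -- an integral one
  by_contra hne
  push Not at hne
  let X : Fin 2 → HVec N (MvPolynomial (Fin 2 × Fin (Period.rankH N)) ℤ) :=
    fun i a => MvPolynomial.X (i, a)
  have hpoly : (genMat N B X e).det = 0 := MvPolynomial.funext fun z => by
    rw [det_genMat_map, map_zero]
    have := hne fun i a => z (i, a)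
    simpa [X] using this
  refine hC ?_
  have := det_genMat_map N (MvPolynomial.eval₂Hom (Int.castRingHom ℂ) fun q => w q.1 q.2) B X e
  rw [hpoly, map_zero] at this
  simpa [X] using this.symm

end FLTAgent.Mod2
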