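import Fermat.Agent.Mod2.HeckeOldPart
import Fermat.Agent.BadOdd.Frobenius
import Fermat.Agent.Local.Existence

/-!
# Vectors fixed by inertia at a prime `q` dividing the level exactly once

Up to a multiple `F² - q²`, `F` a Frobenius, maps them into the old subspace (`exists_old_smul`),
on which `U_q²` is nowhere one (`avec_eq_zero_of_sq`). Hence `F²` is `q²` on the fixed lattice
vectors killed by `U_q² - 1` (`frob_sq_of_fixed`).
-/

set_option autoImplicit false
set_option linter.style.haveILetI false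
set_option linter.unusedSectionVars false
set_option maxHeartbeats 1000000

noncomputable section

open Matrix
open FLTAgent.Ihara (alpha betaMap)

namespace FLTAgent.Mod2

local notation "Qb" => AlgebraicClosure ℚ
local notation "Γℚ" => (AlgebraicClosure ℚ ≃ₐ[ℚ] AlgebraicClosure ℚ)

open FLTAgent.Local (linMap galRep)

/-- The Galois action over a field. -/
abbrev galK {p : ℕ} [Fact p.Prime] {K : Type} [Field K] (f : ℤ_[p] →+* K) (N : ℕ) [NeZero N]
    (σ : Γℚ) : Module.End K (Fin (Period.rankH N) → K) :=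
  linMap f (BadOdd.galP p N σ)

/-- Up to a multiple, `F ^ 2 - q ^ 2` maps the vectors fixed by inertia to the old subspace. -/
theorem exists_old_smul {p : ℕ} [Fact p.Prime] {q M N : ℕ} [NeZero q] [NeZero M] [NeZero N]
    (hq : q.Prime) (hqp : q ≠ p) (hqM : ¬ q ∣ M) (hN : N = q * M) (h1 : M * 1 ∣ N)
    (h2 : M * q ∣ N) {K : Type} [Field K] [CharZero K] {f : ℤ_[p] →+* K}
    (hf : Function.Injective f) {A : ValuationSubring Qb} (hA : A.LiesOverPrime q) {F : Γℚ}
    (hF : A.IsFrobeniusAt F q) (y : Fin (Period.rankH N) → K)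
    (hy : ∀ i ∈ A.inertiaSubgroupIn ℚ, galK f N i y = y) :
    ∃ d : ℕ, d ≠ 0 ∧ ∃ x x' : Fin (Period.rankH M) → K,
      (d : K) • (galK f N F (galK f N F y) - (q : K) ^ 2 • y) =
        linMap (Int.castRingHom K) (Degen.degTw 1 h1) x +
          linMap (Int.castRingHom K) (Degen.degTw q h2) x' := by
  classical
  subst hN
  haveI := Degen.auxLevel_ne_zero q M
  set M' := Degen.auxLevel q M with hM'
  have hM : q.Coprime M' := Degen.coprime_auxLevel hq hqM
  have hNM : M ∣ M' := Degen.dvd_auxLevel q M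
  let g₀ := Degen.canModel M p
  let g₁ := Degen.canModel (q * M) p
  let h₀ := Degen.canModel M' p
  let h₁ := Degen.canModel (q * M') p
  let h₂ := Degen.canModel (q ^ 2 * M') p
  obtain ⟨k, hrank, htor⟩ := Degen.exists_toric hq hqp hM (Degen.aux_dvd hq) h₁
  obtain ⟨θ, hθ, hθc, hθa⟩ := Degen.exists_theta_model h₁
  let sq := Degen.degSquare g₀ g₁ h₀ h₁ q (by rw [mul_one]; exact dvd_mul_left _ _)
    (by rw [mul_comm]) (by rw [mul_one]; exact dvd_mul_left _ _) (by rw [mul_comm])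
    (by rw [mul_one]; exact Nat.mul_dvd_mul_left q hNM)
    (hM.mul_dvd_of_dvd_of_dvd ((dvd_mul_right q M).trans (Nat.dvd_lcm_left _ _))
      (Nat.dvd_lcm_right _ _))
    (Degen.index_subG0_mul hNM hM)
  let D : Local.DataOneCore p q M (q * M) M' (q * M') :=
    { g₀ := g₀.toGalModel
      g₁ := g₁.toGalModel
      h₀ := h₀.toGalModel
      h₁ := h₁.toGalModel
      sq := sq
      not_dvd := hq.coprime_iff_not_dvd.mp hM
      deg_injective := fun _ _ h => Degen.degTw_injective hM hq.two_le _ _ h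
      k := k
      rank_le := hrank
      toric := htor
      θ := θ
      θ_det := hθ
      θ_comm := hθc
      θ_anti := hθa }
  -- the bound on the fixed vectors at the auxiliary level
  let a' := Degen.galMap h₁ h₂ 1 (by rw [mul_one]; exact ⟨q, by ring⟩)
  let b' := Degen.galMap h₁ h₂ q ⟨1, by ring⟩
  have hone : Module.finrank K (⨅ i ∈ A.inertiaSubgroupIn ℚ,
      LinearMap.ker ((f.mapMatrix (D.h₁.M i)).mulVecLin - LinearMap.id) :
        Submodule K (Fin D.h₁.r → K)) ≤ 2 * D.h₀.r + k :=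
    @Local.fixed_one_le p _ (q * M') (q ^ 2 * M') _ _ h₁.toGalModel h₂.toGalModel a' b'
      (Period.rankH M') k hrank K _ _ f {x | x ∈ A.inertiaSubgroupIn ℚ}
      (Degen.finrank_ker_degTw_le hq rfl _ _ K)
      (Degen.fixed_le hq hqp hM (Degen.aux_dvd hq) h₂ A hA K f)
  obtain ⟨K', hKk, hKi, hKF⟩ := Local.exists_toric_L D hf hA
  obtain ⟨hOF, -, hOq⟩ := Local.frobenius_oldSub D (f := f) hq hqp hA hF
  let Z : Submodule K (Fin D.h₁.r → K) := ⨅ i ∈ A.inertiaSubgroupIn ℚ,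
    LinearMap.ker ((f.mapMatrix (D.h₁.M i)).mulVecLin - LinearMap.id)
  have hmem : ∀ z, z ∈ Z ↔ ∀ i ∈ A.inertiaSubgroupIn ℚ, galRep f D.h₁ i z = z := by
    intro z
    simp only [Z, Submodule.mem_iInf, LinearMap.mem_ker, LinearMap.sub_apply, LinearMap.id_apply,
      sub_eq_zero]
    rfl
  have hdisj : Disjoint D.oldSub K' := by
    rw [Submodule.disjoint_def]
    exact fun w hw hw' => hOq w hw (hKF F hF w hw')
  have hX : D.oldSub ⊔ K' = Z := by
    refine Submodule.eq_of_le_of_finrank_le ?_ ?_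
    · refine sup_le
        (fun w hw => (hmem w).mpr fun i hi => Local.inertia_oldSub D hq hqp hA hi hw)
        (fun w hw => (hmem w).mpr fun i hi => hKi i hi w hw)
    · refine hone.trans ?_
      have h := Submodule.finrank_sup_add_finrank_inf_eq D.oldSub K'
      rw [disjoint_iff.mp hdisj, finrank_bot, add_zero, Local.finrank_oldSub, hKk] at h
      exact h.ge
  obtain ⟨y₁, hy₁⟩ : ∃ y₁ : Fin D.g₁.r → K, y₁ = y := ⟨y, rfl⟩
  have hy' : ∀ i ∈ A.inertiaSubgroupIn ℚ, galRep f D.g₁ i y₁ = y₁ := hy₁ ▸ hy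
  set u := linMap (Int.castRingHom K) D.sq.up.mat y₁ with hu
  have huZ : u ∈ Z := (hmem u).mpr fun i hi => by rw [hu, Local.galMap_comm, hy' i hi]
  rw [← hX] at huZ
  obtain ⟨o, ho, w, hw, how⟩ := Submodule.mem_sup.mp huZ
  have hold : galRep f D.h₁ F (galRep f D.h₁ F u) - (q : K) ^ 2 • u ∈ D.oldSub := by
    rw [← how, map_add, map_add, hKF F hF w hw, smul_add, add_sub_add_right_eq_sub]
    exact sub_mem (hOF _ (hOF o ho)) (D.oldSub.smul_mem _ ho)
  obtain ⟨⟨s, s'⟩, hss⟩ := hold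
  refine ⟨D.sq.d, D.sq.d_ne_zero, linMap (Int.castRingHom K) D.sq.downA s,
    linMap (Int.castRingHom K) D.sq.downB s', ?_⟩
  have hdown : ∀ v : Fin D.g₁.r → K,
      linMap (Int.castRingHom K) D.sq.down
        (galRep f D.h₁ F (galRep f D.h₁ F (linMap (Int.castRingHom K) D.sq.up.mat v)) -
          (q : K) ^ 2 • linMap (Int.castRingHom K) D.sq.up.mat v) = (D.sq.d : K) •
        (galRep f D.g₁ F (galRep f D.g₁ F v) - (q : K) ^ 2 • v) := by
    intro v
    rw [Local.galMap_comm, Local.galMap_comm, ← map_smul, ← map_sub, ← Local.linMap_mul,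
      D.sq.down_up, Local.linMap_smul, eq_intCast, Int.cast_natCast]
    simp [Local.linMap_apply]
  subst hy₁
  refine ((hdown y₁).symm.trans ?_ :)
  rw [← hu]
  rw [← hss, Local.DataOneCore.oldMap, LinearMap.coprod_apply, map_add, ← Local.linMap_mul,
    ← Local.linMap_mul, D.sq.down_a, D.sq.down_b, Local.linMap_mul, Local.linMap_mul]
  rfl

variable {M q : ℕ} [NeZero M] [NeZero (M * q)] [Fact q.Prime] (hqM : ¬ q ∣ M)

/-- The corestrictions after the pullbacks. -/
theorem gvec_avec (R : Type) [CommRing R] (x y : HVec M R) :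
    gvec hqM R (avec M q R (x, y)) =
      (tauMat M R (tqM M q) *ᵥ (tauMat M R (tqM M q) *ᵥ x + (q + 1) • y) -
          ((q + 1) • x + tauMat M R (tqM M q) *ᵥ y),
        -(tauMat M R (tqM M q) *ᵥ x + (q + 1) • y)) := by
  obtain ⟨φ, rfl⟩ := (Period.evalEquiv M R R).surjective x
  obtain ⟨ψ, rfl⟩ := (Period.evalEquiv M R R).surjective y
  rw [avec_apply, gvec_apply, Ihara.betaMap_alpha hqM]
  simp only [tauMat_qPr_evalEquiv, ← map_nsmul, ← map_add, ← map_sub]

include hqM in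
/-- On the old space `U_q ^ 2` is nowhere one. -/
theorem avec_eq_zero_of_sq {K : Type} [Field K] [CharZero K] {w : PVec M K}
    (h : tauMat (M * q) K (Reps.heckeGenOf (M * q) (qPr q) ^ 2 - 1) *ᵥ avec M q K w = 0) :
    avec M q K w = 0 := by
  have hG : ∀ x y : HVec M K, gvec hqM K (avec M q K (x, y)) = 0 → x = 0 ∧ y = 0 := by
    intro x y h
    rw [gvec_avec, Prod.mk_eq_zero, neg_eq_zero] at h
    obtain ⟨h1, h2⟩ := h
    rw [h2, mulVec_zero, zero_sub, neg_eq_zero] at h1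
    set T := tauMat M K (tqM M q) with hT
    have hy : ((q + 1 : ℕ) : K) • y = -(T *ᵥ x) := by
      rw [Nat.cast_smul_eq_nsmul, eq_neg_iff_add_eq_zero, add_comm, h2]
    have hx : ((q + 1 : ℕ) : K) • x = -(T *ᵥ y) := by
      rw [Nat.cast_smul_eq_nsmul, eq_neg_iff_add_eq_zero, h1]
    have hx0 : x = 0 := by
      refine Local.heckeL_sq_injective (L := K) (Reps.galModel M 2) (Fact.out : q.Prime) hqM ?_
      have e : ∀ v : HVec M K,
          Local.heckeL (L := K) (Reps.galModel M 2) (Fact.out : q.Prime) hqM v = T *ᵥ v := by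
        intro v
        rw [hT, tqM, show Reps.heckeGenOf M (qPr q) =
          Reps.heckeTOf (Fact.out : q.Prime) hqM from Reps.heckeGenOf_T M Fact.out hqM]
        rfl
      rw [e, e, ← neg_neg (T *ᵥ x), ← hy, mulVec_neg, mulVec_smul, ← smul_neg, ← hx, smul_smul,
        ← sq, Nat.cast_add, Nat.cast_one]
      rfl
    refine ⟨hx0, ?_⟩
    rw [hx0, mulVec_zero, neg_zero] at hy
    exact (smul_eq_zero.mp hy).resolve_left (Nat.cast_ne_zero.mpr (Nat.succ_ne_zero q))
  rw [tauMat_sq_sub hqM] at h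
  obtain ⟨x, y⟩ := w
  obtain ⟨x', y', hxy⟩ : ∃ x' y', gvec hqM K (avec M q K (x, y)) = (x', y') := ⟨_, _, rfl⟩
  rw [hxy] at h
  obtain ⟨hx', hy'⟩ := hG x' y' (by rw [h, map_zero])
  rw [hx', hy'] at hxy
  obtain ⟨hx, hy⟩ := hG x y hxy
  rw [hx, hy]
  exact map_zero _

include hqM in
/-- In twisted coordinates the first degeneracy map is the second pullback. -/
theorem degTw_one_eq_degMat :
    Degen.degTw 1 (Ihara.dvd_one_mul' M q) = Degen.degMat q (Ihara.dvd_self_mul' M q) := by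
  rw [Degen.degTw, ← BadOdd.degTw_eq_degMat_one, Degen.degTw]
  simp only [Matrix.mul_assoc]
  rw [Degen.frickeMat_mul_self, Matrix.mul_one, ← Matrix.mul_assoc, Degen.frickeMat_mul_self,
    Matrix.one_mul]

include hqM in
/-- A lattice vector fixed by inertia on which `U_q ^ 2` is one has Frobenius squared `q ^ 2`. -/
theorem frob_sq_of_fixed (hq2 : q ≠ 2) (A : ValuationSubring Qb) (hA : A.LiesOverPrime q)
    {φ : Γℚ} (hφ : A.IsFrobeniusAt φ q) (y : HVec (M * q) ℤ_[2])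
    (hy : ∀ τ ∈ A.inertiaSubgroupIn ℚ, galM (M * q) τ *ᵥ y = y)
    (hU : tauMat (M * q) ℤ_[2] (Reps.heckeGenOf (M * q) (qPr q) ^ 2 - 1) *ᵥ y = 0) :
    galM (M * q) φ *ᵥ (galM (M * q) φ *ᵥ y) = q ^ 2 • y := by
  haveI : NeZero q := ⟨(Fact.out : q.Prime).ne_zero⟩
  let f : ℤ_[2] →+* ℚ_[2] := PadicInt.Coe.ringHom
  have hf : Function.Injective f := fun a b h => Subtype.ext h
  have hgal : ∀ (σ : Γℚ) (v : HVec (M * q) ℤ_[2]),
      galK f (M * q) σ (f ∘ v) = f ∘ (galM (M * q) σ *ᵥ v) := fun σ v =>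
    (funext fun i => RingHom.map_mulVec f _ v i).symm
  obtain ⟨d, hd, x, x', hdx⟩ := exists_old_smul (p := 2) (Fact.out : q.Prime) hq2 hqM
    (mul_comm M q) (Ihara.dvd_one_mul' M q) (Ihara.dvd_self_mul' M q) hf hA hφ (f ∘ y)
    fun τ hτ => (hgal τ y).trans (by rw [hy τ hτ])
  set z : HVec (M * q) ℤ_[2] := galM (M * q) φ *ᵥ (galM (M * q) φ *ᵥ y) - q ^ 2 • y with hz
  have hfz : f ∘ z = galK f (M * q) φ
      (galK f (M * q) φ (f ∘ y)) - (q : ℚ_[2]) ^ 2 • (f ∘ y) := by
    rw [hgal, hgal]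
    funext i
    simp [hz]
  rw [← hfz, degTw_one_eq_degMat hqM, BadOdd.degTw_eq_degMat_one, Local.linMap_apply,
    Local.linMap_apply, add_comm] at hdx
  replace hdx : (d : ℚ_[2]) • (f ∘ z) = avec M q ℚ_[2] (x', x) := hdx.trans (avec_eq _ (x', x)).symm
  have hUz : tauMat (M * q) ℤ_[2] (Reps.heckeGenOf (M * q) (qPr q) ^ 2 - 1) *ᵥ z = 0 := by
    have hc : ∀ σ, Commute (galM (M * q) σ)
        (tauMat (M * q) ℤ_[2] (Reps.heckeGenOf (M * q) (qPr q) ^ 2 - 1)) := fun σ =>
      (Reps.galModel (M * q) 2).commute_hecke σ (Reps.heckeGenOf (M * q) (qPr q) ^ 2 - 1)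
    have hcv : ∀ v, tauMat (M * q) ℤ_[2] (Reps.heckeGenOf (M * q) (qPr q) ^ 2 - 1) *ᵥ
        (galM (M * q) φ *ᵥ v) = galM (M * q) φ *ᵥ
          (tauMat (M * q) ℤ_[2] (Reps.heckeGenOf (M * q) (qPr q) ^ 2 - 1) *ᵥ v) := fun v => by
      rw [mulVec_mulVec, mulVec_mulVec, (hc φ).eq]
    rw [hz, mulVec_sub, mulVec_smul, hcv, hcv, hU, mulVec_zero, mulVec_zero, smul_zero, sub_zero]
  have h0 := avec_eq_zero_of_sq hqM (w := ((x', x) : PVec M ℚ_[2])) (by
    rw [← hdx, mulVec_smul, ← tauMat_mulVec_map, hUz]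
    simp)
  rw [h0, smul_eq_zero] at hdx
  refine sub_eq_zero.mp (funext fun i => hf ?_)
  rw [Pi.zero_apply, map_zero]
  exact congrFun (hdx.resolve_left (Nat.cast_ne_zero.mpr hd)) i

end FLTAgent.Mod2
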