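import Fermat.Agent.Mod2.HeckeOldPart
import Fermat.Agent.Density.Main

/-!
# Ihara's lemma modulo two on the localised lattices

At a non-Eisenstein system the sum of the pullbacks is injective modulo two (`avec_two_eq_zero`)
and the corestrictions are onto (`exists_gvec_two_eq`). On localised lattices these are `aLoc`,
injective, and `gLoc`, surjective, with composite `U_q² - 1`; `LocOld` relates the localised
Hecke ring to the localised old ring, uniquely (`exists_locOld`, `LocOld.unique`).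
-/

set_option autoImplicit false
set_option linter.unusedSectionVars false
set_option linter.style.haveILetI false

noncomputable section

open Matrix Polynomial
open FLTAgent.Ihara (alpha betaMap)

namespace FLTAgent.Mod2

local notation "Qb" => AlgebraicClosure ℚ
local notation "Γℚ" => (AlgebraicClosure ℚ ≃ₐ[ℚ] AlgebraicClosure ℚ)

/-! ### Residual traces -/

theorem mat2_trace_zero (g : Mat2 (ZMod 2)) (hd : g.det ≠ 0) (ht : g.trace = 0) : g * g = 1 := by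
  rw [Matrix.eta_fin_two g] at hd ht ⊢
  rw [Matrix.det_fin_two_of] at hd
  rw [Matrix.trace_fin_two_of] at ht
  rw [Matrix.mul_fin_two, Matrix.one_fin_two]
  revert hd ht
  generalize g 0 0 = a, g 0 1 = b, g 1 0 = c, g 1 1 = d
  revert a b c d
  decide

theorem mat2_trace_of_sq (g : Mat2 (ZMod 2)) (hne : g ≠ 1) (hsq : g * g = 1) : g.trace = 0 := by
  rw [Matrix.eta_fin_two g] at hne hsq ⊢
  rw [Matrix.trace_fin_two_of]
  rw [Matrix.mul_fin_two, Matrix.one_fin_two] at hsq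
  rw [Matrix.one_fin_two] at hne
  revert hne hsq
  generalize g 0 0 = a, g 0 1 = b, g 1 0 = c, g 1 1 = d
  revert a b c d
  decide

theorem det_rho_ne_zero (D : Setup) (σ : Γℚ) : (D.rho σ).det ≠ 0 := fun h => by
  have h1 := congrArg Matrix.det ((map_mul D.rho σ σ⁻¹).symm.trans
    ((congrArg D.rho (mul_inv_cancel σ)).trans (map_one D.rho)))
  rw [Matrix.det_mul, h, zero_mul, Matrix.det_one] at h1
  exact zero_ne_one h1

theorem trace_rho_pow_of_trace_zero (D : Setup) {g : Γℚ} (h : (D.rho g).trace = 0) (k : ℕ) :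
    (D.rho (g ^ k)).trace = 0 := by
  have h2 := mat2_trace_zero _ (det_rho_ne_zero D g) h
  rw [map_pow]
  rcases Nat.even_or_odd' k with ⟨j, rfl | rfl⟩
  · rw [pow_mul, sq, h2, one_pow]; decide
  · rw [pow_succ, pow_mul, sq, h2, one_pow, one_mul, h]

/-- An odd prime outside the level with an odd trace. -/
theorem exists_trace_one (D : Setup) (L : ℕ) [NeZero L] :
    ∃ ℓ : ℕ, ℓ.Prime ∧ ℓ ≠ 2 ∧ ¬ ℓ ∣ L ∧ ∃ (A : ValuationSubring Qb) (φ : Γℚ),
      A.LiesOverPrime ℓ ∧ A.IsFrobeniusAt φ ℓ ∧ (D.rho φ).trace = 1 := by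
  by_contra hne
  push Not at hne
  obtain ⟨F, hF, hfix⟩ := D.cont
  haveI := hF
  obtain ⟨g, hg⟩ := D.surj !![0, 1; 1, 1] (by decide)
  have h0 : (D.rho g).trace = 0 := Density.forall_of_forall_isFrobeniusAt
    (P := fun g => (D.rho g).trace = 0) F.fixingSubgroup F.fixingSubgroup_isOpen
    (insert 2 L.primeFactors)
    (fun g u hu h => by
      rw [map_mul, hfix u fun x hx => (IntermediateField.mem_fixingSubgroup_iff _ _).mp hu x hx,
        mul_one]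
      exact h)
    (fun g k h => trace_rho_pow_of_trace_zero D h k)
    (fun ℓ hℓ hS A hA τ hτ => by
      rw [Finset.mem_insert, Nat.mem_primeFactors, not_or] at hS
      have h := hne ℓ hℓ hS.1 (fun h => hS.2 ⟨hℓ, h, NeZero.ne L⟩) A τ hA hτ
      revert h
      generalize (D.rho τ).trace = z
      revert z
      decide) g
  rw [hg] at h0
  exact absurd h0 (by decide)

variable {M q : ℕ} [NeZero M] [NeZero (M * q)] [Fact q.Prime] {D : Setup}

theorem LevelHyp.isAux (hL : LevelHyp D (M * q)) (hM : LevelHyp D M) (hqM : ¬ q ∣ M) :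
    D.IsAux q :=
  hL.aux q Fact.out (dvd_mul_left q M) fun h => hqM (h.trans hM.dvd)

theorem ResSys.theta_gen {L : ℕ} [NeZero L] (S : ResSys L D) (r : Nat.Primes)
    (h : ¬ (r : ℕ) ∣ L) {A : ValuationSubring Qb} (hA : A.LiesOverPrime r) {φ : Γℚ}
    (hφ : A.IsFrobeniusAt φ r) : S.θ (Reps.heckeGenOf L r) = (D.rho φ).trace := by
  rw [show Reps.heckeGenOf L r = Reps.heckeTOf r.2 h from Reps.heckeGenOf_T L r.2 h]
  exact S.good r r.2 h A hA φ hφ

theorem theta_tq_eq_zero (hL : LevelHyp D (M * q)) (hM : LevelHyp D M) (hqM : ¬ q ∣ M)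
    (S₀ : ResSys M D) : S₀.θ (tqM M q) = 0 := by
  obtain ⟨A, hA⟩ := GalCommon.exists_liesOverPrime (ℓ := q) Fact.out
  obtain ⟨φ, hφ⟩ := GalCommon.exists_isFrobeniusAt Fact.out hA
  obtain ⟨-, -, h⟩ := hL.isAux hM hqM
  rw [S₀.theta_gen (qPr q) hqM hA hφ]
  exact mat2_trace_of_sq _ (h A hA φ hφ).1 (h A hA φ hφ).2

theorem not_two_dvd (hM : LevelHyp D M) (hqM : ¬ q ∣ M) : ¬ 2 ∣ q := fun h =>
  hqM (((Nat.prime_dvd_prime_iff_eq Nat.prime_two (Fact.out : q.Prime)).mp h).symm ▸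
    (dvd_mul_right 2 D.m).trans hM.dvd)

theorem compat_of (hL : LevelHyp D (M * q)) (hM : LevelHyp D M) (hqM : ¬ q ∣ M)
    (S : ResSys (M * q) D) (S₀ : ResSys M D) : Compat S.θ S₀.θ where
  tq := theta_tq_eq_zero hL hM hqM S₀
  odd := not_two_dvd hM hqM
  gen r hr := by
    by_cases h : (r : ℕ) ∣ M
    · rw [S.U_one r (h.mul_right q), S₀.U_one r h]
    · have h' : ¬ (r : ℕ) ∣ M * q := fun h' => (r.2.dvd_mul.mp h').elim h fun h' =>
        hr ((Nat.prime_dvd_prime_iff_eq r.2 Fact.out).mp h')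
      obtain ⟨A, hA⟩ := GalCommon.exists_liesOverPrime r.2
      obtain ⟨φ, hφ⟩ := GalCommon.exists_isFrobeniusAt r.2 hA
      rw [S.theta_gen r h' hA hφ, S₀.theta_gen r h hA hφ]
  self := S.U_one (qPr q) (dvd_mul_left q M)

/-- An Eisenstein element congruent to one at `θ₀`. -/
theorem exists_eis_prime (S₀ : ResSys M D) :
    ∃ (ℓ : ℕ) (hℓ : ℓ.Prime) (hℓM : ¬ ℓ ∣ M), ℓ ≠ 2 ∧ ¬ ℓ ∣ M * q ∧
      S₀.θ (Ihara.eisT M hℓ hℓM) = 1 := by
  obtain ⟨ℓ, hℓ, hℓ2, hℓL, A, φ, hA, hφ, htr⟩ := exists_trace_one D (M * q)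
  have hℓM : ¬ ℓ ∣ M := fun h => hℓL (h.mul_right q)
  refine ⟨ℓ, hℓ, hℓM, hℓ2, hℓL, ?_⟩
  rw [Ihara.eisT, map_sub, map_natCast]
  rw [show S₀.θ (CuspForm.heckeAlgebra.T hℓ hℓM (Set.notMem_empty ℓ)) = 1 from
    (S₀.good ℓ hℓ hℓM A hA φ hφ).trans htr,
    show ((ℓ + 1 : ℕ) : ZMod 2) = 0 from (ZMod.natCast_eq_zero_iff_even).mpr
      ((hℓ.eq_two_or_odd'.resolve_left hℓ2).add_odd odd_one), sub_zero]

/-! ### Ihara's lemma modulo two -/

theorem evalEquiv_eisOp {ℓ : ℕ} (hℓ : ℓ.Prime) (hℓM : ¬ ℓ ∣ M) (φ : Period.H M (ZMod 2) (ZMod 2)) :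
    Period.evalEquiv M (ZMod 2) (ZMod 2) (Ihara.eisOp M hℓ (ZMod 2) φ) =
      tauMat M (ZMod 2) (Ihara.eisT M hℓ hℓM) *ᵥ Period.evalEquiv M (ZMod 2) (ZMod 2) φ := by
  rw [tauMat_evalEquiv, Ihara.heckeEnd_eisT, Ihara.eisOp_apply, Nat.cast_smul_eq_nsmul]

variable (hqM : ¬ q ∣ M) {θ : Reps.TZ (M * q) →+* ZMod 2} {θ₀ : Reps.TZ M →+* ZMod 2}

section IharaTwo

include hqM

/-- The sum of the two pullbacks is injective modulo two at a non-Eisenstein system. -/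
theorem avec_two_eq_zero {ℓ : ℕ} (hℓ : ℓ.Prime) (hℓM : ¬ ℓ ∣ M) (hℓ2 : ℓ ≠ 2) (hℓL : ¬ ℓ ∣ M * q)
    (ht : θ₀ (Ihara.eisT M hℓ hℓM) = 1) {w : PVec M (ZMod 2)} (hw : PairAtMax θ₀ w)
    (h : avec M q (ZMod 2) w = 0) : w = 0 := by
  obtain ⟨x, y⟩ := w
  obtain ⟨φ, rfl⟩ := (Period.evalEquiv M (ZMod 2) (ZMod 2)).surjective x
  obtain ⟨ψ, rfl⟩ := (Period.evalEquiv M (ZMod 2) (ZMod 2)).surjective y
  rw [avec_apply, LinearEquiv.map_eq_zero_iff] at h
  obtain ⟨k1, k2⟩ := Ihara.ihara_kernel hqM (cp := 2) Nat.prime_two hℓ hℓ2 hℓL h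
  have z : ∀ u, IsAtMax θ₀ (Period.evalEquiv M (ZMod 2) (ZMod 2) u) →
      Ihara.eisOp M hℓ (ZMod 2) (Ihara.eisOp M hℓ (ZMod 2) u) = 0 →
        Period.evalEquiv M (ZMod 2) (ZMod 2) u = 0 := by
    intro u hu h2
    have h3 := congrArg (Period.evalEquiv M (ZMod 2) (ZMod 2)) h2
    rw [evalEquiv_eisOp hℓ hℓM, evalEquiv_eisOp hℓ hℓM, map_zero] at h3
    exact hu.eq_zero ht ((hu.tau _).eq_zero ht h3)
  exact Prod.ext (z φ hw.1 k1) (z ψ hw.2 k2)

/-- The two corestrictions are onto modulo two at a non-Eisenstein system. -/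
theorem exists_gvec_two_eq (hc : Compat θ θ₀) {ℓ : ℕ} (hℓ : ℓ.Prime) (hℓM : ¬ ℓ ∣ M)
    (hℓ2 : ℓ ≠ 2) (hℓL : ¬ ℓ ∣ M * q) (ht : θ₀ (Ihara.eisT M hℓ hℓM) = 1)
    {w : PVec M (ZMod 2)} (hw : PairAtMax θ₀ w) :
    ∃ v, IsAtMax θ v ∧ gvec hqM (ZMod 2) v = w := by
  classical
  -- some multiple by an element fixed by the system is in the image
  obtain ⟨g, hg⟩ := exists_projector θ (ZMod 2)
  obtain ⟨z, hz, hz'⟩ := hc.exists_partner hqM g
  set u := z * AdjoinRoot.of _ (Ihara.eisT M hℓ hℓM * Ihara.eisT M hℓ hℓM) with hu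
  have hu1 : thetaBar hc.tq hc.odd u = 1 := by
    rw [hu, map_mul, thetaBar_of, ← hz', hg.map_eq_one, map_mul, ht, one_mul, one_mul]
  let F : {w : PVec M (ZMod 2) // PairAtMax θ₀ w} → {w : PVec M (ZMod 2) // PairAtMax θ₀ w} :=
    fun w => ⟨oldEnd M q (ZMod 2) u w.1, w.2.oldEnd u⟩
  have hF : Function.Injective F := fun a b hab => Subtype.ext (sub_eq_zero.mp
    (PairAtMax.eq_zero hc.tq hc.odd ⟨a.2.1.sub b.2.1, a.2.2.sub b.2.2⟩ hu1 (by
      rw [map_sub, sub_eq_zero]; exact congrArg Subtype.val hab)))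
  obtain ⟨⟨⟨a, b⟩, hab⟩, hFab⟩ := Finite.surjective_of_injective hF ⟨w, hw⟩
  have hw' : oldEnd M q (ZMod 2) u (a, b) = w := congrArg Subtype.val hFab
  obtain ⟨φ, rfl⟩ := (Period.evalEquiv M (ZMod 2) (ZMod 2)).surjective a
  obtain ⟨ψ, rfl⟩ := (Period.evalEquiv M (ZMod 2) (ZMod 2)).surjective b
  obtain ⟨χ, hχ⟩ := LinearMap.mem_range.mp (Ihara.eisOp_sq_mem_range hqM (ZMod 2) hℓ hℓL
    (cp := 2) Nat.prime_two hℓ2
    (-HeckeH.heckeH M (Fact.out : q.Prime) (ZMod 2) (ZMod 2) ψ - φ, -ψ))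
  refine ⟨tauMat (M * q) (ZMod 2) g *ᵥ Period.evalEquiv (M * q) (ZMod 2) (ZMod 2) χ,
    hg.mem _, ?_⟩
  rw [(hz (ZMod 2)).2, ← hw', hu, map_mul, Module.End.mul_apply]
  refine congrArg (oldEnd M q (ZMod 2) z) ?_
  rw [oldEnd_of, gvec_apply, hχ]
  simp only [map_sub, map_neg, ← tauMat_qPr_evalEquiv, evalEquiv_eisOp hℓ hℓM, map_mul,
    mulVec_mulVec]
  simp only [← map_mul, neg_neg]
  rw [show Ihara.eisT M hℓ hℓM * (Ihara.eisT M hℓ hℓM * Reps.heckeGenOf M (qPr q)) =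
    Reps.heckeGenOf M (qPr q) * (Ihara.eisT M hℓ hℓM * Ihara.eisT M hℓ hℓM) by ring]
  refine Prod.ext ?_ rfl
  exact sub_sub_cancel _ _

end IharaTwo

/-! ### On the localised lattices -/

variable {hqM}

theorem isUnit_natCast_zmod (hodd : ¬ 2 ∣ q) (n : ℕ) : IsUnit ((q : ℕ) : ZMod (2 ^ n)) :=
  (ZMod.isUnit_iff_coprime q (2 ^ n)).mpr
    (((Nat.Prime.coprime_iff_not_dvd Nat.prime_two).mpr hodd).symm.pow_right n)

theorem Compat.avec_mem (hc : Compat θ θ₀) (hqM : ¬ q ∣ M) {w : PVec M ℤ_[2]}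
    (h1 : w.1 ∈ locLattice θ₀) (h2 : w.2 ∈ locLattice θ₀) :
    avec M q ℤ_[2] w ∈ locLattice θ := fun n => by
  show IsAtMax θ (PadicInt.toZModPow n ∘ avec M q ℤ_[2] w)
  rw [avec_map]
  exact hc.isAtMax_avec hqM ⟨h1 n, h2 n⟩

theorem Compat.gvec_mem (hc : Compat θ θ₀) (hqM : ¬ q ∣ M) {v : HVec (M * q) ℤ_[2]}
    (hv : v ∈ locLattice θ) :
    (gvec hqM ℤ_[2] v).1 ∈ locLattice θ₀ ∧ (gvec hqM ℤ_[2] v).2 ∈ locLattice θ₀ := by
  have key : ∀ n, PairAtMax θ₀ (PadicInt.toZModPow n ∘ (gvec hqM ℤ_[2] v).1,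
      PadicInt.toZModPow n ∘ (gvec hqM ℤ_[2] v).2) := fun n => by
    rw [gvec_map]
    exact hc.pairAtMax_gvec hqM (isUnit_natCast_zmod hc.odd n) (hv n)
  exact ⟨fun n => (key n).1, fun n => (key n).2⟩

/-- Pairs in the localised lattice. -/
abbrev PairLoc (θ₀ : Reps.TZ M →+* ZMod 2) := LocLat θ₀ × LocLat θ₀

/-- The vectors of a pair. -/
def pairVal (θ₀ : Reps.TZ M →+* ZMod 2) : PairLoc θ₀ →ₗ[ℤ_[2]] PVec M ℤ_[2] :=
  LinearMap.prodMap LocLat.val LocLat.val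

theorem pairVal_injective : Function.Injective (pairVal θ₀) := fun _ _ h =>
  Prod.ext (LocLat.val_injective (congrArg Prod.fst h)) (LocLat.val_injective (congrArg Prod.snd h))

variable (hqM) (hc : Compat θ θ₀)

/-- The sum of the pullbacks on localised lattices. -/
def aLoc : PairLoc θ₀ →ₗ[ℤ_[2]] LocLat θ :=
  ((avec M q ℤ_[2]).comp (pairVal θ₀)).codRestrict (locLattice θ) fun w =>
    hc.avec_mem hqM (LocLat.val_mem w.1) (LocLat.val_mem w.2)

theorem val_aLoc (w : PairLoc θ₀) :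
    LocLat.val (aLoc hqM hc w) = avec M q ℤ_[2] (pairVal θ₀ w) := rfl

/-- The corestrictions on localised lattices. -/
def gLoc : LocLat θ →ₗ[ℤ_[2]] PairLoc θ₀ :=
  (((LinearMap.fst ℤ_[2] _ _).comp ((gvec hqM ℤ_[2]).comp LocLat.val)).codRestrict (locLattice θ₀)
      fun v => (hc.gvec_mem hqM (LocLat.val_mem v)).1).prod
    (((LinearMap.snd ℤ_[2] _ _).comp ((gvec hqM ℤ_[2]).comp LocLat.val)).codRestrict (locLattice θ₀)
      fun v => (hc.gvec_mem hqM (LocLat.val_mem v)).2)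

theorem pairVal_gLoc (v : LocLat θ) :
    pairVal θ₀ (gLoc hqM hc v) = gvec hqM ℤ_[2] (LocLat.val v) := rfl

/-- The polynomial at `q` over the localised ring. -/
abbrev locPoly (θ₀ : Reps.TZ M →+* ZMod 2) : (locHecke θ₀)[X] := qPoly (locT θ₀ (tqM M q)) q

/-- The localised old ring on pairs. -/
def pairLocHom (θ₀ : Reps.TZ M →+* ZMod 2) :
    AdjoinRoot (locPoly (q := q) θ₀) →+* Module.End ℤ_[2] (PairLoc θ₀) :=
  pairHom (locHecke θ₀).val.toRingHom (locT θ₀ (tqM M q)) q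

theorem pairLocHom_injective :
    Function.Injective (pairLocHom (q := q) θ₀) :=
  pairHom_injective _ _ _ Subtype.val_injective

theorem locPoly_eval (θ₀ : Reps.TZ M →+* ZMod 2) :
    (qPoly (tqM M q) q).eval₂ ((AdjoinRoot.of (locPoly (q := q) θ₀)).comp (locTHom θ₀))
      (AdjoinRoot.root _) = 0 := by
  rw [qPoly, eval₂_add, eval₂_sub, eval₂_mul, eval₂_X_pow, eval₂_X, eval₂_C, eval₂_C,
    RingHom.comp_apply, RingHom.comp_apply, map_natCast (locTHom θ₀), map_natCast, locTHom_apply]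
  exact root_rel (locT θ₀ (tqM M q)) q

/-- The old ring to the localised old ring. -/
def toLocOld (θ₀ : Reps.TZ M →+* ZMod 2) : OldR M q →+* AdjoinRoot (locPoly (q := q) θ₀) :=
  AdjoinRoot.lift ((AdjoinRoot.of _).comp (locTHom θ₀)) (AdjoinRoot.root _) (locPoly_eval θ₀)

theorem pairVal_pairLocHom (z : OldR M q) (w : PairLoc θ₀) :
    pairVal θ₀ (pairLocHom θ₀ (toLocOld θ₀ z) w) = oldEnd M q ℤ_[2] z (pairVal θ₀ w) := by
  obtain ⟨a, b, rfl⟩ := exists_eq_add_mul_root' _ _ z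
  rw [toLocOld, map_add, map_mul, AdjoinRoot.lift_of, AdjoinRoot.lift_of, AdjoinRoot.lift_root,
    RingHom.comp_apply, RingHom.comp_apply, pairLocHom, pairHom_apply_eq, oldEnd, pairHom_apply_eq]
  simp only [pairVal, LinearMap.prodMap_apply, map_add, map_neg, map_nsmul]
  rfl

/-- Correspondence on the localised lattices. -/
def LocOld (a : locHecke θ) (z : AdjoinRoot (locPoly (q := q) θ₀)) : Prop :=
  (∀ w, (a : Module.End ℤ_[2] (LocLat θ)) (aLoc hqM hc w) = aLoc hqM hc (pairLocHom θ₀ z w)) ∧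
    ∀ v, gLoc hqM hc ((a : Module.End ℤ_[2] (LocLat θ)) v) = pairLocHom θ₀ z (gLoc hqM hc v)

theorem locOld_of_old {t : Reps.TZ (M * q)} {z : OldR M q} (h : Old hqM t z) :
    LocOld hqM hc (locT θ t) (toLocOld θ₀ z) := by
  refine ⟨fun w => LocLat.val_injective ?_, fun v => pairVal_injective ?_⟩
  · rw [val_aLoc, pairVal_pairLocHom]
    exact (h ℤ_[2]).1 _
  · rw [pairVal_gLoc, pairVal_pairLocHom, pairVal_gLoc]
    exact (h ℤ_[2]).2 _

theorem exists_locOld (a : locHecke θ) : ∃ z, LocOld hqM hc a z := by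
  obtain ⟨a, ha⟩ := a
  induction ha using Algebra.adjoin_induction with
  | mem x hx =>
    obtain ⟨t, rfl⟩ := hx
    obtain ⟨z, hz, -⟩ := hc.exists_partner hqM t
    exact ⟨_, locOld_of_old hqM hc hz⟩
  | algebraMap r =>
    refine ⟨AdjoinRoot.of _ (algebraMap ℤ_[2] (locHecke θ₀) r), fun w => ?_, fun v => ?_⟩
    · rw [pairLocHom, pairHom_of, diagEnd_apply]
      exact ((aLoc hqM hc).map_smul r w).symm
    · rw [pairLocHom, pairHom_of, diagEnd_apply]
      exact (gLoc hqM hc).map_smul r v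
  | add x y hx hy hx' hy' =>
    obtain ⟨z, hz1, hz2⟩ := hx'
    obtain ⟨z', hz1', hz2'⟩ := hy'
    refine ⟨z + z', fun w => ?_, fun v => ?_⟩
    · show (x + y) (aLoc hqM hc w) = _
      rw [LinearMap.add_apply, hz1, hz1', map_add, LinearMap.add_apply, map_add]
    · show gLoc hqM hc ((x + y) v) = _
      rw [LinearMap.add_apply, map_add, hz2, hz2', map_add, LinearMap.add_apply]
  | mul x y hx hy hx' hy' =>
    obtain ⟨z, hz1, hz2⟩ := hx'
    obtain ⟨z', hz1', hz2'⟩ := hy'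
    refine ⟨z * z', fun w => ?_, fun v => ?_⟩
    · show x (y (aLoc hqM hc w)) = _
      rw [hz1', hz1, map_mul, Module.End.mul_apply]
    · show gLoc hqM hc (x (y v)) = _
      rw [hz2, hz2', map_mul, Module.End.mul_apply]

theorem aLoc_gLoc (v : LocLat θ) :
    aLoc hqM hc (gLoc hqM hc v) =
      ((locT θ (Reps.heckeGenOf (M * q) (qPr q)) ^ 2 - 1 : locHecke θ) :
        Module.End ℤ_[2] (LocLat θ)) v := by
  refine LocLat.val_injective ?_
  rw [val_aLoc, pairVal_gLoc, ← tauMat_sq_sub hqM, ← locTHom_apply, ← map_pow, ← map_one (locTHom θ),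
    ← map_sub]
  rfl

variable {ℓ : ℕ} (hℓ : ℓ.Prime) (hℓM : ¬ ℓ ∣ M) (hℓ2 : ℓ ≠ 2) (hℓL : ¬ ℓ ∣ M * q)
  (ht : θ₀ (Ihara.eisT M hℓ hℓM) = 1)
include hℓ hℓM hℓ2 hℓL ht

/-- If an old class is divisible by two, so are its components. -/
theorem exists_two_smul_pair {w : PairLoc θ₀} (h : red2 (LocLat.val (aLoc hqM hc w)) = 0) :
    ∃ w' : PairLoc θ₀, w = (2 : ℤ_[2]) • w' := by
  have hmap : avec M q (ZMod 2) (red2 (LocLat.val w.1), red2 (LocLat.val w.2)) = 0 := by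
    rw [← h, val_aLoc]
    exact (avec_map (PadicInt.toZMod (p := 2)) (pairVal θ₀ w)).symm
  have h0 := avec_two_eq_zero hqM hℓ hℓM hℓ2 hℓL ht
    ⟨isAtMax_red2 (LocLat.val_mem w.1), isAtMax_red2 (LocLat.val_mem w.2)⟩ hmap
  obtain ⟨x, hx, hx'⟩ := exists_two_smul (LocLat.val_mem w.1) (congrArg Prod.fst h0)
  obtain ⟨y, hy, hy'⟩ := exists_two_smul (LocLat.val_mem w.2) (congrArg Prod.snd h0)
  exact ⟨(⟨x, hx⟩, ⟨y, hy⟩), Prod.ext (LocLat.val_injective hx') (LocLat.val_injective hy')⟩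

theorem aLoc_injective : Function.Injective (aLoc hqM hc) := by
  rw [injective_iff_map_eq_zero]
  have key : ∀ (n : ℕ) (w : PairLoc θ₀), aLoc hqM hc w = 0 →
      ∃ w' : PairLoc θ₀, w = (2 : ℤ_[2]) ^ n • w' := by
    intro n
    induction n with
    | zero => exact fun w _ => ⟨w, by rw [pow_zero, one_smul]⟩
    | succ n ih =>
      intro w hw
      obtain ⟨w', rfl⟩ := ih w hw
      rw [map_smul] at hw
      have hw' : aLoc hqM hc w' = 0 := LocLat.val_injective (by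
        have h := congrArg LocLat.val hw
        rw [map_smul, map_zero, smul_eq_zero] at h
        rw [map_zero]
        exact h.resolve_left (pow_ne_zero n two_ne_zero))
      obtain ⟨w'', rfl⟩ := exists_two_smul_pair hqM hc hℓ hℓM hℓ2 hℓL ht (w := w') (by
        rw [hw', map_zero]; exact funext fun i => map_zero _)
      exact ⟨w'', by rw [smul_smul, ← pow_succ]⟩
  intro w hw
  refine pairVal_injective ?_
  rw [map_zero]
  refine Prod.ext (ext_red fun n => ?_) (ext_red fun n => ?_) <;>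
  · obtain ⟨w', rfl⟩ := key n w hw
    funext i
    simp only [red, map_smul, Prod.smul_fst, Prod.smul_snd, Pi.smul_apply, smul_eq_mul,
      Prod.fst_zero, Prod.snd_zero, Pi.zero_apply, map_mul, map_pow, map_ofNat, map_zero]
    rw [show ((2 : ZMod (2 ^ n))) ^ n = 0 by exact_mod_cast ZMod.natCast_self (2 ^ n), zero_mul]

theorem gLoc_surjective : Function.Surjective (gLoc hqM hc) := by
  rw [← LinearMap.range_eq_top, eq_top_iff]
  refine Submodule.le_of_le_smul_of_le_jacobson_bot (I := IsLocalRing.maximalIdeal ℤ_[2])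
    Module.Finite.fg_top (IsLocalRing.jacobson_eq_maximalIdeal ⊥ bot_ne_top).ge fun w _ => ?_
  obtain ⟨vb, hvb, hgv⟩ := exists_gvec_two_eq hqM hc hℓ hℓM hℓ2 hℓL ht
    (w := (red2 (LocLat.val w.1), red2 (LocLat.val w.2)))
    ⟨isAtMax_red2 (LocLat.val_mem w.1), isAtMax_red2 (LocLat.val_mem w.2)⟩
  obtain ⟨v, hv, rfl⟩ := exists_red2_eq hvb
  set v' : LocLat θ := ⟨v, hv⟩ with hv'
  have hg : (red2 (LocLat.val (gLoc hqM hc v').1), red2 (LocLat.val (gLoc hqM hc v').2)) =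
      (red2 (LocLat.val w.1), red2 (LocLat.val w.2)) :=
    (gvec_map hqM (PadicInt.toZMod (p := 2)) v).trans hgv
  have hdiff : ∀ a b : LocLat θ₀, red2 (LocLat.val a) = red2 (LocLat.val b) →
      ∃ c : LocLat θ₀, a - b = (2 : ℤ_[2]) • c := by
    intro a b hab
    obtain ⟨c, hc', hc''⟩ := exists_two_smul (LocLat.val_mem (a - b)) (funext fun i => by
      have := congrFun hab i
      simp only [red2] at this ⊢
      rw [map_sub, Pi.sub_apply, map_sub, this, sub_self, Pi.zero_apply])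
    exact ⟨⟨c, hc'⟩, LocLat.val_injective hc''⟩
  obtain ⟨c1, hc1⟩ := hdiff w.1 _ (congrArg Prod.fst hg).symm
  obtain ⟨c2, hc2⟩ := hdiff w.2 _ (congrArg Prod.snd hg).symm
  refine Submodule.mem_sup.mpr ⟨_, ⟨v', rfl⟩, (2 : ℤ_[2]) • (c1, c2),
    Submodule.smul_mem_smul ?_ Submodule.mem_top, ?_⟩
  · rw [PadicInt.maximalIdeal_eq_span_p]
    exact_mod_cast Ideal.mem_span_singleton_self ((2 : ℕ) : ℤ_[2])
  · rw [Prod.smul_mk, ← hc1, ← hc2]
    exact Prod.ext (add_sub_cancel _ _) (add_sub_cancel _ _)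

theorem LocOld.unique {a : locHecke θ} {z z' : AdjoinRoot (locPoly (q := q) θ₀)}
    (h : LocOld hqM hc a z) (h' : LocOld hqM hc a z') : z = z' :=
  pairLocHom_injective (LinearMap.ext fun w =>
    aLoc_injective hqM hc hℓ hℓM hℓ2 hℓL ht ((h.1 w).symm.trans (h'.1 w)))

end FLTAgent.Mod2
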