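import Fermat.Agent.Mod2.HeckeResidual
import Fermat.Agent.Mod2.HeckeNewFixed
import Fermat.Agent.Mod2.HeckeAnnihilator
import Fermat.Agent.Mod2.HeckeOdd
import Fermat.Agent.Mod2.HeckeOldLoc

/-!
# Mazur's principle on the localised lattice

Where `U_q² = 1`, Frobenius acts as `q U_q` on the vectors fixed by inertia at `q`
(`frob_eq_of_fixed`). With a unit entry of `φ - q U_q` and double annihilation, an element killed
by `U_q² - 1` lies in any ideal containing a power of two modulo which the lattice is unramified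
at `q`
(`mem_of_unramified_of_basis`).
-/

set_option autoImplicit false
set_option linter.style.haveILetI false
set_option linter.unusedSectionVars false
set_option maxHeartbeats 1000000
set_option synthInstance.maxHeartbeats 200000

noncomputable section

open Matrix

namespace FLTAgent.Mod2

local notation "Qb" => AlgebraicClosure ℚ
local notation "Γℚ" => (AlgebraicClosure ℚ ≃ₐ[ℚ] AlgebraicClosure ℚ)

/-- Cayley–Hamilton for two by two matrices. -/
theorem mat2_rel {R : Type*} [CommRing R] (G : Matrix (Fin 2) (Fin 2) R) :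
    G * G - G.trace • G + G.det • (1 : Matrix (Fin 2) (Fin 2) R) = 0 := by
  rw [Matrix.det_fin_two, Matrix.trace_fin_two]
  ext i j
  fin_cases i <;> fin_cases j <;> simp [Matrix.mul_apply] <;> ring

section Basis

variable {L : ℕ} [NeZero L] {D : Setup} {S : ResSys L D}

/-- Cayley–Hamilton for the Galois action on the localised lattice. -/
theorem galLoc_rel (b : Module.Basis (Fin 2) (locHecke S.θ) (LocLat S.θ)) (σ : Γℚ)
    (y : LocLat S.θ) :
    galLoc S.θ σ (galLoc S.θ σ y) - (galBasis b σ).trace • galLoc S.θ σ y +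
      (galBasis b σ).det • y = 0 := by
  have h : galLoc S.θ σ * galLoc S.θ σ - (galBasis b σ).trace • galLoc S.θ σ +
      (galBasis b σ).det • (1 : Module.End (locHecke S.θ) (LocLat S.θ)) = 0 := by
    apply (LinearMap.toMatrix b b).injective
    rw [map_add, map_sub, map_smul, map_smul, LinearMap.toMatrix_mul, LinearMap.toMatrix_one,
      map_zero]
    exact mat2_rel (galBasis b σ)
  exact LinearMap.congr_fun h y

/-- The localised lattice has no torsion. -/
theorem locLat_eq_zero_of_nsmul {θ : Reps.TZ L →+* ZMod 2} {k : ℕ} (hk : k ≠ 0) {y : LocLat θ}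
    (h : (k : locHecke θ) • y = 0) : y = 0 := by
  refine LocLat.val_injective ?_
  have h1 := congrArg LocLat.val h
  rw [Nat.cast_smul_eq_nsmul, map_nsmul, map_zero] at h1
  rw [map_zero]
  funext i
  have h2 := congrFun h1 i
  rw [Pi.smul_apply, Pi.zero_apply, nsmul_eq_mul, mul_eq_zero] at h2
  exact h2.resolve_left (Nat.cast_ne_zero.mpr hk)

end Basis

variable {M q : ℕ} [NeZero M] [NeZero (M * q)] [Fact q.Prime] {D : Setup}
  {S : ResSys (M * q) D} {A : ValuationSubring Qb} {φ : Γℚ}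

/-- `U_q` in the localised ring. -/
abbrev uLoc (S : ResSys (M * q) D) : locHecke S.θ :=
  locT S.θ (Reps.heckeGenOf (M * q) (qPr q))

variable (hqM : ¬ q ∣ M) (hq2 : q ≠ 2) (hA : A.LiesOverPrime q) (hφ : A.IsFrobeniusAt φ q)
include hqM hq2 hA hφ

theorem galLoc_inertia_mul {σ τ : Γℚ} (hσ : σ ∈ A.inertiaSubgroupIn ℚ)
    (hτ : τ ∈ A.inertiaSubgroupIn ℚ) (x : LocLat S.θ) :
    galLoc S.θ σ (galLoc S.θ τ x - x) = galLoc S.θ τ x - x := by
  have h := congrArg (· *ᵥ LocLat.val x)
    (sub_one_mul_sub_one (M := M) (Fact.out : q.Prime) hq2 hqM A hA hσ hτ)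
  simp only [zero_mulVec, ← mulVec_mulVec, sub_mulVec, one_mulVec] at h
  refine LocLat.val_injective ?_
  rw [val_galLoc, map_sub, val_galLoc]
  exact sub_eq_zero.mp h

theorem galLoc_frob_monodromy {τ : Γℚ} (hτ : τ ∈ A.inertiaSubgroupIn ℚ) (x : LocLat S.θ) :
    galLoc S.θ φ (galLoc S.θ τ x - x) =
      ((q : locHecke S.θ) * uLoc S) • (galLoc S.θ τ x - x) := by
  have h := congrArg (· *ᵥ LocLat.val x)
    (frob_mul_sub_one (M := M) (Fact.out : q.Prime) hq2 hqM A hA hφ hτ)
  simp only [smul_mulVec, ← mulVec_mulVec, sub_mulVec, one_mulVec] at h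
  refine LocLat.val_injective ?_
  rw [val_galLoc, mul_smul, Nat.cast_smul_eq_nsmul, map_nsmul, val_locT_smul, map_sub, val_galLoc]
  exact h

theorem galLoc_monodromy_frob {τ : Γℚ} (hτ : τ ∈ A.inertiaSubgroupIn ℚ) (x : LocLat S.θ) :
    galLoc S.θ τ (galLoc S.θ φ x) - galLoc S.θ φ x = uLoc S • (galLoc S.θ τ x - x) := by
  have h := congrArg (· *ᵥ LocLat.val x)
    (sub_one_mul_frob (M := M) (Fact.out : q.Prime) hq2 hqM A hA hφ hτ)
  simp only [← mulVec_mulVec, sub_mulVec, one_mulVec] at h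
  refine LocLat.val_injective ?_
  rw [map_sub, val_galLoc, val_galLoc, val_locT_smul, map_sub, val_galLoc]
  exact h

theorem frob_frob_of_fixed {y : LocLat S.θ}
    (hy : ∀ τ ∈ A.inertiaSubgroupIn ℚ, galLoc S.θ τ y = y) (hU : uLoc S ^ 2 • y = y) :
    galLoc S.θ φ (galLoc S.θ φ y) = (q : locHecke S.θ) ^ 2 • y := by
  have h := frob_sq_of_fixed hqM hq2 A hA hφ (LocLat.val y)
    (fun τ hτ => (val_galLoc τ y).symm.trans (congrArg LocLat.val (hy τ hτ))) ?_
  · refine LocLat.val_injective ?_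
    rw [val_galLoc, val_galLoc, h, ← Nat.cast_pow, Nat.cast_smul_eq_nsmul, map_nsmul]
  · rw [← val_locT_smul, ← locTHom_apply, map_sub, map_pow, map_one, locTHom_apply, sub_smul,
      one_smul]
    show LocLat.val (uLoc S ^ 2 • y - y) = 0
    rw [hU, sub_self, map_zero]

/-- Where `U_q ^ 2` is one, Frobenius is `q U_q` on the vectors fixed by inertia. -/
theorem frob_eq_of_fixed (b : Module.Basis (Fin 2) (locHecke S.θ) (LocLat S.θ)) {y : LocLat S.θ}
    (hy : ∀ τ ∈ A.inertiaSubgroupIn ℚ, galLoc S.θ τ y = y) (hU : uLoc S ^ 2 • y = y) :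
    galLoc S.θ φ y = ((q : locHecke S.θ) * uLoc S) • y := by
  have hq : q.Prime := Fact.out
  set u := uLoc S with hu
  set Q : locHecke S.θ := (q : locHecke S.θ) with hQ
  set T := (galBasis b φ).trace with hT
  have hdet : (galBasis b φ).det = Q := by
    rw [det_galBasis, cycLoc, MonoidHom.comp_apply,
      show Reps.cyc 2 φ = (q : ℤ_[2]) from Reps.cyc_frobenius hq hq2 hA hφ]
    exact map_natCast (algebraMap ℤ_[2] (locHecke S.θ)) q
  have hCH : ∀ z, galLoc S.θ φ (galLoc S.θ φ z) - T • galLoc S.θ φ z + Q • z = 0 := fun z =>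
    hdet ▸ galLoc_rel b φ z
  have hcancel : ∀ {z : LocLat S.θ}, Q • z = 0 → z = 0 := fun h =>
    locLat_eq_zero_of_nsmul hq.ne_zero h
  set w := galLoc S.θ φ y - (Q * u) • y with hw
  have hwfix : ∀ τ ∈ A.inertiaSubgroupIn ℚ, galLoc S.θ τ w = w := by
    intro τ hτ
    have h := galLoc_monodromy_frob hqM hq2 hA hφ hτ y
    rw [hy τ hτ, sub_self, smul_zero, sub_eq_zero] at h
    rw [hw, map_sub, map_smul, h, hy τ hτ]
  have hwU : u ^ 2 • w = w := by
    rw [hw, smul_sub, ← map_smul, hU, smul_comm, hU]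
  have hΦw : galLoc S.θ φ w = -((Q * u) • w) := by
    rw [hw, map_sub, map_smul, frob_frob_of_fixed hqM hq2 hA hφ hy hU, ← hQ]
    conv_lhs => arg 1; rw [← hU]
    module
  have heps : (Q + 1 + u * T) • w = 0 := hcancel (by
    have h := hCH w
    rw [frob_frob_of_fixed hqM hq2 hA hφ hwfix hwU, ← hQ, hΦw] at h
    refine Eq.trans ?_ h
    module)
  suffices hrepr : ∀ i, b.repr w i = 0 by
    rw [← sub_eq_zero, ← hw]
    exact b.repr.injective (Finsupp.ext fun i => by rw [hrepr i, map_zero, Finsupp.zero_apply])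
  intro i
  set r := b.repr w i with hr
  have hrU : u ^ 2 * r = r := by simpa [hr] using congrArg (fun z => b.repr z i) hwU
  have hre : (Q + 1 + u * T) * r = 0 := by simpa [hr] using congrArg (fun z => b.repr z i) heps
  have hrfix : ∀ (v : LocLat S.θ), ∀ τ ∈ A.inertiaSubgroupIn ℚ,
      galLoc S.θ τ (r • v) = r • v := by
    intro v τ hτ
    rw [← sub_eq_zero, map_smul, ← smul_sub]
    set z := r • (galLoc S.θ τ v - v) with hz
    have hzU : u ^ 2 • z = z := by rw [hz, smul_smul, hrU]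
    have hze : (Q + 1 + u * T) • z = 0 := by rw [hz, smul_smul, hre, zero_smul]
    have hΦz : galLoc S.θ φ z = (Q * u) • z := by
      rw [hz, map_smul, galLoc_frob_monodromy hqM hq2 hA hφ hτ, ← hQ, ← hu, smul_comm]
    have h1 : (Q + 1 - u * T) • z = 0 := hcancel (by
      have h := hCH z
      rw [hΦz, map_smul, hΦz] at h
      have h2 : (Q * u) • (Q * u) • z = (Q * Q) • z := by
        conv_rhs => rw [← hzU, smul_smul]
        rw [smul_smul]
        congr 1
        ring
      rw [h2] at h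
      refine Eq.trans ?_ h
      module)
    refine locLat_eq_zero_of_nsmul (k := 2 * (q + 1)) (by omega) ?_
    rw [show ((2 * (q + 1) : ℕ) : locHecke S.θ) = (Q + 1 + u * T) + (Q + 1 - u * T) by
      rw [Nat.cast_mul, Nat.cast_add, Nat.cast_one, ← hQ, Nat.cast_ofNat]; ring,
      add_smul, hze, h1, add_zero]
  have hT' : r * (T * T) = r * (2 * (Q + Q * Q)) := by
    have hdiag : ∀ j, r * (T * galBasis b φ j j) = r * (Q + Q * Q) := by
      intro j
      have h1 := frob_frob_of_fixed hqM hq2 hA hφ (hrfix (b j)) (by rw [smul_smul, hrU])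
      have h2 := hCH (r • b j)
      rw [h1, map_smul, ← hQ] at h2
      have h3 := congrArg (fun z => b.repr z j) h2
      simp only [map_add, map_sub, map_smul, map_zero, Finsupp.add_apply, Finsupp.sub_apply,
        Finsupp.smul_apply, Finsupp.zero_apply, smul_eq_mul, Module.Basis.repr_self,
        Finsupp.single_eq_same, mul_one, ← galBasis_apply] at h3
      linear_combination -h3
    have e := hT
    rw [Matrix.trace_fin_two] at e
    linear_combination hdiag 0 + hdiag 1 + r * T * e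
  have h0 : (((q - 1) * (q + 1) : ℕ) : locHecke S.θ) * r = 0 := by
    rw [Nat.cast_mul, Nat.cast_sub hq.one_le, Nat.cast_add, Nat.cast_one, ← hQ]
    linear_combination -hT' - (Q + 1 - u * T) * hre - T * T * hrU
  have hk : (q - 1) * (q + 1) ≠ 0 :=
    Nat.mul_ne_zero (by have := hq.two_le; omega) (by omega)
  have h1 := locLat_eq_zero_of_nsmul (y := r • b 0) hk (by rw [smul_smul, h0, zero_smul])
  simpa using congrArg (fun z => b.repr z 0) h1

omit hA hφ in
/-- A class unramified at `q` killed by `U_q ^ 2 - 1` is zero. -/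
theorem mem_of_unramified_of_basis (hL : LevelHyp D (M * q)) (hM : LevelHyp D M)
    (b : Module.Basis (Fin 2) (locHecke S.θ) (LocLat S.θ)) (I : Ideal (locHecke S.θ))
    (hI : ∃ n : ℕ, (2 : locHecke S.θ) ^ n ∈ I)
    (hur : ∀ A : ValuationSubring Qb, A.LiesOverPrime q →
      ∀ τ ∈ A.inertiaSubgroupIn ℚ, ∀ x : LocLat S.θ,
        ∃ y ∈ I • (⊤ : Submodule (locHecke S.θ) (LocLat S.θ)),
          galM (M * q) τ *ᵥ LocLat.val x = LocLat.val x + LocLat.val y)
    (t : locHecke S.θ) (ht : t * (uLoc S ^ 2 - 1) = 0) : t ∈ I := by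
  classical
  obtain ⟨n, hn⟩ := hI
  have hq : q.Prime := Fact.out
  obtain ⟨A, hA⟩ := GalCommon.exists_liesOverPrime hq
  obtain ⟨φ, hφ⟩ := GalCommon.exists_isFrobeniusAt hq hA
  obtain ⟨-, -, hauxq⟩ := hL.isAux hM hqM
  obtain ⟨i, j, hij⟩ := exists_isUnit_entry b (hauxq A hA φ hφ).1 (hauxq A hA φ hφ).2
  -- a unit entry of `φ - q U_q`
  set c : locHecke S.θ := (q : locHecke S.θ) * uLoc S with hc
  have hres : resF2 S.θ c = 1 := by
    rw [hc, map_mul, map_natCast, resF2_locT, S.U_one (qPr q) (dvd_mul_left q M), mul_one]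
    exact ZMod.natCast_eq_one_iff_odd.mpr (hq.odd_of_ne_two hq2)
  have hunit : IsUnit (b.repr (galLoc S.θ φ (b j) - c • b j) i) := by
    by_contra h
    have h1 : resF2 S.θ (b.repr (galLoc S.θ φ (b j) - b j) i) = 0 := by
      have h0 := resF2_eq_zero.mpr ((IsLocalRing.mem_maximalIdeal _).mpr h)
      rw [map_sub, Finsupp.sub_apply, map_sub, map_smul, Finsupp.smul_apply, smul_eq_mul, map_mul,
        hres, one_mul] at h0
      rw [map_sub, Finsupp.sub_apply, map_sub, h0]
    exact (IsLocalRing.mem_maximalIdeal _).mp (resF2_eq_zero.mp h1) hij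
  obtain ⟨ℓ, hℓ, hℓ2, hℓL, A', φ', hA', hφ', htr⟩ := exists_trace_one D (M * q)
  have hne : S.θ (Reps.heckeTOf hℓ hℓL) = 1 := (S.good ℓ hℓ hℓL A' hA' φ' hφ').trans htr
  have h2M : 2 ∣ M := (dvd_mul_right 2 D.m).trans hM.dvd
  refine mem_of_forall_annihilator b I n hn t fun r hr => ?_
  set x := r • b j with hx
  have hkill : ∀ y ∈ I • (⊤ : Submodule (locHecke S.θ) (LocLat S.θ)),
      ∃ z, r • y = (2 : locHecke S.θ) ^ n • z := by
    intro y hy
    refine Submodule.smul_induction_on hy (fun a ha m _ => ?_) ?_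
    · obtain ⟨d, hd⟩ := hr a ha
      exact ⟨d • m, by rw [smul_smul, smul_smul, mul_comm r a, hd]⟩
    · rintro y z ⟨y', hy'⟩ ⟨z', hz'⟩
      exact ⟨y' + z', by rw [smul_add, smul_add, hy', hz']⟩
  have hfix : ∀ τ ∈ A.inertiaSubgroupIn ℚ,
      galMod (M * q) n τ *ᵥ red n (LocLat.val x) = red n (LocLat.val x) := by
    intro τ hτ
    obtain ⟨y, hy, hτy⟩ := hur A hA τ hτ (b j)
    obtain ⟨z, hz⟩ := hkill y hy
    have hgy : galLoc S.θ τ (b j) = b j + y :=
      LocLat.val_injective (by rw [val_galLoc, hτy, map_add])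
    rw [← red_galM, ← val_galLoc, hx, map_smul, hgy, smul_add, map_add, red_add, hz,
      val_two_pow_smul, red_two_pow_smul, add_zero]
  obtain ⟨w, hwx, hwfix⟩ := exists_fixed_lift hq hq2 hqM S.θ hℓ hℓ2 hℓL hne h2M
    (S.U_one ⟨2, Nat.prime_two⟩ (h2M.mul_right q)) A hA n _ (LocLat.val_mem x n) hfix
  -- move the lift into the localised lattice
  obtain ⟨P, hP, -, -, hPred⟩ := exists_locProj S.θ
  choose g hg using fun m : ℕ => exists_projector S.θ (ZMod (2 ^ m))
  set w' := LocLat.of (P *ᵥ w) (hP w) with hw'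
  have hw'fix : ∀ τ ∈ A.inertiaSubgroupIn ℚ, galLoc S.θ τ w' = w' := fun τ hτ =>
    LocLat.val_injective (ext_red fun m => by
      rw [val_galLoc, hw', LocLat.val_of, red_galM, hPred m _ (hg m), mulVec_mulVec,
        (galMod_commute m (g m) τ).eq, ← mulVec_mulVec, ← red_galM, hwfix τ hτ])
  have hred : red n (LocLat.val (x - w')) = 0 := by
    rw [map_sub, red_sub, hw', LocLat.val_of, hPred n _ (hg n), show red n w = _ from hwx,
      (hg n).fix _ (LocLat.val_mem x n)]
    exact sub_self _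
  obtain ⟨z, hz⟩ := red_val_eq_zero.mp hred
  have hU : uLoc S ^ 2 • t • w' = t • w' := by
    rw [← sub_eq_zero, smul_smul, ← sub_smul, show uLoc S ^ 2 * t - t = 0 by
      linear_combination ht, zero_smul]
  have hΦ : galLoc S.θ φ (t • w') = c • t • w' :=
    frob_eq_of_fixed hqM hq2 hA hφ b (fun τ hτ => by rw [map_smul, hw'fix τ hτ]) hU
  have key : t • (galLoc S.θ φ x - c • x) =
      (2 : locHecke S.θ) ^ n • t • (galLoc S.θ φ z - c • z) := by
    rw [map_smul, smul_comm c t w'] at hΦ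
    rw [eq_add_of_sub_eq hz, map_add, map_smul, smul_sub, smul_add, hΦ]
    module
  have h3 := congrArg (fun v => b.repr v i) key
  rw [hx, (galLoc S.θ φ).map_smul, smul_comm c r, ← smul_sub] at h3
  simp only [map_smul, Finsupp.smul_apply, smul_eq_mul] at h3
  obtain ⟨e, he⟩ := hunit.exists_right_inv
  exact ⟨t * b.repr (galLoc S.θ φ z - c • z) i * e, by linear_combination e * h3 - t * r * he⟩

end FLTAgent.Mod2
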