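import Fermat.Agent.Mod2.HeckeAtTwo
import Fermat.Agent.Mod2.HeckeOldLoc
import Fermat.Agent.Mod2.HeckeMazur

/-!
# Raising the level at a good prime

A residual system of level `M` gives one of level `M q` (`exists_resSys_mul`). `exists_oldQuotient`
is the surjection onto the old ring `T_M[X]/(X² - T_q X + q)`, whose kernel is the annihilator of
`U_q² - 1`, with torsion-free new quotient (Ihara's lemma modulo two), and `mem_of_unramified` is
Mazur's principle.
-/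

set_option autoImplicit false
set_option linter.style.haveILetI false
set_option maxHeartbeats 2000000

noncomputable section

open Matrix CuspForm ModularCurve Polynomial

namespace FLTAgent.Mod2

variable {M q : ℕ} [NeZero M] [NeZero (M * q)] {D : Setup}

/-- The eigensystem of the stabilised form. -/
theorem exists_resSys_mul (hL : LevelHyp D (M * q)) (hM : LevelHyp D M) (hq : q.Prime)
    (hqM : ¬ q ∣ M) (S₀ : ResSys M D) : Nonempty (ResSys (M * q) D) := by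
  haveI : Fact q.Prime := ⟨hq⟩
  have h0 : S₀.θ (Reps.heckeTOf hq hqM) = 0 := by
    rw [← Reps.heckeGenOf_T M hq hqM]
    exact theta_tq_eq_zero hL hM hqM S₀
  have hq1 : (q : ZMod 2) = 1 := ZMod.natCast_eq_one_iff_odd.mpr
    (Nat.odd_iff.mpr (by have := not_two_dvd (q := q) hM hqM; omega))
  have heval : (Ihara.oldPoly hqM).eval₂ S₀.θ 1 = 0 := by
    rw [Ihara.oldPoly, eval₂_add, eval₂_sub, eval₂_mul, eval₂_X_pow, eval₂_X, eval₂_C, eval₂_C,
      map_natCast, hq1]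
    show (1 : ZMod 2) ^ 2 - S₀.θ (Reps.heckeTOf hq hqM) * 1 + 1 = 0
    rw [h0]
    decide
  refine ⟨⟨(AdjoinRoot.lift S₀.θ 1 heval).comp (Ihara.piOld hqM), fun ℓ hℓ hℓL A hA φ hφ => ?_,
    fun r hr => ?_⟩⟩
  · have hℓM : ¬ ℓ ∣ M := fun h => hℓL (h.mul_right q)
    rw [RingHom.comp_apply,
      show Ihara.piOld hqM (Reps.heckeTOf hℓ hℓL) = AdjoinRoot.of _ (Reps.heckeTOf hℓ hℓM) from
        Ihara.piOld_T hqM hℓ hℓL hℓM, AdjoinRoot.lift_of]
    exact S₀.good ℓ hℓ hℓM A hA φ hφ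
  · rw [RingHom.comp_apply, Reps.heckeGenOf, dif_pos hr]
    by_cases hrq : (r : ℕ) = q
    · obtain rfl : r = ⟨q, hq⟩ := Subtype.ext hrq
      rw [Ihara.piOld_Uq hqM hr, AdjoinRoot.lift_root]
    · have hrM : (r : ℕ) ∣ M := (r.2.dvd_mul.mp hr).resolve_right fun h =>
        hrq ((Nat.prime_dvd_prime_iff_eq r.2 hq).mp h)
      rw [Ihara.piOld_U hqM r.2 hrq hr hrM, AdjoinRoot.lift_of]
      have h := S₀.U_one r hrM
      rwa [Reps.heckeGenOf, dif_pos hrM] at h

/-- The old quotient, with `T_q` written as a generator. -/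
theorem exists_oldQuotient_qPr [Fact q.Prime] (hL : LevelHyp D (M * q)) (hM : LevelHyp D M)
    (hqM : ¬ q ∣ M) (S : ResSys (M * q) D) (S₀ : ResSys M D) :
    ∃ π : locHecke S.θ →ₐ[ℤ_[2]] AdjoinRoot (locPoly (q := q) S₀.θ),
      Function.Surjective π ∧
      (∀ (ℓ : Nat.Primes), (ℓ : ℕ) ≠ q →
        π (locT S.θ (Reps.heckeGenOf (M * q) ℓ)) =
          AdjoinRoot.of _ (locT S₀.θ (Reps.heckeGenOf M ℓ))) ∧
      π (locT S.θ (Reps.heckeGenOf (M * q) (qPr q))) = AdjoinRoot.root _ ∧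
      (∀ t, π t = 0 ↔ t * (locT S.θ (Reps.heckeGenOf (M * q) (qPr q)) ^ 2 - 1) = 0) ∧
      (∀ t, (2 : locHecke S.θ) * t ∈
          Ideal.span {locT S.θ (Reps.heckeGenOf (M * q) (qPr q)) ^ 2 - 1} →
        t ∈ Ideal.span {locT S.θ (Reps.heckeGenOf (M * q) (qPr q)) ^ 2 - 1}) := by
  have hc := compat_of hL hM hqM S S₀
  obtain ⟨ℓ₀, hℓ₀, hℓ₀M, hℓ₀2, hℓ₀L, ht₀⟩ := exists_eis_prime (q := q) S₀
  have huniq : ∀ {a : locHecke S.θ} {z z' : AdjoinRoot (locPoly (q := q) S₀.θ)},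
      LocOld hqM hc a z → LocOld hqM hc a z' → z = z' :=
    fun h h' => LocOld.unique hqM hc hℓ₀ hℓ₀M hℓ₀2 hℓ₀L ht₀ h h'
  have hinj := aLoc_injective hqM hc hℓ₀ hℓ₀M hℓ₀2 hℓ₀L ht₀
  have hsurj := gLoc_surjective hqM hc hℓ₀ hℓ₀M hℓ₀2 hℓ₀L ht₀
  choose f hf using exists_locOld hqM hc
  have hadd : ∀ a b, f (a + b) = f a + f b := fun a b => huniq (hf _)
    ⟨fun w => by
      show (a : Module.End ℤ_[2] (LocLat S.θ)) _ + (b : Module.End ℤ_[2] (LocLat S.θ)) _ = _
      rw [(hf a).1, (hf b).1, map_add (pairLocHom S₀.θ), LinearMap.add_apply, map_add],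
    fun v => by
      show gLoc hqM hc ((a : Module.End ℤ_[2] (LocLat S.θ)) v +
        (b : Module.End ℤ_[2] (LocLat S.θ)) v) = _
      rw [map_add, (hf a).2, (hf b).2, map_add (pairLocHom S₀.θ), LinearMap.add_apply]⟩
  have hmul : ∀ a b, f (a * b) = f a * f b := fun a b => huniq (hf _)
    ⟨fun w => by
      show (a : Module.End ℤ_[2] (LocLat S.θ)) ((b : Module.End ℤ_[2] (LocLat S.θ)) _) = _
      rw [(hf b).1, (hf a).1, map_mul (pairLocHom S₀.θ), Module.End.mul_apply],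
    fun v => by
      show gLoc hqM hc
        ((a : Module.End ℤ_[2] (LocLat S.θ)) ((b : Module.End ℤ_[2] (LocLat S.θ)) v)) = _
      rw [(hf a).2, (hf b).2, map_mul (pairLocHom S₀.θ), Module.End.mul_apply]⟩
  have halg : ∀ r : ℤ_[2], f (algebraMap ℤ_[2] _ r) =
      AdjoinRoot.of _ (algebraMap ℤ_[2] (locHecke S₀.θ) r) := fun r => huniq (hf _)
    ⟨fun w => by
      rw [pairLocHom, pairHom_of, diagEnd_apply]
      exact ((aLoc hqM hc).map_smul r w).symm,
    fun v => by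
      rw [pairLocHom, pairHom_of, diagEnd_apply]
      exact (gLoc hqM hc).map_smul r v⟩
  have hone : f 1 = 1 := by simpa using halg 1
  have hzero : f 0 = 0 := by simpa using halg 0
  let π : locHecke S.θ →ₐ[ℤ_[2]] AdjoinRoot (locPoly (q := q) S₀.θ) :=
    { toFun := f, map_one' := hone, map_mul' := hmul, map_zero' := hzero, map_add' := hadd,
      commutes' := halg }
  have hπ : ∀ {t : Reps.TZ (M * q)} {z : OldR M q}, Old hqM t z →
      π (locT S.θ t) = toLocOld S₀.θ z := fun h => huniq (hf _) (locOld_of_old hqM hc h)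
  have hgen : ∀ ℓ : Nat.Primes, (ℓ : ℕ) ≠ q → π (locT S.θ (Reps.heckeGenOf (M * q) ℓ)) =
      AdjoinRoot.of _ (locT S₀.θ (Reps.heckeGenOf M ℓ)) := fun ℓ hℓ => by
    rw [hπ (old_gen hqM ℓ hℓ), toLocOld, AdjoinRoot.lift_of]
    rfl
  have hroot : π (locT S.θ (Reps.heckeGenOf (M * q) (qPr q))) = AdjoinRoot.root _ := by
    rw [hπ (old_gen_self hqM), toLocOld, AdjoinRoot.lift_root]
  have hd : ∀ v, aLoc hqM hc (gLoc hqM hc v) =
      ((locT S.θ (Reps.heckeGenOf (M * q) (qPr q)) ^ 2 - 1 : locHecke S.θ) :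
        Module.End ℤ_[2] (LocLat S.θ)) v := aLoc_gLoc hqM hc
  refine ⟨π, ?_, hgen, hroot, fun t => ⟨fun h => ?_, fun h => ?_⟩, fun t h => ?_⟩
  · intro z
    obtain ⟨u, hu⟩ := isUnit_locT (θ := S.θ) hc.self
    have hof : ∀ a : locHecke S₀.θ, ∃ x, π x = AdjoinRoot.of _ a := by
      rintro ⟨a, ha⟩
      induction ha using Algebra.adjoin_induction with
      | mem x hx =>
        obtain ⟨e, rfl⟩ := hx
        obtain ⟨t, j, htj, -⟩ := hc.exists_lift hqM e
        refine ⟨locT S.θ t * (↑u⁻¹ : locHecke S.θ) ^ j, ?_⟩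
        rw [map_mul, hπ htj, toLocOld, map_mul, map_pow, map_pow, AdjoinRoot.lift_of,
          AdjoinRoot.lift_root, mul_assoc, ← mul_pow, ← hroot, ← hu, ← map_mul, Units.mul_inv,
          map_one, one_pow, mul_one]
        rfl
      | algebraMap r => exact ⟨algebraMap ℤ_[2] _ r, halg r⟩
      | add x y hx hy hx' hy' =>
        obtain ⟨a, ha⟩ := hx'
        obtain ⟨b, hb⟩ := hy'
        refine ⟨a + b, ?_⟩
        rw [map_add, ha, hb, ← map_add]
        rfl
      | mul x y hx hy hx' hy' =>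
        obtain ⟨a, ha⟩ := hx'
        obtain ⟨b, hb⟩ := hy'
        refine ⟨a * b, ?_⟩
        rw [map_mul, ha, hb, ← map_mul]
        rfl
    obtain ⟨a, b, rfl⟩ := exists_eq_add_mul_root' _ _ z
    obtain ⟨x, hx⟩ := hof a
    obtain ⟨y, hy⟩ := hof b
    exact ⟨x + y * locT S.θ (Reps.heckeGenOf (M * q) (qPr q)), by
      rw [map_add, map_mul, hx, hy, hroot]⟩
  · refine Subtype.ext (LinearMap.ext fun v => ?_)
    show (t : Module.End ℤ_[2] (LocLat S.θ)) (((locT S.θ (Reps.heckeGenOf (M * q) (qPr q)) ^ 2 - 1 :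
      locHecke S.θ) : Module.End ℤ_[2] (LocLat S.θ)) v) = 0
    rw [← hd, (hf t).1, show f t = 0 from h, map_zero, LinearMap.zero_apply, map_zero]
  · refine pairLocHom_injective (LinearMap.ext fun w => hinj ?_)
    obtain ⟨v, rfl⟩ := hsurj w
    rw [show π t = f t from rfl, ← (hf t).1, hd, map_zero, LinearMap.zero_apply, map_zero]
    exact LinearMap.congr_fun (congrArg Subtype.val h) v
  · set d : locHecke S.θ := locT S.θ (Reps.heckeGenOf (M * q) (qPr q)) ^ 2 - 1 with hdd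
    change 2 * t ∈ Ideal.span {d} at h
    show t ∈ Ideal.span {d}
    obtain ⟨b⟩ := nonempty_basis_locLattice hL S
    obtain ⟨c, hcd⟩ := Ideal.mem_span_singleton'.mp h
    have h2 : (2 : ℤ_[2]) • (t • b 0) = aLoc hqM hc (gLoc hqM hc (c • b 0)) := by
      rw [hd]
      show _ = d • (c • b 0)
      rw [smul_smul, mul_comm d c, hcd, ← smul_smul, two_smul, two_smul]
    obtain ⟨w, hw⟩ := exists_two_smul_pair hqM hc hℓ₀ hℓ₀M hℓ₀2 hℓ₀L ht₀
      (w := gLoc hqM hc (c • b 0)) (by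
        rw [← h2, map_smul]; exact red2_eq_zero.mpr ⟨_, rfl⟩)
    rw [hw, map_smul] at h2
    have h5 := congrArg LocLat.val h2
    rw [LinearMap.map_smul, LinearMap.map_smul] at h5
    have h3 : t • b 0 = aLoc hqM hc w := LocLat.val_injective
      (smul_right_injective (HVec (M * q) ℤ_[2]) (two_ne_zero' ℤ_[2]) h5)
    obtain ⟨v, rfl⟩ := hsurj w
    rw [hd] at h3
    change t • b 0 = d • v at h3
    refine Ideal.mem_span_singleton'.mpr ⟨b.repr v 0, ?_⟩
    have h4 := congrArg (fun x => b.repr x 0) h3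
    simp only [map_smul, Finsupp.smul_apply, Module.Basis.repr_self, Finsupp.single_eq_same,
      smul_eq_mul, mul_one] at h4
    exact (mul_comm _ _).trans h4.symm

/-- The old quotient at `q`: its kernel is the annihilator of `U_q² - 1`, and the new quotient has
no torsion. -/
theorem exists_oldQuotient (hL : LevelHyp D (M * q)) (hM : LevelHyp D M) (hq : q.Prime)
    (hqM : ¬ q ∣ M) (S : ResSys (M * q) D) (S₀ : ResSys M D) :
    ∃ π : locHecke S.θ →ₐ[ℤ_[2]] AdjoinRoot (X ^ 2 -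
        C (locT S₀.θ (Reps.heckeTOf hq hqM)) * X + C (q : locHecke S₀.θ)),
      Function.Surjective π ∧
      (∀ (ℓ : Nat.Primes), (ℓ : ℕ) ≠ q →
        π (locT S.θ (Reps.heckeGenOf (M * q) ℓ)) =
          AdjoinRoot.of _ (locT S₀.θ (Reps.heckeGenOf M ℓ))) ∧
      π (locT S.θ (Reps.heckeGenOf (M * q) ⟨q, hq⟩)) = AdjoinRoot.root _ ∧
      (∀ t, π t = 0 ↔ t * (locT S.θ (Reps.heckeGenOf (M * q) ⟨q, hq⟩) ^ 2 - 1) = 0) ∧
      (∀ t, (2 : locHecke S.θ) * t ∈
          Ideal.span {locT S.θ (Reps.heckeGenOf (M * q) ⟨q, hq⟩) ^ 2 - 1} →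
        t ∈ Ideal.span {locT S.θ (Reps.heckeGenOf (M * q) ⟨q, hq⟩) ^ 2 - 1}) := by
  haveI : Fact q.Prime := ⟨hq⟩
  rw [show locT S₀.θ (Reps.heckeTOf hq hqM) = locT S₀.θ (tqM M q) from
    congrArg _ (Reps.heckeGenOf_T M hq hqM).symm]
  exact exists_oldQuotient_qPr hL hM hqM S S₀

/-- Mazur's principle: a congruence class unramified at `q` is old at `q`. -/
theorem mem_of_unramified (hL : LevelHyp D (M * q)) (hM : LevelHyp D M) (hq : q.Prime)
    (hqM : ¬ q ∣ M) (S : ResSys (M * q) D) (I : Ideal (locHecke S.θ))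
    (hI : ∃ n : ℕ, (2 : locHecke S.θ) ^ n ∈ I)
    (hur : ∀ A : ValuationSubring (AlgebraicClosure ℚ), A.LiesOverPrime q →
      ∀ τ ∈ A.inertiaSubgroupIn ℚ, ∀ x : LocLat S.θ, ∃ y ∈ I • (⊤ : Submodule (locHecke S.θ) (LocLat S.θ)),
        galM (M * q) τ *ᵥ LocLat.val x = LocLat.val x + LocLat.val y)
    (t : locHecke S.θ)
    (ht : t * (locT S.θ (Reps.heckeGenOf (M * q) ⟨q, hq⟩) ^ 2 - 1) = 0) : t ∈ I := by
  haveI : Fact q.Prime := ⟨hq⟩
  obtain ⟨b⟩ := nonempty_basis_locLattice hL S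
  exact mem_of_unramified_of_basis hqM
    (fun h => not_two_dvd hM hqM (h ▸ dvd_refl q)) hL hM b I hI hur t ht

end FLTAgent.Mod2
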