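import Fermat.Agent.Mod2.HeckeDefs
import Fermat.Agent.Ihara.Naturality
import Fermat.Agent.Degen.Twist

/-!
# Integral self-duality of the period lattice for the full Hecke ring

The intersection form twisted by the Fricke involution makes every Hecke operator, `U` included,
self-adjoint and has odd determinant (`exists_pairing`).
-/

set_option autoImplicit false

open CongruenceSubgroup ModularCurve.Period Matrix
open scoped MatrixGroups
open FLTAgent.HeckeH (M2 matOf mkGamma0 heckeBeta heckeBetaT heckeIdx)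
open FLTAgent.Ihara (act sv vec1 Phi Eform Eform4 Lfun)

noncomputable section

namespace FLTAgent.Mod2

variable {N ℓ : ℕ}

theorem adjugate_heckeBetaT_mul (hℓ : ℓ.Prime) (j : heckeIdx N ℓ) (δ : Gamma0 N) :
    ∃ (ε : Gamma0 N) (i : heckeIdx N ℓ),
      (heckeBetaT j).adjugate * matOf δ = matOf ε * heckeBeta i := by
  refine HeckeH.exists_heckeBeta hℓ _ ?_ ?_ ?_
  · rw [Matrix.det_mul, Matrix.det_adjugate, HeckeH.det_matOf, mul_one]
    obtain ⟨_ | a, ha⟩ := j <;>
      simp [HeckeH.heckeBetaT_none, HeckeH.heckeBetaT_some, Matrix.det_fin_two_of]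
  · obtain ⟨_ | a, ha⟩ := j <;>
      simp [HeckeH.heckeBetaT_none, HeckeH.heckeBetaT_some, Matrix.adjugate_fin_two_of,
        Matrix.mul_apply, Fin.sum_univ_two, HeckeH.matOf_dvd δ, dvd_add, dvd_mul_of_dvd_left,
        dvd_mul_of_dvd_right]
  · obtain ⟨_ | a, ha⟩ := j <;>
      simp [HeckeH.heckeBetaT_none, HeckeH.heckeBetaT_some, Matrix.adjugate_fin_two_of,
        Matrix.mul_apply, Fin.sum_univ_two]
    · exact (Int.isCoprime_iff_gcd_eq_one.mpr (by
        simpa [Int.gcd] using (Nat.Prime.coprime_iff_not_dvd hℓ).mpr (ha rfl))).mul_left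
        (HeckeH.isCoprime_matOf δ)
    · exact HeckeH.isCoprime_matOf δ

variable [NeZero N]

theorem heckeBeta_mul_adjugate (hℓ : ℓ.Prime) (i : heckeIdx N ℓ) (δ : Gamma0 N) :
    ∃ (ε : Gamma0 N) (j : heckeIdx N ℓ),
      (heckeBeta i).adjugate * matOf δ = matOf ε * heckeBetaT j := by
  obtain ⟨X, hX⟩ : ∃ X : M2, X = (heckeBeta i).adjugate * matOf δ := ⟨_, rfl⟩
  rw [← hX]
  have hXd : X.det = ℓ := by
    rw [hX, Matrix.det_mul, Matrix.det_adjugate, HeckeH.det_matOf, HeckeH.det_heckeBeta]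
    simp
  have hXc : (N : ℤ) ∣ X 1 0 := by
    rw [hX, Matrix.eta_fin_two (matOf δ)]
    obtain ⟨_ | a, ha⟩ := i <;>
      simp [HeckeH.heckeBeta_none, HeckeH.heckeBeta_some, Matrix.adjugate_fin_two_of,
        HeckeH.matOf_dvd δ, dvd_mul_of_dvd_right]
  have hd : IsCoprime (matOf δ 1 1) (N : ℤ) := by
    obtain ⟨c, hc⟩ := HeckeH.matOf_dvd δ
    exact ⟨matOf δ 0 0, -(matOf δ 0 1) * c,
      by linear_combination HeckeH.det_entries δ + matOf δ 0 1 * hc⟩
  have ha : IsCoprime (X 1 1) (N : ℤ) := by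
    rw [hX, Matrix.eta_fin_two (matOf δ)]
    obtain ⟨_ | a, ha⟩ := i
    · simp only [HeckeH.heckeBeta_none, Matrix.adjugate_fin_two_of, Matrix.mul_fin_two]
      have hc : IsCoprime (ℓ : ℤ) (N : ℤ) := Int.isCoprime_iff_gcd_eq_one.mpr (by
        simpa [Int.gcd] using (Nat.Prime.coprime_iff_not_dvd hℓ).mpr (ha rfl))
      simpa using hc.mul_left hd
    · simp only [HeckeH.heckeBeta_some, Matrix.adjugate_fin_two_of, Matrix.mul_fin_two]
      simpa using hd
  obtain ⟨ε, j, hj⟩ := HeckeH.exists_heckeBeta (N := N) hℓ (HeckeH.wMat N X) (by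
      have h := congrArg Matrix.det (HeckeH.wFricke_mul N X hXc)
      rw [Matrix.det_mul, Matrix.det_mul, mul_comm (HeckeH.wMat N X).det, hXd] at h
      exact (mul_left_cancel₀ (by rw [HeckeH.det_wFricke]; exact_mod_cast NeZero.ne N) h).symm)
    (by simp [HeckeH.wMat]) (by simpa [HeckeH.wMat] using ha)
  refine ⟨HeckeH.wGamma0 N ε, j, ?_⟩
  have hw : HeckeH.wFricke N * X =
      HeckeH.wFricke N * (matOf (HeckeH.wGamma0 N ε) * heckeBetaT j) := by
    rw [HeckeH.wFricke_mul N X hXc, hj, ← Matrix.mul_assoc (HeckeH.wFricke N),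
      HeckeH.wFricke_mul_matOf, HeckeH.wGamma0_wGamma0, Matrix.mul_assoc (matOf ε) (HeckeH.wFricke N)]
    have hb : HeckeH.wFricke N * heckeBetaT j = heckeBeta j * HeckeH.wFricke N := by
      have h := HeckeH.wFricke_mul N (heckeBetaT j) (by
        obtain ⟨_ | a, ha⟩ := j <;> simp [HeckeH.heckeBetaT_none, HeckeH.heckeBetaT_some])
      rw [h]
      congr 1
      obtain ⟨_ | a, ha⟩ := j
      · simp [HeckeH.wMat, HeckeH.heckeBetaT_none, HeckeH.heckeBeta_none]
      · simp [HeckeH.wMat, HeckeH.heckeBetaT_some, HeckeH.heckeBeta_some, ← mul_neg,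
          Int.mul_ediv_cancel_left _ (show (N : ℤ) ≠ 0 by exact_mod_cast NeZero.ne N)]
    rw [hb, Matrix.mul_assoc]
  have h2 := congrArg (fun M : M2 => (HeckeH.wFricke N).adjugate * M) hw
  simp only [← Matrix.mul_assoc, Matrix.adjugate_mul, Matrix.smul_mul, Matrix.one_mul] at h2
  exact smul_right_injective M2
    (by rw [HeckeH.det_wFricke]; exact_mod_cast NeZero.ne N) h2

variable (N) in
/-- The matching of `δ β i` with `adj (γ j) δ'`. -/
def adjPair (hℓ : ℓ.Prime) (p : heckeIdx N ℓ × Gamma0 N) : heckeIdx N ℓ × Gamma0 N :=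
  ((adjugate_heckeBetaT_mul hℓ p.1 p.2).choose_spec.choose,
    (adjugate_heckeBetaT_mul hℓ p.1 p.2).choose)

omit [NeZero N] in
theorem adjPair_spec (hℓ : ℓ.Prime) (p : heckeIdx N ℓ × Gamma0 N) :
    (heckeBetaT p.1).adjugate * matOf p.2 =
      matOf (adjPair N hℓ p).2 * heckeBeta (adjPair N hℓ p).1 :=
  (adjugate_heckeBetaT_mul hℓ p.1 p.2).choose_spec.choose_spec

theorem adjPair_bijective (hℓ : ℓ.Prime) : Function.Bijective (adjPair N hℓ) := by
  constructor
  · intro p p' h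
    have h2 := congrArg Matrix.adjugate ((adjPair_spec hℓ p).trans
      ((congrArg (fun x : heckeIdx N ℓ × Gamma0 N => matOf x.2 * heckeBeta x.1) h).trans
        (adjPair_spec hℓ p').symm))
    rw [Matrix.adjugate_mul_distrib, Matrix.adjugate_mul_distrib, Ihara.adj_adj, Ihara.adj_adj,
      ← Ihara.matOf_inv, ← Ihara.matOf_inv] at h2
    obtain ⟨h3, h4⟩ := (HeckeH.heckeRepsT N hℓ).unique h2
    exact Prod.ext h4 (inv_injective h3)
  · rintro ⟨i, δ⟩
    obtain ⟨ε, j, hj⟩ := heckeBeta_mul_adjugate hℓ i δ⁻¹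
    refine ⟨(j, ε⁻¹), ?_⟩
    have h2 := congrArg Matrix.adjugate hj
    rw [Matrix.adjugate_mul_distrib, Matrix.adjugate_mul_distrib, Ihara.adj_adj, Ihara.matOf_inv,
      Ihara.adj_adj, ← Ihara.matOf_inv] at h2
    have h3 := (adjPair_spec hℓ (j, ε⁻¹)).symm.trans h2.symm
    obtain ⟨h4, h5⟩ := (HeckeH.heckeReps N hℓ).unique h3
    exact Prod.ext h5 h4

theorem sum_Phi_cocAll (hℓ : ℓ.Prime) (γ : Gamma0 N) (u v : Ihara.Vec) :
    ∑ i, Phi ((HeckeH.heckeReps N hℓ).coc γ i) u v =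
      ∑ j : heckeIdx N ℓ, Phi γ (act (heckeBetaT j) u) (act (heckeBetaT j) v) := by
  have hdet : ∀ i : heckeIdx N ℓ, 0 < (heckeBeta i).det := fun i => by
    rw [HeckeH.det_heckeBeta]; exact_mod_cast hℓ.pos
  have hγ : 0 < (matOf γ).det := by rw [HeckeH.det_matOf]; exact one_pos
  rw [Ihara.sum_Phi_transfer heckeBeta hdet (matOf γ) ((HeckeH.heckeReps N hℓ).coc γ)
    ((HeckeH.heckeReps N hℓ).permEquiv γ) (fun i => (HeckeH.heckeReps N hℓ).spec γ i) u v]
  have h1 : ∀ i, (Function.support fun δ : Gamma0 N =>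
      Lfun u v (matOf δ * heckeBeta i * matOf γ) - Lfun u v (matOf δ * heckeBeta i)).Finite :=
    fun i => Ihara.finite_variation u v (hdet i) hγ
  have h2 : ∀ i : heckeIdx N ℓ, (Function.support fun δ : Gamma0 N =>
      Lfun (act (heckeBetaT i) u) (act (heckeBetaT i) v) (matOf (δ * γ)) -
        Lfun (act (heckeBetaT i) u) (act (heckeBetaT i) v) (matOf δ)).Finite :=
    fun i => Ihara.finite_support_Phi γ _ _
  refine (Ihara.sum_finsum (fun p : heckeIdx N ℓ × Gamma0 N =>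
    Lfun u v (matOf p.2 * heckeBeta p.1 * matOf γ) - Lfun u v (matOf p.2 * heckeBeta p.1))
    h1).trans ?_
  refine Eq.trans ?_ (Ihara.sum_finsum (fun p : heckeIdx N ℓ × Gamma0 N =>
    Lfun (act (heckeBetaT p.1) u) (act (heckeBetaT p.1) v) (matOf (p.2 * γ)) -
      Lfun (act (heckeBetaT p.1) u) (act (heckeBetaT p.1) v) (matOf p.2))
    h2).symm
  refine (finsum_comp_equiv (Equiv.ofBijective _ (adjPair_bijective hℓ))
    (f := fun p : heckeIdx N ℓ × Gamma0 N =>
      Lfun u v (matOf p.2 * heckeBeta p.1 * matOf γ) - Lfun u v (matOf p.2 * heckeBeta p.1))).symm.trans ?_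
  refine finsum_congr fun p => ?_
  rw [Equiv.ofBijective_apply, ← adjPair_spec hℓ p, HeckeH.matOf_mul, Matrix.mul_assoc,
    Ihara.Lfun_mul_left u v, Ihara.Lfun_mul_left u v, Ihara.adj_adj]

/-- The transpose of a transfer operator for the intersection form. -/
theorem sum_Eform_coc (hℓ : ℓ.Prime) (γ δ : Gamma0 N) :
    ∑ i, Eform ((HeckeH.heckeReps N hℓ).coc γ i) δ =
      ∑ j, Eform γ ((HeckeH.heckeRepsT N hℓ).coc δ j) := by
  refine mul_left_cancel₀ (four_ne_zero : (4 : ℤ) ≠ 0) ?_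
  rw [Finset.mul_sum, Finset.mul_sum]
  simp only [Ihara.four_mul_Eform, Eform4]
  rw [sum_Phi_cocAll hℓ γ]
  have hne : ∀ j : heckeIdx N ℓ, act (heckeBetaT j) vec1 ≠ 0 := by
    rintro ⟨_ | a, ha⟩ <;>
      simp [HeckeH.heckeBetaT_none, HeckeH.heckeBetaT_some, act, vec1, hℓ.ne_zero]
  have key : ∀ i : heckeIdx N ℓ,
      Phi γ (act (heckeBetaT i) vec1) (act (heckeBetaT i) (sv (δ : SL(2, ℤ)) vec1)) =
        Phi γ (act (heckeBetaT i) vec1) vec1 +
          Phi γ vec1 (sv ((HeckeH.heckeRepsT N hℓ).coc δ i : SL(2, ℤ)) vec1) -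
          Phi γ (act (heckeBetaT ((HeckeH.heckeRepsT N hℓ).perm δ i)) vec1) vec1 := by
    intro i
    have hs : act (heckeBetaT i) (sv (δ : SL(2, ℤ)) vec1) =
        sv ((HeckeH.heckeRepsT N hℓ).coc δ i : SL(2, ℤ))
          (act (heckeBetaT ((HeckeH.heckeRepsT N hℓ).perm δ i)) vec1) := by
      rw [sv, sv, ← Ihara.act_mul, ← Ihara.act_mul]
      exact congrArg (act · vec1) ((HeckeH.heckeRepsT N hℓ).spec δ i)
    rw [hs, Ihara.Phi_add γ (hne i) Ihara.vec1_ne_zero (Ihara.sv_ne_zero _ (hne _)),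
      Ihara.Phi_add γ Ihara.vec1_ne_zero (Ihara.sv_ne_zero _ Ihara.vec1_ne_zero)
        (Ihara.sv_ne_zero _ (hne _)), Ihara.Phi_invariant,
      Ihara.Phi_swap γ (act (heckeBetaT ((HeckeH.heckeRepsT N hℓ).perm δ i)) vec1) vec1]
    ring
  rw [Finset.sum_congr rfl fun i _ => key i, Finset.sum_sub_distrib, Finset.sum_add_distrib,
    show ∑ i, Phi γ (act (heckeBetaT ((HeckeH.heckeRepsT N hℓ).perm δ i)) vec1) vec1 =
      ∑ i, Phi γ (act (heckeBetaT i) vec1) vec1 from
      Equiv.sum_comp ((HeckeH.heckeRepsT N hℓ).permEquiv δ)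
        (fun i => Phi γ (act (heckeBetaT i) vec1) vec1)]
  ring

variable (N) in
/-- The matrix of the intersection form at the generators. -/
def formMat : HeckeH.HMat N :=
  Matrix.of fun i j => Eform (Period.gen N i) (Period.gen N j)

/-- The form in its right argument. -/
def formRight (γ : Gamma0 N) : Period.H N ℤ ℤ :=
  ⟨AddMonoidHom.mk' (fun δ => Eform γ (Additive.toMul δ)) fun _ _ => Ihara.Eform_mul_right γ _ _,
    ⟨fun δ hδ => Ihara.Eform_ext ((Ihara.Eform4_parabolic_right γ δ hδ).trans (by norm_num)),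
      fun δ hδ => Ihara.Eform_ext ((Ihara.Eform4_finOrder_right γ δ hδ).trans (by norm_num))⟩⟩

variable (N) in
theorem transferMat_mul_formMat (hℓ : ℓ.Prime) :
    HeckeH.transferMat (HeckeH.heckeReps N hℓ) * formMat N =
      formMat N * (HeckeH.transferMat (HeckeH.heckeRepsT N hℓ))ᵀ := by
  ext a b
  have h1 := HeckeH.evalEquiv_matAct N ℤ ℤ (HeckeH.transferMat (HeckeH.heckeReps N hℓ))
    (Ihara.EH (Period.gen N b)) a
  rw [HeckeH.matAct_transferMat, Period.evalEquiv_apply, HeckeH.Reps.coe_transferH,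
    HeckeH.Reps.transfer_apply] at h1
  have h2 := HeckeH.evalEquiv_matAct N ℤ ℤ (HeckeH.transferMat (HeckeH.heckeRepsT N hℓ))
    (formRight (Period.gen N a)) b
  rw [HeckeH.matAct_transferMat, Period.evalEquiv_apply, HeckeH.Reps.coe_transferH,
    HeckeH.Reps.transfer_apply] at h2
  have h3 := sum_Eform_coc hℓ (Period.gen N a) (Period.gen N b)
  simp only [Matrix.mul_apply, Matrix.transpose_apply, formMat, Matrix.of_apply]
  calc ∑ k, HeckeH.transferMat (HeckeH.heckeReps N hℓ) a k *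
        Eform (Period.gen N k) (Period.gen N b)
      = ∑ i, Eform ((HeckeH.heckeReps N hℓ).coc (Period.gen N a) i) (Period.gen N b) := h1.symm
    _ = ∑ j, Eform (Period.gen N a) ((HeckeH.heckeRepsT N hℓ).coc (Period.gen N b) j) := h3
    _ = ∑ k, HeckeH.transferMat (HeckeH.heckeRepsT N hℓ) b k *
        Eform (Period.gen N a) (Period.gen N k) := h2
    _ = _ := Finset.sum_congr rfl fun k _ => mul_comm _ _

variable (N) in
theorem transferMat_repsT (hℓ : ℓ.Prime) :
    HeckeH.transferMat (HeckeH.heckeRepsT N hℓ) =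
      Degen.frickeMat N * HeckeH.transferMat (HeckeH.heckeReps N hℓ) * Degen.frickeMat N :=
  Degen.rectAct_int_injective fun φ => by
    rw [Degen.rectAct_mul, Degen.rectAct_mul, Degen.rectAct_frickeMat, Degen.rectAct_eq_matAct,
      Degen.rectAct_eq_matAct, HeckeH.matAct_transferMat, HeckeH.matAct_transferMat]
    exact HeckeH.heckeHT_eq N hℓ ℤ ℤ φ

variable (N) in
theorem heckeMatHom_heckeGenOf (ℓ : Nat.Primes) :
    HeckeH.heckeMatHom N (Reps.heckeGenOf N ℓ) = HeckeH.transferMat (HeckeH.heckeReps N ℓ.2) :=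
  Degen.rectAct_int_injective fun φ => by
    rw [Degen.rectAct_eq_matAct, Degen.rectAct_eq_matAct, HeckeH.matAct_transferMat]
    exact congrArg (fun f : Module.End ℤ (Period.H N ℤ ℤ) => f φ)
      (Reps.heckeEnd_heckeGenOf N ℓ ℤ ℤ)

variable (N) in
/-- The intersection form twisted by the Fricke involution. -/
def pairQ : HeckeH.HMat N := formMat N * (Degen.frickeMat N)ᵀ

variable (N) in
theorem heckeMatHom_mul_pairQ (t : Reps.TZ N) :
    HeckeH.heckeMatHom N t * pairQ N = pairQ N * (HeckeH.heckeMatHom N t)ᵀ := by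
  obtain ⟨t, ht⟩ := t
  induction ht using Algebra.adjoin_induction with
  | mem x hx =>
    obtain ⟨ℓ, hℓ⟩ : ∃ ℓ : Nat.Primes,
        (⟨x, Algebra.subset_adjoin hx⟩ : Reps.TZ N) = Reps.heckeGenOf N ℓ := by
      rcases hx with ⟨ℓ, hℓ, hℓN, -, rfl⟩ | ⟨q, hqN, hq, -, rfl⟩
      · exact ⟨⟨ℓ, hℓ⟩, (Reps.heckeGenOf_T N hℓ hℓN).symm⟩
      · exact ⟨⟨q, hq⟩, by simp [Reps.heckeGenOf, hqN]; rfl⟩
    rw [hℓ, heckeMatHom_heckeGenOf, pairQ, ← Matrix.mul_assoc, transferMat_mul_formMat,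
      transferMat_repsT, Matrix.transpose_mul, Matrix.transpose_mul, Matrix.mul_assoc,
      Matrix.mul_assoc, Matrix.mul_assoc, ← Matrix.transpose_mul (Degen.frickeMat N) (Degen.frickeMat N),
      Degen.frickeMat_mul_self, Matrix.transpose_one, Matrix.mul_one]
    simp only [Matrix.mul_assoc]
  | algebraMap r =>
    have e : (⟨algebraMap ℤ _ r, Subalgebra.algebraMap_mem _ r⟩ : Reps.TZ N) = (r : Reps.TZ N) :=
      Subtype.ext (by simp)
    refine (congrArg (fun z => HeckeH.heckeMatHom N z * pairQ N = pairQ N *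
      (HeckeH.heckeMatHom N z)ᵀ) e).mpr ?_
    rw [map_intCast, Matrix.transpose_intCast]
    exact (Int.cast_commute r _).eq
  | add x y hx hy hx' hy' =>
    rw [show (⟨x + y, _⟩ : Reps.TZ N) = ⟨x, hx⟩ + ⟨y, hy⟩ from rfl, map_add, Matrix.add_mul, hx',
      hy', Matrix.transpose_add, Matrix.mul_add]
  | mul x y hx hy hx' hy' =>
    rw [show (⟨x * y, _⟩ : Reps.TZ N) = ⟨x, hx⟩ * ⟨y, hy⟩ from rfl]
    conv_rhs => rw [mul_comm (⟨x, hx⟩ : Reps.TZ N) ⟨y, hy⟩, map_mul, Matrix.transpose_mul]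
    rw [map_mul, Matrix.mul_assoc, hy', ← Matrix.mul_assoc, hx', Matrix.mul_assoc]

variable (N) in
theorem two_not_dvd_det_formMat : ¬ (2 : ℤ) ∣ (formMat N).det := by
  intro h
  have h2 : ((formMat N).map (Int.castRingHom (ZMod 2))).det = 0 := by
    rw [← RingHom.mapMatrix_apply, ← RingHom.map_det, eq_intCast,
      ZMod.intCast_zmod_eq_zero_iff_dvd]
    exact_mod_cast h
  obtain ⟨x, hx, hx0⟩ := Matrix.exists_vecMul_eq_zero_iff.mpr h2
  refine hx (funext fun a => ?_)
  let Λ : Module.Dual (ZMod 2) (Period.H N (ZMod 2) (ZMod 2)) :=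
    (∑ a, x a • (LinearMap.proj a : (Fin (Period.rankH N) → ZMod 2) →ₗ[ZMod 2] ZMod 2)).comp
      (Period.evalEquiv N (ZMod 2) (ZMod 2)).toLinearMap
  have hΛ : ∀ φ, Λ φ = ∑ a, x a * Period.evalEquiv N (ZMod 2) (ZMod 2) φ a := fun φ => by
    simp [Λ]
  have h0 : Ihara.Pmap (ZMod 2) Λ = 0 := by
    refine (Period.evalEquiv N (ZMod 2) (ZMod 2)).injective (funext fun b => ?_)
    rw [map_zero, Pi.zero_apply]
    show Λ (Ihara.EK (ZMod 2) (Period.gen N b)) = 0
    rw [hΛ]
    have := congrFun hx0 b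
    simp only [Matrix.vecMul, dotProduct, Matrix.map_apply, Pi.zero_apply, formMat,
      Matrix.of_apply, eq_intCast] at this
    exact this
  have h1 := congrArg (fun f : Module.Dual (ZMod 2) (Period.H N (ZMod 2) (ZMod 2)) =>
    f ((Period.evalEquiv N (ZMod 2) (ZMod 2)).symm (Pi.single a 1)))
    (Ihara.Pmap_injective (h0.trans (map_zero _).symm))
  simpa [hΛ, Pi.single_apply] using h1

/-- The intersection pairing twisted by the Fricke involution: perfect at `2`, and every Hecke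
operator, `U` included, is self-adjoint. -/
theorem exists_pairing (L : ℕ) [NeZero L] :
    ∃ P : HeckeH.HMat L, ¬ (2 : ℤ) ∣ P.det ∧
      ∀ t : Reps.TZ L, (HeckeH.heckeMatHom L t)ᵀ * P = P * HeckeH.heckeMatHom L t := by
  have hQ : ¬ (2 : ℤ) ∣ (pairQ L).det := by
    rw [pairQ, Matrix.det_mul, Matrix.det_transpose, Int.prime_two.dvd_mul, not_or]
    refine ⟨two_not_dvd_det_formMat L, fun h => ?_⟩
    have h1 := congrArg Matrix.det (Degen.frickeMat_mul_self (N := L))
    rw [Matrix.det_mul, Matrix.det_one] at h1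
    have : (2 : ℤ) ∣ 1 := h1 ▸ h.mul_right _
    omega
  refine ⟨(pairQ L).adjugate, ?_, fun t => ?_⟩
  · rw [Matrix.det_adjugate]
    exact fun h => hQ (Int.prime_two.dvd_of_dvd_pow h)
  · have h := congrArg (fun A : HeckeH.HMat L => (pairQ L).adjugate * A * (pairQ L).adjugate)
      (heckeMatHom_mul_pairQ L t)
    simp only [Matrix.mul_assoc, Matrix.mul_adjugate, Matrix.mul_smul, Matrix.mul_one] at h
    rw [← Matrix.mul_assoc (pairQ L).adjugate (pairQ L), Matrix.adjugate_mul, Matrix.smul_mul,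
      Matrix.one_mul] at h
    exact (smul_right_injective (HeckeH.HMat L) (show (pairQ L).det ≠ 0 from
      fun h0 => hQ (h0 ▸ dvd_zero _)) h).symm

end FLTAgent.Mod2
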