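import Fermat.Agent.Mod2.TwoDelta

/-!
# Multiplicity one modulo two at a level `2M`, `M` odd

Classes with vanishing logarithmic derivative at the cusp `0` are fixed by inertia
(`smul_eq_of_delta_eq_zero`) and have index at most two, so the classes killed by the maximal
ideal form one copy of `ρ̄`: they number four (`card_eigenSet_two`).
-/

set_option autoImplicit false
set_option linter.style.haveILetI false
set_option linter.unusedSectionVars false
set_option maxHeartbeats 1000000
set_option synthInstance.maxHeartbeats 400000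

noncomputable section

open ModularCurve AlgebraicCurve SemilinearAut

namespace FLTAgent.Mod2

open FLTAgent.MazurP (qTheta qDlog normBack)
open FLTAgent.BadQ (Scalable gV gval atkinLehner)
open FLTAgent.Kronecker (twist normAlpha)

local notation "Qb" => AlgebraicClosure ℚ
local notation "Γℚ" => (AlgebraicClosure ℚ ≃ₐ[ℚ] AlgebraicClosure ℚ)

variable {M : ℕ} [NeZero M]

local notation "FL" => modularFunctionFieldBar (M * 2)

/-- The norm of a function of level `2M` down to level `M`, in `q`-expansions. -/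
theorem qExpand_normAlpha_two (hM : ¬ 2 ∣ M) (g : FL) :
    ∃ ζ : Qbˣ, ζ ^ 2 = 1 ∧ qExpand Qb 2 ((normAlpha Qb M 2 g : modularFunctionFieldBar M) :
        LaurentSeries Qb) =
      qExpand Qb 2 (g : LaurentSeries Qb) *
        ∏ b : Fin 2, twist (ζ ^ (b : ℕ))
          ((atkinLehner Nat.prime_two hM g : FL) : LaurentSeries Qb) := by
  classical
  have hfin : FiniteAlong Qb (heckeAlphaBar Qb M 2) :=
    (Kronecker.heckeInputs_bar M 2).choose_spec.choose_spec.choose_spec.choose
  have hdeg := Kronecker.finrankAlong_alpha M Nat.prime_two hM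
  haveI : NeZero ((2 : ℕ) : Qb) := ⟨by norm_num⟩
  obtain ⟨r, hr⟩ := HasEnoughRootsOfUnity.exists_primitiveRoot Qb 2
  let ζ : Qbˣ := (hr.isUnit two_ne_zero).unit
  have hζ : IsPrimitiveRoot (ζ : Qb) 2 := by rw [IsUnit.unit_spec]; exact hr
  have hζ2 : ζ ^ 2 = 1 := Units.ext (by rw [Units.val_pow_eq_pow_val]; exact hζ.pow_eq_one)
  refine ⟨ζ, hζ2, ?_⟩
  let L := Qb
  let e : FL →+* LaurentSeries Qb :=
    (SubringClass.subtype _).comp (atkinLehner Nat.prime_two hM).toRingHom
  have heα : ∀ y, e (heckeAlphaBar Qb M 2 y) = qExpand Qb 2 (y : LaurentSeries Qb) := fun y => by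
    show ((atkinLehner Nat.prime_two hM (heckeAlphaBar Qb M 2 y) : FL) : LaurentSeries Qb) = _
    rw [BadQ.atkinLehner_alpha]
    exact coe_heckeBetaBar M 2 y
  have heβ : ∀ y, e (heckeBetaBar Qb M 2 y) = (y : LaurentSeries Qb) := fun y => by
    show ((atkinLehner Nat.prime_two hM (heckeBetaBar Qb M 2 y) : FL) : LaurentSeries Qb) = _
    rw [BadQ.atkinLehner_beta]
    exact coe_heckeAlphaBar M 2 y
  have hu : ∀ b : ℕ, (ζ ^ b) ^ 2 = 1 := fun b => by
    rw [← pow_mul, mul_comm, pow_mul, hζ2, one_pow]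
  let i : LaurentSeries L →+* AlgebraicClosure (LaurentSeries L) :=
    algebraMap (LaurentSeries L) (AlgebraicClosure (LaurentSeries L))
  let v : FL →+* LaurentSeries L := SubringClass.subtype _
  let v₀ : modularFunctionFieldBar M →+* LaurentSeries L := SubringClass.subtype _
  let σ : Option (Fin 2) → (FL →+* AlgebraicClosure (LaurentSeries L)) :=
    fun o => o.elim (i.comp ((qExpand L 2).comp v))
      (fun b => i.comp ((twist (ζ ^ (b : ℕ))).comp e))
  have hinf : ∀ x, σ none (heckeBetaBar L M 2 x) =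
      i (qExpand L 2 (qExpand L 2 (x : LaurentSeries L))) := fun x =>
    congrArg (fun z => i (qExpand L 2 z)) (coe_heckeBetaBar M 2 x)
  have hb : ∀ (b : Fin 2) x, σ (some b) (heckeBetaBar L M 2 x) =
      i (twist (ζ ^ (b : ℕ)) (x : LaurentSeries L)) := fun b x =>
    congrArg (fun z => i (twist (ζ ^ (b : ℕ)) z)) (heβ x)
  have hσ : ∀ o x, σ o (heckeAlphaBar L M 2 x) = i.comp ((qExpand L 2).comp v₀) x := by
    intro o x
    cases o with
    | none => exact congrArg (fun z => i (qExpand L 2 z)) (coe_heckeAlphaBar M 2 x)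
    | some b =>
        exact (congrArg (fun z => i (twist (ζ ^ (b : ℕ)) z)) (heα x)).trans
          (congrArg i (Kronecker.twist_qExpand (hu b) _))
  have hne : ∀ b : Fin 2, qExpand L 2 (qExpand L 2 (coeffEmb L jq)) ≠
      twist (ζ ^ (b : ℕ)) (coeffEmb L jq) := fun b h => by
    have h1 := congrArg (fun x : LaurentSeries L => x.coeff (-1)) h
    simp only [Kronecker.twist_coeffEmb_jq_coeff_neg_one] at h1
    exact Units.ne_zero _ (h1.symm.trans (Kronecker.coeff_qExpand_twice_jq_neg_one le_rfl))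
  have hinj : Function.Injective σ := by
    intro o o' h
    have h' := DFunLike.congr_fun h
      (heckeBetaBar L M 2 ⟨coeffEmb L jq, Kronecker.coeffEmb_jq_mem L M⟩)
    cases o with
    | none =>
        cases o' with
        | none => rfl
        | some b =>
            rw [hinf, hb] at h'
            exact absurd (i.injective h') (hne b)
    | some b =>
        cases o' with
        | none =>
            rw [hinf, hb] at h'
            exact absurd (i.injective h').symm (hne b)
        | some b' =>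
            rw [hb, hb] at h'
            have h'' := congrArg (fun x : LaurentSeries L => x.coeff (-1)) (i.injective h')
            simp only [Kronecker.twist_coeffEmb_jq_coeff_neg_one] at h''
            have h3 : ζ ^ (b : ℕ) = ζ ^ (b' : ℕ) := inv_inj.mp (Units.ext h'')
            have h4 := congrArg (fun u : Lˣ => (u : L)) h3
            simp only [Units.val_pow_eq_pow_val] at h4
            exact congrArg some (Fin.ext (hζ.pow_inj b.2 b'.2 h4))
  haveI : CharZero (modularFunctionFieldBar M) :=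
    charZero_of_injective_ringHom (algebraMap L (modularFunctionFieldBar M)).injective
  have key := @Kronecker.norm_eq_prod_of_embeddings _ _ _ _ _ _ _ _
    (algebraAlong (heckeAlphaBar L M 2)) hfin _ _ (i.comp ((qExpand L 2).comp v₀)) σ hσ hinj
    (by rw [Fintype.card_option, Fintype.card_fin]; exact hdeg.symm) g
  rw [Fintype.prod_option] at key
  refine i.injective ?_
  rw [map_mul, map_prod]
  exact key

variable {A : ValuationSubring Qb} {θ : Reps.TZ (M * 2) →+* ZMod 2}

local notation "kA" => IsLocalRing.ResidueField A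
local notation "π" => IsLocalRing.residue A

variable (hM : ¬ 2 ∣ M) (hA : A.LiesOverPrime 2)

include hM hA in
theorem isPP_of_qDlog (T : MazurP.ModFrame A 2 M Nat.prime_two hM hA) {f : FL} (hf : f ≠ 0)
    (h : qDlog (sred A (f : LaurentSeries Qb)) = 0) : T.Fr.IsPP false f := by
  obtain ⟨hd0, hd, hdr⟩ := MazurP.Frame.scaleConst_spec (Fr := T.Fr) (b := false) hf
  rw [T.G_false] at hd hdr
  have hser : ((T.Fr.nred false f : modularFunctionFieldFullC kA M) : LaurentSeries kA) =
      gval A π (HahnSeries.C (T.Fr.scaleConst false f) * (f : LaurentSeries Qb)) := by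
    rw [MazurP.Frame.nred, T.G_false, ← MazurP.coe_smul_bar]
    rfl
  have hm : HahnSeries.C (T.Fr.scaleConst false f) * (f : LaurentSeries Qb) ∈ gV A π := by
    rw [← MazurP.coe_smul_bar]; exact hd
  have hne : gval A π (HahnSeries.C (T.Fr.scaleConst false f) * (f : LaurentSeries Qb)) ≠ 0 := by
    rw [← hser]
    exact fun h0 => MazurP.Frame.nred_ne_zero (Fr := T.Fr) hf (Subtype.ext h0)
  obtain ⟨t, ht, e⟩ := exists_sred_eq (scalable_bar hA hf) hd0 hm hne
  rw [e, qDlog_C_mul ht, ← hser] at h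
  obtain ⟨u, hu⟩ := MazurP.exists_pow_eq_of_qTheta_eq_zero A hA hM
    (g := T.Fr.nred false f) (by
      rw [MazurP.qTheta_eq_mul_qDlog (by rw [hser]; exact hne), h, mul_zero])
  exact MazurP.Frame.IsPP.of_nred hf hu

include hA in
theorem frobenius_series_injective :
    Function.Injective fun y : LaurentSeries kA => y ^ 2 := by
  haveI := GalCommon.charP_residueField Nat.prime_two hA
  haveI : CharP (LaurentSeries kA) 2 :=
    charP_of_injective_ringHom (HahnSeries.C_injective (Γ := ℤ) (R := kA)) 2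
  intro y z h
  exact (CharTwo.sq_injective h :)

include hM hA in
theorem qDlog_sred_atkinLehner {g : FL} (hg : g ≠ 0)
    (h : qDlog (sred A (g : LaurentSeries Qb)) = 0)
    {X : FL} (hX : normBack (heckeAlphaBar Qb M 2) g = X ^ 2) :
    qDlog (sred A ((atkinLehner Nat.prime_two hM g : FL) : LaurentSeries Qb)) = 0 := by
  haveI := GalCommon.charP_residueField Nat.prime_two hA
  haveI : Fact (Nat.Prime 2) := ⟨Nat.prime_two⟩
  obtain ⟨ζ, hζ2, hq⟩ := qExpand_normAlpha_two hM g
  have hXs : ((normAlpha Qb M 2 g : modularFunctionFieldBar M) : LaurentSeries Qb) =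
      (X : LaurentSeries Qb) ^ 2 := by
    rw [← IntermediateField.coe_pow, ← hX]
    exact (coe_heckeAlphaBar M 2 _).symm
  rw [hXs, map_pow, Fin.prod_univ_two] at hq
  simp only [Fin.val_zero, Fin.val_one, pow_zero, pow_one, Kronecker.twist_one] at hq
  obtain ⟨u, hu, hu2⟩ := exists_unit_of_pow_eq_one A two_ne_zero hζ2
  rw [← hu] at hq
  have hX0 : X ≠ 0 := by
    rintro rfl
    rw [ZeroMemClass.coe_zero, map_zero, zero_pow two_ne_zero] at hq
    rcases mul_eq_zero.mp hq.symm with h0 | h0
    · exact hg (Subtype.ext ((map_eq_zero_iff _ (qExpand_injective 2)).mp h0))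
    · rcases mul_eq_zero.mp h0 with h0 | h0
      · exact hg ((map_eq_zero (atkinLehner Nat.prime_two hM)).mp (Subtype.ext h0))
      · exact MazurP.twist_ne_zero _
          (fun h1 => hg ((map_eq_zero (atkinLehner Nat.prime_two hM)).mp (Subtype.ext h1))) h0
  set G : LaurentSeries Qb := (g : LaurentSeries Qb)
  set W : LaurentSeries Qb := ((atkinLehner Nat.prime_two hM g : FL) : LaurentSeries Qb)
  have hGs : Scalable A π G := scalable_bar hA hg
  have hWs : Scalable A π W :=
    scalable_bar hA ((map_ne_zero (atkinLehner Nat.prime_two hM)).mpr hg)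
  have hXsc : Scalable A π (X : LaurentSeries Qb) := scalable_bar hA hX0
  obtain ⟨hEX, t₁, ht₁, eX⟩ := scalable_qExpand 2 hXsc
  obtain ⟨-, t₂, ht₂, eX2⟩ := exists_sred_mul hEX hEX
  obtain ⟨hEG, t₃, ht₃, eG⟩ := scalable_qExpand 2 hGs
  obtain ⟨hTW, t₄, ht₄, eTW⟩ := scalable_twist u hWs
  obtain ⟨hWW, t₅, ht₅, eWW⟩ := exists_sred_mul hWs hTW
  obtain ⟨-, t₆, ht₆, eR⟩ := exists_sred_mul hEG hWW
  have hu1 : Units.map (π).toMonoidHom u = 1 := by
    refine Units.ext (frobenius_inj kA 2 ?_)
    rw [frobenius_def, ← Units.val_pow_eq_pow_val, ← map_pow, hu2, map_one, Units.val_one,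
      map_one]
  rw [← pow_two] at eX2
  rw [hq, eR, eWW, eG, eTW, eX, hu1, Kronecker.twist_one] at eX2
  set a := sred A G with ha
  set b := sred A W with hb
  set c := sred A (X : LaurentSeries Qb) with hc
  have e1 : HahnSeries.C (t₆ * t₃ * t₅ * t₄) * (qExpand kA 2 a * b ^ 2) =
      HahnSeries.C (t₂ * t₁ * t₁) * qExpand kA 2 c ^ 2 := by
    simp only [map_mul]
    linear_combination eX2
  have e2 := congrArg (coeffMap (frobenius kA 2)) e1
  have hE : ∀ y : LaurentSeries kA,
      coeffMap (frobenius kA 2) (qExpand kA 2 y) = y ^ 2 := fun y => by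
    rw [coeffMap_qExpand, Kronecker.pow_char_eq_qExpand 2 y]
  have hCf : ∀ t : kA, coeffMap (frobenius kA 2) (HahnSeries.C t) = HahnSeries.C t ^ 2 :=
    fun t => by
      rw [← map_pow, HahnSeries.C_apply, HahnSeries.C_apply, coeffMap_single, frobenius_def]
  have hr₁ : t₆ * t₃ * t₅ * t₄ ≠ 0 :=
    mul_ne_zero (mul_ne_zero (mul_ne_zero ht₆ ht₃) ht₅) ht₄
  have hr₂ : t₂ * t₁ * t₁ ≠ 0 := mul_ne_zero (mul_ne_zero ht₂ ht₁) ht₁
  generalize t₆ * t₃ * t₅ * t₄ = r₁ at e2 hr₁
  generalize t₂ * t₁ * t₁ = r₂ at e2 hr₂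
  rw [map_mul, map_mul, map_mul, map_pow, map_pow, hCf, hCf, hE, hE, ← mul_pow, ← mul_pow,
    ← mul_pow] at e2
  have e3 := congrArg qDlog (frobenius_series_injective hA e2)
  have ha0 : a ≠ 0 := sred_ne_zero hGs
  have hb0 : b ≠ 0 := sred_ne_zero hWs
  have hb1 : coeffMap (frobenius kA 2) b ≠ 0 :=
    (map_ne_zero_iff _ (coeffMap (frobenius kA 2)).injective).mpr hb0
  rw [qDlog_C_mul hr₁, qDlog_C_mul hr₂, MazurP.qDlog_mul ha0 hb1, h,
    zero_add, qDlog_coeffMap, MazurP.qDlog_pow_char 2 _ two_ne_zero] at e3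
  exact (map_eq_zero_iff _ (coeffMap (frobenius kA 2)).injective).mp e3

theorem pushforward_mem_principal {D : Setup} (hM : ¬ 2 ∣ M) (S : ResSys (M * 2) D)
    (φ : modularFunctionFieldBar M →ₐ[Qb] FL) (hφ : φ.toRingHom.IsIntegral)
    (hint : ∀ σ : Γℚ, SemilinearAut.IntertwinesAlong φ.toRingHom
      (arithmeticGalois (modularFunctionFieldFull M) σ)
      (arithmeticGalois (modularFunctionFieldFull (M * 2)) σ))
    (x : eigenSet S.θ) {E : Divisor.degZero (K := Qb) (F := FL)}
    (hE : Pic0.mk E = eigenPt S.θ x) :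
    Divisor.pushforwardAlong φ hφ (frickeAut (M * 2) • (E : Divisor Qb FL)) ∈
      Divisor.principal (K := Qb) (F := modularFunctionFieldBar M) := by
  haveI := Kronecker.isFF_bar M
  haveI := Kronecker.isFF_bar (M * 2)
  have hfin : FiniteAlong Qb φ := FF.finiteAlong φ
  have hN : NormFormulaAlong Qb φ hfin := FF.normFormulaAlong φ hfin (FF.separableAlong φ)
  let pD : Divisor.degZero (K := Qb) (F := FL) →+
      Divisor.degZero (K := Qb) (F := modularFunctionFieldBar M) :=
    ((Divisor.pushforwardAlong φ hφ).domRestrict _).codRestrict _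
      (fun D => Divisor.pushforwardAlong_mem_degZero φ hφ D.2)
  let push : JZero (M * 2) →+ JZero M := QuotientAddGroup.map _ _ pD fun D hD => by
    rw [AddSubgroup.mem_comap, AddSubgroup.mem_addSubgroupOf]
    exact Divisor.isPrincipal_pushforwardAlong φ hφ hfin hN hD
  have hequiv : ∀ (σ : Γℚ) (z : JZero (M * 2)), push (σ • z) = σ • push z := by
    intro σ z
    obtain ⟨D, rfl⟩ := Pic0.mk_surjective z
    rw [galois_smul_pic0_def, galois_smul_pic0_def, SemilinearAut.pic0_smul_mk]
    show Pic0.mk (pD _) = arithmeticGalois (modularFunctionFieldFull M) σ • Pic0.mk (pD D)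
    rw [SemilinearAut.pic0_smul_mk]
    exact congrArg Pic0.mk (Subtype.ext (Kronecker.pushforwardAlong_smul φ hφ (hint σ)
      (Kronecker.deg_eq_one_bar M) (Kronecker.deg_eq_one_bar (M * 2)) _))
  let φ' : JZero (M * 2) →+ JZero M :=
    push.comp (DistribSMul.toAddMonoidHom (JZero (M * 2)) (frickeAut (M * 2)))
  have h0 := map_eigenPt_eq_zero hM S φ' (fun σ z => by
    show push (frickeAut (M * 2) • σ • z) = σ • push (frickeAut (M * 2) • z)
    rw [← hequiv, galois_smul_pic0_def, galois_smul_pic0_def, ← mul_smul, ← mul_smul,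
      frickeAut_mul_galois]) x
  rw [← hE] at h0
  change push (frickeAut (M * 2) • Pic0.mk E) = 0 at h0
  rw [SemilinearAut.pic0_smul_mk] at h0
  change Pic0.mk (pD _) = 0 at h0
  rw [Pic0.mk, QuotientAddGroup.eq_zero_iff, AddSubgroup.mem_addSubgroupOf] at h0
  exact h0

include hM hA in
/-- Classes with vanishing logarithmic derivative are fixed by inertia. -/
theorem smul_eq_of_delta_eq_zero {D : Setup} (S : ResSys (M * 2) D) {τ : Γℚ}
    (hτ : τ ∈ A.inertiaSubgroupIn ℚ) {x : eigenSet S.θ} (hx : delta A x = 0) :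
    eigenRep S.θ τ x = x := by
  haveI : Fact (Nat.Prime 2) := ⟨Nat.prime_two⟩
  haveI := GalCommon.isAlgClosed_residueField A Nat.prime_two hA
  obtain ⟨T⟩ := MazurP.nonempty_modFrame A Nat.prime_two hM hA
  obtain ⟨E, f, hrep⟩ := exists_isRep x
  set g : FL := frickeAut (M * 2) • f with hgdef
  have hgf : g = fricke (M * 2) f := rfl
  have hg : g ≠ 0 := (map_ne_zero (fricke (M * 2))).mpr hrep.2.1
  set E' := SemilinearAut.degZeroSMulHom (frickeAut (M * 2)) E with hE'
  have hdiv : ∀ v, v.ord g = ((2 : ℕ) : ℤ) * (E' : Divisor Qb FL) v := fun v => by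
    rw [hgdef, hE', SemilinearAut.coe_degZeroSMulHom]
    rw [SemilinearAut.divisor_smul_apply, Nat.cast_ofNat, ← hrep.2.2,
      ← SemilinearAut.ord_smul (frickeAut (M * 2)) ((frickeAut (M * 2))⁻¹ • v) f, smul_inv_smul]
  have h0 : qDlog (sred A (g : LaurentSeries Qb)) = 0 := by
    rw [hgf]; exact (delta_eq hA hrep).symm.trans hx
  have hN : ∀ b, ∃ X, T.Fr.N b g = X ^ 2 := by
    have hα : HeckeAlphaBarIntegral Qb M 2 := (Kronecker.heckeInputs_bar M 2).choose
    have hβ : HeckeBetaBarIntegral Qb M 2 := (Kronecker.heckeInputs_bar M 2).choose_spec.choose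
    rintro (_ | _)
    · rw [T.N_false]
      refine MazurP.exists_normBack_eq_pow _ hα E' hg hdiv ?_
      rw [hE', SemilinearAut.coe_degZeroSMulHom]
      exact pushforward_mem_principal hM S _ hα
        (fun σ => Kronecker.intertwinesAlong_heckeAlphaBar Qb M 2 σ) x hrep.1
    · rw [T.N_true]
      refine MazurP.exists_normBack_eq_pow _ hβ E' hg hdiv ?_
      rw [hE', SemilinearAut.coe_degZeroSMulHom]
      exact pushforward_mem_principal hM S _ hβ
        (fun σ => Kronecker.intertwinesAlong_heckeBetaBar Qb M 2 σ) x hrep.1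
  have hpp : ∀ b, T.Fr.IsPP b g := by
    rintro (_ | _)
    · exact isPP_of_qDlog hM hA T hg h0
    · refine MazurP.isPP_true_of_atkinLehner T (isPP_of_qDlog hM hA T ((map_ne_zero _).mpr hg) ?_)
      obtain ⟨X, hX⟩ := hN false
      rw [T.N_false] at hX
      exact qDlog_sred_atkinLehner hM hA hg h0 hX
  have hneg : IsPrimitiveRoot (-1 : Qb) 2 := IsPrimitiveRoot.neg_one 0 (by norm_num)
  have hmain := T.Fr.act_sub_smul_principal (E' : Divisor Qb FL) E'.2 hdiv hpp hN hτ hneg
    (a := 1) (by rw [map_neg, map_one, pow_one])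
  rw [T.act_eq, one_smul] at hmain
  have hfixed : τ • (Pic0.mk E' : JZero (M * 2)) = Pic0.mk E' := by
    rw [galois_smul_pic0_def, SemilinearAut.pic0_smul_mk]
    refine (QuotientAddGroup.eq_iff_sub_mem).mpr (AddSubgroup.mem_addSubgroupOf.mpr ?_)
    rw [AddSubgroupClass.coe_sub, SemilinearAut.coe_degZeroSMulHom]
    exact hmain
  rw [hE', ← SemilinearAut.pic0_smul_mk, galois_smul_pic0_def, ← mul_smul,
    ← frickeAut_mul_galois, mul_smul, hrep.1] at hfixed
  refine eigenPt_injective S.θ ?_
  rw [eigenPt_eigenRep, galois_smul_pic0_def]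
  exact smul_left_cancel (frickeAut (M * 2)) hfixed

include hM hA in
/-- Multiplicity one at two: four classes are killed by the maximal ideal. -/
theorem card_eigenSet_two {D : Setup} (S : ResSys (M * 2) D) :
    Nat.card (eigenSet S.θ) = 4 := by
  obtain ⟨hsq, τ, hτ, hτρ⟩ := D.ram 2 Nat.prime_two (dvd_mul_right 2 _) A hA
  have hP := hasRel_eigenRep S
  have hsquare := hP.card_eq_sq hτρ (hsq τ hτ)
  set c := Nat.card {x : eigenSet S.θ // eigenRep S.θ τ x = x}
  have hle : Nat.card {x : eigenSet S.θ // delta A x = 0} ≤ c :=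
    Nat.card_le_card_of_injective
      (Subtype.impEmbedding _ _ fun x hx => smul_eq_of_delta_eq_zero hM hA S hτ hx)
      (Function.Embedding.injective _)
  have h2 := card_le_two_mul hA S
  obtain ⟨v, hv0, hv⟩ := MazurP.exists_mod_eigvec (p := 2) (HeckeH.heckeMatHom (M * 2))
    (HeckeH.heckeMatHom_injective (M * 2)) S.θ
  have hnt : 1 < Nat.card (eigenSet S.θ) :=
    Finite.one_lt_card_iff_nontrivial.mpr ⟨⟨⟨v, hv⟩, 0, fun h => hv0 (congrArg Subtype.val h)⟩⟩
  rw [hsquare] at hnt h2 ⊢
  rcases Nat.lt_or_ge c 2 with hc | hc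
  · interval_cases c <;> simp at hnt
  · have : c = 2 := by nlinarith
    rw [this]

end FLTAgent.Mod2
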