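import Fermat.Agent.Mod2.HeckeDefs
import Fermat.Agent.Mod2.HeckePairing
import Fermat.Agent.Reps.Cyclo
import Fermat.Agent.Mod2.TwoCard
import Fermat.Agent.Mod2.HeckeFree
import Fermat.Agent.Mod2.HeckeDet

/-!
# Multiplicity one modulo two and the rank two lattice over the localised Hecke ring

The classes killed by the maximal ideal form one copy of `ρ̄` (`card_eigenSet`), hence the
localised lattice is free of rank two over the local ring `locHecke θ`
(`nonempty_basis_locLattice`) and the determinant of Galois on it is cyclotomic (`det_galM`).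
-/

set_option autoImplicit false

noncomputable section

open Matrix CuspForm ModularCurve

namespace FLTAgent.Mod2

local notation "Qb" => AlgebraicClosure ℚ
local notation "Γℚ" => (AlgebraicClosure ℚ ≃ₐ[ℚ] AlgebraicClosure ℚ)

variable {L : ℕ} [NeZero L] {D : Setup}

/-- Multiplicity one: the classes killed by the maximal ideal are one copy of `ρ̄`. -/
theorem card_eigenSet (hL : LevelHyp D L) (S : ResSys L D) :
    Nat.card (eigenSet S.θ) = 4 := by
  obtain ⟨M, rfl⟩ : ∃ M, L = M * 2 :=
    ⟨L / 2, (Nat.div_mul_cancel ((dvd_mul_right 2 D.m).trans hL.dvd)).symm⟩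
  have : NeZero M := ⟨fun h => NeZero.ne (M * 2) (by rw [h, zero_mul])⟩
  have hM : ¬ 2 ∣ M := fun h =>
    Nat.prime_two.not_isUnit (hL.squarefree 2 (Nat.mul_dvd_mul_right h 2))
  obtain ⟨A, hA, -⟩ := GalCommon.exists_place_frobenius Nat.prime_two
  exact card_eigenSet_two hM hA S

/-- The Galois action preserves the localised lattice. -/
theorem galM_mulVec_mem (θ : Reps.TZ L →+* ZMod 2) (σ : Γℚ) {x : HVec L ℤ_[2]}
    (hx : x ∈ locLattice θ) : galM L σ *ᵥ x ∈ locLattice θ :=
  galM_mem_locLattice θ σ hx

/-- The localised Hecke ring is local. -/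
theorem isLocalRing_locHecke (θ : Reps.TZ L →+* ZMod 2) : IsLocalRing (locHecke θ) :=
  locHecke_isLocalRing

/-- The localised lattice is free of rank two. -/
theorem nonempty_basis_locLattice (hL : LevelHyp D L) (S : ResSys L D) :
    Nonempty (Module.Basis (Fin 2) (locHecke S.θ) (LocLat S.θ)) :=
  nonempty_basis_of_card (card_eigenSet hL S)

/-- The determinant of the representation is the cyclotomic character. -/
theorem det_galM (hL : LevelHyp D L) (S : ResSys L D)
    (b : Module.Basis (Fin 2) (locHecke S.θ) (LocLat S.θ)) (σ : Γℚ)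
    (g : Matrix (Fin 2) (Fin 2) (locHecke S.θ))
    (hg : ∀ j, galM L σ *ᵥ LocLat.val (b j) = LocLat.val (∑ i, g i j • b i)) :
    g.det = algebraMap ℤ_[2] (locHecke S.θ) (Reps.cyc 2 σ) :=
  det_eq_cyc_of_basis S b σ g hg

end FLTAgent.Mod2
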