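import Fermat.Agent.Mod2.HeckeLoc
import Fermat.Agent.Ihara.Exact

/-!
# The old part at a prime `q` not dividing the level, in coordinates

`pairHom` is the action of `A[X]/(X² - T X + c)` on pairs, `avec` the sum of the two pullbacks
and `gvec` the twisted pair of corestrictions, with `avec ∘ gvec = U_q² - 1` (`tauMat_sq_sub`).
`Old t z` means that both intertwine `t` with `z` for all coefficients; partners exist
(`exists_old`). `Compat θ θ₀` gives their behaviour at residual eigensystems.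
-/

set_option autoImplicit false
set_option linter.unusedSectionVars false
set_option linter.style.haveILetI false

noncomputable section

open Matrix Polynomial
open FLTAgent.Ihara (alpha betaMap)

namespace FLTAgent.Mod2

/-! ### Pairs with the operator `(x, y) ↦ (T x + c y, -x)` -/

section Pair

variable {A R V : Type*} [CommRing A] [CommRing R] [AddCommGroup V] [Module R V]
  (ρ : A →+* Module.End R V) (T : A) (c : ℕ)

/-- `X ^ 2 - T X + c`. -/
def qPoly : A[X] := X ^ 2 - C T * X + C (c : A)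

/-- The diagonal action on pairs. -/
def diagEnd : A →+* Module.End R (V × V) :=
  (LinearMap.prodMapRingHom R V V).comp (ρ.prod ρ)

theorem diagEnd_apply (a : A) (v : V × V) : diagEnd ρ a v = (ρ a v.1, ρ a v.2) := rfl

/-- The operator attached to the root. -/
def rootEnd : Module.End R (V × V) :=
  ((ρ T).comp (LinearMap.fst R V V) + c • LinearMap.snd R V V).prod (-LinearMap.fst R V V)

theorem rootEnd_apply (v : V × V) : rootEnd ρ T c v = (ρ T v.1 + c • v.2, -v.1) := rfl

theorem rho_comm (a b : A) (v : V) : ρ a (ρ b v) = ρ b (ρ a v) := by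
  rw [← Module.End.mul_apply, ← Module.End.mul_apply, ← map_mul, ← map_mul, mul_comm]

theorem diagEnd_commute (a : A) : Commute (diagEnd ρ a) (rootEnd ρ T c) := by
  refine LinearMap.ext fun v => ?_
  rw [Module.End.mul_apply, Module.End.mul_apply, diagEnd_apply, rootEnd_apply, rootEnd_apply,
    diagEnd_apply]
  simp only [map_add, map_neg, map_nsmul, rho_comm ρ T a]

theorem eval₂_qPoly : eval₂RingHom' (diagEnd ρ) (rootEnd ρ T c) (diagEnd_commute ρ T c) (qPoly T c)
    = 0 := by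
  rw [qPoly, map_add, map_sub, map_mul, map_pow]
  simp only [eval₂RingHom'_apply, eval₂_X, eval₂_C, map_natCast]
  refine LinearMap.ext fun v => ?_
  simp only [LinearMap.add_apply, LinearMap.sub_apply, Module.End.mul_apply, sq, rootEnd_apply,
    diagEnd_apply, Module.End.natCast_apply, LinearMap.zero_apply, map_add, map_neg, map_nsmul,
    Prod.mk_sub_mk, smul_neg]
  refine Prod.ext ?_ ?_ <;> simp

/-- The action of `A[X] / (X ^ 2 - T X + c)` on pairs. -/
def pairHom : AdjoinRoot (qPoly T c) →+* Module.End R (V × V) :=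
  Ideal.Quotient.lift _ (eval₂RingHom' (diagEnd ρ) (rootEnd ρ T c) (diagEnd_commute ρ T c))
    fun g hg => by
      obtain ⟨d, rfl⟩ := Ideal.mem_span_singleton.mp hg
      rw [map_mul, eval₂_qPoly, zero_mul]

theorem pairHom_of (a : A) : pairHom ρ T c (AdjoinRoot.of _ a) = diagEnd ρ a := eval₂_C _ _

theorem pairHom_root : pairHom ρ T c (AdjoinRoot.root _) = rootEnd ρ T c := eval₂_X _ _

theorem monic_qPoly : (qPoly T c).Monic := by
  rw [qPoly]
  monicity!

theorem root_rel : AdjoinRoot.root (qPoly T c) ^ 2 - AdjoinRoot.of _ T * AdjoinRoot.root _ +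
    (c : AdjoinRoot (qPoly T c)) = 0 := by
  have h : AdjoinRoot.mk (qPoly T c) (X ^ 2 - C T * X + C (c : A)) = 0 := AdjoinRoot.mk_self
  simpa using h

theorem exists_eq_add_mul_root' (z : AdjoinRoot (qPoly T c)) :
    ∃ a b : A, z = AdjoinRoot.of _ a + AdjoinRoot.of _ b * AdjoinRoot.root _ := by
  rcases subsingleton_or_nontrivial A with hA | hA
  · obtain ⟨g, rfl⟩ := AdjoinRoot.mk_surjective z
    exact ⟨0, 0, by rw [Subsingleton.elim g 0]; simp⟩
  obtain ⟨g, rfl⟩ := AdjoinRoot.mk_surjective z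
  refine ⟨(g %ₘ qPoly T c).coeff 0, (g %ₘ qPoly T c).coeff 1, ?_⟩
  have hdeg : (qPoly T c).natDegree = 2 := by rw [qPoly]; compute_degree!
  have hlt : (g %ₘ qPoly T c).natDegree < 2 := by
    have h := Polynomial.natDegree_modByMonic_lt g (monic_qPoly T c)
      (fun h => by simp [h] at hdeg)
    rwa [hdeg] at h
  conv_lhs => rw [← modByMonic_add_div g (qPoly T c), map_add, map_mul, AdjoinRoot.mk_self,
    zero_mul, add_zero, eq_X_add_C_of_natDegree_le_one (show (g %ₘ qPoly T c).natDegree ≤ 1 by omega)]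
  rw [map_add, map_mul, AdjoinRoot.mk_X, AdjoinRoot.mk_C, AdjoinRoot.mk_C, add_comm]

theorem pairHom_apply_eq (a b : A) (v : V × V) :
    pairHom ρ T c (AdjoinRoot.of _ a + AdjoinRoot.of _ b * AdjoinRoot.root _) v =
      (ρ a v.1 + ρ b (ρ T v.1 + c • v.2), ρ a v.2 + ρ b (-v.1)) := by
  rw [map_add, map_mul, pairHom_of, pairHom_of, pairHom_root, LinearMap.add_apply,
    Module.End.mul_apply, rootEnd_apply, diagEnd_apply, diagEnd_apply, Prod.mk_add_mk]

theorem pairHom_injective (hρ : Function.Injective ρ) : Function.Injective (pairHom ρ T c) := by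
  rw [injective_iff_map_eq_zero]
  intro z hz
  obtain ⟨a, b, rfl⟩ := exists_eq_add_mul_root' T c z
  have key : ∀ x, ρ a x + ρ b (ρ T x) = 0 ∧ ρ b x = 0 := fun x => by
    have h := LinearMap.congr_fun hz (x, 0)
    rw [pairHom_apply_eq, LinearMap.zero_apply] at h
    simpa using h
  have hb : b = 0 := hρ (LinearMap.ext fun x => by rw [(key x).2, map_zero, LinearMap.zero_apply])
  have ha : a = 0 := hρ (LinearMap.ext fun x => by
    have h := (key x).1
    rw [hb, map_zero, LinearMap.zero_apply, add_zero] at h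
    rw [h, map_zero, LinearMap.zero_apply])
  rw [ha, hb, map_zero, zero_mul, add_zero]

end Pair

/-! ### The two maps in coordinates -/

/-- Pairs of vectors. -/
abbrev PVec (M : ℕ) (R : Type*) := HVec M R × HVec M R

variable (M q : ℕ) [NeZero M] [Fact q.Prime]

/-- The Hecke action in coordinates as endomorphisms. -/
def actM (L : ℕ) [NeZero L] (R : Type*) [CommRing R] :
    Reps.TZ L →+* Module.End R (HVec L R) :=
  (Matrix.toLinAlgEquiv' (R := R)).toRingEquiv.toRingHom.comp (tauMat L R)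

theorem actM_apply (L : ℕ) [NeZero L] (R : Type*) [CommRing R] (t : Reps.TZ L) (x : HVec L R) :
    actM L R t x = tauMat L R t *ᵥ x := rfl

theorem tauMat_evalEquiv (L : ℕ) [NeZero L] (R : Type*) [CommRing R] (t : Reps.TZ L)
    (φ : Period.H L R R) :
    tauMat L R t *ᵥ Period.evalEquiv L R R φ =
      Period.evalEquiv L R R (HeckeH.heckeEnd L R R t φ) :=
  (Reps.evalEquiv_matAct_mulVec L R _ φ).symm

theorem tauMat_gen_evalEquiv (L : ℕ) [NeZero L] (R : Type*) [CommRing R] (r : Nat.Primes)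
    (φ : Period.H L R R) :
    tauMat L R (Reps.heckeGenOf L r) *ᵥ Period.evalEquiv L R R φ =
      Period.evalEquiv L R R (HeckeH.heckeH L r.2 R R φ) := by
  rw [tauMat_evalEquiv, Reps.heckeEnd_heckeGenOf]

variable {M q}

/-- The prime `q`. -/
def qPr (q : ℕ) [hq : Fact q.Prime] : Nat.Primes := ⟨q, hq.out⟩

theorem coe_qPr (q : ℕ) [Fact q.Prime] : ((qPr q : Nat.Primes) : ℕ) = q := rfl

/-- `T_q` at the lower level. -/
abbrev tqM (M q : ℕ) [NeZero M] [Fact q.Prime] : Reps.TZ M := Reps.heckeGenOf M (qPr q)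

theorem tauMat_qPr_evalEquiv (L q : ℕ) [NeZero L] [Fact q.Prime] (R : Type*) [CommRing R]
    (φ : Period.H L R R) :
    tauMat L R (Reps.heckeGenOf L (qPr q)) *ᵥ Period.evalEquiv L R R φ =
      Period.evalEquiv L R R (HeckeH.heckeH L (Fact.out : q.Prime) R R φ) :=
  tauMat_gen_evalEquiv L R (qPr q) φ

/-- The old ring. -/
abbrev OldR (M q : ℕ) [NeZero M] [Fact q.Prime] := AdjoinRoot (qPoly (tqM M q) q)

/-- The action of the old ring on pairs. -/
def oldEnd (M q : ℕ) [NeZero M] [Fact q.Prime] (R : Type*) [CommRing R] :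
    OldR M q →+* Module.End R (PVec M R) :=
  pairHom (actM M R) (tqM M q) q

variable [NeZero (M * q)]

/-- The sum of the two pullbacks in coordinates. -/
def avec (M q : ℕ) [NeZero M] [Fact q.Prime] [NeZero (M * q)] (R : Type*) [CommRing R] :
    PVec M R →ₗ[R] HVec (M * q) R :=
  (Period.evalEquiv (M * q) R R).toLinearMap ∘ₗ alpha R R ∘ₗ
    LinearMap.prodMap (Period.evalEquiv M R R).symm.toLinearMap
      (Period.evalEquiv M R R).symm.toLinearMap

theorem avec_apply (R : Type*) [CommRing R] (φ ψ : Period.H M R R) :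
    avec M q R (Period.evalEquiv M R R φ, Period.evalEquiv M R R ψ) =
      Period.evalEquiv (M * q) R R (alpha R R (φ, ψ)) := by
  simp [avec]

variable (hqM : ¬ q ∣ M)

/-- The two corestrictions followed by the matrix `[[-1, T_q], [0, -1]]`. -/
def gvec (R : Type*) [CommRing R] : HVec (M * q) R →ₗ[R] PVec M R :=
  ((actM M R (tqM M q)).comp (LinearMap.snd R (HVec M R) (HVec M R)) -
      LinearMap.fst R (HVec M R) (HVec M R)).prod (-LinearMap.snd R (HVec M R) (HVec M R)) ∘ₗ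
    LinearMap.prodMap (Period.evalEquiv M R R).toLinearMap
      (Period.evalEquiv M R R).toLinearMap ∘ₗ
    betaMap R R hqM ∘ₗ (Period.evalEquiv (M * q) R R).symm.toLinearMap

theorem gvec_apply (R : Type*) [CommRing R] (φ : Period.H (M * q) R R) :
    gvec hqM R (Period.evalEquiv (M * q) R R φ) =
      (Period.evalEquiv M R R (HeckeH.heckeH M (Fact.out : q.Prime) R R (betaMap R R hqM φ).2 -
        (betaMap R R hqM φ).1), -Period.evalEquiv M R R (betaMap R R hqM φ).2) := by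
  simp [gvec, actM_apply, tqM, tauMat_qPr_evalEquiv]

/-- A Hecke operator and an element of the old ring correspond: they are intertwined by both maps,
for all coefficients. -/
def Old (t : Reps.TZ (M * q)) (z : OldR M q) : Prop :=
  ∀ (R : Type) [CommRing R],
    (∀ w, tauMat (M * q) R t *ᵥ avec M q R w = avec M q R (oldEnd M q R z w)) ∧
      ∀ v, gvec hqM R (tauMat (M * q) R t *ᵥ v) = oldEnd M q R z (gvec hqM R v)

variable {hqM}

theorem Old.add {t t' : Reps.TZ (M * q)} {z z' : OldR M q} (h : Old hqM t z) (h' : Old hqM t' z') :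
    Old hqM (t + t') (z + z') := fun R _ => by
  refine ⟨fun w => ?_, fun v => ?_⟩
  · rw [map_add, add_mulVec, (h R).1, (h' R).1, map_add, LinearMap.add_apply, map_add]
  · rw [map_add, add_mulVec, map_add, (h R).2, (h' R).2, map_add, LinearMap.add_apply]

theorem Old.mul {t t' : Reps.TZ (M * q)} {z z' : OldR M q} (h : Old hqM t z) (h' : Old hqM t' z') :
    Old hqM (t * t') (z * z') := fun R _ => by
  refine ⟨fun w => ?_, fun v => ?_⟩
  · rw [map_mul, ← mulVec_mulVec, (h' R).1, (h R).1, map_mul, Module.End.mul_apply]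
  · rw [map_mul, ← mulVec_mulVec, (h R).2, (h' R).2, map_mul, Module.End.mul_apply]

theorem Old.intCast (k : ℤ) : Old hqM (k : Reps.TZ (M * q)) (k : OldR M q) := fun R _ => by
  have e : ∀ u : HVec (M * q) R,
      tauMat (M * q) R (k : Reps.TZ (M * q)) *ᵥ u = k • u := fun u => by
    rw [map_intCast, ← zsmul_one, smul_mulVec, one_mulVec]
  refine ⟨fun w => ?_, fun v => ?_⟩
  · rw [e, map_intCast, Module.End.intCast_apply, map_zsmul]
  · rw [e, map_intCast, Module.End.intCast_apply, map_zsmul]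

theorem Old.pow {t : Reps.TZ (M * q)} {z : OldR M q} (h : Old hqM t z) :
    ∀ k : ℕ, Old hqM (t ^ k) (z ^ k)
  | 0 => by simpa using Old.intCast (hqM := hqM) 1
  | k + 1 => by rw [pow_succ, pow_succ]; exact (Old.pow h k).mul h

variable (hqM)

theorem oldEnd_of (R : Type*) [CommRing R] (e : Reps.TZ M) (w : PVec M R) :
    oldEnd M q R (AdjoinRoot.of _ e) w = (tauMat M R e *ᵥ w.1, tauMat M R e *ᵥ w.2) := by
  rw [oldEnd, pairHom_of]
  rfl

theorem oldEnd_root (R : Type*) [CommRing R] (w : PVec M R) :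
    oldEnd M q R (AdjoinRoot.root _) w = (tauMat M R (tqM M q) *ᵥ w.1 + q • w.2, -w.1) := by
  rw [oldEnd, pairHom_root]
  rfl

/-- Every prime other than `q`. -/
theorem old_gen (r : Nat.Primes) (hr : (r : ℕ) ≠ q) :
    Old hqM (Reps.heckeGenOf (M * q) r) (AdjoinRoot.of _ (Reps.heckeGenOf M r)) := fun R _ => by
  refine ⟨fun w => ?_, fun v => ?_⟩
  · obtain ⟨x, y⟩ := w
    obtain ⟨φ, rfl⟩ := (Period.evalEquiv M R R).surjective x
    obtain ⟨ψ, rfl⟩ := (Period.evalEquiv M R R).surjective y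
    refine Eq.trans ?_ (congrArg (avec M q R) (oldEnd_of R _ _)).symm
    simp only [avec_apply, tauMat_gen_evalEquiv]
    exact congrArg (Period.evalEquiv (M * q) R R) (Ihara.alpha_heckeH_of_ne r.2 hr R R (φ, ψ))
  · obtain ⟨φ, rfl⟩ := (Period.evalEquiv (M * q) R R).surjective v
    refine Eq.trans ?_ (oldEnd_of R _ _).symm
    simp only [tauMat_gen_evalEquiv, gvec_apply, mulVec_neg]
    rw [Ihara.betaMap_heckeH_of_ne hqM r.2 hr]
    simp only [map_sub]
    exact Prod.ext (congrArg (Period.evalEquiv M R R · - _)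
      (Ihara.heckeH_comm (Fact.out : q.Prime) r.2 R R _)) rfl

/-- The prime `q`. -/
theorem old_gen_self :
    Old hqM (Reps.heckeGenOf (M * q) (qPr q)) (AdjoinRoot.root _) := fun R _ => by
  refine ⟨fun w => ?_, fun v => ?_⟩
  · obtain ⟨x, y⟩ := w
    obtain ⟨φ, rfl⟩ := (Period.evalEquiv M R R).surjective x
    obtain ⟨ψ, rfl⟩ := (Period.evalEquiv M R R).surjective y
    refine Eq.trans ?_ (congrArg (avec M q R) (oldEnd_root R _)).symm
    simp only [avec_apply, tauMat_qPr_evalEquiv, ← map_nsmul, ← map_add, ← map_neg]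
    exact congrArg (Period.evalEquiv (M * q) R R) (Ihara.heckeH_alpha_self hqM R R (φ, ψ))
  · obtain ⟨φ, rfl⟩ := (Period.evalEquiv (M * q) R R).surjective v
    refine Eq.trans ?_ (oldEnd_root R _).symm
    simp only [tauMat_qPr_evalEquiv, gvec_apply]
    rw [Ihara.betaMap_heckeH_self hqM]
    simp only [map_sub, map_nsmul, smul_neg]
    exact Prod.ext (sub_eq_add_neg _ _) rfl

/-- Every operator has a partner. -/
theorem exists_old {θ : Reps.TZ (M * q) →+* ZMod 2} {θz : OldR M q →+* ZMod 2}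
    (hgen : ∀ r : Nat.Primes, (r : ℕ) ≠ q →
      θ (Reps.heckeGenOf (M * q) r) = θz (AdjoinRoot.of _ (Reps.heckeGenOf M r)))
    (hself : θ (Reps.heckeGenOf (M * q) (qPr q)) = θz (AdjoinRoot.root _))
    (t : Reps.TZ (M * q)) : ∃ z, Old hqM t z ∧ θ t = θz z := by
  obtain ⟨t, ht⟩ := t
  induction ht using Algebra.adjoin_induction with
  | mem x hx =>
    obtain ⟨r, hr⟩ : ∃ r : Nat.Primes,
        (⟨x, Algebra.subset_adjoin hx⟩ : Reps.TZ (M * q)) = Reps.heckeGenOf (M * q) r := by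
      rcases hx with ⟨ℓ, hℓ, hℓN, -, rfl⟩ | ⟨p, hpN, hp, -, rfl⟩
      · exact ⟨⟨ℓ, hℓ⟩, (Reps.heckeGenOf_T (M * q) hℓ hℓN).symm⟩
      · exact ⟨⟨p, hp⟩, by simp [Reps.heckeGenOf, hpN]; rfl⟩
    rw [hr]
    by_cases hrq : (r : ℕ) = q
    · obtain rfl : r = (qPr q) := Subtype.ext hrq
      exact ⟨_, old_gen_self hqM, hself⟩
    · exact ⟨_, old_gen hqM r hrq, hgen r hrq⟩
  | algebraMap k =>
    have e : (⟨algebraMap ℤ _ k, Subalgebra.algebraMap_mem _ k⟩ : Reps.TZ (M * q)) =
        (k : Reps.TZ (M * q)) := Subtype.ext (by simp)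
    exact ⟨k, (congrArg (fun u => Old hqM u (k : OldR M q)) e).mpr (Old.intCast k),
      (congrArg θ e).trans (by rw [map_intCast, map_intCast])⟩
  | add x y hx hy hx' hy' =>
    obtain ⟨z, hz, hz'⟩ := hx'
    obtain ⟨w, hw, hw'⟩ := hy'
    rw [show (⟨x + y, _⟩ : Reps.TZ (M * q)) = ⟨x, hx⟩ + ⟨y, hy⟩ from rfl]
    exact ⟨_, hz.add hw, by rw [map_add, map_add, hz', hw']⟩
  | mul x y hx hy hx' hy' =>
    obtain ⟨z, hz, hz'⟩ := hx'
    obtain ⟨w, hw, hw'⟩ := hy'
    rw [show (⟨x * y, _⟩ : Reps.TZ (M * q)) = ⟨x, hx⟩ * ⟨y, hy⟩ from rfl]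
    exact ⟨_, hz.mul hw, by rw [map_mul, map_mul, hz', hw']⟩

/-- `U_q ^ 2 - 1` is the composite of the two maps. -/
theorem tauMat_sq_sub (R : Type) [CommRing R] (v : HVec (M * q) R) :
    tauMat (M * q) R (Reps.heckeGenOf (M * q) (qPr q) ^ 2 - 1) *ᵥ v =
      avec M q R (gvec hqM R v) := by
  obtain ⟨φ, rfl⟩ := (Period.evalEquiv (M * q) R R).surjective v
  rw [gvec_apply, ← map_neg (Period.evalEquiv M R R), avec_apply, ← Ihara.heckeH_sq_sub hqM,
    map_sub, map_one, sq, map_mul, sub_mulVec, one_mulVec, ← mulVec_mulVec, tauMat_qPr_evalEquiv,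
    tauMat_qPr_evalEquiv, map_sub]

/-! ### Change of coefficients -/

/-- The matrix of the Atkin-Lehner involution. -/
def thetaMat : Degen.RMat (M * q) (M * q) := Degen.rectMat (Ihara.thetaH ℤ ℤ hqM)

theorem rectAct_thetaMat (R : Type*) [CommRing R] :
    Degen.rectAct R R (thetaMat hqM) = Ihara.thetaH R R hqM := by
  refine Degen.rectAct_rectMat _ _ fun φ i => ?_
  simp only [Ihara.thetaH_apply]
  exact Period.H_decomp φ _

theorem map_rectMulVec {m n : Type*} [Fintype n] {R S : Type*} [CommRing R] [CommRing S]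
    (f : R →+* S) (X : Matrix m n ℤ) (x : n → R) :
    f ∘ (X.map (Int.castRingHom R) *ᵥ x) = X.map (Int.castRingHom S) *ᵥ (f ∘ x) := by
  funext i
  simp [mulVec, dotProduct, map_sum]

theorem avec_eq (R : Type*) [CommRing R] (w : PVec M R) :
    avec M q R w =
      (Degen.degMat 1 (Ihara.dvd_one_mul' M q)).map (Int.castRingHom R) *ᵥ w.1 +
        (Degen.degMat q (Ihara.dvd_self_mul' M q)).map (Int.castRingHom R) *ᵥ w.2 := by
  obtain ⟨x, y⟩ := w
  obtain ⟨φ, rfl⟩ := (Period.evalEquiv M R R).surjective x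
  obtain ⟨ψ, rfl⟩ := (Period.evalEquiv M R R).surjective y
  rw [avec_apply, Degen.mulVec_evalEquiv, Degen.mulVec_evalEquiv, Degen.rectAct_degMat,
    Degen.rectAct_degMat, Ihara.alpha_apply, map_add]

theorem avec_map {R S : Type*} [CommRing R] [CommRing S] (f : R →+* S) (w : PVec M R) :
    f ∘ avec M q R w = avec M q S (f ∘ w.1, f ∘ w.2) := by
  rw [avec_eq, avec_eq, ← map_rectMulVec f, ← map_rectMulVec f]
  exact funext fun i => map_add f _ _

theorem gvec_eq (R : Type*) [CommRing R] (v : HVec (M * q) R) :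
    gvec hqM R v =
      (tauMat M R (tqM M q) *ᵥ ((Degen.corMat (N := M) (M := M * q)).map (Int.castRingHom R) *ᵥ
          ((thetaMat hqM).map (Int.castRingHom R) *ᵥ v)) -
        (Degen.corMat (N := M) (M := M * q)).map (Int.castRingHom R) *ᵥ v,
      -((Degen.corMat (N := M) (M := M * q)).map (Int.castRingHom R) *ᵥ
          ((thetaMat hqM).map (Int.castRingHom R) *ᵥ v))) := by
  obtain ⟨φ, rfl⟩ := (Period.evalEquiv (M * q) R R).surjective v
  rw [gvec_apply, Degen.mulVec_evalEquiv, Degen.mulVec_evalEquiv, Degen.mulVec_evalEquiv,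
    Degen.rectAct_corMat, rectAct_thetaMat, tauMat_qPr_evalEquiv, map_sub]
  rfl

theorem gvec_map {R S : Type*} [CommRing R] [CommRing S] (f : R →+* S) (v : HVec (M * q) R) :
    (f ∘ (gvec hqM R v).1, f ∘ (gvec hqM R v).2) = gvec hqM S (f ∘ v) := by
  rw [gvec_eq, gvec_eq, ← map_rectMulVec f, ← map_rectMulVec f, ← map_rectMulVec f,
    ← tauMat_mulVec_map f]
  exact Prod.ext (funext fun i => map_sub f _ _) (funext fun i => map_neg f _)

/-! ### At a residual eigensystem -/

variable {hqM} {θ₀ : Reps.TZ M →+* ZMod 2}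

theorem thetaBar_aux (h0 : θ₀ (tqM M q) = 0) (hodd : ¬ 2 ∣ q) :
    (qPoly (tqM M q) q).eval₂ θ₀ 1 = 0 := by
  rw [qPoly, eval₂_add, eval₂_sub, eval₂_mul, eval₂_X_pow, eval₂_X, eval₂_C, eval₂_C, h0,
    map_natCast]
  have : (q : ZMod 2) = 1 := ZMod.natCast_eq_one_iff_odd.mpr
    (Nat.odd_iff.mpr (by omega))
  rw [this]
  decide

/-- The eigensystem of the stabilised form on the old ring. -/
def thetaBar (h0 : θ₀ (tqM M q) = 0) (hodd : ¬ 2 ∣ q) : OldR M q →+* ZMod 2 :=
  AdjoinRoot.lift θ₀ 1 (thetaBar_aux h0 hodd)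

theorem thetaBar_of (h0 : θ₀ (tqM M q) = 0) (hodd : ¬ 2 ∣ q) (e : Reps.TZ M) :
    thetaBar h0 hodd (AdjoinRoot.of _ e) = θ₀ e := AdjoinRoot.lift_of _

theorem thetaBar_root (h0 : θ₀ (tqM M q) = 0) (hodd : ¬ 2 ∣ q) :
    thetaBar h0 hodd (AdjoinRoot.root _) = 1 := AdjoinRoot.lift_root _

/-- Both entries are killed by a power of the maximal ideal. -/
def PairAtMax (θ₀ : Reps.TZ M →+* ZMod 2) {R : Type*} [CommRing R] (w : PVec M R) : Prop :=
  IsAtMax θ₀ w.1 ∧ IsAtMax θ₀ w.2

theorem PairAtMax.exists_pow_eq_zero (h0 : θ₀ (tqM M q) = 0) (hodd : ¬ 2 ∣ q) {R : Type}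
    [CommRing R] {w : PVec M R} (hw : PairAtMax θ₀ w) {z : OldR M q}
    (hz : thetaBar h0 hodd z = 0) : ∃ k : ℕ, oldEnd M q R (z ^ k) w = 0 := by
  let A : Ideal (OldR M q) :=
    { carrier := {u | oldEnd M q R u w = 0}
      add_mem' := fun {a b} (ha : oldEnd M q R a w = 0) (hb : oldEnd M q R b w = 0) =>
        show oldEnd M q R (a + b) w = 0 by rw [map_add, LinearMap.add_apply, ha, hb, add_zero]
      zero_mem' := show oldEnd M q R 0 w = 0 by rw [map_zero, LinearMap.zero_apply]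
      smul_mem' := fun a b (hb : oldEnd M q R b w = 0) =>
        show oldEnd M q R (a * b) w = 0 by rw [map_mul, Module.End.mul_apply, hb, map_zero] }
  have hof : ∀ e, θ₀ e = 0 → AdjoinRoot.of (qPoly (tqM M q) q) e ∈ A.radical := by
    intro e he
    obtain ⟨N1, h1⟩ := hw.1
    obtain ⟨N2, h2⟩ := hw.2
    refine ⟨max N1 N2, ?_⟩
    show oldEnd M q R _ w = 0
    rw [← map_pow, oldEnd, pairHom_of, diagEnd_apply, actM_apply, actM_apply,
      show e ^ max N1 N2 = ∏ _i : Fin (max N1 N2), e by simp,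
      IsAtMax.of_le h1 (le_max_left N1 N2) _ fun _ => he,
      IsAtMax.of_le h2 (le_max_right N1 N2) _ fun _ => he]
    rfl
  have h1q : θ₀ (1 - (q : Reps.TZ M)) = 0 := by
    rw [map_sub, map_one, map_natCast, show (q : ZMod 2) = 1 from
      ZMod.natCast_eq_one_iff_odd.mpr (Nat.odd_iff.mpr (by omega)), sub_self]
  have hX : AdjoinRoot.root (qPoly (tqM M q) q) - 1 ∈ A.radical := by
    refine A.radical_isRadical ⟨2, ?_⟩
    have e := root_rel (tqM M q) q
    have e2 : (AdjoinRoot.root (qPoly (tqM M q) q) - 1) ^ 2 =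
        AdjoinRoot.of _ (tqM M q - 2) * AdjoinRoot.root _ +
          AdjoinRoot.of _ (1 - (q : Reps.TZ M)) := by
      rw [map_sub, map_sub, map_ofNat, map_one, map_natCast]
      linear_combination e
    rw [e2]
    refine add_mem (Ideal.mul_mem_right _ _ (hof _ ?_)) (hof _ h1q)
    rw [map_sub, h0, map_ofNat, show (2 : ZMod 2) = 0 from rfl, sub_zero]
  obtain ⟨a, b, rfl⟩ := exists_eq_add_mul_root' _ _ z
  rw [map_add, map_mul, thetaBar_of, thetaBar_of, thetaBar_root, mul_one, ← map_add] at hz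
  have hmem : AdjoinRoot.of (qPoly (tqM M q) q) a + AdjoinRoot.of _ b * AdjoinRoot.root _ ∈
      A.radical := by
    rw [show AdjoinRoot.of (qPoly (tqM M q) q) a + AdjoinRoot.of _ b * AdjoinRoot.root _ =
      AdjoinRoot.of _ (a + b) + AdjoinRoot.of _ b * (AdjoinRoot.root _ - 1) by
        rw [map_add]; ring]
    exact add_mem (hof _ hz) (Ideal.mul_mem_left _ _ hX)
  exact hmem

theorem PairAtMax.eq_zero (h0 : θ₀ (tqM M q) = 0) (hodd : ¬ 2 ∣ q) {R : Type} [CommRing R]
    {w : PVec M R} (hw : PairAtMax θ₀ w) {z : OldR M q} (hz : thetaBar h0 hodd z = 1)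
    (h : oldEnd M q R z w = 0) : w = 0 := by
  obtain ⟨k, hk⟩ := hw.exists_pow_eq_zero h0 hodd (z := 1 - z)
    (by rw [map_sub, map_one, hz, sub_self])
  have key : ∀ j : ℕ, oldEnd M q R ((1 - z) ^ j) w = w := fun j => by
    induction j with
    | zero => rw [pow_zero, map_one, Module.End.one_apply]
    | succ j ih =>
      rw [pow_succ, map_mul, Module.End.mul_apply, map_sub, map_one, LinearMap.sub_apply,
        Module.End.one_apply, h, sub_zero, ih]
  rwa [key] at hk

theorem PairAtMax.oldEnd {R : Type} [CommRing R] {w : PVec M R} (hw : PairAtMax θ₀ w)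
    (z : OldR M q) : PairAtMax θ₀ (FLTAgent.Mod2.oldEnd M q R z w) := by
  obtain ⟨a, b, rfl⟩ := exists_eq_add_mul_root' _ _ z
  rw [FLTAgent.Mod2.oldEnd, pairHom_apply_eq]
  have hneg : ∀ {x : HVec M R}, IsAtMax θ₀ x → IsAtMax θ₀ (-x) := fun {x} hx => by
    rw [← zero_sub]
    exact IsAtMax.sub ⟨0, fun c _ => mulVec_zero _⟩ hx
  have hnsmul : ∀ (n : ℕ) {x : HVec M R}, IsAtMax θ₀ x → IsAtMax θ₀ (n • x) := fun n {x} hx => by
    obtain ⟨N, hN⟩ := hx
    exact ⟨N, fun c hc => by rw [mulVec_smul, hN c hc, smul_zero]⟩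
  exact ⟨(hw.1.tau a).add (((hw.1.tau _).add (hnsmul q hw.2)).tau b),
    (hw.2.tau a).add ((hneg hw.1).tau b)⟩

variable {θ : Reps.TZ (M * q) →+* ZMod 2}

/-- The compatibility of an eigensystem at level `M q` with one at level `M`. -/
structure Compat (θ : Reps.TZ (M * q) →+* ZMod 2) (θ₀ : Reps.TZ M →+* ZMod 2) : Prop where
  tq : θ₀ (tqM M q) = 0
  odd : ¬ 2 ∣ q
  gen : ∀ r : Nat.Primes, (r : ℕ) ≠ q →
    θ (Reps.heckeGenOf (M * q) r) = θ₀ (Reps.heckeGenOf M r)
  self : θ (Reps.heckeGenOf (M * q) (qPr q)) = 1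

variable (hqM)

theorem Compat.exists_partner (hc : Compat θ θ₀) (t : Reps.TZ (M * q)) :
    ∃ z, Old hqM t z ∧ θ t = thetaBar hc.tq hc.odd z :=
  exists_old hqM (fun r hr => by rw [thetaBar_of]; exact hc.gen r hr)
    (by rw [thetaBar_root]; exact hc.self) t

/-- Up to a power of `U_q` every operator of level `M` comes from level `M q`. -/
theorem Compat.exists_lift (hc : Compat θ θ₀) (e : Reps.TZ M) :
    ∃ (t : Reps.TZ (M * q)) (j : ℕ),
      Old hqM t (AdjoinRoot.of _ e * AdjoinRoot.root _ ^ j) ∧ θ t = θ₀ e := by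
  obtain ⟨e, he⟩ := e
  induction he using Algebra.adjoin_induction with
  | mem x hx =>
    obtain ⟨r, hr⟩ : ∃ r : Nat.Primes,
        (⟨x, Algebra.subset_adjoin hx⟩ : Reps.TZ M) = Reps.heckeGenOf M r := by
      rcases hx with ⟨ℓ, hℓ, hℓN, -, rfl⟩ | ⟨p, hpN, hp, -, rfl⟩
      · exact ⟨⟨ℓ, hℓ⟩, (Reps.heckeGenOf_T M hℓ hℓN).symm⟩
      · exact ⟨⟨p, hp⟩, by simp [Reps.heckeGenOf, hpN]; rfl⟩
    rw [hr]
    by_cases hrq : (r : ℕ) = q
    · obtain rfl : r = (qPr q) := Subtype.ext hrq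
      refine ⟨Reps.heckeGenOf (M * q) (qPr q) ^ 2 + (q : ℤ), 1, ?_, ?_⟩
      · have e := root_rel (tqM M q) q
        rw [show AdjoinRoot.of (qPoly (tqM M q) q) (tqM M q) * AdjoinRoot.root _ ^ 1 =
            AdjoinRoot.root _ ^ 2 + ((q : ℤ) : OldR M q) by
          rw [Int.cast_natCast]; linear_combination -e]
        exact ((old_gen_self hqM).pow 2).add (Old.intCast _)
      · rw [map_add, map_pow, hc.self, hc.tq, map_intCast, Int.cast_natCast,
          show (q : ZMod 2) = 1 from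
            ZMod.natCast_eq_one_iff_odd.mpr (Nat.odd_iff.mpr (by have := hc.odd; omega))]
        decide
    · exact ⟨_, 0, by rw [pow_zero, mul_one]; exact old_gen hqM r hrq, hc.gen r hrq⟩
  | algebraMap k =>
    have e : (⟨algebraMap ℤ _ k, Subalgebra.algebraMap_mem _ k⟩ : Reps.TZ M) = (k : Reps.TZ M) :=
      Subtype.ext (by simp)
    refine (congrArg (fun u => ∃ (t : Reps.TZ (M * q)) (j : ℕ),
      Old hqM t (AdjoinRoot.of _ u * AdjoinRoot.root _ ^ j) ∧ θ t = θ₀ u) e).mpr ?_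
    refine ⟨k, 0, ?_, by rw [map_intCast, map_intCast]⟩
    rw [pow_zero, mul_one, map_intCast]
    exact Old.intCast k
  | add x y hx hy hx' hy' =>
    obtain ⟨t, i, ht, ht'⟩ := hx'
    obtain ⟨s, j, hs, hs'⟩ := hy'
    rw [show (⟨x + y, _⟩ : Reps.TZ M) = ⟨x, hx⟩ + ⟨y, hy⟩ from rfl]
    refine ⟨t * Reps.heckeGenOf (M * q) (qPr q) ^ j +
      s * Reps.heckeGenOf (M * q) (qPr q) ^ i, i + j, ?_, ?_⟩
    · have h := (ht.mul ((old_gen_self hqM).pow j)).add (hs.mul ((old_gen_self hqM).pow i))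
      rw [map_add, show (AdjoinRoot.of (qPoly (tqM M q) q) ⟨x, hx⟩ + AdjoinRoot.of _ ⟨y, hy⟩) *
          AdjoinRoot.root _ ^ (i + j) = AdjoinRoot.of _ ⟨x, hx⟩ * AdjoinRoot.root _ ^ i *
          AdjoinRoot.root _ ^ j + AdjoinRoot.of _ ⟨y, hy⟩ * AdjoinRoot.root _ ^ j *
          AdjoinRoot.root _ ^ i by ring]
      exact h
    · rw [map_add, map_mul, map_mul, map_pow, map_pow, hc.self, one_pow, one_pow, mul_one, mul_one,
        ht', hs', map_add]
  | mul x y hx hy hx' hy' =>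
    obtain ⟨t, i, ht, ht'⟩ := hx'
    obtain ⟨s, j, hs, hs'⟩ := hy'
    rw [show (⟨x * y, _⟩ : Reps.TZ M) = ⟨x, hx⟩ * ⟨y, hy⟩ from rfl]
    refine ⟨t * s, i + j, ?_, by rw [map_mul, map_mul, ht', hs']⟩
    rw [map_mul, show AdjoinRoot.of (qPoly (tqM M q) q) ⟨x, hx⟩ * AdjoinRoot.of _ ⟨y, hy⟩ *
        AdjoinRoot.root _ ^ (i + j) = AdjoinRoot.of _ ⟨x, hx⟩ * AdjoinRoot.root _ ^ i *
        (AdjoinRoot.of _ ⟨y, hy⟩ * AdjoinRoot.root _ ^ j) by ring]
    exact ht.mul hs

include hqM in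
theorem Compat.isAtMax_avec (hc : Compat θ θ₀) {R : Type} [CommRing R] [Finite R] {w : PVec M R}
    (hw : PairAtMax θ₀ w) : IsAtMax θ (avec M q R w) := by
  refine IsAtMax.of_forall_pow fun c hcθ => ?_
  obtain ⟨z, hz, hz'⟩ := hc.exists_partner hqM c
  obtain ⟨k, hk⟩ := hw.exists_pow_eq_zero hc.tq hc.odd (z := z) (hz'.symm.trans hcθ)
  exact ⟨k, by rw [((hz.pow k) R).1, hk, map_zero]⟩

theorem root_injective {R : Type} [CommRing R] (hq : IsUnit (q : R)) (j : ℕ) {w : PVec M R}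
    (h : oldEnd M q R (AdjoinRoot.root _ ^ j) w = 0) : w = 0 := by
  have h1 : ∀ w : PVec M R, oldEnd M q R (AdjoinRoot.root _) w = 0 → w = 0 := by
    intro w h
    rw [oldEnd, pairHom_root, rootEnd_apply, Prod.mk_eq_zero, neg_eq_zero] at h
    obtain ⟨h1, h2⟩ := h
    rw [h2, map_zero, zero_add, ← Nat.cast_smul_eq_nsmul R, hq.smul_eq_zero] at h1
    exact Prod.ext h2 h1
  induction j generalizing w with
  | zero => rwa [pow_zero, map_one, Module.End.one_apply] at h
  | succ j ih =>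
    rw [pow_succ', map_mul, Module.End.mul_apply] at h
    exact ih (h1 _ h)

theorem Compat.pairAtMax_gvec (hc : Compat θ θ₀) {R : Type} [CommRing R] [Finite R]
    (hq : IsUnit (q : R)) {v : HVec (M * q) R} (hv : IsAtMax θ v) :
    PairAtMax θ₀ (gvec hqM R v) := by
  have key : ∀ e, θ₀ e = 0 → ∃ k : ℕ,
      oldEnd M q R (AdjoinRoot.of _ (e ^ k)) (gvec hqM R v) = 0 := by
    intro e he
    obtain ⟨t, j, ht, ht'⟩ := hc.exists_lift hqM e
    obtain ⟨N, hN⟩ := hv
    refine ⟨N, root_injective hq (j * N) ?_⟩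
    have h0 := hN (fun _ => t) fun _ => ht'.trans he
    rw [Finset.prod_const, Finset.card_univ, Fintype.card_fin] at h0
    have h1 := ((ht.pow N) R).2 v
    rw [h0, map_zero, mul_pow, ← map_pow, ← pow_mul, mul_comm, map_mul, Module.End.mul_apply] at h1
    exact h1.symm
  constructor <;> refine IsAtMax.of_forall_pow fun e he => ?_ <;> obtain ⟨k, hk⟩ := key e he <;>
    refine ⟨k, ?_⟩ <;> rw [oldEnd, pairHom_of, diagEnd_apply, Prod.mk_eq_zero] at hk
  · exact hk.1
  · exact hk.2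

end FLTAgent.Mod2
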