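import Fermat.Agent.Mod2.HeckeMultOne
import Fermat.Agent.Mod2.HeckeGroup

/-!
# The residual representation of the localised lattice

`resF2` is the reduction of the localised Hecke ring and `resRep b` the residual matrices; they
satisfy the relations of `ρ̄`, so some entry of `τ - 1` is a unit when `ρ̄ τ` has order two
(`exists_isUnit_entry`). Equivariant maps from the lattice, killed by two, into modules where `τ`
fixes what the kernel of `ρ̄` fixes vanish (`map_locLat_eq_zero`).
-/

set_option autoImplicit false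
set_option linter.unusedSectionVars false
set_option linter.style.haveILetI false

noncomputable section

open Matrix

namespace FLTAgent.Mod2

local notation "Γℚ" => (AlgebraicClosure ℚ ≃ₐ[ℚ] AlgebraicClosure ℚ)

variable {L : ℕ} [NeZero L]

instance locHecke.instIsLocalRing (θ : Reps.TZ L →+* ZMod 2) : IsLocalRing (locHecke θ) :=
  locHecke_isLocalRing

local notation "𝔪" θ:max => IsLocalRing.maximalIdeal (locHecke θ)

theorem two_mem_maximalIdeal (θ : Reps.TZ L →+* ZMod 2) : (2 : locHecke θ) ∈ 𝔪 θ :=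
  two_mem_of_isMaximal _

instance locHecke.charP_residueField (θ : Reps.TZ L →+* ZMod 2) :
    CharP (IsLocalRing.ResidueField (locHecke θ)) 2 :=
  CharTwo.of_one_ne_zero_of_two_eq_zero one_ne_zero (by
    rw [← map_ofNat (IsLocalRing.residue (locHecke θ)) 2]
    exact (IsLocalRing.residue_eq_zero_iff _).mpr (two_mem_maximalIdeal θ))

/-- The residue field is `ZMod 2`. -/
def residueEquiv (θ : Reps.TZ L →+* ZMod 2) :
    ZMod 2 ≃+* IsLocalRing.ResidueField (locHecke θ) :=
  RingEquiv.ofBijective (ZMod.castHom (dvd_refl 2) _) ⟨RingHom.injective _, fun x => by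
    obtain ⟨a, rfl⟩ := IsLocalRing.residue_surjective x
    rcases residue_eq_zero_or_one a with h | h
    · exact ⟨0, by rw [h, map_zero]⟩
    · exact ⟨1, by rw [h, map_one]⟩⟩

/-- The reduction of the localised Hecke ring. -/
def resF2 (θ : Reps.TZ L →+* ZMod 2) : locHecke θ →+* ZMod 2 :=
  (residueEquiv θ).symm.toRingHom.comp (IsLocalRing.residue _)

theorem resF2_eq_zero {θ : Reps.TZ L →+* ZMod 2} {a : locHecke θ} :
    resF2 θ a = 0 ↔ a ∈ 𝔪 θ := by
  rw [← IsLocalRing.residue_eq_zero_iff]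
  exact map_eq_zero_iff _ (residueEquiv θ).symm.injective

theorem resF2_locT {θ : Reps.TZ L →+* ZMod 2} (t : Reps.TZ L) : resF2 θ (locT θ t) = θ t := by
  rcases (show θ t = 0 ∨ θ t = 1 by generalize θ t = z; revert z; decide) with h | h
  · rw [h]; exact resF2_eq_zero.mpr (isUnit_or_mem h)
  · rw [h]
    refine det_eq_one_of_ne_zero fun h0 => ?_
    exact (resF2_eq_zero.mp h0) (isUnit_locT h)

theorem resF2_two (θ : Reps.TZ L →+* ZMod 2) : resF2 θ 2 = 0 := by rw [map_ofNat]; rfl

/-! ### Reduction modulo two -/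

theorem red2_galM (σ : Γℚ) (v : HVec L ℤ_[2]) :
    red2 (galM L σ *ᵥ v) = Reps.galMat L 2 σ *ᵥ red2 v := by
  rw [red2_eq, red2_eq, red_galM]
  funext i
  show oneEquiv.toRingHom ((galMod L 1 σ *ᵥ red 1 v) i) = _
  rw [RingHom.map_mulVec]
  have e : (galMod L 1 σ).map oneEquiv.toRingHom = Reps.galMat L 2 σ := by
    have h1 : galMod L 1 σ = Reps.galMat L (2 ^ 1) σ := Reps.toZModPow_tateMat L 2 1 σ
    rw [h1, show oneEquiv.toRingHom = ZMod.castHom (dvd_of_eq (pow_one 2).symm) (ZMod 2) from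
      Subsingleton.elim _ _]
    exact Reps.galMat_castHom' L (k := 1) (n := 2) (by norm_num) _ σ
  rw [e]
  rfl

variable {θ : Reps.TZ L →+* ZMod 2}

theorem red2_zero : red2 (0 : HVec L ℤ_[2]) = 0 := funext fun _ => map_zero _

theorem red2_map_add (v w : HVec L ℤ_[2]) : red2 (v + w) = red2 v + red2 w :=
  funext fun _ => map_add _ _ _

theorem red2_val_eq_zero {x : LocLat θ} :
    red2 (LocLat.val x) = 0 ↔ ∃ w : LocLat θ, x = (2 : locHecke θ) • w := by
  have e : ∀ w : LocLat θ, LocLat.val ((2 : locHecke θ) • w) = (2 : ℤ_[2]) • LocLat.val w :=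
    fun w => by rw [two_smul, two_smul, map_add]
  constructor
  · intro h
    obtain ⟨w, hw, hx⟩ := exists_two_smul (LocLat.val_mem x) h
    obtain ⟨w', rfl⟩ : ∃ w' : LocLat θ, LocLat.val w' = w := ⟨⟨w, hw⟩, rfl⟩
    exact ⟨w', LocLat.val_injective (hx.trans (e _).symm)⟩
  · rintro ⟨w, rfl⟩
    exact red2_eq_zero.mpr ⟨_, e w⟩

/-- An element of the maximal ideal acts modulo two as an element of the kernel of `θ`. -/
theorem exists_red2_smul {a : locHecke θ} (ha : a ∈ 𝔪 θ) :
    ∃ t, θ t = 0 ∧ ∀ x : LocLat θ,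
      red2 (LocLat.val (a • x)) = tauMat L (ZMod 2) t *ᵥ red2 (LocLat.val x) := by
  obtain ⟨t, c, rfl⟩ := exists_locT_sub a
  refine ⟨t, ?_, fun x => ?_⟩
  · have h := resF2_eq_zero.mpr ha
    rwa [map_add, map_mul, resF2_two, zero_mul, add_zero, resF2_locT] at h
  · rw [add_smul, map_add, red2_map_add, mul_smul, red2_val_eq_zero.mpr ⟨c • x, rfl⟩, add_zero,
      val_locT_smul, red2_tauMat]

section Basis

variable (b : Module.Basis (Fin 2) (locHecke θ) (LocLat θ))

theorem two_dvd_of_red2 {c : locHecke θ} {j : Fin 2} (h : red2 (LocLat.val (c • b j)) = 0) :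
    2 ∣ c := by
  obtain ⟨w, hw⟩ := red2_val_eq_zero.mp h
  refine ⟨b.repr w j, ?_⟩
  have h1 := congrArg (fun x => b.repr x j) hw
  simpa using h1

theorem dvd_coord {x : LocLat θ} (h : red2 (LocLat.val x) = 0) (i : Fin 2) : 2 ∣ b.repr x i := by
  obtain ⟨w, rfl⟩ := red2_val_eq_zero.mp h
  exact ⟨b.repr w i, by simp⟩

theorem not_two_dvd_one (θ : Reps.TZ L →+* ZMod 2) : ¬ (2 : locHecke θ) ∣ 1 := fun h =>
  (IsLocalRing.mem_maximalIdeal _).mp (two_mem_maximalIdeal θ) (isUnit_of_dvd_one h)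

include b in
/-- Some power of the maximal ideal is divisible by two. -/
theorem exists_prod_dvd : ∃ N : ℕ, ∀ a : Fin N → locHecke θ, (∀ i, a i ∈ 𝔪 θ) → 2 ∣ ∏ i, a i := by
  obtain ⟨N, hN⟩ := isAtMax_red2 (LocLat.val_mem (b 0))
  refine ⟨N, fun a ha => two_dvd_of_red2 b (j := 0) ?_⟩
  choose t ht hta using fun i => exists_red2_smul (ha i)
  have key : ∀ s : Finset (Fin N), ∀ x : LocLat θ, red2 (LocLat.val ((∏ i ∈ s, a i) • x)) =
      tauMat L (ZMod 2) (∏ i ∈ s, t i) *ᵥ red2 (LocLat.val x) := fun s => by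
    classical
    induction s using Finset.induction with
    | empty => intro x; simp
    | insert i s hi ih =>
      intro x
      rw [Finset.prod_insert hi, Finset.prod_insert hi, mul_smul, hta, ih, mulVec_mulVec,
        ← map_mul]
  rw [key]
  exact hN t ht

include b in
/-- A multiple in the socle modulo two. -/
theorem exists_socle {c : locHecke θ} (hc : ¬ 2 ∣ c) :
    ∃ t : locHecke θ, ¬ 2 ∣ t * c ∧ ∀ a ∈ 𝔪 θ, 2 ∣ a * (t * c) := by
  obtain ⟨N, hN⟩ := exists_prod_dvd b
  have key : ∀ k : ℕ, (∀ a : Fin k → locHecke θ, (∀ i, a i ∈ 𝔪 θ) → 2 ∣ (∏ i, a i) * c) →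
      ∃ t : locHecke θ, ¬ 2 ∣ t * c ∧ ∀ a ∈ 𝔪 θ, 2 ∣ a * (t * c) := by
    intro k
    induction k with
    | zero => exact fun h => absurd (by simpa using h Fin.elim0 (fun i => i.elim0)) hc
    | succ k ih =>
      intro h
      by_cases hk : ∀ a : Fin k → locHecke θ, (∀ i, a i ∈ 𝔪 θ) → 2 ∣ (∏ i, a i) * c
      · exact ih hk
      · push Not at hk
        obtain ⟨a, ha, hac⟩ := hk
        refine ⟨_, hac, fun a' ha' => ?_⟩
        have := h (Fin.cons a' a) (Fin.cases (by simpa using ha') (by simpa using ha))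
        rwa [Fin.prod_cons, mul_assoc] at this
  exact key N fun a ha => (hN a ha).mul_right c

theorem red2_socle_mem {s : locHecke θ} (hs : ∀ a ∈ 𝔪 θ, 2 ∣ a * s) (x : LocLat θ) :
    red2 (LocLat.val (s • x)) ∈ eigenSet θ := fun t ht => by
  obtain ⟨w, hw⟩ := hs _ (isUnit_or_mem ht)
  rw [← red2_tauMat, ← val_locT_smul, ← mul_smul, hw, mul_smul]
  exact red2_val_eq_zero.mpr ⟨w • x, rfl⟩

include b in
/-- An endomorphism killing the classes killed by the maximal ideal is zero residually. -/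
theorem repr_mem_of_kill (f : Module.End (locHecke θ) (LocLat θ))
    (hf : ∀ x, red2 (LocLat.val x) ∈ eigenSet θ → red2 (LocLat.val (f x)) = 0) (i j : Fin 2) :
    b.repr (f (b j)) i ∈ 𝔪 θ := by
  obtain ⟨s, hs1, hs⟩ := exists_socle b (not_two_dvd_one θ)
  rw [mul_one] at hs1
  simp only [mul_one] at hs
  by_contra h
  have hu : IsUnit (b.repr (f (b j)) i) := by
    by_contra hu
    exact h ((IsLocalRing.mem_maximalIdeal _).mpr hu)
  have h1 := dvd_coord b (hf _ (red2_socle_mem hs (b j))) i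
  rw [map_smul, map_smul, Finsupp.smul_apply, smul_eq_mul] at h1
  exact hs1 (hu.dvd_mul_right.mp h1)

end Basis

/-! ### The residual representation -/

variable {D : Setup} {S : ResSys L D}

/-- The residual matrices in a basis. -/
def resRep (b : Module.Basis (Fin 2) (locHecke S.θ) (LocLat S.θ)) : Γℚ →* Mat2 (ZMod 2) :=
  (resF2 S.θ).mapMatrix.toMonoidHom.comp (galBasis b)

theorem resRep_apply (b : Module.Basis (Fin 2) (locHecke S.θ) (LocLat S.θ)) (σ : Γℚ) :
    resRep b σ = (galBasis b σ).map (resF2 S.θ) := rfl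

variable (b : Module.Basis (Fin 2) (locHecke S.θ) (LocLat S.θ))

theorem resRep_rel (σ : Γℚ) :
    resRep b σ * resRep b σ + (D.rho σ).trace • resRep b σ + 1 = 0 := by
  set c : locHecke S.θ := ((D.rho σ).trace.val : locHecke S.θ) with hc
  set f : Module.End (locHecke S.θ) (LocLat S.θ) :=
    galLoc S.θ σ * galLoc S.θ σ + c • galLoc S.θ σ + 1 with hf
  have hmat : LinearMap.toMatrix b b f =
      galBasis b σ * galBasis b σ + c • galBasis b σ + 1 := by
    rw [hf, map_add, map_add, map_smul, LinearMap.toMatrix_mul, LinearMap.toMatrix_one]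
    rfl
  have hcast : resF2 S.θ c = (D.rho σ).trace := by rw [hc, map_natCast, ZMod.natCast_zmod_val]
  have hk : ∀ x, red2 (LocLat.val x) ∈ eigenSet S.θ → red2 (LocLat.val (f x)) = 0 := fun x hx => by
    have h := congrArg Subtype.val
      (LinearMap.congr_fun (hasRel_eigenRep S σ) ⟨_, hx⟩)
    simp only [hf, hc, LinearMap.add_apply, LinearMap.smul_apply, Module.End.mul_apply,
      Module.End.one_apply, map_add, Nat.cast_smul_eq_nsmul, map_nsmul, red2_map_add, val_galLoc,
      red2_galM] at h ⊢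
    refine Eq.trans ?_ h
    simp only [Submodule.coe_add, Submodule.coe_smul, eigenRep, MonoidHom.coe_mk, OneHom.coe_mk,
      LinearMap.coe_restrict_apply, Matrix.toLin'_apply]
    congr 2
    rcases (show (D.rho σ).trace = 0 ∨ (D.rho σ).trace = 1 by
      generalize (D.rho σ).trace = z; revert z; decide) with h | h <;> rw [h]
    · rw [ZMod.val_zero, zero_smul, zero_smul, red2_zero]
    · rw [ZMod.val_one, one_smul, one_smul, red2_galM]
  ext i j
  have h := resF2_eq_zero.mpr (repr_mem_of_kill b f hk i j)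
  rw [← LinearMap.toMatrix_apply, hmat] at h
  rw [← hcast, resRep_apply]
  simpa [Matrix.mul_apply, Matrix.one_apply, apply_ite (resF2 S.θ)] using h

/-- The residual representation as endomorphisms. -/
def resEnd : Γℚ →* Module.End (ZMod 2) (Fin 2 → ZMod 2) :=
  (Matrix.toLinAlgEquiv' (R := ZMod 2)).toMonoidHom.comp (resRep b)

theorem hasRel_resEnd : HasRel D (resEnd b) := fun σ => by
  show Matrix.toLinAlgEquiv' (resRep b σ) * Matrix.toLinAlgEquiv' (resRep b σ) +
    (D.rho σ).trace • Matrix.toLinAlgEquiv' (resRep b σ) + 1 = 0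
  rw [← map_mul, ← map_smul, ← map_one (Matrix.toLinAlgEquiv' (R := ZMod 2) (n := Fin 2)),
    ← map_add, ← map_add, resRep_rel, map_zero]

theorem resRep_ne_one {τ : Γℚ} (hτ : D.rho τ ≠ 1) (hτ2 : D.rho τ * D.rho τ = 1) :
    resRep b τ ≠ 1 := fun h => by
  have hx := (hasRel_resEnd b).eq_zero_of_fixed hτ hτ2
    (by show Matrix.toLinAlgEquiv' (resRep b τ) = 1; rw [h, map_one]) (fun _ => 1)
  exact one_ne_zero (congrFun hx 0)

/-- Some entry of `τ - 1` is a unit. -/
theorem exists_isUnit_entry {τ : Γℚ} (hτ : D.rho τ ≠ 1) (hτ2 : D.rho τ * D.rho τ = 1) :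
    ∃ i j, IsUnit (b.repr (galLoc S.θ τ (b j) - b j) i) := by
  by_contra hne
  push Not at hne
  refine resRep_ne_one b hτ hτ2 (Matrix.ext fun i j => ?_)
  have h := resF2_eq_zero.mpr ((IsLocalRing.mem_maximalIdeal _).mpr (hne i j))
  rw [map_sub, Finsupp.sub_apply, map_sub, sub_eq_zero, ← galBasis_apply] at h
  rw [resRep_apply, Matrix.map_apply, h, Module.Basis.repr_self]
  rcases eq_or_ne i j with rfl | hij
  · rw [Finsupp.single_eq_same, map_one, Matrix.one_apply_eq]
  · rw [Finsupp.single_eq_of_ne hij, map_zero, Matrix.one_apply_ne hij]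

/-! ### Equivariant maps out of the lattice -/

theorem HasRel.map_eq_zero {V X : Type*} [AddCommGroup V] [Module (ZMod 2) V] [AddCommGroup X]
    [DistribMulAction Γℚ X] {P : Γℚ →* Module.End (ZMod 2) V} (hP : HasRel D P) (ψ : V →+ X)
    (hψ : ∀ σ y, ψ (P σ y) = σ • ψ y) {τ : Γℚ} (hτ : D.rho τ ≠ 1)
    (hτ2 : D.rho τ * D.rho τ = 1) (hfix : ∀ y, τ • ψ y = ψ y) (x : V) : ψ x = 0 := by
  have hfix' : ∀ y, ψ (P τ y) = ψ y := fun y => by rw [hψ, hfix]
  obtain ⟨g, hg⟩ := exists_conj_trace hτ hτ2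
  have hh : ∀ y, ψ (P (τ * (g * τ * g⁻¹)) y) = ψ y := fun y => by
    rw [map_mul, Module.End.mul_apply, hfix', map_mul, map_mul, Module.End.mul_apply,
      Module.End.mul_apply, hψ g, hfix', ← hψ, ← Module.End.mul_apply, ← map_mul,
      mul_inv_cancel, map_one, Module.End.one_apply]
  have h1 := congrArg ψ (LinearMap.congr_fun (hP.order_three hg) x)
  rw [Module.End.mul_apply, hh, hh, LinearMap.add_apply, Module.End.one_apply, map_add, hh,
    left_eq_add] at h1
  exact h1

include b in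
/-- An equivariant map killed by two, into a module where `τ` fixes what the kernel of `ρ̄` fixes,
is zero. -/
theorem map_locLat_eq_zero {X : Type*} [AddCommGroup X] [DistribMulAction Γℚ X]
    (Φ : LocLat S.θ →+ X) (hΦ : ∀ σ v, Φ (galLoc S.θ σ v) = σ • Φ v)
    (h2 : ∀ v, 2 • Φ v = 0) {τ : Γℚ} (hτ : D.rho τ ≠ 1) (hτ2 : D.rho τ * D.rho τ = 1)
    (hfix : ∀ z : X, 2 • z = 0 → (∀ σ, D.rho σ = 1 → σ • z = z) → τ • z = z)
    (v : LocLat S.θ) : Φ v = 0 := by
  obtain ⟨N, hN⟩ := exists_prod_dvd b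
  have hdvd : ∀ {c : locHecke S.θ} (x : LocLat S.θ), 2 ∣ c → Φ (c • x) = 0 := by
    rintro c x ⟨d, rfl⟩
    rw [mul_smul, two_smul, map_add, ← two_nsmul]
    exact h2 _
  suffices key : ∀ j k, j + k = N → ∀ a : Fin k → locHecke S.θ, (∀ i, a i ∈ 𝔪 S.θ) →
      ∀ x, Φ ((∏ i, a i) • x) = 0 by
    simpa using key N 0 rfl Fin.elim0 (fun i => i.elim0) v
  intro j
  induction j with
  | zero =>
    intro k hk a ha x
    rw [zero_add] at hk
    subst hk
    exact hdvd x (hN _ ha)
  | succ j ih =>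
    intro k hk a ha x
    set c := ∏ i, a i with hc
    have hkill : ∀ d ∈ 𝔪 S.θ, ∀ y, Φ ((c * d) • y) = 0 := fun d hd y => by
      have := ih (k + 1) (by omega) (Fin.cons d a)
        (Fin.cases (by simpa using hd) (by simpa using ha)) y
      rwa [Fin.prod_cons, mul_comm] at this
    -- lifts of residual vectors
    let lift : (Fin 2 → ZMod 2) → LocLat S.θ := fun y => ∑ i, ((y i).val : locHecke S.θ) • b i
    have hlift : ∀ (y : Fin 2 → ZMod 2) (w : LocLat S.θ),
        (∀ i, resF2 S.θ (b.repr w i) = y i) → Φ (c • w) = Φ (c • lift y) := fun y w hw => by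
      have e : ∀ i, b.repr w i - ((y i).val : locHecke S.θ) ∈ 𝔪 S.θ := fun i =>
        resF2_eq_zero.mp (by rw [map_sub, hw, map_natCast, ZMod.natCast_zmod_val, sub_self])
      have : c • w = c • lift y +
          ∑ i, (c * (b.repr w i - ((y i).val : locHecke S.θ))) • b i := by
        simp only [lift, Finset.smul_sum, ← Finset.sum_add_distrib, smul_smul, ← add_smul]
        conv_lhs => rw [← b.sum_repr w, Finset.smul_sum]
        exact Finset.sum_congr rfl fun i _ => by rw [smul_smul]; congr 1; ring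
      rw [this, map_add, map_sum, Finset.sum_eq_zero fun i _ => hkill _ (e i) _, add_zero]
    have hrl : ∀ (y : Fin 2 → ZMod 2) (i), resF2 S.θ (b.repr (lift y) i) = y i := fun y i => by
      simp only [lift]
      rw [b.repr_sum_self, map_natCast, ZMod.natCast_zmod_val]
    let ψ : (Fin 2 → ZMod 2) →+ X := AddMonoidHom.mk' (fun y => Φ (c • lift y)) fun y z => by
      rw [← map_add, ← smul_add]
      exact (hlift _ _ fun i => by
        rw [map_add, Finsupp.add_apply, map_add, hrl, hrl, Pi.add_apply]).symm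
    have hψ : ∀ σ y, ψ (resEnd b σ y) = σ • ψ y := fun σ y => by
      show Φ (c • lift _) = σ • Φ (c • lift y)
      rw [← hΦ, (galLoc S.θ σ).map_smul]
      refine (hlift _ _ fun i => ?_).symm
      rw [show galLoc S.θ σ (lift y) = ∑ j, ((y j).val : locHecke S.θ) • galLoc S.θ σ (b j) by
        simp only [lift, map_sum, map_smul], map_sum, Finsupp.finsetSum_apply, map_sum]
      show _ = (Matrix.toLinAlgEquiv' (resRep b σ) y) i
      rw [Matrix.toLinAlgEquiv'_apply, Matrix.mulVec, dotProduct]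
      refine Finset.sum_congr rfl fun j _ => ?_
      rw [map_smul, Finsupp.smul_apply, smul_eq_mul, map_mul, map_natCast, ZMod.natCast_zmod_val,
        ← galBasis_apply, mul_comm, resRep_apply, Matrix.map_apply]
    have hψ0 := (hasRel_resEnd b).map_eq_zero ψ hψ hτ hτ2 (fun y => hfix _ (h2 _) fun σ hσ => by
      rw [← hψ, (hasRel_resEnd b).eq_one_of_rho hσ]
      rfl)
    rw [hlift (fun i => resF2 S.θ (b.repr x i)) x fun i => rfl]
    exact hψ0 _

end FLTAgent.Mod2
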