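import Mathlib

/-!
# The coefficients of the theta series of a class character

`thetaCoeff ψ n` is the sum of `ψ` over the nonzero integral ideals of norm `n`; `oddPart` is the
odd part of the discriminant.
-/

set_option autoImplicit false

noncomputable section

open NumberField

namespace FLTAgent.Mod2

variable {K : Type} [Field K] [NumberField K]

open Classical in
/-- The sum of `ψ` over the nonzero integral ideals of norm `n`. -/
def thetaCoeff (ψ : ClassGroup (𝓞 K) →* ℂˣ) (n : ℕ) : ℂ :=
  if hn : n = 0 then 0 else
    ∑ I ∈ (Ideal.finite_setOfPred_absNorm_eq (S := 𝓞 K) n).toFinset.attach,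
      if hI : (I : Ideal (𝓞 K)) ∈ nonZeroDivisors (Ideal (𝓞 K)) then
        ((ψ (ClassGroup.mk0 ⟨I, hI⟩) : ℂˣ) : ℂ) else 0

/-- The odd part of the discriminant. -/
def oddPart (d : ℤ) : ℕ := d.natAbs / 2 ^ d.natAbs.factorization 2

end FLTAgent.Mod2
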