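import Fermat.Agent.Mod2.ThetaModular

/-!
# Cusp forms of weight two made of products of binary theta series

A combination `∑ w i · θ_{Q i} θ_{Q₀}` of forms of discriminant `-N` with `∑ w i = 0` and
vanishing weighted Gauss sums vanishes at every cusp (`thetaCombo_slash_zero`) and is a cusp form
of level `N` (`thetaCusp`) with the expected expansion (`qExpansion_thetaCusp`).
-/

set_option autoImplicit false

noncomputable section

open UpperHalfPlane hiding I
open Complex Filter Topology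
open scoped Real MatrixGroups ModularForm

namespace FLTAgent.Mod2

variable {ι : Type} [Fintype ι] (Q : ι → BForm) (Q₀ : BForm) (w : ι → ℂ)

/-- A combination of products of theta series. -/
def thetaCombo (τ : ℍ) : ℂ := ∑ i, w i * ((Q i).theta τ * Q₀.theta τ)

/-- Its expansion. -/
def thetaComboSeries : PowerSeries ℂ := ∑ i, w i • ((Q i).series * Q₀.series)

theorem hasQ_thetaCombo : Eisen.HasQ 1 (thetaCombo Q Q₀ w) (thetaComboSeries Q Q₀ w) :=
  (Eisen.HasQ.sum Finset.univ fun i _ =>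
    ((Q i).hasQ_theta.mul one_pos Q₀.hasQ_theta).smul (w i)).congr <| by
    funext τ
    simp [thetaCombo]

theorem thetaCombo_slash {N : ℕ} (hD : ∀ i, (Q i).D = N) (hD₀ : Q₀.D = N) (γ : SL(2, ℤ))
    (hγ : (N : ℤ) ∣ γ 1 0) : thetaCombo Q Q₀ w ∣[(2 : ℤ)] γ = thetaCombo Q Q₀ w := by
  funext τ
  rw [ModularForm.SL_slash_apply, thetaCombo, thetaCombo, Finset.sum_mul]
  refine Finset.sum_congr rfl fun i _ => ?_
  have := congrFun ((Q i).slash_theta_mul Q₀ (hD₀.trans (hD i).symm) γ (hD i ▸ hγ)) τ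
  rw [ModularForm.SL_slash_apply] at this
  simp only [Pi.mul_apply] at this
  rw [mul_assoc, this]

theorem thetaCombo_slash_zero (hw : ∑ i, w i = 0) {N : ℕ} (hD : ∀ i, (Q i).D = N)
    (hG : ∀ (m : ℕ) [NeZero m] (r : ZMod m), IsUnit r → ∑ i, w i * (Q i).gauss m r 0 0 = 0)
    (γ : SL(2, ℤ)) : IsZeroAtImInfty (thetaCombo Q Q₀ w ∣[(2 : ℤ)] γ) := by
  have key : ∀ γ : SL(2, ℤ), 0 ≤ γ 1 0 → Tendsto (fun τ : ℍ => thetaCombo Q Q₀ w (γ • τ) /
      ((γ 1 0 : ℂ) * τ + γ 1 1) ^ 2) atImInfty (𝓝 0) := by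
    intro γ hγ
    rcases hγ.eq_or_lt with hc | hc
    · have hdet := det_SL γ
      rw [← hc, mul_zero, sub_zero] at hdet
      have hunit : γ 0 0 = γ 1 1 ∧ γ 1 1 * γ 1 1 = 1 := by
        rcases Int.eq_one_or_neg_one_of_mul_eq_one' hdet with ⟨h1, h2⟩ | ⟨h1, h2⟩ <;>
          simp [h1, h2]
      have hd : (γ 1 1 : ℂ) * γ 1 1 = 1 := by exact_mod_cast hunit.2
      have hz : ∀ τ : ℍ, ((γ • τ : ℍ) : ℂ) = τ + ((γ 0 1 * γ 1 1 : ℤ) : ℂ) := fun τ => by
        have h11 : (γ 1 1 : ℂ) ≠ 0 := left_ne_zero_of_mul_eq_one hd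
        rw [coe_smul_SL, ← hc, hunit.1, Int.cast_zero, zero_mul, zero_add, div_eq_iff h11]
        push_cast
        linear_combination (-(γ 0 1 : ℂ)) * hd
      have e : ∀ τ : ℍ, thetaCombo Q Q₀ w (γ • τ) / ((γ 1 0 : ℂ) * τ + γ 1 1) ^ 2 =
          ∑ i, w i * ((Q i).theta τ * Q₀.theta τ) := fun τ => by
        rw [← hc, Int.cast_zero, zero_mul, zero_add, sq, hd, div_one, thetaCombo]
        exact Finset.sum_congr rfl fun i _ => by
          rw [(Q i).theta_periodic (hz τ), Q₀.theta_periodic (hz τ)]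
      simp only [e]
      rw [show (0 : ℂ) = ∑ i, w i * (1 * 1) by simpa using hw.symm]
      exact tendsto_finsetSum _ fun i _ =>
        tendsto_const_nhds.mul ((Q i).tendsto_theta.mul Q₀.tendsto_theta)
    · obtain ⟨m, hm⟩ := Int.eq_ofNat_of_zero_le hc.le
      have : NeZero m := ⟨by omega⟩
      have hu : IsUnit ((γ 0 0 : ℤ) : ZMod m) := by
        refine IsUnit.of_mul_eq_one ((γ 1 1 : ℤ) : ZMod m) ?_
        have := congrArg (fun n : ℤ => (n : ZMod m)) (det_SL γ)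
        rw [hm] at this
        push_cast at this
        rwa [ZMod.natCast_self, mul_zero, sub_zero] at this
      have hlim : Tendsto (fun τ : ℍ => ∑ i, w i *
          ((Q i).theta (γ • τ) / ((γ 1 0 : ℂ) * τ + γ 1 1) *
            (Q₀.theta (γ • τ) / ((γ 1 0 : ℂ) * τ + γ 1 1)))) atImInfty
          (𝓝 (∑ i, w i * ((-I / (((Real.sqrt (Q i).D : ℝ) : ℂ) * m) *
              (Q i).gauss m ((γ 0 0 : ℤ) : ZMod m) 0 0) *
            (-I / (((Real.sqrt Q₀.D : ℝ) : ℂ) * m) *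
              Q₀.gauss m ((γ 0 0 : ℤ) : ZMod m) 0 0)))) :=
        tendsto_finsetSum _ fun i _ => tendsto_const_nhds.mul
          (((Q i).tendsto_theta_smul γ m hm).mul (Q₀.tendsto_theta_smul γ m hm))
      have h0 : ∑ i, w i * ((-I / (((Real.sqrt (Q i).D : ℝ) : ℂ) * m) *
            (Q i).gauss m ((γ 0 0 : ℤ) : ZMod m) 0 0) *
          (-I / (((Real.sqrt Q₀.D : ℝ) : ℂ) * m) *
            Q₀.gauss m ((γ 0 0 : ℤ) : ZMod m) 0 0)) = 0 := by
        calc _ = -I / (((Real.sqrt (N : ℝ)) : ℂ) * m) *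
              (-I / (((Real.sqrt Q₀.D : ℝ) : ℂ) * m) *
                Q₀.gauss m ((γ 0 0 : ℤ) : ZMod m) 0 0) *
              ∑ i, w i * (Q i).gauss m ((γ 0 0 : ℤ) : ZMod m) 0 0 := by
              rw [Finset.mul_sum]
              refine Finset.sum_congr rfl fun i _ => ?_
              rw [hD i, Int.cast_natCast]
              ring
          _ = 0 := by rw [hG m _ hu, mul_zero]
      rw [h0] at hlim
      refine hlim.congr fun τ => ?_
      rw [thetaCombo, Finset.sum_div]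
      exact Finset.sum_congr rfl fun i _ => by rw [div_mul_div_comm, ← sq, mul_div_assoc']
  have h : ∀ τ : ℍ, (thetaCombo Q Q₀ w ∣[(2 : ℤ)] γ) τ =
      thetaCombo Q Q₀ w (γ • τ) / ((γ 1 0 : ℂ) * τ + γ 1 1) ^ 2 := fun τ => by
    rw [ModularForm.SL_slash_apply, ModularGroup.denom_apply, zpow_neg, zpow_ofNat,
      div_eq_mul_inv]
  rw [IsZeroAtImInfty, ZeroAtFilter, funext h]
  rcases le_total 0 (γ 1 0) with hc | hc
  · exact key γ hc
  · refine (key (-γ) (by simpa using hc)).congr fun τ => ?_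
    rw [ModularGroup.SL_neg_smul]
    simp only [Matrix.SpecialLinearGroup.coe_neg, Matrix.neg_apply, Int.cast_neg]
    congr 1
    ring

/-- The cusp form. -/
def thetaCusp (hw : ∑ i, w i = 0) {N : ℕ} (hD : ∀ i, (Q i).D = N) (hD₀ : Q₀.D = N)
    (hG : ∀ (m : ℕ) [NeZero m] (r : ZMod m), IsUnit r → ∑ i, w i * (Q i).gauss m r 0 0 = 0) :
    CuspForm (CongruenceSubgroup.Gamma0 N) 2 where
  toFun := thetaCombo Q Q₀ w
  slash_action_eq' g hg := by
    obtain ⟨γ, hγ, rfl⟩ := hg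
    refine thetaCombo_slash Q Q₀ w hD hD₀ γ ?_
    exact (ZMod.intCast_zmod_eq_zero_iff_dvd _ _).mp (CongruenceSubgroup.Gamma0_mem.mp hγ)
  holo' := (hasQ_thetaCombo Q Q₀ w).mdiff one_pos
  zero_at_cusps' := by
    intro c hc
    have : NeZero N := ⟨by have := Q₀.D_pos; omega⟩
    rw [Subgroup.IsArithmetic.isCusp_iff_isCusp_SL2Z] at hc
    rw [OnePoint.isZeroAt_iff_forall_SL2Z hc]
    exact fun γ _ => thetaCombo_slash_zero Q Q₀ w hw hD hG γ

/-- The expansion of the cusp form. -/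
theorem qExpansion_thetaCusp (hw : ∑ i, w i = 0) {N : ℕ} (hD : ∀ i, (Q i).D = N)
    (hD₀ : Q₀.D = N)
    (hG : ∀ (m : ℕ) [NeZero m] (r : ZMod m), IsUnit r → ∑ i, w i * (Q i).gauss m r 0 0 = 0) :
    qExpansion 1 (thetaCusp Q Q₀ w hw hD hD₀ hG) = thetaComboSeries Q Q₀ w :=
  (hasQ_thetaCombo Q Q₀ w).qExpansion_eq one_pos

end FLTAgent.Mod2
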