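import Mathlib

/-!
# Positive definite binary quadratic forms and their theta series: definitions

`BForm` is a positive definite integral form `a X² + b X Y + c Y²`, with `D` minus its
discriminant, dual form `dualForm`, theta series `theta` and Gauss sums `gauss`.
-/

set_option autoImplicit false

noncomputable section

open UpperHalfPlane hiding I
open Complex
open scoped Real MatrixGroups

namespace FLTAgent.Mod2

/-- A positive definite integral binary quadratic form `a X² + b X Y + c Y²`. -/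
structure BForm where
  /-- coefficient of `X²` -/
  a : ℤ
  /-- coefficient of `X Y` -/
  b : ℤ
  /-- coefficient of `Y²` -/
  c : ℤ
  a_pos : 0 < a
  disc_neg : b ^ 2 < 4 * a * c

namespace BForm

variable (Q : BForm)

/-- Minus the discriminant. -/
def D : ℤ := 4 * Q.a * Q.c - Q.b ^ 2

theorem D_pos : 0 < Q.D := by
  have := Q.disc_neg
  simp only [D]
  omega

theorem c_pos : 0 < Q.c := by
  nlinarith [Q.disc_neg, Q.a_pos, sq_nonneg Q.b]

/-- The value at a vector, in any commutative ring. -/
def ev {R : Type*} [CommRing R] (x y : R) : R :=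
  (Q.a : R) * x ^ 2 + (Q.b : R) * x * y + (Q.c : R) * y ^ 2

/-- `D` times the dual form. -/
def dual {R : Type*} [CommRing R] (x y : R) : R :=
  (Q.c : R) * x ^ 2 - (Q.b : R) * x * y + (Q.a : R) * y ^ 2

/-- The dual form. -/
def dualForm : BForm :=
  ⟨Q.c, -Q.b, Q.a, Q.c_pos, by nlinarith [Q.disc_neg]⟩

theorem dualForm_D : Q.dualForm.D = Q.D := by simp [dualForm, D]; ring

theorem dualForm_ev {R : Type*} [CommRing R] (x y : R) : Q.dualForm.ev x y = Q.dual x y := by
  simp [dualForm, ev, dual]
  ring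

/-- The theta series `Σ exp(2πi Q(v) z)`. -/
def theta (z : ℍ) : ℂ :=
  ∑' v : ℤ × ℤ, cexp (2 * π * I * (Q.ev (v.1 : ℂ) (v.2 : ℂ)) * z)

/-- The Gauss sum `Σ_{x mod m} exp(2πi (s Q(x) + k·x) / m)`. -/
def gauss (m : ℕ) [NeZero m] (s k₁ k₂ : ZMod m) : ℂ :=
  ∑ x : ZMod m × ZMod m, ZMod.stdAddChar (s * Q.ev x.1 x.2 + k₁ * x.1 + k₂ * x.2)

end BForm

end FLTAgent.Mod2
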