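import Fermat.Agent.Mod2.ThetaDefs

/-!
# Gauss sums of binary quadratic forms

Completing the square removes the linear term (`gauss_eq_mul`); modulo an odd prime the sum is
`p` times the quadratic character of `-D` (`gauss_prime`); similitudes of ratio a square prime to
the modulus preserve the sums (`gauss_eq_of_similitude`).
-/

set_option autoImplicit false

noncomputable section

open Finset

namespace FLTAgent.Mod2

namespace BForm

variable (Q : BForm)

/-- Completing the square removes the linear term. -/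
theorem gauss_eq_mul {m : ℕ} [NeZero m] {s t e : ZMod m} (hst : s * t = 1)
    (he : (Q.D : ZMod m) * e = 1) (k₁ k₂ : ZMod m) :
    Q.gauss m s k₁ k₂ = ZMod.stdAddChar (-(t * e * Q.dual k₁ k₂)) * Q.gauss m s 0 0 := by
  set u₁ : ZMod m := e * (2 * (Q.c : ZMod m) * k₁ - (Q.b : ZMod m) * k₂)
  set u₂ : ZMod m := e * (2 * (Q.a : ZMod m) * k₂ - (Q.b : ZMod m) * k₁)
  have hD : (4 * (Q.a : ZMod m) * (Q.c : ZMod m) - (Q.b : ZMod m) ^ 2) * e = 1 := by
    rw [← he, D]; push_cast; ring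
  rw [gauss, gauss, Finset.mul_sum]
  refine (Fintype.sum_equiv (Equiv.addRight ((-t * u₁, -t * u₂) : ZMod m × ZMod m)) _ _
    fun y => ?_).symm
  rw [← AddChar.map_add_eq_mul]
  congr 1
  simp only [ev, dual, Equiv.coe_addRight, Prod.fst_add, Prod.snd_add, u₁, u₂]
  linear_combination ((y.1 * k₁ + y.2 * k₂) * (s * t)
    - s * t * t * e * ((Q.c : ZMod m) * k₁ ^ 2 - (Q.b : ZMod m) * k₁ * k₂
      + (Q.a : ZMod m) * k₂ ^ 2)) * hD +
    (y.1 * k₁ + y.2 * k₂
      - t * e * ((Q.c : ZMod m) * k₁ ^ 2 - (Q.b : ZMod m) * k₁ * k₂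
      + (Q.a : ZMod m) * k₂ ^ 2)) * hst

section Prime

variable {p : ℕ} [Fact p.Prime]

theorem sum_stdAddChar_sq (hp : p ≠ 2) {α : ZMod p} (hα : α ≠ 0) :
    ∑ u : ZMod p, ZMod.stdAddChar (α * u ^ 2) =
      ((quadraticChar (ZMod p) α : ℤ) : ℂ) *
        gaussSum ((quadraticChar (ZMod p)).ringHomComp (Int.castRingHom ℂ))
          (ZMod.stdAddChar (N := p)) := by
  classical
  set χ := (quadraticChar (ZMod p)).ringHomComp (Int.castRingHom ℂ)
  have hF : ringChar (ZMod p) ≠ 2 := by rwa [ZMod.ringChar_zmod_n]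
  have h1 : ∑ u : ZMod p, ZMod.stdAddChar (α * u ^ 2) =
      ∑ a : ZMod p, (((quadraticChar (ZMod p) a : ℤ) : ℂ) + 1) * ZMod.stdAddChar (α * a) := by
    rw [← Finset.sum_fiberwise Finset.univ (fun u : ZMod p => u ^ 2)]
    refine Finset.sum_congr rfl fun a _ => ?_
    have hcard := quadraticChar_card_sqrts hF a
    rw [Finset.sum_congr rfl fun u hu => by rw [(Finset.mem_filter.mp hu).2],
      Finset.sum_const, nsmul_eq_mul]
    congr 1
    have : ((univ.filter fun u : ZMod p => u ^ 2 = a).card : ℤ) = quadraticChar (ZMod p) a + 1 := by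
      rw [← hcard]
      congr 1
      refine congrArg Finset.card ?_
      ext u
      simp
    exact_mod_cast congrArg (fun z : ℤ => (z : ℂ)) this
  rw [h1, Finset.sum_congr rfl fun a _ => add_mul _ _ _, Finset.sum_add_distrib]
  have h2 : ∑ a : ZMod p, (1 : ℂ) * ZMod.stdAddChar (α * a) = 0 := by
    simp_rw [one_mul]
    refine AddChar.sum_eq_zero_of_ne_one (ψ := AddChar.mulShift ZMod.stdAddChar α) ?_
    exact (ZMod.isPrimitive_stdAddChar p) hα
  rw [h2, add_zero]
  have h3 := gaussSum_mulShift χ (ZMod.stdAddChar (N := p)) (Units.mk0 α hα)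
  have hsq : ((quadraticChar (ZMod p) α : ℤ) : ℂ) * ((quadraticChar (ZMod p) α : ℤ) : ℂ) = 1 := by
    rw [← Int.cast_mul, ← sq, quadraticChar_sq_one hα, Int.cast_one]
  calc ∑ a : ZMod p, ((quadraticChar (ZMod p) a : ℤ) : ℂ) * ZMod.stdAddChar (α * a)
      = gaussSum χ (AddChar.mulShift ZMod.stdAddChar α) := rfl
    _ = ((quadraticChar (ZMod p) α : ℤ) : ℂ) * gaussSum χ (ZMod.stdAddChar (N := p)) := by
        rw [← h3, ← mul_assoc]
        simp only [χ, MulChar.ringHomComp_apply, Units.val_mk0, eq_intCast, hsq, one_mul]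

/-- The Gauss sum modulo an odd prime. -/
theorem gauss_prime (hp : p ≠ 2) {s : ZMod p} (hs : s ≠ 0) (ha : (Q.a : ZMod p) ≠ 0)
    (hD : (Q.D : ZMod p) ≠ 0) :
    Q.gauss p s 0 0 = ((quadraticChar (ZMod p) (-(Q.D : ZMod p)) : ℤ) : ℂ) * p := by
  classical
  have h2 : (2 : ZMod p) ≠ 0 := Ring.two_ne_zero (by rwa [ZMod.ringChar_zmod_n])
  set A : ZMod p := (Q.a : ZMod p)
  set f : ZMod p := (Q.b : ZMod p) / (2 * A) with hf
  set β : ZMod p := (Q.D : ZMod p) / (4 * A) with hβ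
  have hA4 : (4 : ZMod p) * A ≠ 0 := mul_ne_zero (by
    rw [show (4 : ZMod p) = 2 * 2 by norm_num]; exact mul_ne_zero h2 h2) ha
  have hev : ∀ x y : ZMod p, Q.ev x y = A * (x + f * y) ^ 2 + β * y ^ 2 := by
    intro x y
    have e1 : (2 * A) * f = (Q.b : ZMod p) := mul_div_cancel₀ _ (mul_ne_zero h2 ha)
    have e2 : (4 * A) * β = (Q.D : ZMod p) := mul_div_cancel₀ _ hA4
    apply mul_left_cancel₀ hA4
    simp only [ev, D] at e2 ⊢
    push_cast at e2 ⊢
    linear_combination (-(2 * A) * f * y ^ 2 - 4 * A * x * y - (Q.b : ZMod p) * y ^ 2) * e1 -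
      y ^ 2 * e2
  have hsum : Q.gauss p s 0 0 = (∑ u : ZMod p, ZMod.stdAddChar (s * A * u ^ 2)) *
      ∑ y : ZMod p, ZMod.stdAddChar (s * β * y ^ 2) := by
    rw [gauss, Fintype.sum_prod_type_right, Finset.mul_sum]
    refine Finset.sum_congr rfl fun y _ => ?_
    rw [Finset.sum_mul]
    refine Fintype.sum_equiv (Equiv.addRight (f * y)) _ _ fun x => ?_
    rw [← AddChar.map_add_eq_mul]
    congr 1
    simp only [Equiv.coe_addRight, hev]
    ring
  have hβ0 : β ≠ 0 := div_ne_zero hD hA4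
  set χ := (quadraticChar (ZMod p)).ringHomComp (Int.castRingHom ℂ) with hχ
  have hF : ringChar (ZMod p) ≠ 2 := by rwa [ZMod.ringChar_zmod_n]
  have hχ1 : χ ≠ 1 :=
    (MulChar.ringHomComp_ne_one_iff (RingHom.injective_int _)).mpr (quadraticChar_ne_one hF)
  have hg := gaussSum_sq hχ1 ((quadraticChar_isQuadratic (ZMod p)).comp _)
    (ZMod.isPrimitive_stdAddChar p)
  rw [ZMod.card] at hg
  rw [hsum, sum_stdAddChar_sq hp (mul_ne_zero hs ha), sum_stdAddChar_sq hp (mul_ne_zero hs hβ0),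
    mul_mul_mul_comm, ← hχ, ← sq (gaussSum _ _), hg, hχ, MulChar.ringHomComp_apply, eq_intCast,
    ← mul_assoc, ← Int.cast_mul, ← Int.cast_mul, ← map_mul, ← map_mul]
  congr 2
  have e3 : s * A * (s * β) * -1 = -(Q.D : ZMod p) * (s * 2⁻¹) ^ 2 := by
    have h4 : (4 : ZMod p) ≠ 0 := by
      rw [show (4 : ZMod p) = 2 * 2 by norm_num]; exact mul_ne_zero h2 h2
    have e2 : (4 * A) * β = (Q.D : ZMod p) := mul_div_cancel₀ _ hA4
    have hh : (2 : ZMod p) * 2⁻¹ = 1 := mul_inv_cancel₀ h2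
    rw [← e2]
    linear_combination (s ^ 2 * A * β * ((2 : ZMod p) * 2⁻¹ + 1)) * hh
  rw [e3, map_mul, quadraticChar_sq_one' (mul_ne_zero hs (inv_ne_zero h2)), mul_one]

end Prime

/-- The determinant of a similitude. -/
theorem det_sq_of_similitude (Q' : BForm) (p q r s u : ℤ)
    (h : ∀ x y : ℤ, Q'.ev (p * x + q * y) (r * x + s * y) = u * Q.ev x y) :
    (p * s - q * r) ^ 2 * Q'.D = u ^ 2 * Q.D := by
  have h1 := h 1 0
  have h2 := h 0 1
  have h3 := h 1 1
  simp only [ev, D, Int.cast_id] at *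
  have hb : 2 * Q'.a * p * q + Q'.b * (p * s + q * r) + 2 * Q'.c * r * s = u * Q.b := by
    linear_combination h3 - h1 - h2
  linear_combination (4 * (Q'.a * q ^ 2 + Q'.b * q * s + Q'.c * s ^ 2)) * h1 +
    (4 * (u * Q.a)) * h2 - (2 * Q'.a * p * q + Q'.b * (p * s + q * r) + 2 * Q'.c * r * s + u * Q.b) * hb

/-- Similitudes of ratio a square prime to `m` preserve the Gauss sums modulo `m`. -/
theorem gauss_eq_of_similitude (Q' : BForm) (hD : Q'.D = Q.D) (p q r s v : ℤ) {m : ℕ} [NeZero m]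
    (hv : IsCoprime v (m : ℤ))
    (h : ∀ x y : ℤ, Q'.ev (p * x + q * y) (r * x + s * y) = v ^ 2 * Q.ev x y) (t : ZMod m) :
    Q'.gauss m t 0 0 = Q.gauss m t 0 0 := by
  have hdet := Q.det_sq_of_similitude Q' p q r s (v ^ 2) h
  rw [hD] at hdet
  have hd2 : (p * s - q * r) ^ 2 = (v ^ 2) ^ 2 := mul_right_cancel₀ Q.D_pos.ne' hdet
  obtain ⟨w, z, hwz⟩ := hv
  have hw : (w : ZMod m) * (v : ZMod m) = 1 := by
    have := congrArg (fun n : ℤ => (n : ZMod m)) hwz
    simpa using this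
  set δ : ZMod m := ((p * s - q * r : ℤ) : ZMod m) with hδdef
  have hδ : δ ^ 2 * (w : ZMod m) ^ 4 = 1 := by
    rw [hδdef, ← Int.cast_pow, hd2]
    push_cast
    linear_combination ((w : ZMod m) * v + 1) * (((w : ZMod m) * v) ^ 2 + 1) * hw
  push_cast at hδdef
  have hmap : ∀ x y : ZMod m, Q'.ev ((p : ZMod m) * x + q * y) ((r : ZMod m) * x + s * y) =
      (v : ZMod m) ^ 2 * Q.ev x y := by
    intro x y
    obtain ⟨x, rfl⟩ := ZMod.intCast_surjective x
    obtain ⟨y, rfl⟩ := ZMod.intCast_surjective y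
    have := congrArg (fun n : ℤ => (n : ZMod m)) (h x y)
    simp only [ev] at this ⊢
    push_cast at this ⊢
    exact this
  let φ : ZMod m × ZMod m → ZMod m × ZMod m := fun x =>
    ((w : ZMod m) * ((p : ZMod m) * x.1 + q * x.2), (w : ZMod m) * ((r : ZMod m) * x.1 + s * x.2))
  have hφ : Function.Injective φ := by
    intro x y hxy
    simp only [φ, Prod.mk.injEq] at hxy
    obtain ⟨h1, h2⟩ := hxy
    have hw4 : (v : ZMod m) ^ 4 * (w : ZMod m) ^ 4 = 1 := by
      rw [← mul_pow, mul_comm, hw, one_pow]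
    have hδ' : δ * (δ * (w : ZMod m) ^ 4) = 1 := by rw [← hδ]; ring
    have e1 : δ * x.1 = δ * y.1 := by
      rw [hδdef]
      linear_combination ((v : ZMod m) * s) * h1 - ((v : ZMod m) * q) * h2 -
        ((s : ZMod m) * ((p : ZMod m) * x.1 + q * x.2 - ((p : ZMod m) * y.1 + q * y.2)) -
          (q : ZMod m) * ((r : ZMod m) * x.1 + s * x.2 - ((r : ZMod m) * y.1 + s * y.2))) * hw
    have e2 : δ * x.2 = δ * y.2 := by
      rw [hδdef]
      linear_combination ((v : ZMod m) * p) * h2 - ((v : ZMod m) * r) * h1 -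
        ((p : ZMod m) * ((r : ZMod m) * x.1 + s * x.2 - ((r : ZMod m) * y.1 + s * y.2)) -
          (r : ZMod m) * ((p : ZMod m) * x.1 + q * x.2 - ((p : ZMod m) * y.1 + q * y.2))) * hw
    ext
    · linear_combination (δ * (w : ZMod m) ^ 4) * e1 - (x.1 - y.1) * hδ'
    · linear_combination (δ * (w : ZMod m) ^ 4) * e2 - (x.2 - y.2) * hδ'
  rw [gauss, gauss]
  refine (Fintype.sum_equiv (Equiv.ofBijective φ (Finite.injective_iff_bijective.mp hφ)) _ _
    fun x => ?_).symm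
  congr 1
  simp only [Equiv.ofBijective_apply, φ, zero_mul, add_zero]
  have hh := hmap x.1 x.2
  simp only [ev] at hh ⊢
  linear_combination -(t * (w : ZMod m) ^ 2) * hh -
    t * ((Q.a : ZMod m) * x.1 ^ 2 + Q.b * x.1 * x.2 + Q.c * x.2 ^ 2) * ((w : ZMod m) * v + 1) * hw

end BForm

end FLTAgent.Mod2
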