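import Fermat.Agent.Mod2.ThetaIdeal
import Fermat.Agent.Mod2.ThetaCusp
import Fermat.Agent.Mod2.ThetaCoeff

/-!
# The cusp form attached to a class character of order at least three

`formOf C` is the norm form of a class; classes differing by a square share Gauss sums
(`gauss_formOf_mul_sq`) and representation numbers count ideals (`repNum_formOf`). Hence, for
even `d`, a character nontrivial on some square gives a cusp form of level `|d|` with coefficients
those of its theta series times a series congruent to `1` modulo two (`exists_cuspForm_theta`).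
-/

set_option autoImplicit false
set_option linter.unusedSectionVars false

noncomputable section

open NumberField Module
open scoped nonZeroDivisors

namespace FLTAgent.Mod2

variable {K : Type} [Field K] [NumberField K]

/-- Forms of two ideals related by multiplication share their Gauss sums. -/
theorem gauss_eq_of_map {Q Q' : BForm} {f f' : Ideal (𝓞 K)} (hQ : Attached Q f)
    (hQ' : Attached Q' f') (hf' : f' ≠ ⊥) (x y : 𝓞 K) (hy : y ≠ 0)
    (hsub : ∀ z ∈ f, ∃ z' ∈ f', x * z = y * z') (v : ℤ)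
    (hnorm : Algebra.norm ℤ x * (Ideal.absNorm f : ℤ) =
      v ^ 2 * (Algebra.norm ℤ y * (Ideal.absNorm f' : ℤ)))
    {m : ℕ} [NeZero m] (hv : IsCoprime v (m : ℤ)) (t : ZMod m) :
    Q'.gauss m t 0 0 = Q.gauss m t 0 0 := by
  obtain ⟨hD, φ, hφ⟩ := hQ
  obtain ⟨hD', φ', hφ'⟩ := hQ'
  obtain ⟨z₁, hz₁, e₁⟩ := hsub _ (φ (1, 0)).2
  obtain ⟨z₂, hz₂, e₂⟩ := hsub _ (φ (0, 1)).2
  set a₁ := φ'.symm ⟨z₁, hz₁⟩ with ha₁
  set a₂ := φ'.symm ⟨z₂, hz₂⟩ with ha₂
  refine Q.gauss_eq_of_similitude Q' (hD'.trans hD.symm) a₁.1 a₂.1 a₁.2 a₂.2 v hv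
    (fun X Y => ?_) t
  have hX : x * ((φ (X, Y) : f) : 𝓞 K) =
      y * ((φ' (a₁.1 * X + a₂.1 * Y, a₁.2 * X + a₂.2 * Y) : f') : 𝓞 K) := by
    have h1 : ((X, Y) : ℤ × ℤ) = X • ((1, 0) : ℤ × ℤ) + Y • ((0, 1) : ℤ × ℤ) := by simp
    have h2 : ((a₁.1 * X + a₂.1 * Y, a₁.2 * X + a₂.2 * Y) : ℤ × ℤ) = X • a₁ + Y • a₂ := by
      simp [Prod.ext_iff, mul_comm]
    rw [h1, h2, map_add, map_add, map_smul, map_smul, map_smul, map_smul, ha₁, ha₂,
      LinearEquiv.apply_symm_apply, LinearEquiv.apply_symm_apply]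
    simp only [Submodule.coe_add, Submodule.coe_smul_of_tower, mul_add, mul_smul_comm, e₁, e₂]
  have h := congrArg (Algebra.norm ℤ) hX
  rw [map_mul, map_mul, ← hφ, ← hφ'] at h
  have h0 : Algebra.norm ℤ y * (Ideal.absNorm f' : ℤ) ≠ 0 :=
    mul_ne_zero (Algebra.norm_eq_zero_iff.not.mpr hy)
      (Int.natCast_ne_zero.mpr (Ideal.absNorm_eq_zero_iff.not.mpr hf'))
  refine mul_left_cancel₀ h0 ?_
  linear_combination -h + Q.ev X Y * hnorm

/-- Every class has an ideal of norm prime to a given number. -/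
theorem exists_rep_coprime (hK : finrank ℚ K = 2) (m : ℕ) [NeZero m] (E : ClassGroup (𝓞 K)) :
    ∃ e : (Ideal (𝓞 K))⁰, ClassGroup.mk0 e = E ∧
      (Ideal.absNorm (e : Ideal (𝓞 K))).Coprime m := by
  rcases eq_or_ne m 1 with rfl | hm
  · obtain ⟨e, he⟩ := ClassGroup.mk0_surjective E
    exact ⟨e, he, Nat.coprime_one_right _⟩
  obtain ⟨⟨J, hJ⟩, hJE⟩ := ClassGroup.mk0_surjective E⁻¹
  have hJ0 : J ≠ ⊥ := nonZeroDivisors.ne_zero hJ
  set M : Ideal (𝓞 K) := Ideal.span {(m : 𝓞 K)} with hM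
  have hM0 : M ≠ ⊥ := by simp [hM, NeZero.ne m]
  obtain ⟨a, ha⟩ := IsDedekindDomain.exists_sup_span_eq (I := J * M) (J := J) Ideal.mul_le_left
    (mul_ne_zero hJ0 hM0)
  have hM1 : M ≠ ⊤ := by
    intro h
    have h1 := congrArg Ideal.absNorm h
    rw [hM, Ideal.absNorm_span_singleton, Ideal.absNorm_top, ← map_natCast (algebraMap ℤ (𝓞 K)),
      Algebra.norm_algebraMap, RingOfIntegers.rank, hK, Int.natAbs_pow, Int.natAbs_natCast,
      Nat.pow_eq_one] at h1
    exact hm (h1.resolve_right two_ne_zero)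
  have ha0 : a ≠ 0 := by
    rintro rfl
    rw [Set.singleton_zero, Ideal.span_zero, sup_bot_eq] at ha
    exact hM1 (mul_left_cancel₀ hJ0 (ha.trans (Ideal.mul_top J).symm))
  obtain ⟨e, he⟩ : J ∣ Ideal.span {a} := Ideal.dvd_iff_le.mpr (le_sup_right.trans_eq ha)
  have he0 : e ≠ ⊥ := by
    rintro rfl
    rw [Ideal.mul_bot, Ideal.span_singleton_eq_bot] at he
    exact ha0 he
  have he' : e ∈ (Ideal (𝓞 K))⁰ := mem_nonZeroDivisors_of_ne_zero he0
  refine ⟨⟨e, he'⟩, ?_, ?_⟩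
  · have h1 : ClassGroup.mk0 ⟨J, hJ⟩ * ClassGroup.mk0 ⟨e, he'⟩ = 1 := by
      rw [← map_mul]
      exact (ClassGroup.mk0_eq_one_iff (mul_mem hJ he')).mpr ⟨⟨a, he.symm⟩⟩
    rw [hJE] at h1
    exact (inv_mul_eq_one.mp h1).symm
  · have htop : M ⊔ e = ⊤ := by
      refine mul_left_cancel₀ hJ0 ?_
      rw [Ideal.mul_sup, Ideal.mul_top, ← he, ha]
    obtain ⟨w', hw', u, hu, huw⟩ := Submodule.mem_sup.mp (htop.ge (Submodule.mem_top (x := (1 : 𝓞 K))))
    obtain ⟨w, rfl⟩ := Ideal.mem_span_singleton.mp hw'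
    have hu' : u = (1 : ℤ) • (1 : 𝓞 K) + (-(m : ℤ)) • w := by
      simp only [one_smul, neg_smul, natCast_zsmul, nsmul_eq_mul]
      linear_combination huw
    have hdvd : (Ideal.absNorm e : ℤ) ∣ Algebra.norm ℤ u := by
      have h := Ideal.absNorm_dvd_absNorm_of_le ((Ideal.span_singleton_le_iff_mem e).mpr hu)
      rw [Ideal.absNorm_span_singleton] at h
      exact Int.natCast_dvd.mpr h
    rw [← Nat.isCoprime_iff_coprime]
    refine IsCoprime.of_isCoprime_of_dvd_left ?_ hdvd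
    rw [hu', norm_combo (qbasis hK), map_one]
    exact ⟨1, (Algebra.norm ℤ (1 + w) - 1 - Algebra.norm ℤ w) - (m : ℤ) * Algebra.norm ℤ w,
      by ring⟩

theorem norm_neg_of_two (hK : finrank ℚ K = 2) (x : 𝓞 K) :
    Algebra.norm ℤ (-x) = Algebra.norm ℤ x := by
  rw [← neg_one_mul, map_mul, ← map_one (algebraMap ℤ (𝓞 K)), ← map_neg, Algebra.norm_algebraMap,
    RingOfIntegers.rank, hK]
  simp

variable (hK : finrank ℚ K = 2) (hd : NumberField.discr K < 0)

/-- A representative of the inverse class. -/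
def classRep (C : ClassGroup (𝓞 K)) : (Ideal (𝓞 K))⁰ :=
  (ClassGroup.mk0_surjective C⁻¹).choose

theorem mk0_classRep (C : ClassGroup (𝓞 K)) : ClassGroup.mk0 (classRep C) = C⁻¹ :=
  (ClassGroup.mk0_surjective C⁻¹).choose_spec

/-- The norm form of a class. -/
def formOf (C : ClassGroup (𝓞 K)) : BForm :=
  (exists_attached hK hd (nonZeroDivisors.ne_zero (classRep C).2)).choose

theorem attached_formOf (C : ClassGroup (𝓞 K)) :
    Attached (formOf hK hd C) (classRep C : Ideal (𝓞 K)) :=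
  (exists_attached hK hd (nonZeroDivisors.ne_zero (classRep C).2)).choose_spec

theorem formOf_D (C : ClassGroup (𝓞 K)) :
    (formOf hK hd C).D = ((NumberField.discr K).natAbs : ℤ) := by
  rw [(attached_formOf hK hd C).1]
  omega

theorem gauss_formOf_mul_sq (m : ℕ) [NeZero m] (t : ZMod m) (C E : ClassGroup (𝓞 K)) :
    (formOf hK hd (C * E ^ 2)).gauss m t 0 0 = (formOf hK hd C).gauss m t 0 0 := by
  obtain ⟨e, he, hcop⟩ := exists_rep_coprime hK m E⁻¹
  set b := classRep C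
  set b' := classRep (C * E ^ 2)
  set f : (Ideal (𝓞 K))⁰ := b * e * e
  have hf0 : (f : Ideal (𝓞 K)) ≠ ⊥ := nonZeroDivisors.ne_zero f.2
  have hfval : (f : Ideal (𝓞 K)) = (b : Ideal (𝓞 K)) * e * e := rfl
  obtain ⟨F, hF⟩ := exists_attached hK hd hf0
  set n : ℕ := Ideal.absNorm (e : Ideal (𝓞 K))
  have step1 : F.gauss m t 0 0 = (formOf hK hd C).gauss m t 0 0 := by
    refine gauss_eq_of_map (attached_formOf hK hd C) hF hf0 ((n : 𝓞 K) * n) 1 one_ne_zero
      (fun z hz => ⟨(n : 𝓞 K) * n * z, ?_, (one_mul _).symm⟩) n ?_ ?_ t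
    · rw [hfval, mul_comm ((n : 𝓞 K) * n) z, mul_assoc (b : Ideal (𝓞 K))]
      exact Ideal.mul_mem_mul hz (Ideal.mul_mem_mul (Ideal.absNorm_mem _) (Ideal.absNorm_mem _))
    · rw [map_one, one_mul, map_mul, ← map_natCast (algebraMap ℤ (𝓞 K)),
        Algebra.norm_algebraMap, RingOfIntegers.rank, hK, hfval, map_mul, map_mul]
      push_cast
      ring
    · exact Nat.isCoprime_iff_coprime.mpr hcop
  have hclass : ClassGroup.mk0 f = ClassGroup.mk0 b' := by
    rw [map_mul, map_mul, mk0_classRep, mk0_classRep, he, mul_inv, sq, mul_inv, mul_assoc]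
  obtain ⟨x, y, hx, hy, hxy⟩ := ClassGroup.mk0_eq_mk0_iff.mp hclass
  rw [← step1]
  refine gauss_eq_of_map hF (attached_formOf hK hd _) (nonZeroDivisors.ne_zero b'.2) x y hy
    (fun z hz => ?_) 1 ?_ isCoprime_one_left t
  · have : x * z ∈ Ideal.span {y} * (b' : Ideal (𝓞 K)) :=
      hxy ▸ Ideal.mul_mem_mul (Ideal.mem_span_singleton_self x) hz
    obtain ⟨z', hz', e⟩ := Ideal.mem_span_singleton_mul.mp this
    exact ⟨z', hz', e.symm⟩
  · have h := congrArg Ideal.absNorm hxy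
    rw [map_mul, map_mul, Ideal.absNorm_span_singleton, Ideal.absNorm_span_singleton] at h
    have h' := congrArg (fun k : ℕ => (k : ℤ)) h
    push_cast at h'
    rwa [abs_of_nonneg (norm_int_nonneg hK hd x), abs_of_nonneg (norm_int_nonneg hK hd y),
      ← one_mul (Algebra.norm ℤ y * _), ← one_pow 2] at h'

open Classical in
/-- The class of an ideal. -/
def idealClass (I : Ideal (𝓞 K)) : ClassGroup (𝓞 K) :=
  if hI : I ∈ (Ideal (𝓞 K))⁰ then ClassGroup.mk0 ⟨I, hI⟩ else 1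

theorem idealClass_mk0 (I : (Ideal (𝓞 K))⁰) : idealClass (I : Ideal (𝓞 K)) = ClassGroup.mk0 I := by
  rw [idealClass, dif_pos I.2]

open Classical in
/-- The ideals of given norm in a class. -/
def classIdeals (C : ClassGroup (𝓞 K)) (n : ℕ) : Finset (Ideal (𝓞 K)) :=
  (Ideal.finite_setOfPred_absNorm_eq (S := 𝓞 K) n).toFinset.filter fun I => idealClass I = C

theorem mem_classIdeals {C : ClassGroup (𝓞 K)} {n : ℕ} {I : Ideal (𝓞 K)} :
    I ∈ classIdeals C n ↔ Ideal.absNorm I = n ∧ idealClass I = C := by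
  simp [classIdeals]

/-- The representation numbers count ideals of a class. -/
theorem repNum_formOf (hu : ∀ u : (𝓞 K)ˣ, (u : 𝓞 K) = 1 ∨ (u : 𝓞 K) = -1)
    (C : ClassGroup (𝓞 K)) {n : ℕ} (hn : n ≠ 0) :
    (formOf hK hd C).repNum n = 2 * (classIdeals C n).card := by
  classical
  have hatt := attached_formOf hK hd C
  generalize formOf hK hd C = Q at hatt ⊢
  have hbC := mk0_classRep C
  generalize classRep C = b at hatt hbC
  obtain ⟨-, φ, hφ⟩ := hatt
  set N : ℕ := Ideal.absNorm (b : Ideal (𝓞 K))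
  have hb0 : (b : Ideal (𝓞 K)) ≠ ⊥ := nonZeroDivisors.ne_zero b.2
  have hN0 : N ≠ 0 := Ideal.absNorm_eq_zero_iff.not.mpr hb0
  have hkey : ∀ v : ℤ × ℤ, (Q.ev v.1 v.2).toNat = n ↔
      Algebra.norm ℤ ((φ v : (b : Ideal (𝓞 K))) : 𝓞 K) = (n : ℤ) * N := by
    intro v
    rw [← hφ v, mul_comm (N : ℤ), mul_left_inj' (Int.natCast_ne_zero.mpr hN0)]
    have := Q.ev_nonneg v.1 v.2
    omega
  have hex : ∀ I : classIdeals C n, ∃ v : ℤ × ℤ,
      Ideal.span {((φ v : (b : Ideal (𝓞 K))) : 𝓞 K)} = (I : Ideal (𝓞 K)) * b := by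
    intro I
    obtain ⟨hIn, hIC⟩ := mem_classIdeals.mp I.2
    have hI0 : (I : Ideal (𝓞 K)) ≠ ⊥ := fun h => hn (by rw [← hIn, h, Ideal.absNorm_bot])
    have hI' := mem_nonZeroDivisors_of_ne_zero hI0
    rw [show (I : Ideal (𝓞 K)) = ((⟨I, hI'⟩ : (Ideal (𝓞 K))⁰) : Ideal (𝓞 K)) from rfl,
      idealClass_mk0] at hIC
    have h1 : ClassGroup.mk0 (⟨I, hI'⟩ * b) = 1 := by
      rw [map_mul, hIC, hbC, mul_inv_cancel]
    obtain ⟨⟨z, hz⟩⟩ := (ClassGroup.mk0_eq_one_iff (mul_mem hI' b.2)).mp h1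
    have hzb : z ∈ (b : Ideal (𝓞 K)) := Ideal.mul_le_right (hz.ge (Ideal.mem_span_singleton_self z))
    exact ⟨φ.symm ⟨z, hzb⟩, by rw [LinearEquiv.apply_symm_apply]; exact hz.symm⟩
  choose gen hgen using hex
  have hgenN : ∀ I : classIdeals C n,
      Algebra.norm ℤ ((φ (gen I) : (b : Ideal (𝓞 K))) : 𝓞 K) = (n : ℤ) * N := by
    intro I
    have h := congrArg Ideal.absNorm (hgen I)
    rw [Ideal.absNorm_span_singleton, map_mul, (mem_classIdeals.mp I.2).1] at h
    rw [← Int.natAbs_of_nonneg (norm_int_nonneg hK hd _), h, Nat.cast_mul]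
  let g : Bool × classIdeals C n → {v : ℤ × ℤ // (Q.ev v.1 v.2).toNat = n} := fun p =>
    ⟨cond p.1 (-gen p.2) (gen p.2), (hkey _).mpr (by
      cases p.1
      · exact hgenN p.2
      · simp only [cond_true, map_neg, Submodule.coe_neg]
        rw [norm_neg_of_two hK, hgenN p.2])⟩
  have hsp : ∀ p, Ideal.span {((φ (g p).1 : (b : Ideal (𝓞 K))) : 𝓞 K)} =
      (p.2 : Ideal (𝓞 K)) * b := by
    rintro ⟨s, I⟩
    cases s
    · exact hgen I
    · simp [g, Ideal.span_singleton_neg, hgen I]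
  have hinj : Function.Injective g := by
    intro p q h
    have h2 : p.2 = q.2 := Subtype.ext (mul_right_cancel₀ hb0
      ((hsp p).symm.trans (h ▸ hsp q)))
    refine Prod.ext ?_ h2
    have h1 := congrArg Subtype.val h
    simp only [g, h2] at h1
    have hne : gen q.2 ≠ -gen q.2 := by
      intro e
      have h0 : gen q.2 = 0 := by
        have h1 := congrArg Prod.fst e
        have h2 := congrArg Prod.snd e
        simp only [Prod.fst_neg, Prod.snd_neg] at h1 h2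
        exact Prod.ext (by simp; omega) (by simp; omega)
      have := hgenN q.2
      rw [h0, map_zero, Submodule.coe_zero, Algebra.norm_zero] at this
      rcases mul_eq_zero.mp this.symm with h' | h'
      · exact hn (by exact_mod_cast h')
      · exact hN0 (by exact_mod_cast h')
    rcases p with ⟨_ | _, I⟩ <;> rcases q with ⟨_ | _, J⟩ <;> simp at h1 ⊢
    · exact hne h1
    · exact hne h1.symm
  have hsurj : Function.Surjective g := by
    rintro ⟨v, hv⟩
    obtain ⟨I, hI⟩ : (b : Ideal (𝓞 K)) ∣ Ideal.span {((φ v : (b : Ideal (𝓞 K))) : 𝓞 K)} :=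
      Ideal.dvd_span_singleton.mpr (φ v).2
    have hvN := (hkey v).mp hv
    have hIn : Ideal.absNorm I = n := by
      have h := congrArg Ideal.absNorm hI
      rw [Ideal.absNorm_span_singleton, map_mul, hvN, Int.natAbs_mul, Int.natAbs_natCast,
        Int.natAbs_natCast, mul_comm] at h
      exact (mul_left_cancel₀ hN0 h).symm
    have hI' : I ∈ (Ideal (𝓞 K))⁰ :=
      mem_nonZeroDivisors_of_ne_zero fun h => hn (by rw [← hIn, h, Submodule.zero_eq_bot,
        Ideal.absNorm_bot])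
    have hIC : idealClass I = C := by
      rw [idealClass, dif_pos hI']
      have h1 : ClassGroup.mk0 (b * ⟨I, hI'⟩) = 1 :=
        (ClassGroup.mk0_eq_one_iff (mul_mem b.2 hI')).mpr ⟨⟨_, hI.symm⟩⟩
      rwa [map_mul, hbC, inv_mul_eq_one, eq_comm] at h1
    let J : classIdeals C n := ⟨I, mem_classIdeals.mpr ⟨hIn, hIC⟩⟩
    have hass : Ideal.span {((φ (gen J) : (b : Ideal (𝓞 K))) : 𝓞 K)} =
        Ideal.span {((φ v : (b : Ideal (𝓞 K))) : 𝓞 K)} := by
      rw [hgen J, hI, mul_comm]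
    obtain ⟨u, hu'⟩ := Ideal.span_singleton_eq_span_singleton.mp hass
    rcases hu u with e | e <;> rw [e] at hu'
    · refine ⟨(false, J), Subtype.ext (φ.injective (Subtype.ext ?_))⟩
      simpa [g] using hu'
    · refine ⟨(true, J), Subtype.ext (φ.injective (Subtype.ext ?_))⟩
      simpa [g] using hu'
  rw [BForm.repNum, ← Nat.card_eq_of_bijective g ⟨hinj, hsurj⟩, Nat.card_prod]
  simp

theorem sum_classIdeals (ψ : ClassGroup (𝓞 K) →* ℂˣ) [Fintype (ClassGroup (𝓞 K))] {n : ℕ}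
    (hn : n ≠ 0) :
    ∑ C, ((ψ C : ℂˣ) : ℂ) * (classIdeals C n).card = thetaCoeff ψ n := by
  classical
  rw [thetaCoeff, dif_neg hn]
  have h1 : ∀ I ∈ (Ideal.finite_setOfPred_absNorm_eq (S := 𝓞 K) n).toFinset.attach,
      (if hI : (I : Ideal (𝓞 K)) ∈ (Ideal (𝓞 K))⁰ then
        ((ψ (ClassGroup.mk0 ⟨I, hI⟩) : ℂˣ) : ℂ) else 0) =
      ((ψ (idealClass (I : Ideal (𝓞 K))) : ℂˣ) : ℂ) := by
    intro I _
    have hI0 : (I : Ideal (𝓞 K)) ≠ ⊥ := fun h => hn (by
      have := I.2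
      simp only [Set.Finite.mem_toFinset, Set.mem_ofPred_eq, h, Ideal.absNorm_bot] at this
      exact this.symm)
    rw [idealClass, dif_pos (mem_nonZeroDivisors_of_ne_zero hI0),
      dif_pos (mem_nonZeroDivisors_of_ne_zero hI0)]
  rw [Finset.sum_congr rfl h1, Finset.sum_attach _ (fun I => ((ψ (idealClass I) : ℂˣ) : ℂ)),
    ← Finset.sum_fiberwise _ idealClass]
  refine Finset.sum_congr rfl fun C _ => ?_
  rw [Finset.sum_congr rfl fun I hI => by rw [(Finset.mem_filter.mp hI).2], Finset.sum_const,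
    nsmul_eq_mul, mul_comm]
  rfl

theorem even_repNum (Q : BForm) {n : ℕ} (hn : n ≠ 0) : Even (Q.repNum n) := by
  classical
  have := Fintype.ofFinite {v : ℤ × ℤ // (Q.ev v.1 v.2).toNat = n}
  rw [BForm.repNum, Nat.card_eq_fintype_card, even_iff_two_dvd, ← ZMod.natCast_eq_zero_iff,
    ← Finset.card_univ, Finset.cast_card]
  refine Finset.sum_involution (fun v _ => ⟨-v.1, by
      have := v.2
      simpa [BForm.ev, Prod.fst_neg, Prod.snd_neg] using this⟩)
    (fun v _ => by decide) (fun v _ _ => ?_) (fun v _ => Finset.mem_univ _) (fun v _ => by simp)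
  intro e
  have e' : -v.1 = v.1 := congrArg Subtype.val e
  have h1 := congrArg Prod.fst e'
  have h2 := congrArg Prod.snd e'
  simp only [Prod.fst_neg, Prod.snd_neg] at h1 h2
  have h0 : Q.ev v.1.1 v.1.2 = 0 := (Q.ev_eq_zero_iff _ _).mpr ⟨by omega, by omega⟩
  have := v.2
  rw [h0] at this
  exact hn this.symm

include hK hd in
/-- The cusp form of level `|discr K|` lifting the weight one theta series. -/
theorem exists_cuspForm_theta (h2 : (2 : ℤ) ∣ NumberField.discr K)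
    (ψ : ClassGroup (𝓞 K) →* ℂˣ) (E : ClassGroup (𝓞 K)) (hE : ψ (E ^ 2) ≠ 1) :
    ∃ (F : CuspForm (CongruenceSubgroup.Gamma0 (NumberField.discr K).natAbs) 2) (r : ℕ → ℕ),
      r 0 = 1 ∧ (∀ n, n ≠ 0 → Even (r n)) ∧ ∀ n, (UpperHalfPlane.qExpansion 1 F).coeff n =
        ∑ ij ∈ Finset.HasAntidiagonal.antidiagonal n, thetaCoeff ψ ij.1 * r ij.2 := by
  classical
  have hne : NumberField.discr K ≠ -4 := fun h => hE (by
    rw [classGroup_eq_one_of_discr hK h E, one_pow, map_one])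
  have hu := unit_eq_one_or_neg_one hK hd h2 hne
  let w : ClassGroup (𝓞 K) → ℂ := fun C => ((ψ C : ℂˣ) : ℂ) / 2
  have hsum : ∀ f : ClassGroup (𝓞 K) → ℂ, (∀ C, f (C * E ^ 2) = f C) →
      ∑ C, w C * f C = 0 := by
    intro f hf
    have h : ∑ C, w (C * E ^ 2) * f (C * E ^ 2) = ∑ C, w C * f C :=
      Equiv.sum_comp (Equiv.mulRight (E ^ 2)) (fun C => w C * f C)
    have h' : ((ψ (E ^ 2) : ℂˣ) : ℂ) * ∑ C, w C * f C = ∑ C, w C * f C := by
      rw [Finset.mul_sum]
      refine Eq.trans (Finset.sum_congr rfl fun C _ => ?_) h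
      simp only [w, hf, map_mul, Units.val_mul]
      ring
    have hne1 : ((ψ (E ^ 2) : ℂˣ) : ℂ) - 1 ≠ 0 :=
      sub_ne_zero.mpr fun h => hE (Units.ext h)
    exact (mul_eq_zero.mp (show (((ψ (E ^ 2) : ℂˣ) : ℂ) - 1) * ∑ C, w C * f C = 0 by
      rw [sub_mul, one_mul, h', sub_self])).resolve_left hne1
  have hw : ∑ C, w C = 0 := by simpa using hsum (fun _ => 1) fun _ => rfl
  have hG : ∀ (m : ℕ) [NeZero m] (t : ZMod m), IsUnit t →
      ∑ C, w C * (formOf hK hd C).gauss m t 0 0 = 0 := fun m _ t _ =>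
    hsum _ fun C => gauss_formOf_mul_sq hK hd m t C E
  refine ⟨thetaCusp (formOf hK hd) (formOf hK hd 1) w hw (formOf_D hK hd) (formOf_D hK hd 1) hG,
    (formOf hK hd 1).repNum, BForm.repNum_zero _, fun n hn => even_repNum _ hn, fun n => ?_⟩
  rw [qExpansion_thetaCusp, thetaComboSeries, map_sum]
  simp only [map_smul, PowerSeries.coeff_mul, BForm.series, PowerSeries.coeff_mk, smul_eq_mul,
    Finset.mul_sum]
  rw [Finset.sum_comm]
  refine Finset.sum_congr rfl fun ij _ => ?_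
  simp only [← mul_assoc, ← Finset.sum_mul]
  congr 1
  rcases eq_or_ne ij.1 0 with h0 | h0
  · simpa [h0, BForm.repNum_zero, thetaCoeff] using hw
  · rw [← sum_classIdeals ψ h0]
    refine Finset.sum_congr rfl fun C _ => ?_
    rw [repNum_formOf hK hd hu C h0]
    simp only [w]
    push_cast
    ring

end FLTAgent.Mod2
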