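import Fermat.Agent.Mod2.ThetaDefs

/-!
# Norm forms of ideals in an imaginary quadratic field

`Attached Q b`: `Q` is the norm form of the ideal `b` divided by the norm of `b`; every nonzero
ideal has one (`exists_attached`). For even discriminant other than `-4` the units are `±1`
(`unit_eq_one_or_neg_one`).
-/

set_option autoImplicit false
set_option linter.unusedSectionVars false

noncomputable section

open NumberField Module
open scoped nonZeroDivisors Real

namespace FLTAgent.Mod2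

variable {K : Type} [Field K] [NumberField K] {Q : BForm} {b : Ideal (𝓞 K)}

/-- A form is attached to an ideal if it is the norm form divided by the norm of the ideal. -/
def Attached (Q : BForm) (b : Ideal (𝓞 K)) : Prop :=
  Q.D = -NumberField.discr K ∧ ∃ φ : (ℤ × ℤ) ≃ₗ[ℤ] b, ∀ v : ℤ × ℤ,
    (Ideal.absNorm b : ℤ) * Q.ev v.1 v.2 = Algebra.norm ℤ ((φ v : b) : 𝓞 K)

theorem norm_combo (ω : Basis (Fin 2) ℤ (𝓞 K)) (x y : ℤ) (e f : 𝓞 K) :
    Algebra.norm ℤ (x • e + y • f) = x ^ 2 * Algebra.norm ℤ e +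
      x * y * (Algebra.norm ℤ (e + f) - Algebra.norm ℤ e - Algebra.norm ℤ f) +
      y ^ 2 * Algebra.norm ℤ f := by
  simp only [Algebra.norm_eq_matrix_det ω, map_add, map_smul, Matrix.det_fin_two, Matrix.add_apply,
    Matrix.smul_apply, smul_eq_mul]
  ring

theorem discr_two (ω : Basis (Fin 2) ℤ (𝓞 K)) (e f : 𝓞 K) :
    Algebra.discr ℤ ![e, f] =
      (Algebra.norm ℤ (e + f) - Algebra.norm ℤ e - Algebra.norm ℤ f) ^ 2 -
        4 * Algebra.norm ℤ e * Algebra.norm ℤ f := by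
  set A := Algebra.leftMulMatrix ω e with hA
  set B := Algebra.leftMulMatrix ω f with hB
  have hcomm : A * B = B * A := by rw [hA, hB, ← map_mul, mul_comm, map_mul]
  have h00 : (A * B) 0 0 = (B * A) 0 0 := by rw [hcomm]
  have h01 : (A * B) 0 1 = (B * A) 0 1 := by rw [hcomm]
  simp only [Algebra.discr_def, Matrix.det_fin_two, Algebra.traceMatrix_apply,
    Algebra.traceForm_apply, Matrix.cons_val_zero, Matrix.cons_val_one,
    Algebra.trace_eq_matrix_trace ω, Algebra.norm_eq_matrix_det ω, map_mul, map_add, ← hA, ← hB,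
    Matrix.trace_fin_two, Matrix.mul_apply, Fin.sum_univ_two, Matrix.add_apply] at h00 h01 ⊢
  linear_combination (-2 * (A 0 1 * B 1 0 - A 1 0 * B 0 1)) * h00 +
    (2 * ((A 0 0 - A 1 1) * B 1 0 - (B 0 0 - B 1 1) * A 1 0)) * h01

theorem discr_eq_det_sq (ω : Basis (Fin 2) ℤ (𝓞 K)) (e : Fin 2 → 𝓞 K) :
    Algebra.discr ℤ e = ω.det e ^ 2 * NumberField.discr K := by
  conv_lhs => rw [← ω.toMatrix_map_vecMul e]
  rw [Algebra.discr_of_matrix_vecMul, NumberField.discr_eq_discr, Basis.det_apply]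

variable (hK : finrank ℚ K = 2) (hd : NumberField.discr K < 0)

/-- An integral basis indexed by `Fin 2`. -/
def qbasis : Basis (Fin 2) ℤ (𝓞 K) :=
  Module.finBasisOfFinrankEq ℤ (𝓞 K) ((RingOfIntegers.rank K).trans hK)

include hK hd in
theorem exists_attached (hb : b ≠ ⊥) : ∃ Q : BForm, Attached Q b := by
  set ω := qbasis hK
  set β := Ideal.selfBasis ω b hb
  set N : ℤ := (Ideal.absNorm b : ℤ) with hN
  have hNpos : 0 < N := by
    rw [hN, Int.natCast_pos]
    exact Nat.pos_of_ne_zero (Ideal.absNorm_eq_zero_iff.not.mpr hb)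
  have hdvd : ∀ x ∈ b, N ∣ Algebra.norm ℤ x := by
    intro x hx
    have h := Ideal.absNorm_dvd_absNorm_of_le ((Ideal.span_singleton_le_iff_mem b).mpr hx)
    rw [Ideal.absNorm_span_singleton] at h
    exact Int.natCast_dvd.mpr h
  set e : 𝓞 K := ((β 0 : b) : 𝓞 K) with he
  set f : 𝓞 K := ((β 1 : b) : 𝓞 K) with hf
  obtain ⟨A, hA⟩ := hdvd e (β 0).2
  obtain ⟨C, hC⟩ := hdvd f (β 1).2
  obtain ⟨B, hB⟩ : N ∣ Algebra.norm ℤ (e + f) - Algebra.norm ℤ e - Algebra.norm ℤ f :=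
    dvd_sub (dvd_sub (hdvd _ (b.add_mem (β 0).2 (β 1).2)) (hdvd _ (β 0).2)) (hdvd _ (β 1).2)
  have hdisc : B ^ 2 - 4 * A * C = NumberField.discr K := by
    have hdet : ω.det ![e, f] ^ 2 = N ^ 2 := by
      have h := Ideal.natAbs_det_basis_change ω b β
      rw [show ((↑) ∘ β : Fin 2 → 𝓞 K) = ![e, f] from funext fun i => by fin_cases i <;> rfl] at h
      rw [hN, ← h, Int.natAbs_sq]
    have h := (discr_two ω e f).symm.trans (discr_eq_det_sq ω ![e, f])
    rw [hdet, hB, hA, hC] at h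
    refine mul_left_cancel₀ (pow_ne_zero 2 hNpos.ne') ?_
    linear_combination h
  have hval : ∀ x y : ℤ, Algebra.norm ℤ (x • e + y • f) =
      N * (A * x ^ 2 + B * x * y + C * y ^ 2) := by
    intro x y
    rw [norm_combo ω, hB, hA, hC]
    ring
  have hApos : 0 < A := by
    have h0 : A ≠ 0 := fun h => by rw [h] at hdisc; nlinarith [sq_nonneg B]
    obtain ⟨x, y, hxy⟩ : ∃ x y : ℤ, x • e + y • f = ((Ideal.absNorm b : ℕ) : 𝓞 K) := by
      refine ⟨β.repr ⟨_, Ideal.absNorm_mem b⟩ 0, β.repr ⟨_, Ideal.absNorm_mem b⟩ 1, ?_⟩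
      have h := congrArg (Submodule.subtype (Submodule.restrictScalars ℤ b))
        (β.sum_repr ⟨_, Ideal.absNorm_mem b⟩)
      rw [Fin.sum_univ_two] at h
      exact h
    have h := hval x y
    rw [hxy, ← map_natCast (algebraMap ℤ (𝓞 K)), Algebra.norm_algebraMap,
      RingOfIntegers.rank, hK, ← hN] at h
    by_contra hneg
    have hlt : A < 0 := lt_of_le_of_ne (not_lt.mp hneg) h0
    have hle : A * x ^ 2 + B * x * y + C * y ^ 2 ≤ 0 := by
      nlinarith [sq_nonneg (2 * A * x + B * y), sq_nonneg y]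
    nlinarith [mul_le_mul_of_nonneg_left hle hNpos.le, pow_pos hNpos 2]
  refine ⟨⟨A, B, C, hApos, by linarith⟩, by simp [BForm.D]; linarith, ?_⟩
  let φ : (ℤ × ℤ) ≃ₗ[ℤ] b := (LinearEquiv.finTwoArrow ℤ ℤ).symm ≪≫ₗ β.equivFun.symm
  refine ⟨φ, fun v => ?_⟩
  have hφ : ((φ v : b) : 𝓞 K) = v.1 • e + v.2 • f := by
    simp [φ, Basis.equivFun_symm_apply, Fin.sum_univ_two, e, f]
  rw [hφ, hval, ← hN]
  simp only [BForm.ev, Int.cast_id]

include hK hd in
theorem norm_int_nonneg (x : 𝓞 K) : 0 ≤ Algebra.norm ℤ x := by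
  obtain ⟨Q, -, φ, hφ⟩ := exists_attached hK hd (b := (⊤ : Ideal (𝓞 K))) top_ne_bot
  have h := hφ (φ.symm ⟨x, Submodule.mem_top⟩)
  rw [LinearEquiv.apply_symm_apply, Ideal.absNorm_top, Nat.cast_one, one_mul] at h
  simp only at h
  rw [← h]
  simp only [BForm.ev, Int.cast_id]
  nlinarith [sq_nonneg (2 * Q.a * (φ.symm ⟨x, Submodule.mem_top⟩).1 +
    Q.b * (φ.symm ⟨x, Submodule.mem_top⟩).2), Q.disc_neg, Q.a_pos,
    sq_nonneg (φ.symm ⟨x, Submodule.mem_top⟩).2]

include hK in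
theorem classGroup_eq_one_of_discr (h4 : NumberField.discr K = -4) (C : ClassGroup (𝓞 K)) :
    C = 1 := by
  have : IsPrincipalIdealRing (𝓞 K) := by
    refine RingOfIntegers.isPrincipalIdealRing_of_abs_discr_lt ?_
    rw [h4, hK]
    have hr : InfinitePlace.nrComplexPlaces K ≤ 1 := by
      have := InfinitePlace.card_add_two_mul_card_eq_rank K
      omega
    have h1 : π / 4 ≤ (π / 4) ^ InfinitePlace.nrComplexPlaces K := by
      have h := pow_le_pow_of_le_one (a := π / 4) (by positivity) (by linarith [Real.pi_le_four]) hr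
      rwa [pow_one] at h
    have h3 : (9 : ℝ) < (2 * (π / 4) * ((2 : ℝ) ^ 2 / (2 : ℕ).factorial)) ^ 2 := by
      rw [Nat.factorial_two]
      push_cast
      nlinarith [Real.pi_gt_three]
    have h5 : (2 * (π / 4) * ((2 : ℝ) ^ 2 / (2 : ℕ).factorial)) ^ 2 ≤
        (2 * (π / 4) ^ InfinitePlace.nrComplexPlaces K *
          ((2 : ℝ) ^ 2 / (2 : ℕ).factorial)) ^ 2 := by
      gcongr
    push_cast
    norm_num at h3 h5 ⊢
    linarith
  obtain ⟨⟨I, hI⟩, rfl⟩ := ClassGroup.mk0_surjective C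
  exact (ClassGroup.mk0_eq_one_iff hI).mpr (IsPrincipalIdealRing.principal I)

include hK hd in
/-- The units are `±1` unless the class group is trivial. -/
theorem unit_eq_one_or_neg_one (h2 : (2 : ℤ) ∣ NumberField.discr K)
    (hne : NumberField.discr K ≠ -4) (u : (𝓞 K)ˣ) : (u : 𝓞 K) = 1 ∨ (u : 𝓞 K) = -1 := by
  set ω := qbasis hK
  have hN : Algebra.norm ℤ (u : 𝓞 K) = 1 := by
    rcases Int.isUnit_iff.mp (u.isUnit.map (Algebra.norm ℤ)) with h | h
    · exact h
    · linarith [norm_int_nonneg hK hd (u : 𝓞 K)]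
  have hm1 : Algebra.norm ℤ (1 : 𝓞 K) = 1 := map_one _
  obtain ⟨n, hn⟩ : ∃ n : ℤ, Algebra.norm ℤ (1 + (u : 𝓞 K)) = n := ⟨_, rfl⟩
  have h := (discr_two ω 1 (u : 𝓞 K)).symm.trans (discr_eq_det_sq ω ![1, (u : 𝓞 K)])
  rw [hN, hm1, hn] at h
  obtain ⟨j, hj⟩ := h2
  by_cases hk : ω.det ![1, (u : 𝓞 K)] = 0
  · rw [hk] at h
    have hc := norm_combo ω 1 (-1) 1 (u : 𝓞 K)
    simp only [one_smul, hm1, hN, hn, neg_smul] at hc
    rcases mul_eq_zero.mp (show (n - 4) * n = 0 by linear_combination h) with h0 | h0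
    · left
      have : Algebra.norm ℤ (1 + -(u : 𝓞 K)) = 0 := by rw [hc]; linarith
      rw [Algebra.norm_eq_zero_iff, add_neg_eq_zero] at this
      exact this.symm
    · right
      rw [h0, Algebra.norm_eq_zero_iff] at hn
      exact eq_neg_of_add_eq_zero_right hn
  · exfalso
    have h1 : 1 ≤ ω.det ![1, (u : 𝓞 K)] ^ 2 := by
      have : 0 < ω.det ![1, (u : 𝓞 K)] ^ 2 := by positivity
      linarith
    have h3 : NumberField.discr K = -2 := by
      have : -4 ≤ NumberField.discr K := by nlinarith [sq_nonneg (n - 2)]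
      omega
    have hlt : ω.det ![1, (u : 𝓞 K)] ^ 2 ≤ 2 := by nlinarith [sq_nonneg (n - 2)]
    have hdet1 : ω.det ![1, (u : 𝓞 K)] ^ 2 = 1 := by
      have hb1 : -1 ≤ ω.det ![1, (u : 𝓞 K)] ∧ ω.det ![1, (u : 𝓞 K)] ≤ 1 := by
        constructor <;> nlinarith
      rcases (show ω.det ![1, (u : 𝓞 K)] = -1 ∨ ω.det ![1, (u : 𝓞 K)] = 1 by omega) with e | e <;>
        simp [e]
    rw [hdet1, h3] at h
    have hbn : 0 ≤ n ∧ n ≤ 4 := by constructor <;> nlinarith
    obtain ⟨ha, hb⟩ := hbn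
    interval_cases n <;> omega

end FLTAgent.Mod2
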