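import Fermat.Agent.Mod2.ThetaPoisson
import Fermat.Agent.Mod2.ThetaGauss
import Fermat.Agent.Eisen.HasQ

/-!
# Products of two binary theta series: modularity and values at cusps

`slash_theta_mul`: the product of two theta series of the same discriminant is invariant under
`Γ₀(D)`, by Poisson summation at a matrix with lower right entry a large prime
(`theta_smul_prime`). The value at a finite cusp is a Gauss sum (`tendsto_theta_smul`).
-/

set_option autoImplicit false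

noncomputable section

open UpperHalfPlane hiding I
open Complex Filter Topology
open scoped Real MatrixGroups ModularForm

namespace FLTAgent.Mod2

/-- Splitting the integers into residue classes. -/
def splitEquiv (m : ℕ) [NeZero m] : ZMod m × ℤ ≃ ℤ where
  toFun x := (x.1.val : ℤ) + (m : ℤ) * x.2
  invFun v := ((v : ZMod m), v / (m : ℤ))
  left_inv := by
    rintro ⟨r, w⟩
    refine Prod.ext (by simp) ?_
    have hm : (0 : ℤ) < m := by exact_mod_cast NeZero.pos m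
    have hr : ((r.val : ℕ) : ℤ) < m := by exact_mod_cast ZMod.val_lt r
    simp only
    rw [Int.add_mul_ediv_left _ _ hm.ne', Int.ediv_eq_zero_of_lt (by positivity) hr, zero_add]
  right_inv v := by
    simp only
    rw [ZMod.val_intCast]
    exact Int.emod_add_mul_ediv v m

theorem coe_smul_SL (γ : SL(2, ℤ)) (τ : ℍ) :
    ((γ • τ : ℍ) : ℂ) = ((γ 0 0 : ℂ) * τ + γ 0 1) / ((γ 1 0 : ℂ) * τ + γ 1 1) := by
  rw [coe_specialLinearGroup_apply]
  simp

theorem denom_SL_ne_zero (γ : SL(2, ℤ)) (τ : ℍ) : (γ 1 0 : ℂ) * τ + γ 1 1 ≠ 0 := by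
  have h := UpperHalfPlane.denom_ne_zero (γ : GL (Fin 2) ℝ) τ
  rw [ModularGroup.denom_apply] at h
  simpa using h

theorem det_SL (γ : SL(2, ℤ)) : γ 0 0 * γ 1 1 - γ 0 1 * γ 1 0 = 1 := by
  have h := Matrix.det_fin_two (γ : Matrix (Fin 2) (Fin 2) ℤ)
  rw [Matrix.SpecialLinearGroup.det_coe] at h
  exact h.symm

theorem tendsto_im_atImInfty : Tendsto UpperHalfPlane.im atImInfty atTop :=
  tendsto_comap

namespace BForm

variable (Q : BForm)

theorem ev_intCast {R : Type*} [CommRing R] (x y : ℤ) :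
    ((Q.ev x y : ℤ) : R) = Q.ev (x : R) (y : R) := by
  simp [ev]

theorem ev_nonneg (x y : ℤ) : 0 ≤ Q.ev x y := by
  simp only [ev, Int.cast_id]
  nlinarith [sq_nonneg (2 * Q.a * x + Q.b * y), Q.disc_neg, Q.a_pos, sq_nonneg y]

theorem ev_eq_zero_iff (x y : ℤ) : Q.ev x y = 0 ↔ x = 0 ∧ y = 0 := by
  refine ⟨fun h => ?_, fun ⟨hx, hy⟩ => by simp [ev, hx, hy]⟩
  simp only [ev, Int.cast_id] at h
  have h1 : (2 * Q.a * x + Q.b * y) ^ 2 + Q.D * y ^ 2 = 0 := by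
    simp only [D]; linear_combination (4 * Q.a) * h
  have hy : y = 0 := by
    by_contra hy
    have : 0 < Q.D * y ^ 2 := mul_pos Q.D_pos (by positivity)
    nlinarith [sq_nonneg (2 * Q.a * x + Q.b * y)]
  subst hy
  refine ⟨?_, rfl⟩
  have : Q.a * x ^ 2 = 0 := by linear_combination h
  simpa [Q.a_pos.ne'] using this

theorem summable_theta (z : ℍ) :
    Summable fun v : ℤ × ℤ => cexp (2 * π * I * (Q.ev (v.1 : ℂ) (v.2 : ℂ)) * z) := by
  simpa using Q.summable_shift 0 0 1 z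

/-- The number of representations of `n`. -/
def repNum (n : ℕ) : ℕ := Nat.card {v : ℤ × ℤ // (Q.ev v.1 v.2).toNat = n}

/-- The expansion of the theta series. -/
def series : PowerSeries ℂ := PowerSeries.mk fun n => (Q.repNum n : ℂ)

theorem exp_ev_eq (v : ℤ × ℤ) (n : ℕ) (h : (Q.ev v.1 v.2).toNat = n) (τ : ℍ) :
    cexp (2 * π * I * (Q.ev (v.1 : ℂ) (v.2 : ℂ)) * τ) =
      Function.Periodic.qParam 1 (τ : ℂ) ^ n := by
  have h' : Q.ev v.1 v.2 = (n : ℤ) := by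
    have := Q.ev_nonneg v.1 v.2
    omega
  have h'' := Q.ev_intCast (R := ℂ) v.1 v.2
  rw [h'] at h''
  push_cast at h''
  rw [← h'', Function.Periodic.qParam, ← Complex.exp_nat_mul]
  congr 1
  push_cast
  ring

instance finite_rep (n : ℕ) : Finite {v : ℤ × ℤ // (Q.ev v.1 v.2).toNat = n} := by
  have hs := (Q.summable_theta UpperHalfPlane.I).subtype
    {v : ℤ × ℤ | (Q.ev v.1 v.2).toNat = n}
  rcases finite_or_infinite {v : ℤ × ℤ // (Q.ev v.1 v.2).toNat = n} with hf | hi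
  · exact hf
  · exfalso
    have hc : Summable fun _ : {v : ℤ × ℤ // (Q.ev v.1 v.2).toNat = n} =>
        Function.Periodic.qParam 1 (UpperHalfPlane.I : ℂ) ^ n :=
      hs.congr fun v => Q.exp_ev_eq v.1 n v.2 _
    exact pow_ne_zero _ (Complex.exp_ne_zero _) ((summable_const_iff _).mp hc)

theorem hasQ_theta : Eisen.HasQ 1 Q.theta Q.series := by
  intro τ
  have h := (Q.summable_theta τ).hasSum
  rw [← (Equiv.sigmaFiberEquiv fun v : ℤ × ℤ => (Q.ev v.1 v.2).toNat).hasSum_iff] at h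
  refine h.sigma fun n => ?_
  have := Fintype.ofFinite {v : ℤ × ℤ // (Q.ev v.1 v.2).toNat = n}
  refine HasSum.congr_fun ?_ (fun v => Q.exp_ev_eq v.1 n v.2 τ)
  convert hasSum_fintype (fun _ : {v : ℤ × ℤ // (Q.ev v.1 v.2).toNat = n} =>
    Function.Periodic.qParam 1 (τ : ℂ) ^ n) using 1
  simp [series, repNum, Nat.card_eq_fintype_card]

theorem repNum_zero : Q.repNum 0 = 1 := by
  have hv : ∀ v : ℤ × ℤ, (Q.ev v.1 v.2).toNat = 0 ↔ v = 0 := fun v => by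
    have := Q.ev_nonneg v.1 v.2
    rw [Prod.ext_iff, Prod.fst_zero, Prod.snd_zero, ← Q.ev_eq_zero_iff]
    omega
  simp [repNum, hv]

theorem tendsto_theta : Tendsto Q.theta atImInfty (𝓝 1) := by
  simpa [series, Q.repNum_zero] using Q.hasQ_theta.tendsto one_pos

theorem theta_periodic {z z' : ℍ} {j : ℤ} (h : (z' : ℂ) = z + j) : Q.theta z' = Q.theta z := by
  refine tsum_congr fun v => ?_
  rw [h, mul_add, Complex.exp_add, ← Q.ev_intCast,
    show 2 * π * I * ((Q.ev v.1 v.2 : ℤ) : ℂ) * (j : ℂ) =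
      ((Q.ev v.1 v.2 * j : ℤ) : ℂ) * (2 * π * I) by push_cast; ring,
    Complex.exp_int_mul_two_pi_mul_I, mul_one]

/-- The theta series near a rational point. -/
theorem theta_eq_gauss (m : ℕ) [NeZero m] (r : ℤ) (w z : ℍ) (hz : (z : ℂ) = (r : ℂ) / m + w) :
    Q.theta z = I / ((w : ℂ) * ((Real.sqrt Q.D : ℝ) : ℂ) * m ^ 2) *
      ∑' k : ℤ × ℤ, Q.gauss m r k.1 k.2 *
        cexp (2 * π * I * (-Q.dual (k.1 : ℂ) (k.2 : ℂ) / ((Q.D : ℂ) * m ^ 2 * w))) := by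
  set e : (ZMod m × ZMod m) × (ℤ × ℤ) ≃ ℤ × ℤ :=
    (Equiv.prodProdProdComm _ _ _ _).trans ((splitEquiv m).prodCongr (splitEquiv m))
  set f : ℤ × ℤ → ℂ := fun v => cexp (2 * π * I * (Q.ev (v.1 : ℂ) (v.2 : ℂ)) * z)
  have hst : ∀ n : ℤ, cexp (2 * π * I * ((n : ℂ) / m)) = ZMod.stdAddChar (n : ZMod m) := by
    intro n
    rw [ZMod.stdAddChar_coe, mul_div_assoc]
  have hfac : ∀ (x : ZMod m × ZMod m) (v : ℤ × ℤ), f (e (x, v)) =
      ZMod.stdAddChar ((r : ZMod m) * Q.ev x.1 x.2) * cexp (2 * π * I *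
        Q.ev (((x.1.val : ℤ) + m * v.1 : ℤ) : ℂ) (((x.2.val : ℤ) + m * v.2 : ℤ) : ℂ) * w) := by
    intro x v
    simp only [f, e, Equiv.trans_apply, Equiv.prodProdProdComm_apply, Equiv.prodCongr_apply,
      Prod.map_fst, Prod.map_snd, splitEquiv, Equiv.coe_fn_mk]
    set u₁ : ℤ := (x.1.val : ℤ) + m * v.1 with hu₁
    set u₂ : ℤ := (x.2.val : ℤ) + m * v.2 with hu₂
    rw [hz, mul_add, Complex.exp_add, ← Q.ev_intCast (R := ℂ) u₁ u₂]
    congr 1
    rw [show (r : ZMod m) * Q.ev x.1 x.2 = ((r * Q.ev u₁ u₂ : ℤ) : ZMod m) by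
      rw [Int.cast_mul, Q.ev_intCast]; simp [hu₁, hu₂], ← hst]
    congr 1
    push_cast
    ring
  have hsf : Summable f := Q.summable_theta z
  have key : Q.theta z = ∑' v, f v := rfl
  clear_value f e
  have hse : Summable (f ∘ e) := e.summable_iff.mpr hsf
  have key2 : ∑' p, f (e p) = ∑' v, f v := e.tsum_eq f
  have key3 : ∑' p, f (e p) = ∑' x, ∑' v, f (e (x, v)) := hse.tsum_prod
  rw [key, ← key2, key3, tsum_fintype]
  simp only [hfac, tsum_mul_left, Q.poisson, ← mul_assoc]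
  simp only [mul_comm _ (I / ((w : ℂ) * _ * _)), mul_assoc (I / ((w : ℂ) * _ * _)), ← Finset.mul_sum]
  congr 1
  simp only [← tsum_mul_left]
  rw [← Summable.tsum_finsetSum fun x _ => (Q.summable_dual _ _ m w).mul_left _]
  refine tsum_congr fun k => ?_
  rw [gauss, Finset.sum_mul]
  refine Finset.sum_congr rfl fun x _ => ?_
  rw [← mul_assoc, hst, ← AddChar.map_add_eq_mul]
  congr 2
  simp [add_assoc]

theorem theta_eq_poisson (τ : ℍ) :
    Q.theta τ = I / ((τ : ℂ) * ((Real.sqrt Q.D : ℝ) : ℂ)) *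
      ∑' k : ℤ × ℤ, cexp (2 * π * I * (-Q.dual (k.1 : ℂ) (k.2 : ℂ) / ((Q.D : ℂ) * τ))) := by
  simpa [theta] using Q.poisson 0 0 1 τ

/-- Transformation under an element of `Γ₀(D)` whose lower right entry is a large prime. -/
theorem theta_smul_prime {p : ℕ} [Fact p.Prime] (hp : p ≠ 2) (ha : (Q.a : ZMod p) ≠ 0)
    (hD : (Q.D : ZMod p) ≠ 0) (γ : SL(2, ℤ)) (hd : γ 1 1 = p) (hc : Q.D ∣ γ 1 0) (τ : ℍ) :
    Q.theta (γ • τ) = ((γ 1 0 : ℂ) * τ + p) *
      ((quadraticChar (ZMod p) (-(Q.D : ZMod p)) : ℤ) : ℂ) * Q.theta τ := by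
  obtain ⟨c', hc'⟩ := hc
  have hdet := det_SL γ
  rw [hd] at hdet
  have hp0 : (p : ℂ) ≠ 0 := Nat.cast_ne_zero.mpr (NeZero.ne p)
  have hden : (γ 1 0 : ℂ) * τ + p ≠ 0 := by
    simpa [hd] using denom_SL_ne_zero γ τ
  let w : ℍ := ⟨((γ • τ : ℍ) : ℂ) - (γ 0 1 : ℂ) / p, by
    rw [show (γ 0 1 : ℂ) / p = ((γ 0 1 / p : ℝ) : ℂ) by push_cast; rfl, Complex.sub_im,
      Complex.ofReal_im, sub_zero]
    exact (γ • τ).im_pos⟩
  have hw : (w : ℂ) = (τ : ℂ) / (p * ((γ 1 0 : ℂ) * τ + p)) := by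
    show ((γ • τ : ℍ) : ℂ) - (γ 0 1 : ℂ) / p = _
    have hdetC : (γ 0 0 : ℂ) * p - γ 0 1 * γ 1 0 = 1 := by exact_mod_cast hdet
    rw [coe_smul_SL, hd, Int.cast_natCast, div_sub_div _ _ hden hp0,
      div_eq_div_iff (mul_ne_zero hden hp0) (mul_ne_zero hp0 hden)]
    linear_combination ((τ : ℂ) * p * ((γ 1 0 : ℂ) * τ + p)) * hdetC
  have hbc : ((γ 0 1 : ℤ) : ZMod p) * (-(γ 1 0 : ℤ) : ℤ) = 1 := by
    have := congrArg (fun n : ℤ => (n : ZMod p)) hdet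
    push_cast at this
    rw [ZMod.natCast_self, mul_zero, zero_sub] at this
    push_cast
    rw [mul_neg]
    exact this
  have hb0 : ((γ 0 1 : ℤ) : ZMod p) ≠ 0 := left_ne_zero_of_mul_eq_one hbc
  have he : (Q.D : ZMod p) * (Q.D : ZMod p)⁻¹ = 1 := mul_inv_cancel₀ hD
  have hτ : (τ : ℂ) ≠ 0 := τ.ne_zero
  have hDC : (Q.D : ℂ) ≠ 0 := Int.cast_ne_zero.mpr Q.D_pos.ne'
  rw [Q.theta_eq_gauss p (γ 0 1) w (γ • τ) (by simp [w]), Q.theta_eq_poisson τ]
  have hterm : ∀ k : ℤ × ℤ, Q.gauss p (γ 0 1 : ℤ) k.1 k.2 *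
      cexp (2 * π * I * (-Q.dual (k.1 : ℂ) (k.2 : ℂ) / ((Q.D : ℂ) * p ^ 2 * w))) =
      ((quadraticChar (ZMod p) (-(Q.D : ZMod p)) : ℤ) : ℂ) * p *
        cexp (2 * π * I * (-Q.dual (k.1 : ℂ) (k.2 : ℂ) / ((Q.D : ℂ) * τ))) := by
    intro k
    rw [Q.gauss_eq_mul hbc he, Q.gauss_prime hp hb0 ha hD]
    have hst : ZMod.stdAddChar (-(((-(γ 1 0) : ℤ) : ZMod p) * (Q.D : ZMod p)⁻¹ *
        Q.dual (k.1 : ZMod p) (k.2 : ZMod p))) =
        cexp (2 * π * I * ((c' * Q.dual k.1 k.2 : ℤ) : ℂ) / p) := by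
      rw [← ZMod.stdAddChar_coe]
      congr 1
      rw [hc']
      simp only [dual]
      push_cast
      linear_combination ((c' : ZMod p) * ((Q.c : ZMod p) * (k.1 : ZMod p) ^ 2 -
        (Q.b : ZMod p) * k.1 * k.2 + (Q.a : ZMod p) * (k.2 : ZMod p) ^ 2)) * he
    rw [hst]
    rw [mul_comm (cexp _) (_ * _ : ℂ), mul_assoc, ← Complex.exp_add]
    congr 2
    rw [hw, hc']
    simp only [dual]
    push_cast
    field_simp
    ring
  simp only [hterm, tsum_mul_left]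
  have hs : ((Real.sqrt Q.D : ℝ) : ℂ) ≠ 0 :=
    Complex.ofReal_ne_zero.mpr (Real.sqrt_ne_zero'.mpr (Int.cast_pos.mpr Q.D_pos))
  generalize ∑' k : ℤ × ℤ, cexp (2 * π * I *
    (-Q.dual (k.1 : ℂ) (k.2 : ℂ) / ((Q.D : ℂ) * τ))) = S
  rw [hw]
  field_simp

/-- The behaviour at a finite cusp. -/
theorem tendsto_theta_smul (γ : SL(2, ℤ)) (m : ℕ) [NeZero m] (hm : γ 1 0 = m) :
    Tendsto (fun τ : ℍ => Q.theta (γ • τ) / ((γ 1 0 : ℂ) * τ + γ 1 1)) atImInfty
      (𝓝 (-I / (((Real.sqrt Q.D : ℝ) : ℂ) * m) * Q.gauss m ((γ 0 0 : ℤ) : ZMod m) 0 0)) := by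
  have hm0 : (m : ℂ) ≠ 0 := Nat.cast_ne_zero.mpr (NeZero.ne m)
  have hDR : (0 : ℝ) < Q.D := Int.cast_pos.mpr Q.D_pos
  have hs : ((Real.sqrt Q.D : ℝ) : ℂ) ≠ 0 :=
    Complex.ofReal_ne_zero.mpr (Real.sqrt_ne_zero'.mpr hDR)
  set F : ℍ → ℤ × ℤ → ℂ := fun τ k => Q.gauss m ((γ 0 0 : ℤ) : ZMod m) k.1 k.2 *
    cexp (2 * π * I * (Q.dual (k.1 : ℂ) (k.2 : ℂ) * ((m : ℂ) * τ + γ 1 1) / ((Q.D : ℂ) * m)))
  have hval : ∀ τ : ℍ, Q.theta (γ • τ) / ((γ 1 0 : ℂ) * τ + γ 1 1) =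
      -I / (((Real.sqrt Q.D : ℝ) : ℂ) * m) * ∑' k, F τ k := by
    intro τ
    have hden := denom_SL_ne_zero γ τ
    let w : ℍ := ⟨((γ • τ : ℍ) : ℂ) - (γ 0 0 : ℂ) / m, by
      rw [show (γ 0 0 : ℂ) / m = ((γ 0 0 / m : ℝ) : ℂ) by push_cast; rfl, Complex.sub_im,
        Complex.ofReal_im, sub_zero]
      exact (γ • τ).im_pos⟩
    have hw : (w : ℂ) = -1 / ((m : ℂ) * ((m : ℂ) * τ + γ 1 1)) := by
      show ((γ • τ : ℍ) : ℂ) - (γ 0 0 : ℂ) / m = _
      have hdetC : (γ 0 0 : ℂ) * γ 1 1 - γ 0 1 * m = 1 := by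
        have := det_SL γ
        rw [hm] at this
        exact_mod_cast this
      rw [coe_smul_SL, hm, Int.cast_natCast] at *
      rw [div_sub_div _ _ hden hm0, div_eq_div_iff (mul_ne_zero hden hm0) (mul_ne_zero hm0 hden)]
      linear_combination (-(m : ℂ) * ((m : ℂ) * τ + γ 1 1)) * hdetC
    rw [hm, Int.cast_natCast] at hden ⊢
    rw [Q.theta_eq_gauss m (γ 0 0) w (γ • τ) (by simp [w]), mul_div_right_comm]
    congr 1
    · rw [hw]; field_simp
    · refine tsum_congr fun k => ?_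
      simp only [F]
      congr 2
      rw [hw]
      field_simp
  simp only [hval]
  refine Tendsto.const_mul _ ?_
  have hlim : ∀ k : ℤ × ℤ, Tendsto (fun τ : ℍ => F τ k) atImInfty
      (𝓝 (if k = 0 then Q.gauss m ((γ 0 0 : ℤ) : ZMod m) 0 0 else 0)) := by
    intro k
    split_ifs with hk
    · subst hk
      simp [F, dual]
    · have hpos : 0 < Q.dual (k.1 : ℤ) k.2 := by
        rw [← Q.dualForm_ev]
        refine lt_of_le_of_ne (Q.dualForm.ev_nonneg _ _) (Ne.symm ?_)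
        rw [Ne, Q.dualForm.ev_eq_zero_iff]
        exact fun h => hk (Prod.ext h.1 h.2)
      rw [← mul_zero (Q.gauss m ((γ 0 0 : ℤ) : ZMod m) k.1 k.2)]
      refine Tendsto.const_mul _ (tendsto_zero_iff_norm_tendsto_zero.mpr ?_)
      have hre : ∀ τ : ℍ, (2 * π * I * (Q.dual (k.1 : ℂ) (k.2 : ℂ) * ((m : ℂ) * τ + γ 1 1) /
          ((Q.D : ℂ) * m))).re = -(2 * π * (Q.dual k.1 k.2 : ℤ) / Q.D) * τ.im := by
        intro τ
        rw [show Q.dual (k.1 : ℂ) (k.2 : ℂ) = (((Q.dual k.1 k.2 : ℤ) : ℝ) : ℂ) by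
          simp [dual], show (2 * π * I * ((((Q.dual k.1 k.2 : ℤ) : ℝ) : ℂ) *
            ((m : ℂ) * τ + γ 1 1) / ((Q.D : ℂ) * m)) : ℂ) =
            ((2 * π * (Q.dual k.1 k.2 : ℤ) / Q.D : ℝ) : ℂ) * (I * τ) +
            ((2 * π * (Q.dual k.1 k.2 : ℤ) * γ 1 1 / (Q.D * m) : ℝ) : ℂ) * I by
          push_cast; field_simp]
        simp only [Complex.add_re, Complex.mul_re, Complex.mul_im, Complex.ofReal_re,
          Complex.ofReal_im, Complex.I_re, Complex.I_im, UpperHalfPlane.coe_im]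
        ring
      simp only [Complex.norm_exp, hre]
      refine Real.tendsto_exp_atBot.comp
        (tendsto_im_atImInfty.const_mul_atTop_of_neg ?_)
      have : (0 : ℝ) < (Q.dual k.1 k.2 : ℤ) := Int.cast_pos.mpr hpos
      have := Real.pi_pos
      rw [neg_neg_iff_pos]
      positivity
  set B : ℤ × ℤ → ℝ := fun k => (m : ℝ) ^ 2 * Real.exp (-(2 * π * (Q.dual k.1 k.2 : ℤ) / Q.D))
  have hB : Summable B := by
    let τ₀ : ℍ := ⟨((1 / Q.D : ℝ) : ℂ) * Complex.I, by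
      rw [Complex.im_ofReal_mul, Complex.I_im, mul_one]; positivity⟩
    refine Summable.mul_left _ ((Q.dualForm.summable_theta τ₀).norm.congr fun k => ?_)
    rw [Complex.norm_exp, Q.dualForm_ev]
    congr 1
    rw [show Q.dual (k.1 : ℂ) (k.2 : ℂ) = (((Q.dual k.1 k.2 : ℤ) : ℝ) : ℂ) by simp [dual]]
    simp [τ₀]
    ring
  have hbound : ∀ᶠ τ : ℍ in atImInfty, ∀ k, ‖F τ k‖ ≤ B k := by
    filter_upwards [tendsto_im_atImInfty.eventually_ge_atTop 1] with τ hτ k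
    rw [norm_mul]
    refine mul_le_mul ?_ ?_ (norm_nonneg _) (by positivity)
    · refine (norm_sum_le _ _).trans (le_of_eq ?_)
      simp only [AddChar.norm_apply, Finset.sum_const, nsmul_eq_mul, mul_one, Finset.card_univ,
        Fintype.card_prod, ZMod.card]
      push_cast
      ring
    · rw [Complex.norm_exp, Real.exp_le_exp]
      rw [show Q.dual (k.1 : ℂ) (k.2 : ℂ) = (((Q.dual k.1 k.2 : ℤ) : ℝ) : ℂ) by
          simp [dual], show (2 * π * I * ((((Q.dual k.1 k.2 : ℤ) : ℝ) : ℂ) *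
            ((m : ℂ) * τ + γ 1 1) / ((Q.D : ℂ) * m)) : ℂ) =
            ((2 * π * (Q.dual k.1 k.2 : ℤ) / Q.D : ℝ) : ℂ) * (I * τ) +
            ((2 * π * (Q.dual k.1 k.2 : ℤ) * γ 1 1 / (Q.D * m) : ℝ) : ℂ) * I by
          push_cast; field_simp]
      simp only [Complex.add_re, Complex.mul_re, Complex.mul_im, Complex.ofReal_re,
        Complex.ofReal_im, Complex.I_re, Complex.I_im, UpperHalfPlane.coe_im]
      have h0 : (0 : ℝ) ≤ 2 * π * (Q.dual k.1 k.2 : ℤ) / Q.D := by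
        have : (0 : ℤ) ≤ Q.dual k.1 k.2 := by
          rw [← Q.dualForm_ev]; exact Q.dualForm.ev_nonneg _ _
        have : (0 : ℝ) ≤ (Q.dual k.1 k.2 : ℤ) := Int.cast_nonneg this
        have := Real.pi_pos
        positivity
      nlinarith [mul_le_mul_of_nonneg_left hτ h0]
  have := tendsto_tsum_of_dominated_convergence hB hlim hbound
  rwa [tsum_ite_eq] at this

/-- The product of two theta series of the same discriminant is invariant under `Γ₀(D)`. -/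
theorem slash_theta_mul (Q' : BForm) (hDD : Q'.D = Q.D) (γ : SL(2, ℤ)) (hγ : Q.D ∣ γ 1 0) :
    (Q.theta * Q'.theta) ∣[(2 : ℤ)] γ = Q.theta * Q'.theta := by
  funext τ
  rw [ModularForm.SL_slash_apply, ModularGroup.denom_apply]
  simp only [Pi.mul_apply]
  have hdet := det_SL γ
  have hden := denom_SL_ne_zero γ τ
  suffices h : Q.theta (γ • τ) * Q'.theta (γ • τ) =
      ((γ 1 0 : ℂ) * τ + γ 1 1) ^ 2 * (Q.theta τ * Q'.theta τ) by
    rw [h]
    simp only [zpow_neg, zpow_ofNat]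
    field_simp
  by_cases hc : γ 1 0 = 0
  · rw [hc, mul_zero, sub_zero] at hdet
    have hunit : γ 0 0 = γ 1 1 ∧ γ 1 1 * γ 1 1 = 1 := by
      rcases Int.eq_one_or_neg_one_of_mul_eq_one' hdet with ⟨h1, h2⟩ | ⟨h1, h2⟩ <;> simp [h1, h2]
    have hd : (γ 1 1 : ℂ) * γ 1 1 = 1 := by exact_mod_cast hunit.2
    have hz : ((γ • τ : ℍ) : ℂ) = τ + ((γ 0 1 * γ 1 1 : ℤ) : ℂ) := by
      have h11 : (γ 1 1 : ℂ) ≠ 0 := left_ne_zero_of_mul_eq_one hd
      rw [coe_smul_SL, hc, hunit.1, Int.cast_zero, zero_mul, zero_add, div_eq_iff h11]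
      push_cast
      linear_combination (-(γ 0 1 : ℂ)) * hd
    rw [Q.theta_periodic hz, Q'.theta_periodic hz, hc, Int.cast_zero, zero_mul, zero_add, sq, hd,
      one_mul]
  · have : NeZero (γ 1 0).natAbs := ⟨Int.natAbs_ne_zero.mpr hc⟩
    have hu : IsUnit ((γ 1 1 : ℤ) : ZMod (γ 1 0).natAbs) := by
      refine IsUnit.of_mul_eq_one ((γ 0 0 : ℤ) : ZMod (γ 1 0).natAbs) ?_
      have h0 : ((γ 1 0 : ℤ) : ZMod (γ 1 0).natAbs) = 0 :=
        (ZMod.intCast_zmod_eq_zero_iff_dvd _ _).mpr Int.natAbs_dvd_self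
      have := congrArg (fun n : ℤ => (n : ZMod (γ 1 0).natAbs)) hdet
      push_cast at this
      rw [h0, mul_zero, sub_zero, mul_comm] at this
      exact this
    obtain ⟨p, hpN, hp, hpd⟩ :=
      Nat.forall_exists_prime_gt_and_eq_mod hu (Q.D.natAbs + Q.a.natAbs + Q'.a.natAbs + 2)
    have : Fact p.Prime := ⟨hp⟩
    obtain ⟨j, hj⟩ : ∃ j : ℤ, (p : ℤ) = γ 1 1 + j * γ 1 0 := by
      have : ((γ 1 0).natAbs : ℤ) ∣ (p : ℤ) - γ 1 1 := by
        rw [← ZMod.intCast_zmod_eq_zero_iff_dvd]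
        push_cast
        rw [hpd, sub_self]
      obtain ⟨j, hj⟩ := Int.natAbs_dvd.mp this
      exact ⟨j, by linear_combination hj⟩
    have hne : ∀ x : ℤ, 0 < x → x.natAbs < p → (x : ZMod p) ≠ 0 := fun x hx hxp h => by
      rw [ZMod.intCast_zmod_eq_zero_iff_dvd] at h
      have := Int.le_of_dvd hx h
      omega
    set γ' : SL(2, ℤ) := γ * ModularGroup.T ^ j
    have h10 : γ' 1 0 = γ 1 0 := by
      simp [γ', Matrix.SpecialLinearGroup.coe_mul, ModularGroup.coe_T_zpow, Matrix.mul_apply,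
        Fin.sum_univ_two]
    have h11 : γ' 1 1 = p := by
      simp [γ', Matrix.SpecialLinearGroup.coe_mul, ModularGroup.coe_T_zpow, Matrix.mul_apply,
        Fin.sum_univ_two, hj]
      ring
    set σ : ℍ := ModularGroup.T ^ (-j) • τ with hσdef
    have hσ : (σ : ℂ) = τ + ((-j : ℤ) : ℂ) := by
      rw [hσdef, UpperHalfPlane.modular_T_zpow_smul, UpperHalfPlane.coe_vadd]
      push_cast
      ring
    have hsm : γ' • σ = γ • τ := by
      rw [hσdef, ← mul_smul]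
      simp [γ', mul_assoc]
    have e1 := Q.theta_smul_prime (by omega) (hne _ Q.a_pos (by omega))
      (hne _ Q.D_pos (by omega)) γ' h11 (h10 ▸ hγ) σ
    have e2 := Q'.theta_smul_prime (by omega) (hne _ Q'.a_pos (by omega))
      (hDD ▸ hne _ Q.D_pos (by omega)) γ' h11 (h10 ▸ hDD ▸ hγ) σ
    rw [hsm] at e1 e2
    rw [e1, e2, Q.theta_periodic hσ, Q'.theta_periodic hσ, hDD, h10, hσ]
    have hχ : ((quadraticChar (ZMod p) (-(Q.D : ZMod p)) : ℤ) : ℂ) ^ 2 = 1 := by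
      rw [← Int.cast_pow, quadraticChar_sq_one (neg_ne_zero.mpr (hne _ Q.D_pos (by omega))),
        Int.cast_one]
    have hpC : (p : ℂ) = γ 1 1 + j * γ 1 0 := by exact_mod_cast hj
    rw [hpC]
    push_cast
    linear_combination (((γ 1 0 : ℂ) * τ + γ 1 1) ^ 2 * (Q.theta τ * Q'.theta τ)) * hχ

end BForm

end FLTAgent.Mod2
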