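import Fermat.Agent.Mod2.ThetaDefs

/-!
# Poisson summation for binary theta series

`poisson`: the summation formula on a coset of a multiple of the lattice, obtained from the
functional equation of the Jacobi theta function in each variable (`sqrt_factor` combines the two
square roots).
-/

set_option autoImplicit false

noncomputable section

open UpperHalfPlane hiding I
open Complex
open scoped Real

namespace FLTAgent.Mod2

namespace BForm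

variable (Q : BForm)

theorem four_a_mul_ev (x y : ℝ) :
    4 * (Q.a : ℝ) * Q.ev x y = (2 * Q.a * x + Q.b * y) ^ 2 + Q.D * y ^ 2 := by
  simp only [ev, D]
  push_cast
  ring

theorem four_c_mul_ev (x y : ℝ) :
    4 * (Q.c : ℝ) * Q.ev x y = (2 * Q.c * y + Q.b * x) ^ 2 + Q.D * x ^ 2 := by
  simp only [ev, D]
  push_cast
  ring

/-- A diagonal lower bound. -/
theorem ev_ge (x y : ℝ) :
    (Q.D : ℝ) / (8 * Q.c) * x ^ 2 + (Q.D : ℝ) / (8 * Q.a) * y ^ 2 ≤ Q.ev x y := by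
  have ha : (0 : ℝ) < Q.a := Int.cast_pos.mpr Q.a_pos
  have hc : (0 : ℝ) < Q.c := Int.cast_pos.mpr Q.c_pos
  have h1 : (Q.D : ℝ) / (4 * Q.c) * x ^ 2 ≤ Q.ev x y := by
    rw [div_mul_eq_mul_div, div_le_iff₀ (by positivity)]
    nlinarith [Q.four_c_mul_ev x y, sq_nonneg (2 * (Q.c : ℝ) * y + Q.b * x)]
  have h2 : (Q.D : ℝ) / (4 * Q.a) * y ^ 2 ≤ Q.ev x y := by
    rw [div_mul_eq_mul_div, div_le_iff₀ (by positivity)]
    nlinarith [Q.four_a_mul_ev x y, sq_nonneg (2 * (Q.a : ℝ) * x + Q.b * y)]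
  have e1 : (Q.D : ℝ) / (8 * Q.c) = (Q.D : ℝ) / (4 * Q.c) / 2 := by ring
  have e2 : (Q.D : ℝ) / (8 * Q.a) = (Q.D : ℝ) / (4 * Q.a) / 2 := by ring
  rw [e1, e2]
  linarith

theorem norm_term (n : ℤ) (z τ : ℂ) :
    ‖jacobiTheta₂_term n z τ‖ = Real.exp (-π * n ^ 2 * τ.im - 2 * π * n * z.im) :=
  norm_jacobiTheta₂_term n z τ

theorem summable_term (z : ℂ) {τ : ℂ} (hτ : 0 < τ.im) :
    Summable fun n : ℤ => ‖jacobiTheta₂_term n z τ‖ :=
  ((summable_jacobiTheta₂_term_iff z τ).mpr hτ).norm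

theorem summable_shift (x₁ x₂ : ℤ) (m : ℕ) [NeZero m] (τ : ℍ) :
    Summable fun v : ℤ × ℤ =>
      cexp (2 * π * I * Q.ev ((x₁ + m * v.1 : ℤ) : ℂ) ((x₂ + m * v.2 : ℤ) : ℂ) * τ) := by
  set α : ℝ := (Q.D : ℝ) / (8 * Q.c)
  set β : ℝ := (Q.D : ℝ) / (8 * Q.a)
  have hm : (0 : ℝ) < m := Nat.cast_pos.mpr (Nat.pos_of_ne_zero (NeZero.ne m))
  have hD : (0 : ℝ) < Q.D := Int.cast_pos.mpr Q.D_pos
  have ha : (0 : ℝ) < Q.a := Int.cast_pos.mpr Q.a_pos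
  have hc : (0 : ℝ) < Q.c := Int.cast_pos.mpr Q.c_pos
  have hτ : 0 < τ.im := τ.im_pos
  have himT : ∀ r : ℝ, 0 < r → 0 < (((r * (2 * m ^ 2) : ℝ) : ℂ) * (τ : ℂ)).im := fun r hr => by
    rw [Complex.im_ofReal_mul, UpperHalfPlane.coe_im]
    positivity
  have hs := Summable.mul_of_nonneg
    (summable_term (((2 * α * m * x₁ : ℝ) : ℂ) * (τ : ℂ)) (himT α (by positivity)))
    (summable_term (((2 * β * m * x₂ : ℝ) : ℂ) * (τ : ℂ)) (himT β (by positivity)))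
    (fun n => norm_nonneg _) (fun n => norm_nonneg _)
  refine Summable.of_norm_bounded
    (hs.mul_left (Real.exp (-2 * π * τ.im * (α * x₁ ^ 2 + β * x₂ ^ 2)))) fun v => ?_
  rw [Complex.norm_exp, norm_term, norm_term, ← Real.exp_add, ← Real.exp_add, Real.exp_le_exp]
  have hre : (2 * π * I * Q.ev ((x₁ + m * v.1 : ℤ) : ℂ) ((x₂ + m * v.2 : ℤ) : ℂ) * (τ : ℂ)).re =
      -2 * π * τ.im * Q.ev ((x₁ : ℝ) + m * v.1) ((x₂ : ℝ) + m * v.2) := by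
    have : Q.ev ((x₁ + m * v.1 : ℤ) : ℂ) ((x₂ + m * v.2 : ℤ) : ℂ) =
        ((Q.ev ((x₁ : ℝ) + m * v.1) ((x₂ : ℝ) + m * v.2) : ℝ) : ℂ) := by
      simp only [ev]; push_cast; ring
    rw [this]
    simp [Complex.mul_re, Complex.mul_im]
    ring
  rw [hre]
  simp only [Complex.im_ofReal_mul, UpperHalfPlane.coe_im]
  have h2 : 0 ≤ 2 * π * τ.im := by positivity
  nlinarith [mul_le_mul_of_nonneg_left (Q.ev_ge ((x₁ : ℝ) + m * v.1) ((x₂ : ℝ) + m * v.2)) h2]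

/-- The point `-1 / (r τ)`. -/
def negInv (r : ℝ) (hr : 0 < r) (τ : ℍ) : ℍ :=
  ⟨-1 / ((r : ℂ) * τ), by
    have h : 0 < ((r : ℂ) * τ).im := by
      rw [Complex.im_ofReal_mul, UpperHalfPlane.coe_im]
      exact mul_pos hr τ.im_pos
    rw [neg_div, one_div, Complex.neg_im, Complex.inv_im, neg_div, neg_neg]
    exact div_pos h (Complex.normSq_pos.mpr fun e => by simp [e] at h)⟩

theorem summable_dual (x₁ x₂ : ℤ) (m : ℕ) [NeZero m] (τ : ℍ) :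
    Summable fun k : ℤ × ℤ => cexp (2 * π * I * (((k.1 * x₁ + k.2 * x₂ : ℤ) : ℂ) / m)) *
      cexp (2 * π * I * (-Q.dual (k.1 : ℂ) (k.2 : ℂ) / ((Q.D : ℂ) * m ^ 2 * τ))) := by
  have hD : (0 : ℝ) < Q.D := Int.cast_pos.mpr Q.D_pos
  have hm : (0 : ℝ) < m := Nat.cast_pos.mpr (Nat.pos_of_ne_zero (NeZero.ne m))
  have hs := (Q.dualForm.summable_shift 0 0 1 (negInv (Q.D * m ^ 2) (by positivity) τ)).norm
  refine Summable.of_norm (hs.congr fun k => ?_)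
  have e : (2 * π * I * (((k.1 * x₁ + k.2 * x₂ : ℤ) : ℂ) / m)) =
      ((2 * π * ((k.1 * x₁ + k.2 * x₂ : ℤ) : ℝ) / m : ℝ) : ℂ) * I := by
    push_cast; ring
  rw [norm_mul, e, Complex.norm_exp_ofReal_mul_I, one_mul, dualForm_ev]
  congr 2
  simp only [negInv, dual]
  push_cast
  ring

theorem ofReal_mul_cpow {r : ℝ} (hr : 0 < r) {w : ℂ} (hw : w ≠ 0) (e : ℂ) :
    ((r : ℂ) * w) ^ e = (r : ℂ) ^ e * w ^ e := by
  have hr' : (r : ℂ) ≠ 0 := Complex.ofReal_ne_zero.mpr hr.ne'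
  rw [Complex.cpow_def_of_ne_zero (mul_ne_zero hr' hw), Complex.cpow_def_of_ne_zero hr',
    Complex.cpow_def_of_ne_zero hw, Complex.log_ofReal_mul hr hw, Complex.ofReal_log hr.le,
    ← Complex.exp_add, add_mul]

/-- The square roots in the two functional equations multiply to `√D m² (-iτ)`. -/
theorem sqrt_factor (m : ℕ) [NeZero m] (τ : ℍ) :
    (-I * (2 * (Q.a : ℂ) * m ^ 2 * τ)) ^ (1 / 2 : ℂ) *
        (-I * ((Q.D : ℂ) * m ^ 2 / (2 * Q.a) * τ)) ^ (1 / 2 : ℂ) =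
      ((Real.sqrt Q.D : ℝ) : ℂ) * m ^ 2 * (-I * τ) := by
  have ha : (0 : ℝ) < Q.a := Int.cast_pos.mpr Q.a_pos
  have hD : (0 : ℝ) < Q.D := Int.cast_pos.mpr Q.D_pos
  have hw : (-I * (τ : ℂ)) ≠ 0 := mul_ne_zero (neg_ne_zero.mpr I_ne_zero) τ.ne_zero
  set w : ℂ := -I * (τ : ℂ)
  have e1 : -I * (2 * (Q.a : ℂ) * m ^ 2 * τ) = ((2 * Q.a * m ^ 2 : ℝ) : ℂ) * w := by
    simp only [w]; push_cast; ring
  have e2 : -I * ((Q.D : ℂ) * m ^ 2 / (2 * Q.a) * τ) =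
      ((Q.D * m ^ 2 / (2 * Q.a) : ℝ) : ℂ) * w := by
    simp only [w]; push_cast; ring
  have hh : (1 / 2 : ℂ) = ((1 / 2 : ℝ) : ℂ) := by push_cast; ring
  have hr1 : (0 : ℝ) ≤ 2 * Q.a * m ^ 2 := by positivity
  have hr2 : (0 : ℝ) ≤ Q.D * m ^ 2 / (2 * Q.a) := by positivity
  have hm : (0 : ℝ) < m := Nat.cast_pos.mpr (Nat.pos_of_ne_zero (NeZero.ne m))
  rw [e1, e2, ofReal_mul_cpow (by positivity) hw, ofReal_mul_cpow (by positivity) hw]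
  have hww : w ^ (1 / 2 : ℂ) * w ^ (1 / 2 : ℂ) = w := by
    rw [← Complex.cpow_add _ _ hw, show (1 / 2 : ℂ) + 1 / 2 = 1 by norm_num, Complex.cpow_one]
  have hsq : ((2 * Q.a * m ^ 2 : ℝ) : ℂ) ^ (1 / 2 : ℂ) *
      ((Q.D * m ^ 2 / (2 * Q.a) : ℝ) : ℂ) ^ (1 / 2 : ℂ) = ((Real.sqrt Q.D * m ^ 2 : ℝ) : ℂ) := by
    rw [hh, ← Complex.ofReal_cpow hr1, ← Complex.ofReal_cpow hr2, ← Complex.ofReal_mul]
    congr 1
    rw [← Real.mul_rpow hr1 hr2, ← Real.sqrt_eq_rpow,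
      show 2 * (Q.a : ℝ) * m ^ 2 * (Q.D * m ^ 2 / (2 * Q.a)) = Q.D * (m ^ 2) ^ 2 by field_simp,
      Real.sqrt_mul hD.le, Real.sqrt_sq (by positivity)]
  rw [mul_mul_mul_comm, hsq, hww]
  push_cast
  ring

/-- The Poisson summation formula. -/
theorem poisson (x₁ x₂ : ℤ) (m : ℕ) [NeZero m] (τ : ℍ) :
    ∑' v : ℤ × ℤ, cexp (2 * π * I * Q.ev ((x₁ + m * v.1 : ℤ) : ℂ) ((x₂ + m * v.2 : ℤ) : ℂ) * τ) =
      I / ((τ : ℂ) * ((Real.sqrt Q.D : ℝ) : ℂ) * m ^ 2) *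
        ∑' k : ℤ × ℤ, cexp (2 * π * I * (((k.1 * x₁ + k.2 * x₂ : ℤ) : ℂ) / m)) *
          cexp (2 * π * I * (-Q.dual (k.1 : ℂ) (k.2 : ℂ) / ((Q.D : ℂ) * m ^ 2 * τ))) := by
  have haR : (0 : ℝ) < Q.a := Int.cast_pos.mpr Q.a_pos
  have hDR : (0 : ℝ) < Q.D := Int.cast_pos.mpr Q.D_pos
  have hmR : (0 : ℝ) < m := Nat.cast_pos.mpr (Nat.pos_of_ne_zero (NeZero.ne m))
  have ha : (Q.a : ℂ) ≠ 0 := Int.cast_ne_zero.mpr Q.a_pos.ne'
  have hm : (m : ℂ) ≠ 0 := Nat.cast_ne_zero.mpr (NeZero.ne m)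
  have hD : (Q.D : ℂ) ≠ 0 := Int.cast_ne_zero.mpr Q.D_pos.ne'
  have hτ : (τ : ℂ) ≠ 0 := τ.ne_zero
  have hcval : (Q.c : ℂ) = ((Q.D : ℂ) + (Q.b : ℂ) ^ 2) / (4 * Q.a) := by
    rw [eq_div_iff (mul_ne_zero (by norm_num) ha)]; simp [D]; ring
  set T : ℂ := 2 * (Q.a : ℂ) * m ^ 2 * τ with hT
  set T' : ℂ := (Q.D : ℂ) * m ^ 2 / (2 * Q.a) * τ with hT'
  set G : ℤ → ℤ → ℂ := fun v₂ k => cexp (2 * π * I * ((k : ℂ) * x₁ / m +
    Q.b * k * ((x₂ + m * v₂ : ℤ) : ℂ) / (2 * Q.a * m) +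
    (τ : ℂ) * Q.D * ((x₂ + m * v₂ : ℤ) : ℂ) ^ 2 / (4 * Q.a) -
    (k : ℂ) ^ 2 / (4 * (τ : ℂ) * Q.a * m ^ 2))) with hG
  -- first summation
  have step1 : ∀ v₂ : ℤ,
      ∑' v₁ : ℤ, cexp (2 * π * I * Q.ev ((x₁ + m * v₁ : ℤ) : ℂ) ((x₂ + m * v₂ : ℤ) : ℂ) * τ) =
        1 / (-I * T) ^ (1 / 2 : ℂ) * ∑' k : ℤ, G v₂ k := by
    intro v₂
    set Y : ℂ := ((x₂ + m * v₂ : ℤ) : ℂ) with hY
    set z : ℂ := (τ : ℂ) * m * (2 * Q.a * x₁ + Q.b * Y) with hz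
    have hL : ∀ v₁ : ℤ, cexp (2 * π * I * Q.ev ((x₁ + m * v₁ : ℤ) : ℂ) Y * τ) =
        cexp (2 * π * I * Q.ev (x₁ : ℂ) Y * τ) * jacobiTheta₂_term v₁ z T := by
      intro v₁
      rw [jacobiTheta₂_term, ← Complex.exp_add]
      congr 1
      simp only [ev, hT, hz]
      push_cast
      ring
    rw [tsum_congr hL, tsum_mul_left, show (∑' n : ℤ, jacobiTheta₂_term n z T) = jacobiTheta₂ z T
      from rfl, jacobiTheta₂_functional_equation z T, jacobiTheta₂, ← mul_assoc, ← mul_assoc,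
      mul_comm (cexp (2 * π * I * Q.ev (x₁ : ℂ) Y * τ)), mul_assoc (1 / _), mul_assoc (1 / _)]
    congr 1
    rw [← Complex.exp_add, ← tsum_mul_left]
    refine tsum_congr fun k => ?_
    rw [jacobiTheta₂_term, ← Complex.exp_add, hG]
    congr 1
    simp only [ev, hT, hz, hY, hcval]
    field_simp
    ring
  -- absolute convergence in between
  have hsG : Summable fun p : ℤ × ℤ => G p.1 p.2 := by
    have hT'im : 0 < T'.im := by
      rw [hT', show (Q.D : ℂ) * m ^ 2 / (2 * Q.a) = ((Q.D * m ^ 2 / (2 * Q.a) : ℝ) : ℂ) by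
        push_cast; ring, Complex.im_ofReal_mul, UpperHalfPlane.coe_im]
      have := τ.im_pos
      positivity
    have hSim : 0 < (-1 / T).im := by
      have hTim : 0 < T.im := by
        rw [hT, show 2 * (Q.a : ℂ) * m ^ 2 = ((2 * Q.a * m ^ 2 : ℝ) : ℂ) by push_cast; ring,
          Complex.im_ofReal_mul, UpperHalfPlane.coe_im]
        have := τ.im_pos
        positivity
      rw [neg_div, one_div, Complex.neg_im, Complex.inv_im, neg_div, neg_neg]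
      exact div_pos hTim (Complex.normSq_pos.mpr fun h => by simp [h] at hTim)
    have hs := Summable.mul_of_nonneg (summable_term ((τ : ℂ) * Q.D * m * x₂ / (2 * Q.a)) hT'im)
      (summable_term 0 hSim) (fun n => norm_nonneg _) (fun n => norm_nonneg _)
    refine Summable.of_norm (Summable.of_nonneg_of_le (fun _ => norm_nonneg _) (fun p => le_of_eq ?_)
      (hs.mul_left (Real.exp (-2 * π * τ.im * Q.D * (x₂ : ℝ) ^ 2 / (4 * Q.a)))))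
    rw [norm_term, norm_term, hG, Complex.norm_exp, ← Real.exp_add, ← Real.exp_add]
    congr 1
    set r : ℝ := (p.2 : ℝ) * x₁ / m + Q.b * p.2 * ((x₂ : ℝ) + m * p.1) / (2 * Q.a * m) with hr
    have e : 2 * π * I * ((p.2 : ℂ) * x₁ / m +
        Q.b * p.2 * ((x₂ + m * p.1 : ℤ) : ℂ) / (2 * Q.a * m) +
        (τ : ℂ) * Q.D * ((x₂ + m * p.1 : ℤ) : ℂ) ^ 2 / (4 * Q.a) -
        (p.2 : ℂ) ^ 2 / (4 * (τ : ℂ) * Q.a * m ^ 2)) =
        ((2 * π * r : ℝ) : ℂ) * I +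
          ((2 * π * (Q.D * ((x₂ : ℝ) + m * p.1) ^ 2 / (4 * Q.a)) : ℝ) : ℂ) * (I * τ) +
          ((π * (p.2 : ℝ) ^ 2 : ℝ) : ℂ) * (I * (-1 / T)) := by
      simp only [hr, hT]
      push_cast
      field_simp
      ring
    rw [e, show (τ : ℂ) * Q.D * m * x₂ / (2 * Q.a) =
      ((Q.D * m * x₂ / (2 * Q.a) : ℝ) : ℂ) * τ by push_cast; ring, hT',
      show (Q.D : ℂ) * m ^ 2 / (2 * Q.a) = ((Q.D * m ^ 2 / (2 * Q.a) : ℝ) : ℂ) by push_cast; ring]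
    simp only [Complex.add_re, Complex.mul_re, Complex.mul_im, Complex.ofReal_re, Complex.ofReal_im,
      Complex.I_re, Complex.I_im, Complex.zero_im, zero_mul, mul_zero, one_mul, zero_sub, add_zero,
      sub_zero, zero_add, UpperHalfPlane.coe_im]
    field_simp
    ring
  -- second summation
  have step2 : ∀ k : ℤ, ∑' v₂ : ℤ, G v₂ k = 1 / (-I * T') ^ (1 / 2 : ℂ) * ∑' j : ℤ,
      cexp (2 * π * I * (((k * x₁ + j * x₂ : ℤ) : ℂ) / m)) *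
        cexp (2 * π * I * (-Q.dual (k : ℂ) (j : ℂ) / ((Q.D : ℂ) * m ^ 2 * τ))) := by
    intro k
    set z : ℂ := (Q.b * k + (τ : ℂ) * Q.D * m * x₂) / (2 * Q.a) with hz
    set c0 : ℂ := 2 * π * I * ((k : ℂ) * x₁ / m + Q.b * k * x₂ / (2 * Q.a * m) +
      (τ : ℂ) * Q.D * x₂ ^ 2 / (4 * Q.a) - (k : ℂ) ^ 2 / (4 * (τ : ℂ) * Q.a * m ^ 2)) with hc0
    have hL : ∀ v₂ : ℤ, G v₂ k = cexp c0 * jacobiTheta₂_term v₂ z T' := by
      intro v₂
      rw [hG, jacobiTheta₂_term, ← Complex.exp_add]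
      simp only [hc0, hz, hT']
      push_cast
      field_simp
      ring
    rw [tsum_congr hL, tsum_mul_left, show (∑' n : ℤ, jacobiTheta₂_term n z T') = jacobiTheta₂ z T'
      from rfl, jacobiTheta₂_functional_equation z T', jacobiTheta₂, ← mul_assoc, ← mul_assoc,
      mul_comm (cexp c0), mul_assoc (1 / _), mul_assoc (1 / _)]
    congr 1
    rw [← Complex.exp_add, ← tsum_mul_left]
    refine tsum_congr fun j => ?_
    rw [jacobiTheta₂_term, ← Complex.exp_add, ← Complex.exp_add]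
    congr 1
    simp only [hc0, hz, hT', dual, hcval]
    push_cast
    field_simp
    ring
  -- assembling
  have horig := Q.summable_shift x₁ x₂ m τ
  have hL : ∑' v : ℤ × ℤ,
      cexp (2 * π * I * Q.ev ((x₁ + m * v.1 : ℤ) : ℂ) ((x₂ + m * v.2 : ℤ) : ℂ) * τ) =
      1 / (-I * T) ^ (1 / 2 : ℂ) * ∑' v₂ : ℤ, ∑' k : ℤ, G v₂ k := by
    rw [← tsum_mul_left, ← tsum_congr step1, ← (Equiv.prodComm ℤ ℤ).tsum_eq]
    exact (horig.comp_injective (Equiv.prodComm ℤ ℤ).injective).tsum_prod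
  rw [hL, ← Summable.tsum_comm (f := fun v₂ k => G v₂ k) hsG, tsum_congr step2, tsum_mul_left,
    ← mul_assoc]
  congr 1
  · rw [one_div_mul_one_div, hT, hT', Q.sqrt_factor]
    have hs : ((Real.sqrt Q.D : ℝ) : ℂ) ≠ 0 := Complex.ofReal_ne_zero.mpr (Real.sqrt_ne_zero'.mpr hDR)
    field_simp
    rw [Complex.I_sq]
  · exact (Summable.tsum_prod (Q.summable_dual x₁ x₂ m τ)).symm

end BForm

end FLTAgent.Mod2
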