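import Fermat.Agent.Mod2.HeckeIhara
import Fermat.Agent.Mod2.HeckeDet

/-!
# The levels of the Hecke tower

At one level `locRed` is the reduction of the localised ring and `exists_locLift` its universal
property among maps congruent to `θ`. The levels are `lvl D G = 2 m ∏ G`: residual systems exist
at all of them once one exists at `2 m` (`exists_resSys`), with old quotients (`exists_pi_tower`),
and at the bottom the completion property of the Hecke algebra of level `2 m` holds
(`heckeBottom_lift`).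
-/

set_option autoImplicit false
set_option linter.unusedSectionVars false
set_option linter.style.haveILetI false

noncomputable section

open Matrix Polynomial

namespace FLTAgent.Mod2

local notation "Qb" => AlgebraicClosure ℚ
local notation "Γℚ" => (AlgebraicClosure ℚ ≃ₐ[ℚ] AlgebraicClosure ℚ)

/-! ### One level -/

variable {L : ℕ} [NeZero L]

/-- The Hecke operator at a prime in the localised ring. -/
def locGen (θ : Reps.TZ L →+* ZMod 2) (l : ℕ) : locHecke θ :=
  if h : l.Prime then locT θ (Reps.heckeGenOf L ⟨l, h⟩) else 0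

theorem locGen_prime (θ : Reps.TZ L →+* ZMod 2) {l : ℕ} (h : l.Prime) :
    locGen θ l = locT θ (Reps.heckeGenOf L ⟨l, h⟩) := dif_pos h

theorem gen_induction {p : Reps.TZ L → Prop} (gen : ∀ r : Nat.Primes, p (Reps.heckeGenOf L r))
    (int : ∀ k : ℤ, p k) (add : ∀ x y, p x → p y → p (x + y)) (mul : ∀ x y, p x → p y → p (x * y))
    (t : Reps.TZ L) : p t := by
  obtain ⟨t, ht⟩ := t
  induction ht using Algebra.adjoin_induction with
  | mem x hx =>
    obtain ⟨r, hr⟩ : ∃ r : Nat.Primes,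
        (⟨x, Algebra.subset_adjoin hx⟩ : Reps.TZ L) = Reps.heckeGenOf L r := by
      rcases hx with ⟨ℓ, hℓ, hℓN, -, rfl⟩ | ⟨q, hqN, hq, -, rfl⟩
      · exact ⟨⟨ℓ, hℓ⟩, (Reps.heckeGenOf_T L hℓ hℓN).symm⟩
      · exact ⟨⟨q, hq⟩, by simp [Reps.heckeGenOf, hqN]; rfl⟩
    rw [hr]
    exact gen r
  | algebraMap k =>
    have e : (⟨algebraMap ℤ _ k, Subalgebra.algebraMap_mem _ k⟩ : Reps.TZ L) = (k : Reps.TZ L) :=
      Subtype.ext (by simp)
    exact (congrArg p e).mpr (int k)
  | add x y hx hy hx' hy' => exact add ⟨x, hx⟩ ⟨y, hy⟩ hx' hy'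
  | mul x y hx hy hx' hy' => exact mul ⟨x, hx⟩ ⟨y, hy⟩ hx' hy'

variable {θ : Reps.TZ L →+* ZMod 2}

theorem adjoin_locGen : Algebra.adjoin ℤ_[2] (locGen θ '' {l | l.Prime}) = ⊤ := by
  refine eq_top_iff.mpr fun a _ => ?_
  have key : ∀ t, locT θ t ∈ Algebra.adjoin ℤ_[2] (locGen θ '' {l | l.Prime}) := by
    intro t
    refine gen_induction
      (p := fun t => locT θ t ∈ Algebra.adjoin ℤ_[2] (locGen θ '' {l | l.Prime}))
      (fun r => Algebra.subset_adjoin ⟨r, r.2, locGen_prime θ r.2⟩) (fun k => ?_)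
      (fun x y hx hy => ?_) (fun x y hx hy => ?_) t
    · rw [← locTHom_apply, map_intCast]; exact intCast_mem _ k
    · rw [← locTHom_apply, map_add]; exact add_mem hx hy
    · rw [← locTHom_apply, map_mul]; exact mul_mem hx hy
  obtain ⟨a, ha⟩ := a
  induction ha using Algebra.adjoin_induction with
  | mem x hx => obtain ⟨t, rfl⟩ := hx; exact key t
  | algebraMap r => exact Subalgebra.algebraMap_mem _ r
  | add x y hx hy hx' hy' => exact add_mem (hx' trivial) (hy' trivial)
  | mul x y hx hy hx' hy' => exact mul_mem (hx' trivial) (hy' trivial)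

theorem theta_eq_zero_of_locT_eq {t : Reps.TZ L} {b : locHecke θ} (h : locT θ t = 2 * b) :
    θ t = 0 := by
  haveI : IsLocalRing (locHecke θ) := locHecke_isLocalRing
  rcases (show θ t = 0 ∨ θ t = 1 by generalize θ t = z; revert z; decide) with h' | h'
  · exact h'
  · exact absurd (Ideal.eq_top_of_isUnit_mem _
      (h ▸ Ideal.mul_mem_right b _ (two_mem_of_isMaximal _)) (isUnit_locT h'))
      (IsLocalRing.maximalIdeal.isMaximal (locHecke θ)).ne_top

variable (θ) in
/-- Reduction. -/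
def locRedFun (a : locHecke θ) : ZMod 2 := θ (exists_locT_sub a).choose

theorem locRedFun_eq {a : locHecke θ} {t : Reps.TZ L} {b : locHecke θ} (h : a = locT θ t + 2 * b) :
    locRedFun θ a = θ t := by
  obtain ⟨b', hb'⟩ := (exists_locT_sub a).choose_spec
  rw [locRedFun, ← sub_eq_zero, ← map_sub]
  refine theta_eq_zero_of_locT_eq (b := b - b') ?_
  rw [← locTHom_apply, map_sub, locTHom_apply, locTHom_apply]
  linear_combination h - hb'

variable (θ) in
/-- Reduction as a ring homomorphism. -/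
def locRed : locHecke θ →+* ZMod 2 where
  toFun := locRedFun θ
  map_one' := (locRedFun_eq (b := 0) (t := 1)
    (by rw [mul_zero, add_zero, ← locTHom_apply, map_one])).trans (map_one θ)
  map_mul' a b := by
    obtain ⟨t, c, rfl⟩ := exists_locT_sub a
    obtain ⟨t', c', rfl⟩ := exists_locT_sub b
    rw [locRedFun_eq (a := locT θ t + 2 * c) rfl, locRedFun_eq (a := locT θ t' + 2 * c') rfl,
      ← map_mul θ]
    refine locRedFun_eq (b := locT θ t * c' + c * locT θ t' + 2 * c * c') ?_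
    rw [← locTHom_apply, ← locTHom_apply, ← locTHom_apply, map_mul]
    ring
  map_zero' := (locRedFun_eq (b := 0) (t := 0)
    (by rw [mul_zero, add_zero, ← locTHom_apply, map_zero])).trans (map_zero θ)
  map_add' a b := by
    obtain ⟨t, c, rfl⟩ := exists_locT_sub a
    obtain ⟨t', c', rfl⟩ := exists_locT_sub b
    rw [locRedFun_eq (a := locT θ t + 2 * c) rfl, locRedFun_eq (a := locT θ t' + 2 * c') rfl,
      ← map_add θ]
    refine locRedFun_eq (b := c + c') ?_
    rw [← locTHom_apply, ← locTHom_apply, ← locTHom_apply, map_add]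
    ring

theorem locRed_locT (t : Reps.TZ L) : locRed θ (locT θ t) = θ t :=
  locRedFun_eq (b := 0) (by rw [mul_zero, add_zero])

theorem locRed_locGen_eq_one {D : Setup} (S : ResSys L D) {v : ℕ} (hv : v.Prime) (h : v ∣ L) :
    locRed S.θ (locGen S.θ v) = 1 := by
  rw [locGen_prime _ hv, locRed_locT]
  exact S.U_one ⟨v, hv⟩ h

instance LocLat.instFree (θ : Reps.TZ L →+* ZMod 2) : Module.Free ℤ_[2] (LocLat θ) :=
  inferInstanceAs (Module.Free ℤ_[2] ↥(locLattice θ))

instance locHecke.instFinite (θ : Reps.TZ L →+* ZMod 2) : Module.Finite ℤ_[2] (locHecke θ) :=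
  inferInstanceAs (Module.Finite ℤ_[2] ↥(Subalgebra.toSubmodule (locHecke θ)))

instance locHecke.instFree (θ : Reps.TZ L →+* ZMod 2) : Module.Free ℤ_[2] (locHecke θ) :=
  inferInstanceAs (Module.Free ℤ_[2] ↥(Subalgebra.toSubmodule (locHecke θ)))

/-! ### The universal property -/

/-- Elements of `TZ` killed on the localised lattice modulo `2 ^ n` are killed everywhere after
multiplication by a projector. -/
theorem tauMat_mul_projector {n : ℕ} {g t : Reps.TZ L}
    (hg : IsProjector θ (ZMod (2 ^ n)) g)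
    (h : ∀ v ∈ locLattice θ, red n (tauMat L ℤ_[2] t *ᵥ v) = 0) :
    tauMat L (ZMod (2 ^ n)) (t * g) = 0 := by
  refine Matrix.mulVec_injective (funext fun x => ?_)
  obtain ⟨v, hv, hvx⟩ := exists_red_eq (hg.mem x)
  rw [zero_mulVec, map_mul, ← mulVec_mulVec, ← hvx, ← red_tauMat]
  exact h v hv

/-- A ring map which is congruent to `θ` extends to the localised ring. -/
theorem exists_locLift (θ : Reps.TZ L →+* ZMod 2) (B : Type) [CommRing B] [IsLocalRing B]
    [Algebra ℤ_[2] B] [Module.Finite ℤ_[2] B] (f : Reps.TZ L →+* B)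
    (hf : ∀ x, f x - ((θ x).val : B) ∈ IsLocalRing.maximalIdeal B) :
    ∃ g : locHecke θ →ₐ[ℤ_[2]] B, ∀ x, g (locT θ x) = f x := by
  classical
  let Φ : (Reps.TZ L →₀ ℤ_[2]) →ₗ[ℤ_[2]] locHecke θ := Finsupp.linearCombination ℤ_[2] (locT θ)
  let F : (Reps.TZ L →₀ ℤ_[2]) →ₗ[ℤ_[2]] B := Finsupp.linearCombination ℤ_[2] f
  have hΦ : Function.Surjective Φ := by
    have hr : LinearMap.range Φ = Submodule.span ℤ_[2] (Set.range (locT θ)) :=
      Finsupp.range_linearCombination (R := ℤ_[2])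
    rintro ⟨a, ha⟩
    suffices (⟨a, ha⟩ : locHecke θ) ∈ LinearMap.range Φ by simpa using this
    rw [hr]
    induction ha using Algebra.adjoin_induction with
    | mem x hx => obtain ⟨t, rfl⟩ := hx; exact Submodule.subset_span ⟨t, rfl⟩
    | algebraMap r =>
      show algebraMap ℤ_[2] (locHecke θ) r ∈ _
      rw [Algebra.algebraMap_eq_smul_one, ← map_one (locTHom θ), locTHom_apply]
      exact Submodule.smul_mem _ _ (Submodule.subset_span ⟨1, rfl⟩)
    | add x y hx hy hx' hy' => exact add_mem hx' hy'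
    | mul x y hx hy hx' hy' =>
      have key : ∀ a b : locHecke θ, a ∈ Submodule.span ℤ_[2] (Set.range (locT θ)) →
          b ∈ Submodule.span ℤ_[2] (Set.range (locT θ)) →
          a * b ∈ Submodule.span ℤ_[2] (Set.range (locT θ)) := fun a b ha hb => by
        induction ha using Submodule.span_induction with
        | mem a ha =>
          induction hb using Submodule.span_induction with
          | mem b hb =>
            obtain ⟨s, rfl⟩ := ha
            obtain ⟨t, rfl⟩ := hb
            exact Submodule.subset_span ⟨s * t, by rw [← locTHom_apply, map_mul]; rfl⟩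
          | zero => rw [mul_zero]; exact zero_mem _
          | add _ _ _ _ h1 h2 => rw [mul_add]; exact add_mem h1 h2
          | smul r _ _ h1 => rw [mul_smul_comm]; exact Submodule.smul_mem _ _ h1
        | zero => rw [zero_mul]; exact zero_mem _
        | add _ _ _ _ h1 h2 => rw [add_mul]; exact add_mem h1 h2
        | smul r _ _ h1 => rw [smul_mul_assoc]; exact Submodule.smul_mem _ _ h1
      exact key _ _ hx' hy'
  have h2B : (2 : B) ∈ IsLocalRing.maximalIdeal B := by
    have h := hf 2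
    rwa [map_ofNat, map_ofNat, show (2 : ZMod 2) = 0 from rfl, ZMod.val_zero, Nat.cast_zero,
      sub_zero] at h
  obtain ⟨c, hc⟩ := (Reps.galModel L 2).tauMod_faithful ∅ (π := f) (I := Ideal.span {(2 : B)})
    (by exact_mod_cast Ideal.mem_span_singleton_self (2 : B))
  have hker : LinearMap.ker Φ ≤ LinearMap.ker F := by
    intro l hl
    rw [LinearMap.mem_ker] at hl ⊢
    haveI : IsNoetherianRing B := isNoetherianRing_iff.mpr (isNoetherian_of_tower ℤ_[2] inferInstance)
    have hbot : ⨅ n : ℕ, Ideal.span {(2 : B)} ^ n = ⊥ := Ideal.iInf_pow_eq_bot_of_isLocalRing _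
      fun h => (IsLocalRing.maximalIdeal.isMaximal B).ne_top
        (top_le_iff.mp (h ▸ (Ideal.span_singleton_le_iff_mem _).mpr h2B))
    rw [← Ideal.mem_bot, ← hbot, Ideal.mem_iInf]
    intro n
    obtain ⟨g, hg⟩ := exists_projector θ (ZMod (2 ^ (n + c)))
    have hy : ∀ t, ∃ y : ℤ_[2],
        l t = ((PadicInt.toZModPow (n + c) (l t)).val : ℤ_[2]) + 2 ^ (n + c) * y := fun t => by
      have h : l t - ((PadicInt.toZModPow (n + c) (l t)).val : ℤ_[2]) ∈
          RingHom.ker (PadicInt.toZModPow (p := 2) (n + c)) := by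
        rw [RingHom.mem_ker, map_sub, map_natCast, ZMod.natCast_zmod_val, sub_self]
      rw [PadicInt.ker_toZModPow, Ideal.mem_span_singleton] at h
      obtain ⟨y, hy⟩ := h
      refine ⟨y, ?_⟩
      push_cast at hy
      linear_combination hy
    choose y hy using hy
    set k : Reps.TZ L → ℕ := fun t => (PadicInt.toZModPow (n + c) (l t)).val
    set t' : Reps.TZ L := ∑ t ∈ l.support, (k t : Reps.TZ L) * t with ht'
    have hlocT : locT θ t' =
        -(((2 : ℤ_[2]) ^ (n + c)) • ∑ t ∈ l.support, y t • locT θ t) := by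
      have h := hl
      simp only [Φ, Finsupp.linearCombination_apply, Finsupp.sum] at h
      rw [← sub_eq_zero, sub_neg_eq_add, ← h, Finset.smul_sum, ← locTHom_apply, map_sum,
        ← Finset.sum_add_distrib]
      refine Finset.sum_congr rfl fun t _ => ?_
      rw [map_mul, map_natCast, locTHom_apply, hy t, add_smul, mul_smul, Nat.cast_smul_eq_nsmul,
        nsmul_eq_mul]
    have h0 : ∀ v ∈ locLattice θ, red (n + c) (tauMat L ℤ_[2] t' *ᵥ v) = 0 := by
      intro v hv
      obtain ⟨v', hv'⟩ : ∃ v' : LocLat θ, LocLat.val v' = v := ⟨⟨v, hv⟩, rfl⟩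
      obtain ⟨w, hw⟩ : ∃ w : LocLat θ, locEnd θ t' v' = ((2 : ℤ_[2]) ^ (n + c)) • w := by
        refine ⟨-((∑ t ∈ l.support, y t • locT θ t : locHecke θ) :
          Module.End ℤ_[2] (LocLat θ)) v', ?_⟩
        show ((locT θ t' : locHecke θ) : Module.End ℤ_[2] (LocLat θ)) v' = _
        rw [hlocT, Subalgebra.coe_neg, Subalgebra.coe_smul, LinearMap.neg_apply,
          LinearMap.smul_apply, smul_neg]
      rw [← hv', ← val_locEnd, hw, LinearMap.map_smul]
      funext i
      simp only [red, Pi.smul_apply, smul_eq_mul, map_mul, map_pow, map_ofNat, Pi.zero_apply]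
      rw [show ((2 : ZMod (2 ^ (n + c)))) ^ (n + c) = 0 by
        exact_mod_cast ZMod.natCast_self (2 ^ (n + c)), zero_mul]
    have hfg : f (t' * g) ∈ Ideal.span {(2 : B)} ^ n :=
      hc n (t' * g) (tauMat_mul_projector hg h0)
    have hu : IsUnit (f g) := by
      by_contra hu
      have h := hf g
      rw [hg.map_eq_one, ZMod.val_one, Nat.cast_one] at h
      have h1 := Ideal.sub_mem _ ((IsLocalRing.mem_maximalIdeal _).mpr hu) h
      rw [sub_sub_cancel] at h1
      exact (IsLocalRing.maximalIdeal.isMaximal B).ne_top ((Ideal.eq_top_iff_one _).mpr h1)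
    rw [map_mul, Ideal.mul_unit_mem_iff_mem _ hu] at hfg
    have hF : F l = f t' + ((2 : ℤ_[2]) ^ (n + c)) • ∑ t ∈ l.support, y t • f t := by
      simp only [F, Finsupp.linearCombination_apply, Finsupp.sum]
      rw [ht', map_sum, Finset.smul_sum, ← Finset.sum_add_distrib]
      refine Finset.sum_congr rfl fun t _ => ?_
      rw [map_mul, map_natCast, hy t, add_smul, mul_smul, Nat.cast_smul_eq_nsmul, nsmul_eq_mul]
    rw [hF]
    refine add_mem hfg ?_
    rw [Algebra.smul_def, map_pow, map_ofNat, Ideal.span_singleton_pow]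
    exact Ideal.mul_mem_right _ _ (Ideal.mem_span_singleton.mpr (pow_dvd_pow _ (Nat.le_add_right n c)))
  let G : locHecke θ →ₗ[ℤ_[2]] B :=
    (LinearMap.ker Φ).liftQ F hker ∘ₗ (Φ.quotKerEquivOfSurjective hΦ).symm.toLinearMap
  have hG : ∀ l, G (Φ l) = F l := fun l => by
    show (LinearMap.ker Φ).liftQ F hker ((Φ.quotKerEquivOfSurjective hΦ).symm (Φ l)) = _
    rw [show Φ l = Φ.quotKerEquivOfSurjective hΦ (Submodule.Quotient.mk l) from rfl,
      LinearEquiv.symm_apply_apply, Submodule.liftQ_apply]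
  have hGT : ∀ x, G (locT θ x) = f x := fun x => by
    have e : Φ (Finsupp.single x 1) = locT θ x := by simp [Φ]
    rw [← e, hG]
    simp [F]
  have hmul : ∀ a b, G (a * b) = G a * G b := by
    intro a b
    obtain ⟨l, rfl⟩ := hΦ a
    obtain ⟨l', rfl⟩ := hΦ b
    induction l using Finsupp.induction_linear with
    | zero => simp
    | add u v hu hv => rw [map_add, add_mul, map_add, map_add, add_mul, hu, hv]
    | single x r =>
      induction l' using Finsupp.induction_linear with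
      | zero => simp
      | add u v hu hv => rw [map_add, mul_add, map_add, map_add, mul_add, hu, hv]
      | single x' r' =>
        have e : ∀ (z : Reps.TZ L) (s : ℤ_[2]), Φ (Finsupp.single z s) = s • locT θ z := fun z s =>
          by simp [Φ]
        rw [e, e, smul_mul_smul_comm, ← locTHom_apply, ← locTHom_apply, ← map_mul, locTHom_apply,
          locTHom_apply, locTHom_apply, map_smul, map_smul, map_smul, hGT, hGT, hGT, map_mul,
          smul_mul_smul_comm]
  refine ⟨AlgHom.ofLinearMap G ?_ hmul, hGT⟩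
  rw [← map_one (locTHom θ), locTHom_apply, hGT, map_one]

/-! ### The levels of the tower -/

variable (D : Setup)

/-- The level `2 m ∏ G`. -/
def lvl (G : Finset D.Aux) : ℕ := 2 * D.m * ∏ q ∈ G, q.1

theorem lvl_empty : lvl D ∅ = 2 * D.m := by rw [lvl, Finset.prod_empty, mul_one]

instance lvl.instNeZero (G : Finset D.Aux) : NeZero (lvl D G) :=
  ⟨mul_ne_zero (NeZero.ne _) (Finset.prod_ne_zero_iff.mpr fun q _ => q.2.1.ne_zero)⟩

variable {D}

theorem lvl_erase_mul {G : Finset D.Aux} {q : D.Aux} (hq : q ∈ G) :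
    lvl D (G.erase q) * q.1 = lvl D G := by
  rw [lvl, lvl, mul_assoc, Finset.prod_erase_mul G _ hq]

theorem not_dvd_lvl {G : Finset D.Aux} {l : ℕ} (hl : l.Prime) (h : ¬ D.IsSpecial G l) :
    ¬ l ∣ lvl D G := fun hd => by
  refine h ⟨hl, (hl.dvd_mul.mp hd).imp id fun hp => ?_⟩
  obtain ⟨s, hs, hls⟩ := (Prime.dvd_finsetProd_iff hl.prime _).mp hp
  exact ⟨s, hs, ((Nat.prime_dvd_prime_iff_eq hl s.2.1).mp hls).symm⟩

theorem dvd_lvl {G : Finset D.Aux} {l : ℕ} (h : D.IsSpecial G l) : l ∣ lvl D G := by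
  rcases h.2 with h | ⟨s, hs, rfl⟩
  · exact h.mul_right _
  · exact (Finset.dvd_prod_of_mem _ hs).mul_left _

theorem levelHyp_lvl (G : Finset D.Aux) : LevelHyp D (lvl D G) := by
  refine ⟨?_, dvd_mul_right _ _, fun r hr hrL hr2 => ?_⟩
  · induction G using Finset.induction_on with
    | empty =>
      rw [lvl_empty, Nat.squarefree_mul ((Nat.Prime.coprime_iff_not_dvd Nat.prime_two).mpr
        fun h => (Nat.not_even_iff_odd.mpr D.odd_m) (even_iff_two_dvd.mpr h))]
      exact ⟨Nat.prime_two.squarefree, D.sqf_m⟩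
    | insert q G hq ih =>
      rw [← lvl_erase_mul (Finset.mem_insert_self q G), Finset.erase_insert hq,
        Nat.squarefree_mul ((Nat.coprime_comm.mp ((Nat.Prime.coprime_iff_not_dvd q.2.1).mpr
          (not_dvd_lvl q.2.1 (by
            rintro ⟨-, h | ⟨s, hs, he⟩⟩
            · exact q.2.2.1 h
            · exact hq ((Subtype.ext he : s = q) ▸ hs))))))]
      exact ⟨ih, q.2.1.squarefree⟩
  · by_cases h : D.IsSpecial G r
    · obtain ⟨-, h | ⟨s, hs, rfl⟩⟩ := h
      · exact absurd h hr2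
      · exact s.2
    · exact absurd hrL (not_dvd_lvl hr h)

theorem ResSys.congr {L L' : ℕ} [NeZero L] [NeZero L'] (e : L = L') (h : Nonempty (ResSys L D)) :
    Nonempty (ResSys L' D) := by
  subst e
  exact h

/-- A residual system at every level. -/
theorem exists_resSys (h0 : Nonempty (ResSys (2 * D.m) D)) (G : Finset D.Aux) :
    Nonempty (ResSys (lvl D G) D) := by
  induction G using Finset.induction_on with
  | empty => exact ResSys.congr (lvl_empty D).symm h0
  | insert q G hq ih =>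
    have e : lvl D G * q.1 = lvl D (insert q G) := by
      rw [← lvl_erase_mul (Finset.mem_insert_self q G), Finset.erase_insert hq]
    haveI : NeZero (lvl D G * q.1) := ⟨mul_ne_zero (NeZero.ne _) q.2.1.ne_zero⟩
    obtain ⟨S₀⟩ := ih
    refine ResSys.congr e (exists_resSys_mul (e ▸ levelHyp_lvl (insert q G)) (levelHyp_lvl G) q.2.1
      (not_dvd_lvl q.2.1 ?_) S₀)
    rintro ⟨-, h | ⟨s, hs, he⟩⟩
    · exact q.2.2.1 h
    · exact hq ((Subtype.ext he : s = q) ▸ hs)

/-- The residual system of the stabilised forms, from one at level `2 m`. -/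
theorem nonempty_resSys_two (θ : CuspForm.heckeAlgebra (2 * D.m) 2 ∅ →+* ZMod 2)
    (hT : ∀ (l : ℕ) (hl : l.Prime) (hlN : ¬ l ∣ 2 * D.m)
      (A : ValuationSubring (AlgebraicClosure ℚ)), A.LiesOverPrime l →
        ∀ φ : Gal2, A.IsFrobeniusAt φ l →
          θ (CuspForm.heckeAlgebra.T hl hlN (Set.notMem_empty l)) = (D.rho φ).trace)
    (hU : ∀ (v : ℕ) (hv : v.Prime) (hvN : v ∣ 2 * D.m),
      θ (CuspForm.heckeAlgebra.U hv hvN (Set.notMem_empty v)) = 1) :
    Nonempty (ResSys (2 * D.m) D) :=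
  ⟨⟨θ, hT, fun r hr => by rw [Reps.heckeGenOf, dif_pos hr]; exact hU r r.2 hr⟩⟩

/-- The old quotient at any pair of levels. -/
theorem exists_pi {L M q : ℕ} [NeZero L] [NeZero M] (hq : q.Prime) (e : M * q = L)
    (hL : LevelHyp D L) (hM : LevelHyp D M) (hqM : ¬ q ∣ M) (S : ResSys L D) (S₀ : ResSys M D) :
    ∃ π : locHecke S.θ →ₐ[ℤ_[2]]
        AdjoinRoot (X ^ 2 - C (locGen S₀.θ q) * X + C (q : locHecke S₀.θ)),
      (∀ l : ℕ, l.Prime → l ≠ q → π (locGen S.θ l) = AdjoinRoot.of _ (locGen S₀.θ l)) ∧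
      π (locGen S.θ q) = AdjoinRoot.root _ ∧
      (∀ x, π x = 0 ↔ x * (locGen S.θ q ^ 2 - 1) = 0) ∧
      (∀ y, locGen S.θ q ^ 2 - 1 ∣ 2 * y → locGen S.θ q ^ 2 - 1 ∣ y) := by
  subst e
  haveI : Fact q.Prime := ⟨hq⟩
  obtain ⟨π, -, h1, h2, h3, h4⟩ := exists_oldQuotient_qPr hL hM hqM S S₀
  suffices ∀ a b, a = locT S₀.θ (tqM M q) → b = locT S.θ (Reps.heckeGenOf (M * q) (qPr q)) →
      ∃ π : locHecke S.θ →ₐ[ℤ_[2]] AdjoinRoot (X ^ 2 - C a * X + C (q : locHecke S₀.θ)),
        (∀ l : ℕ, l.Prime → l ≠ q → π (locGen S.θ l) = AdjoinRoot.of _ (locGen S₀.θ l)) ∧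
        π b = AdjoinRoot.root _ ∧ (∀ x, π x = 0 ↔ x * (b ^ 2 - 1) = 0) ∧
        (∀ y, b ^ 2 - 1 ∣ 2 * y → b ^ 2 - 1 ∣ y) from
    this _ _ (locGen_prime _ hq) (locGen_prime _ hq)
  rintro a b rfl rfl
  refine ⟨π, fun l hl hne => ?_, h2, h3, fun y hy => ?_⟩
  · rw [locGen_prime _ hl, locGen_prime _ hl]
    exact h1 ⟨l, hl⟩ hne
  · exact Ideal.mem_span_singleton.mp (h4 y (Ideal.mem_span_singleton.mpr hy))

/-- The old quotient in the tower. -/
theorem exists_pi_tower (S : ∀ G : Finset D.Aux, ResSys (lvl D G) D) (G : Finset D.Aux) (q : D.Aux)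
    (hq : q ∈ G) :
    ∃ π : locHecke (S G).θ →ₐ[ℤ_[2]] AdjoinRoot (X ^ 2 - C (locGen (S (G.erase q)).θ q.1) * X +
        C ((q.1 : ℕ) : locHecke (S (G.erase q)).θ)),
      (∀ l : ℕ, l.Prime → l ≠ q.1 →
        π (locGen (S G).θ l) = AdjoinRoot.of _ (locGen (S (G.erase q)).θ l)) ∧
      π (locGen (S G).θ q.1) = AdjoinRoot.root _ ∧
      (∀ x, π x = 0 ↔ x * (locGen (S G).θ q.1 ^ 2 - 1) = 0) ∧
      (∀ y, locGen (S G).θ q.1 ^ 2 - 1 ∣ 2 * y → locGen (S G).θ q.1 ^ 2 - 1 ∣ y) :=
  exists_pi q.2.1 (lvl_erase_mul hq) (levelHyp_lvl G) (levelHyp_lvl _)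
    (not_dvd_lvl q.2.1 (by
      rintro ⟨-, h | ⟨s, hs, he⟩⟩
      · exact q.2.2.1 h
      · exact (Finset.mem_erase.1 hs).1 (Subtype.ext he))) _ _

/-- Change of the name of a level. -/
def tzCongr {L L' : ℕ} [NeZero L] [NeZero L'] (e : L = L') : Reps.TZ L →+* Reps.TZ L' := by
  subst e
  exact RingHom.id _

theorem tzCongr_gen {L L' : ℕ} [NeZero L] [NeZero L'] (e : L = L') (r : Nat.Primes) :
    tzCongr e (Reps.heckeGenOf L r) = Reps.heckeGenOf L' r := by
  subst e
  rfl

theorem tzCongr_symm {L L' : ℕ} [NeZero L] [NeZero L'] (e : L = L') (x : Reps.TZ L') :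
    tzCongr e (tzCongr e.symm x) = x := by
  subst e
  rfl

/-- Comparison with the Hecke algebra of level `2 m`. -/
def heckeBottom (S : ResSys (lvl D ∅) D) :
    CuspForm.heckeAlgebra (2 * D.m) 2 ∅ →+* locHecke S.θ :=
  (locTHom S.θ).comp (tzCongr (lvl_empty D).symm)

theorem heckeBottom_gen (S : ResSys (lvl D ∅) D) (r : Nat.Primes) :
    heckeBottom S (Reps.heckeGenOf (2 * D.m) r) = locT S.θ (Reps.heckeGenOf (lvl D ∅) r) := by
  rw [← tzCongr_gen (lvl_empty D).symm]
  rfl

theorem heckeBottom_T (S : ResSys (lvl D ∅) D) (l : ℕ) (hl : l.Prime) (hlN : ¬ l ∣ 2 * D.m) :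
    heckeBottom S (CuspForm.heckeAlgebra.T hl hlN (Set.notMem_empty l)) = locGen S.θ l :=
  (congrArg (heckeBottom S) (Reps.heckeGenOf_T (2 * D.m) hl hlN).symm).trans
    ((heckeBottom_gen S ⟨l, hl⟩).trans (locGen_prime _ hl).symm)

theorem heckeBottom_U (S : ResSys (lvl D ∅) D) (v : ℕ) (hv : v.Prime) (hvN : v ∣ 2 * D.m) :
    heckeBottom S (CuspForm.heckeAlgebra.U hv hvN (Set.notMem_empty v)) = locGen S.θ v := by
  refine (congrArg (heckeBottom S) ?_).trans
    ((heckeBottom_gen S ⟨v, hv⟩).trans (locGen_prime _ hv).symm)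
  simp [Reps.heckeGenOf, hvN]

/-- The completion property at the bottom level. -/
theorem heckeBottom_lift (S : ResSys (lvl D ∅) D) (B : Type) [CommRing B] [IsLocalRing B]
    [Algebra ℤ_[2] B] [Module.Finite ℤ_[2] B]
    (f : CuspForm.heckeAlgebra (2 * D.m) 2 ∅ →+* B)
    (hf : ∀ x, f x - ((locRed S.θ (heckeBottom S x)).val : B) ∈ IsLocalRing.maximalIdeal B) :
    ∃ g : locHecke S.θ →ₐ[ℤ_[2]] B, ∀ x, g (heckeBottom S x) = f x := by
  obtain ⟨g, hg⟩ := exists_locLift S.θ B (f.comp (tzCongr (lvl_empty D))) fun x => by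
    have h := hf (tzCongr (lvl_empty D) x)
    rwa [heckeBottom, RingHom.comp_apply, locTHom_apply, tzCongr_symm (lvl_empty D).symm,
      locRed_locT] at h
  refine ⟨g, fun x => ?_⟩
  rw [heckeBottom, RingHom.comp_apply, locTHom_apply, hg, RingHom.comp_apply,
    tzCongr_symm (lvl_empty D)]

end FLTAgent.Mod2
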