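import Fermat.Agent.Mod2.TowerRep

/-!
# Mazur's principle in the tower, in the coordinates of a basis

`mem_of_unramified_basis`: an element killed by `U_q² - 1` lies in any ideal containing a power
of two modulo which the Galois matrices are trivial on inertia at `q` (`mem_of_unramified` in a
basis).
-/

set_option autoImplicit false
set_option linter.unusedSectionVars false

noncomputable section

open Matrix ModularCurve

namespace FLTAgent.Mod2

variable {D : Setup}

/-- A congruence unramified at `q` is old at `q`. -/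
theorem mem_of_unramified_basis {L M q : ℕ} [NeZero L] [NeZero M] (hq : q.Prime) (e : M * q = L)
    (hL : LevelHyp D L) (hM : LevelHyp D M) (hqM : ¬ q ∣ M) (S : ResSys L D)
    (b : Module.Basis (Fin 2) (locHecke S.θ) (LocLat S.θ)) (I : Ideal (locHecke S.θ))
    {n : ℕ} (hn : (2 : locHecke S.θ) ^ n ∈ I)
    (hur : ∀ A : ValuationSubring (AlgebraicClosure ℚ), A.LiesOverPrime q →
      ∀ σ ∈ A.inertiaSubgroupIn ℚ, ∀ i j, (galBasis b σ - 1) i j ∈ I)
    {x : locHecke S.θ} (hx : x * (locGen S.θ q ^ 2 - 1) = 0) : x ∈ I := by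
  subst e
  rw [locGen_prime _ hq] at hx
  refine mem_of_unramified hL hM hq hqM S I ⟨n, hn⟩ (fun A hA τ hτ w => ?_) x hx
  refine ⟨galLoc S.θ τ w - w, ?_, ?_⟩
  · rw [← b.sum_repr w, map_sum, ← Finset.sum_sub_distrib]
    refine sum_mem fun j _ => ?_
    rw [map_smul, ← smul_sub]
    refine Submodule.smul_mem _ _ ?_
    rw [← b.sum_repr (galLoc S.θ τ (b j) - b j)]
    refine sum_mem fun i _ => Submodule.smul_mem_smul ?_ Submodule.mem_top
    have h := hur A hA τ hτ i j
    rw [Matrix.sub_apply, galBasis_apply, Matrix.one_apply] at h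
    rw [map_sub, Finsupp.sub_apply, Module.Basis.repr_self]
    rcases eq_or_ne i j with rfl | hij
    · rwa [Finsupp.single_eq_same, ← if_pos (rfl : i = i) (t := (1 : locHecke S.θ)) (e := 0)]
    · rwa [Finsupp.single_eq_of_ne hij, ← if_neg hij (t := (1 : locHecke S.θ)) (e := 0)]
  · rw [map_sub, val_galLoc, add_sub_cancel]

end FLTAgent.Mod2
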