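import Fermat.Agent.Mod2.HeckeAtTwo
import Fermat.Agent.Mod2.TowerLevels
import Fermat.Agent.Local.Bound
import Fermat.Agent.Mazur.Descent.Tame

/-!
# The representation of one level of the Hecke tower

In a basis lifting `ρ̄` (`exists_basis_lifts`) the Galois matrices are continuous
(`isCont_galBasis`), have trace `T_q` at Frobenius (`trace_galBasis_frob`), are special at the
primes of `2 m` (`specialAt_galBasis`), cyclic on inertia at the odd primes dividing the level once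
(`exists_galBasis_cyclic`), and `T_q ≠ ±(1 + q)` in characteristic zero (`locGen_ne`).
-/

set_option autoImplicit false
set_option linter.unusedSectionVars false
set_option linter.style.haveILetI false

noncomputable section

open Matrix ModularCurve Polynomial

namespace FLTAgent.Mod2

local notation "Qb" => AlgebraicClosure ℚ
local notation "Γℚ" => (AlgebraicClosure ℚ ≃ₐ[ℚ] AlgebraicClosure ℚ)

/-! ### Two by two matrices -/

theorem exists_conj_s3 : ∀ a c : Mat2 (ZMod 2), a * a = 1 → c * c = 1 →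
    a * c * (a * c) + a * c + 1 = 0 →
    ∃ P : Mat2 (ZMod 2), P.det ≠ 0 ∧ a * P = P * !![0, 1; 1, 0] ∧ c * P = P * !![1, 1; 0, 1] := by
  decide +kernel

theorem mat2_words : ∀ g : Mat2 (ZMod 2), g.det ≠ 0 →
    g = 1 ∨ g = !![0, 1; 1, 0] ∨ g = !![1, 1; 0, 1] ∨ g = !![0, 1; 1, 0] * !![1, 1; 0, 1] ∨
      g = !![1, 1; 0, 1] * !![0, 1; 1, 0] ∨
      g = !![0, 1; 1, 0] * !![1, 1; 0, 1] * !![0, 1; 1, 0] := by
  decide +kernel

theorem mat2_charpoly {B : Type*} [CommRing B] (g : Matrix (Fin 2) (Fin 2) B) :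
    g * g - g.trace • g + g.det • (1 : Matrix (Fin 2) (Fin 2) B) = 0 := by
  rw [Matrix.det_fin_two, Matrix.trace_fin_two]
  ext i j
  fin_cases i <;> fin_cases j <;> simp [Matrix.mul_apply, Fin.sum_univ_two] <;> ring

theorem trace_eq_of_rel {B : Type*} [CommRing B] {g : Matrix (Fin 2) (Fin 2) B} (hg : IsUnit g)
    {t : B} (h : g * g - t • g + g.det • (1 : Matrix (Fin 2) (Fin 2) B) = 0) : g.trace = t := by
  have h1 : (g.trace - t) • g = 0 := by
    rw [sub_smul]
    have h2 : g * g - t • g + g.det • (1 : Matrix (Fin 2) (Fin 2) B) -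
        (g * g - g.trace • g + g.det • (1 : Matrix (Fin 2) (Fin 2) B)) = 0 := by
      rw [h, mat2_charpoly, sub_zero]
    rw [← h2]
    abel
  obtain ⟨u, hu⟩ := hg
  have h3 := congrArg (fun X => (X * (↑u⁻¹ : Matrix (Fin 2) (Fin 2) B)) 0 0) h1
  simp only [← hu, Matrix.smul_mul, Units.mul_inv, zero_mul, Matrix.smul_apply, Matrix.one_apply_eq,
    smul_eq_mul, mul_one, Matrix.zero_apply] at h3
  rw [← sub_eq_zero]
  exact hu ▸ h3

/-- The trace of a matrix with an eigen column. -/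
theorem trace_eq_of_col {B : Type*} [CommRing B] {g N : Matrix (Fin 2) (Fin 2) B} {c : B}
    {i j : Fin 2} (hN : IsUnit (N i j)) (h : (g - c • 1) * N = 0) :
    c * g.trace = c * c + g.det := by
  have hgN : g * N = c • N := by
    rwa [sub_mul, Matrix.smul_mul, one_mul, sub_eq_zero] at h
  have e : (g * g - g.trace • g + g.det • (1 : Matrix (Fin 2) (Fin 2) B)) * N =
      (c * c - g.trace * c + g.det) • N := by
    rw [add_mul, sub_mul, mul_assoc, hgN, Matrix.mul_smul, hgN, Matrix.smul_mul, hgN,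
      Matrix.smul_mul, one_mul, smul_smul, smul_smul, ← sub_smul, ← add_smul]
  rw [mat2_charpoly, zero_mul] at e
  have h1 := congrArg (fun X => X i j) e.symm
  simp only [Matrix.smul_apply, smul_eq_mul, Matrix.zero_apply] at h1
  linear_combination -((hN.mul_left_eq_zero).mp h1)

variable {L : ℕ} [NeZero L] {D : Setup} {S : ResSys L D}

theorem resF2_eq_locRed (θ : Reps.TZ L →+* ZMod 2) : resF2 θ = locRed θ := by
  refine RingHom.ext fun a => ?_
  obtain ⟨t, c, rfl⟩ := exists_locT_sub a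
  rw [map_add, map_add, map_mul, map_mul, map_ofNat, map_ofNat,
    show (2 : ZMod 2) = 0 from rfl, zero_mul, zero_mul, resF2_locT, locRed_locT]

/-- A basis in which the residual representation is `ρ̄`. -/
theorem exists_basis_lifts (hL : LevelHyp D L) (S : ResSys L D) :
    ∃ b : Module.Basis (Fin 2) (locHecke S.θ) (LocLat S.θ),
      ∀ σ, (galBasis b σ).map (locRed S.θ) = D.rho σ := by
  obtain ⟨b⟩ := nonempty_basis_locLattice hL S
  have hP := hasRel_resEnd b
  have hfac : ∀ σ σ', D.rho σ = D.rho σ' → resRep b σ = resRep b σ' := fun σ σ' h =>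
    Matrix.toLinAlgEquiv'.injective (hP.eq_of_rho h)
  obtain ⟨s, hs⟩ := D.surj !![0, 1; 1, 0] (by decide)
  obtain ⟨s', hs'⟩ := D.surj !![1, 1; 0, 1] (by decide)
  have h2 : ∀ σ, D.rho σ * D.rho σ = 1 → resRep b σ * resRep b σ = 1 := fun σ h => by
    rw [← map_mul, hfac (σ * σ) 1 (by rw [map_mul, h, map_one]), map_one]
  obtain ⟨P, hP0, hPs, hPs'⟩ := exists_conj_s3 (resRep b s) (resRep b s')
    (h2 s (by rw [hs]; decide)) (h2 s' (by rw [hs']; decide)) (by
      have h := resRep_rel b (s * s')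
      rwa [show (D.rho (s * s')).trace = 1 by rw [map_mul, hs, hs']; decide, one_smul, map_mul] at h)
  have hconj : ∀ σ, resRep b σ * P = P * D.rho σ := fun σ => by
    rcases mat2_words _ (det_rho (D := D) σ) with h | h | h | h | h | h
    · rw [hfac σ 1 (by rw [h, map_one]), map_one, h, one_mul, mul_one]
    · rw [hfac σ s (by rw [h, hs]), hPs, h]
    · rw [hfac σ s' (by rw [h, hs']), hPs', h]
    · rw [hfac σ (s * s') (by rw [h, map_mul, hs, hs']), map_mul, mul_assoc, hPs', ← mul_assoc,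
        hPs, h, mul_assoc]
    · rw [hfac σ (s' * s) (by rw [h, map_mul, hs, hs']), map_mul, mul_assoc, hPs, ← mul_assoc,
        hPs', h, mul_assoc]
    · rw [hfac σ (s * s' * s) (by rw [h, map_mul, map_mul, hs, hs']), map_mul, map_mul, mul_assoc,
        hPs, ← mul_assoc (resRep b s * resRep b s'), mul_assoc (resRep b s), hPs', ← mul_assoc,
        hPs, h]
      simp only [mul_assoc]
  set Pt : Matrix (Fin 2) (Fin 2) (locHecke S.θ) := P.map fun x => (x.val : locHecke S.θ) with hPt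
  have hPtr : Pt.map (resF2 S.θ) = P := by
    ext i j
    simp [hPt]
  have hdet : IsUnit Pt.det := by
    by_contra h
    refine hP0 ?_
    rw [← hPtr, ← RingHom.mapMatrix_apply, ← RingHom.map_det]
    exact resF2_eq_zero.mpr ((IsLocalRing.mem_maximalIdeal _).mpr h)
  let b' := b.map (Matrix.toLinearEquiv b Pt hdet)
  have hbb : b.toMatrix b' = Pt := by
    refine Matrix.ext fun i j => ?_
    show b.repr (Matrix.toLin b b Pt (b j)) i = Pt i j
    rw [Matrix.toLin_self, b.repr_sum_self]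
  refine ⟨b', fun σ => ?_⟩
  have key : galBasis b σ * Pt = Pt * galBasis b' σ := by
    rw [← hbb]
    show LinearMap.toMatrix b b (galLoc S.θ σ) * _ =
      _ * LinearMap.toMatrix b' b' (galLoc S.θ σ)
    rw [linearMap_toMatrix_mul_basis_toMatrix, basis_toMatrix_mul_linearMap_toMatrix]
  have h := congrArg (resF2 S.θ).mapMatrix key
  rw [map_mul, map_mul, RingHom.mapMatrix_apply, RingHom.mapMatrix_apply, RingHom.mapMatrix_apply,
    hPtr, ← resRep_apply, hconj] at h
  rw [← resF2_eq_locRed]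
  have hPu : IsUnit P := (Matrix.isUnit_iff_isUnit_det P).mpr (Ne.isUnit hP0)
  exact (hPu.mul_left_cancel h).symm

variable (b : Module.Basis (Fin 2) (locHecke S.θ) (LocLat S.θ))

theorem galBasis_sub_smul (σ : Γℚ) (c : locHecke S.θ) :
    galBasis b σ - c • 1 = LinearMap.toMatrix b b (galLoc S.θ σ - c • 1) := by
  rw [map_sub, map_smul, LinearMap.toMatrix_one]
  rfl

/-- Relations between endomorphisms, as matrices. -/
theorem galBasis_mul_eq_zero {σ τ : Γℚ} {c d : locHecke S.θ}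
    (h : ∀ v, galLoc S.θ σ (galLoc S.θ τ v - d • v) = c • (galLoc S.θ τ v - d • v)) :
    (galBasis b σ - c • 1) * (galBasis b τ - d • 1) = 0 := by
  rw [galBasis_sub_smul, galBasis_sub_smul, ← LinearMap.toMatrix_mul,
    ← map_zero (LinearMap.toMatrix b b)]
  congr 1
  refine LinearMap.ext fun v => ?_
  simp only [Module.End.mul_apply, LinearMap.sub_apply, LinearMap.smul_apply, Module.End.one_apply,
    LinearMap.zero_apply]
  rw [h, sub_self]

theorem isUnit_galBasis (σ : Γℚ) : IsUnit (galBasis b σ) := (Group.isUnit σ).map _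

theorem galBasis_eq_one {σ : Γℚ} (h : galM L σ = 1) : galBasis b σ = 1 := by
  have : galLoc S.θ σ = 1 := LinearMap.ext fun v => LocLat.val_injective (by
    rw [val_galLoc, h, one_mulVec]; rfl)
  show LinearMap.toMatrix b b (galLoc S.θ σ) = 1
  rw [this, LinearMap.toMatrix_one]

/-- The Galois matrices are continuous. -/
theorem isCont_galBasis : IsCont (galBasis b) := fun n => by
  obtain ⟨K, hK, hfix⟩ := (Reps.galModel L 2).continuous_level n
  refine ⟨K, hK, fun σ hσ i j => ?_⟩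
  have h0 : red n (LocLat.val (galLoc S.θ σ (b j) - b j)) = 0 := by
    have e : galMod L n σ = 1 := hfix σ hσ
    have e2 : red n (LocLat.val (galLoc S.θ σ (b j))) = red n (LocLat.val (b j)) := by
      rw [val_galLoc, red_galM, e, one_mulVec]
    funext k
    show PadicInt.toZModPow n _ = 0
    rw [map_sub, Pi.sub_apply, map_sub, sub_eq_zero]
    exact congrFun e2 k
  obtain ⟨w, hw, hvw⟩ := exists_two_pow_smul n (LocLat.val_mem _) h0
  obtain ⟨w', rfl⟩ : ∃ w' : LocLat S.θ, LocLat.val w' = w := ⟨⟨w, hw⟩, rfl⟩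
  have hvw' : galLoc S.θ σ (b j) - b j = ((2 : ℤ_[2]) ^ n) • w' :=
    LocLat.val_injective (hvw.trans (LinearMap.map_smul _ _ _).symm)
  refine ⟨b.repr w' i, ?_⟩
  have e3 : ((2 : ℤ_[2]) ^ n) • w' = ((2 : locHecke S.θ) ^ n) • w' := by
    rw [← map_ofNat (algebraMap ℤ_[2] (locHecke S.θ)) 2, ← map_pow]
    rfl
  have h5 := congrArg (fun x => b.repr x i) hvw'
  simp only [e3, map_sub, map_smul, Finsupp.sub_apply, Finsupp.smul_apply, smul_eq_mul,
    Module.Basis.repr_self, ← galBasis_apply] at h5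
  rw [Matrix.sub_apply, Matrix.one_apply, ← h5]
  rcases eq_or_ne i j with rfl | hij
  · rw [Finsupp.single_eq_same, if_pos rfl]
  · rw [Finsupp.single_eq_of_ne hij, if_neg hij]

theorem cycLoc_natCast {q : ℕ} (hq : q.Prime) (h2 : q ≠ 2) {A : ValuationSubring Qb}
    (hA : A.LiesOverPrime q) {φ : Γℚ} (hφ : A.IsFrobeniusAt φ q) :
    cycLoc S.θ φ = (q : locHecke S.θ) := by
  show algebraMap ℤ_[2] (locHecke S.θ) (Reps.cyc 2 φ) = _
  rw [Reps.cyc_frobenius hq h2 hA hφ, map_natCast]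

/-- The trace of Frobenius at a good prime is the Hecke operator. -/
theorem trace_galBasis_frob {q : ℕ} (hq : q.Prime) (hqL : ¬ q ∣ L) (hq2 : q ≠ 2)
    {A : ValuationSubring Qb} (hA : A.LiesOverPrime q) {φ : Γℚ} (hφ : A.IsFrobeniusAt φ q) :
    (galBasis b φ).trace = locGen S.θ q := by
  refine trace_eq_of_rel (isUnit_galBasis b φ) ?_
  rw [det_galBasis, cycLoc_natCast hq hq2 hA hφ, locGen_prime _ hq, Reps.heckeGenOf_T L hq hqL]
  set T := locT S.θ (Reps.heckeTOf hq hqL) with hT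
  have h : galLoc S.θ φ * galLoc S.θ φ - T • galLoc S.θ φ + (q : locHecke S.θ) • 1 = 0 := by
    refine LinearMap.ext fun v => LocLat.val_injective ?_
    have h := congrArg (· *ᵥ LocLat.val v) ((Reps.galModel L 2).frobenius_rel q hq hqL hq2 A hA φ hφ)
    beta_reduce at h
    change (galM L φ * galM L φ - tauMat L ℤ_[2] (Reps.heckeTOf hq hqL) * galM L φ +
      (q : Matrix (Fin (Period.rankH L)) (Fin (Period.rankH L)) ℤ_[2])) *ᵥ LocLat.val v =
        (0 : Matrix (Fin (Period.rankH L)) (Fin (Period.rankH L)) ℤ_[2]) *ᵥ LocLat.val v at h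
    simp only [LinearMap.add_apply, LinearMap.sub_apply, LinearMap.smul_apply, Module.End.mul_apply,
      Module.End.one_apply, LinearMap.zero_apply, map_add, map_sub, map_zero,
      Nat.cast_smul_eq_nsmul, map_nsmul, val_galLoc, hT, val_locT_smul]
    rw [add_mulVec, sub_mulVec, ← mulVec_mulVec, ← mulVec_mulVec, Matrix.natCast_mulVec,
      zero_mulVec, Nat.cast_smul_eq_nsmul] at h
    exact h
  have h' := congrArg (LinearMap.toMatrix b b) h
  rwa [map_add, map_sub, map_smul, map_smul, LinearMap.toMatrix_mul, LinearMap.toMatrix_one,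
    map_zero] at h'

/-! ### Local shapes -/

/-- The relations at a prime dividing `2 m`, on the localised lattice. -/
theorem bad_relations (hL : LevelHyp D L) {v : ℕ} (hv : v.Prime) (hvm : v ∣ 2 * D.m)
    {A : ValuationSubring Qb} (hA : A.LiesOverPrime v) {σ τ φ : Γℚ}
    (hσ : σ ∈ A.inertiaSubgroupIn ℚ) (hτ : τ ∈ A.inertiaSubgroupIn ℚ) (hφ : A.IsFrobeniusAt φ v)
    (w : LocLat S.θ) :
    galLoc S.θ σ (galLoc S.θ τ w - (1 : locHecke S.θ) • w) =
        cycLoc S.θ σ • (galLoc S.θ τ w - (1 : locHecke S.θ) • w) ∧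
      galLoc S.θ φ (galLoc S.θ σ w - (1 : locHecke S.θ) • w) =
        (cycLoc S.θ φ * locGen S.θ v) • (galLoc S.θ σ w - (1 : locHecke S.θ) • w) ∧
      galLoc S.θ σ (galLoc S.θ φ w - locGen S.θ v • w) =
        cycLoc S.θ σ • (galLoc S.θ φ w - locGen S.θ v • w) := by
  have hvL : v ∣ L := hvm.trans hL.dvd
  obtain ⟨h1, h2, h3⟩ := special_at_bad hL S ⟨v, hv⟩ hvL hvm A hA hσ hτ hφ (LocLat.val_mem w)
  have hc : ∀ (g : Γℚ) (u : LocLat S.θ),
      LocLat.val (cycLoc S.θ g • u) = Reps.cyc 2 g • LocLat.val u := fun g u => by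
    show LocLat.val (Reps.cyc 2 g • u) = _
    rw [LinearMap.map_smul]
  rw [locGen_prime _ hv]
  refine ⟨LocLat.val_injective ?_, LocLat.val_injective ?_, LocLat.val_injective ?_⟩ <;>
    rw [← sub_eq_zero]
  · rw [one_smul, hc, val_galLoc, map_sub, val_galLoc]
    rw [← mulVec_mulVec, sub_mulVec (galM L τ), one_mulVec, sub_mulVec, smul_mulVec,
      one_mulVec] at h1
    exact h1
  · rw [one_smul, mul_smul, hc, val_galLoc, val_locT_smul, map_sub, val_galLoc]
    rw [← mulVec_mulVec, sub_mulVec (galM L σ), one_mulVec, sub_mulVec, smul_mulVec] at h2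
    exact h2
  · rw [hc, val_galLoc, map_sub, val_galLoc, val_locT_smul]
    rw [← mulVec_mulVec, sub_mulVec (galM L φ), sub_mulVec, smul_mulVec, one_mulVec] at h3
    exact h3

/-- The Galois matrices are special at the primes dividing `2 m`. -/
theorem specialAt_galBasis (hL : LevelHyp D L) {v : ℕ} (hv : v.Prime) (hvm : v ∣ 2 * D.m) :
    SpecialAt v (locGen S.θ v) (galBasis b) := by
  have hvL : v ∣ L := hvm.trans hL.dvd
  have hUU : locGen S.θ v * locGen S.θ v = 1 := by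
    rw [locGen_prime _ hv]; exact U_mul_U_eq_one hL S ⟨v, hv⟩ hvL hvm
  obtain ⟨φ₀A, hφ₀A, -⟩ := GalCommon.exists_place_frobenius hv
  refine ⟨by rw [pow_two, hUU], fun A hA σ hσ τ hτ => ?_, fun A hA σ hσ φ hφ =>
    galBasis_mul_eq_zero b fun w => (bad_relations hL hv hvm hA hσ hσ hφ w).2.2,
    fun A hA σ hσ φ hφ => ?_, fun A hA σ hσ => ?_, fun A hA φ hφ => ?_⟩
  · obtain ⟨φ, hφ⟩ := GalCommon.exists_isFrobeniusAt hv hA
    have := galBasis_mul_eq_zero b fun w => (bad_relations hL hv hvm hA hσ hτ hφ w).1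
    rwa [one_smul] at this
  · have := galBasis_mul_eq_zero b fun w => (bad_relations hL hv hvm hA hσ hσ hφ w).2.1
    rwa [one_smul] at this
  · obtain ⟨φ, hφ⟩ := GalCommon.exists_isFrobeniusAt hv hA
    have h := galBasis_mul_eq_zero b fun w => (bad_relations hL hv hvm hA hσ hσ hφ w).1
    rw [one_smul] at h
    refine trace_eq_of_rel (isUnit_galBasis b σ) ?_
    rw [det_galBasis]
    show galBasis b σ * galBasis b σ - (1 + cycLoc S.θ σ) • galBasis b σ + cycLoc S.θ σ • 1 = 0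
    rw [sub_mul, Matrix.smul_mul, one_mul, mul_sub, mul_one] at h
    rw [← h, add_smul, one_smul, smul_sub]
    abel
  · obtain ⟨hinv, σ₀, hσ₀, hρ⟩ := D.ram v hv hvm A hA
    obtain ⟨i, j, hu⟩ := exists_isUnit_entry b hρ (hinv σ₀ hσ₀)
    have h := galBasis_mul_eq_zero b fun w => (bad_relations hL hv hvm hA hσ₀ hσ₀ hφ w).2.1
    rw [one_smul] at h
    have hN : IsUnit ((galBasis b σ₀ - 1) i j) := by
      rw [map_sub, Finsupp.sub_apply, ← galBasis_apply, Module.Basis.repr_self] at hu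
      rw [Matrix.sub_apply, Matrix.one_apply]
      rcases eq_or_ne i j with rfl | hij
      · rwa [if_pos rfl, ← Finsupp.single_eq_same (a := i) (b := (1 : locHecke S.θ))]
      · rwa [if_neg hij, ← Finsupp.single_eq_of_ne (b := (1 : locHecke S.θ)) hij]
    have ht := trace_eq_of_col hN h
    rw [det_galBasis] at ht
    have hcu : IsUnit (cycLoc S.θ φ * locGen S.θ v) :=
      ((Group.isUnit φ).map (cycLoc S.θ)).mul (IsUnit.of_mul_eq_one _ hUU)
    refine hcu.mul_left_cancel (ht.trans ?_)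
    show _ = cycLoc S.θ φ * locGen S.θ v * (locGen S.θ v * (1 + cycLoc S.θ φ))
    linear_combination cycLoc S.θ φ * (cycLoc S.θ φ - 1 - cycLoc S.θ φ) * hUU

/-- The relations at an odd prime of the level, on the localised lattice. -/
theorem odd_relations {L M v : ℕ} [NeZero L] [NeZero M] (e : M * v = L) {S : ResSys L D}
    (hv : v.Prime) (hv2 : v ≠ 2) (hvM : ¬ v ∣ M) {A : ValuationSubring Qb} (hA : A.LiesOverPrime v)
    {σ τ φ : Γℚ} (hσ : σ ∈ A.inertiaSubgroupIn ℚ) (hτ : τ ∈ A.inertiaSubgroupIn ℚ)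
    (hφ : A.IsFrobeniusAt φ v) (w : LocLat S.θ) :
    galLoc S.θ σ (galLoc S.θ τ w - (1 : locHecke S.θ) • w) =
        (1 : locHecke S.θ) • (galLoc S.θ τ w - (1 : locHecke S.θ) • w) ∧
      galLoc S.θ φ (galLoc S.θ σ w - (1 : locHecke S.θ) • w) =
        ((v : locHecke S.θ) * locGen S.θ v) • (galLoc S.θ σ w - (1 : locHecke S.θ) • w) ∧
      galLoc S.θ σ (galLoc S.θ φ w - locGen S.θ v • w) =
        (1 : locHecke S.θ) • (galLoc S.θ φ w - locGen S.θ v • w) := by
  subst e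
  have h1 := congrArg (· *ᵥ LocLat.val w) (sub_one_mul_sub_one hv hv2 hvM A hA hσ hτ)
  have h2 := congrArg (· *ᵥ LocLat.val w) (frob_mul_sub_one hv hv2 hvM A hA hφ hσ)
  have h3 := congrArg (· *ᵥ LocLat.val w) (sub_one_mul_frob hv hv2 hvM A hA hφ hσ)
  beta_reduce at h1 h2 h3
  rw [locGen_prime _ hv]
  refine ⟨LocLat.val_injective ?_, LocLat.val_injective ?_, LocLat.val_injective ?_⟩
  · rw [← mulVec_mulVec, sub_mulVec (galM (M * v) τ), one_mulVec, sub_mulVec, one_mulVec,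
      zero_mulVec, sub_eq_zero] at h1
    rw [one_smul, one_smul, val_galLoc, map_sub, val_galLoc]
    exact h1
  · rw [← mulVec_mulVec, smul_mulVec, ← mulVec_mulVec, sub_mulVec, one_mulVec] at h2
    rw [one_smul, mul_smul, Nat.cast_smul_eq_nsmul, map_nsmul, val_galLoc, val_locT_smul, map_sub,
      val_galLoc]
    exact h2
  · rw [← mulVec_mulVec, ← mulVec_mulVec, sub_mulVec, one_mulVec, sub_mulVec, one_mulVec] at h3
    rw [one_smul, val_galLoc, map_sub, val_galLoc, val_locT_smul, mulVec_sub, mul_galM_comm,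
      sub_eq_sub_iff_sub_eq_sub, h3, mulVec_sub]

/-- Inertia at an odd prime of the level is generated by one element, up to scalars. -/
theorem exists_inertia_scalar {M v : ℕ} [NeZero M] [NeZero (M * v)] (hv : v.Prime) (hv2 : v ≠ 2)
    (hvM : ¬ v ∣ M) (A : ValuationSubring Qb) (hA : A.LiesOverPrime v) :
    ∃ σ₀ ∈ A.inertiaSubgroupIn ℚ, ∀ σ ∈ A.inertiaSubgroupIn ℚ, ∃ c : ℤ_[2],
      galM (M * v) σ - 1 = c • (galM (M * v) σ₀ - 1) := by
  classical
  haveI : Fact v.Prime := ⟨hv⟩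
  set I := A.inertiaSubgroupIn ℚ
  set N : Γℚ → Matrix (Fin (Period.rankH (M * v))) (Fin (Period.rankH (M * v))) ℤ_[2] :=
    fun σ => galM (M * v) σ - 1 with hN
  by_cases hall : ∀ σ ∈ I, N σ = 0
  · exact ⟨1, one_mem _, fun σ hσ => ⟨0, by rw [zero_smul]; exact hall σ hσ⟩⟩
  -- the least divisibility
  have hex : ∃ k : ℕ, ∃ σ ∈ I, ∃ i j, ¬ (2 : ℤ_[2]) ^ (k + 1) ∣ N σ i j := by
    push Not at hall
    obtain ⟨σ, hσ, hne⟩ := hall
    obtain ⟨i, j, hij⟩ : ∃ i j, N σ i j ≠ 0 := by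
      by_contra h; push Not at h; exact hne (Matrix.ext h)
    refine ⟨(N σ i j).valuation, σ, hσ, i, j, fun h => ?_⟩
    have h' : N σ i j ∈ (Ideal.span {(2 : ℤ_[2]) ^ ((N σ i j).valuation + 1)}) :=
      Ideal.mem_span_singleton.mpr h
    have e := PadicInt.mem_span_pow_iff_le_valuation (p := 2) (N σ i j) hij
      ((N σ i j).valuation + 1)
    have := e.mp (by exact_mod_cast h')
    omega
  set k := Nat.find hex with hk
  obtain ⟨σ₀, hσ₀, i₀, j₀, hne⟩ := Nat.find_spec hex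
  have hdiv : ∀ σ ∈ I, ∀ i j, (2 : ℤ_[2]) ^ k ∣ N σ i j := fun σ hσ i j => by
    rcases Nat.eq_zero_or_pos k with h0 | h0
    · rw [h0, pow_zero]; exact one_dvd _
    · by_contra h
      refine Nat.find_min hex (Nat.sub_lt h0 one_pos) ⟨σ, hσ, i, j, ?_⟩
      rwa [Nat.sub_add_cancel (show 1 ≤ k from h0)]
  obtain ⟨u, hu⟩ := hdiv σ₀ hσ₀ i₀ j₀
  have huU : IsUnit u := by
    by_contra h
    have h2 : u ∈ IsLocalRing.maximalIdeal ℤ_[2] := (IsLocalRing.mem_maximalIdeal _).mpr h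
    rw [PadicInt.maximalIdeal_eq_span_p, Ideal.mem_span_singleton] at h2
    refine hne ?_
    rw [hu, pow_succ]
    exact mul_dvd_mul_left _ (by exact_mod_cast h2)
  refine ⟨σ₀, hσ₀, fun σ hσ => ?_⟩
  obtain ⟨w, hw⟩ := hdiv σ hσ i₀ j₀
  obtain ⟨u, rfl⟩ := huU
  refine ⟨w * ↑u⁻¹, Matrix.ext fun i j => ?_⟩
  show N σ i j = w * ↑u⁻¹ * N σ₀ i j
  rw [← sub_eq_zero]
  refine PadicInt.ext_of_toZModPow.mp fun n => ?_
  rw [map_zero, ← RingHom.mem_ker, PadicInt.ker_toZModPow, Ideal.mem_span_singleton]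
  push_cast
  -- a generator modulo `2 ^ m`
  set m := n + k with hm
  obtain ⟨K, hK, hfix⟩ := (Reps.galModel (M * v) 2).continuous_level m
  let ρ : Γℚ →* (Matrix (Fin (Period.rankH (M * v))) (Fin (Period.rankH (M * v)))
      (ZMod (2 ^ m)))ˣ := (galMod (M * v) m).toHomUnits
  have hpow : ∀ (i : Γℚ), i ∈ I → ∀ a : ℕ, galM (M * v) i ^ a = 1 + a • N i := fun i hi a =>
    BadOdd.galP_pow (p := 2) hvM A (Ne.symm hv2) hA hi a
  haveI := hK
  obtain ⟨g, hg, hgen, -⟩ := Mazur.Tame.exists_inertia_generator ρ K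
    (fun σ hσ => Units.ext (hfix σ hσ)) hv A hA Nat.prime_two (Ne.symm hv2)
    fun i hi => ⟨m, Units.ext (by
      rw [Units.val_pow_eq_pow_val, Units.val_one]
      show (PadicInt.toZModPow m).mapMatrix (galM (M * v) i) ^ 2 ^ m = 1
      rw [← map_pow, hpow i hi, map_add, map_one, map_nsmul, add_eq_left,
        ← Nat.cast_smul_eq_nsmul (ZMod (2 ^ m)), ZMod.natCast_self, zero_smul])⟩
  have hmul : ∀ τ ∈ I, ∃ a : ℕ, ∀ i j, (2 : ℤ_[2]) ^ m ∣ N τ i j - (a : ℤ_[2]) * N g i j := by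
    intro τ hτ
    obtain ⟨a, ha⟩ := (isOfFinOrder_of_finite (ρ g)).mem_powers_iff_mem_zpowers.mpr (hgen τ hτ)
    refine ⟨a, fun i j => ?_⟩
    have h' := congrArg (fun x : (Matrix _ _ (ZMod (2 ^ m)))ˣ => (x : Matrix
      (Fin (Period.rankH (M * v))) (Fin (Period.rankH (M * v))) (ZMod (2 ^ m))) i j) ha
    simp only [Units.val_pow_eq_pow_val] at h'
    change ((PadicInt.toZModPow m).mapMatrix (galM (M * v) g) ^ a) i j =
      (PadicInt.toZModPow m).mapMatrix (galM (M * v) τ) i j at h'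
    rw [← map_pow, hpow g hg] at h'
    have h'' : PadicInt.toZModPow m (N τ i j - (a : ℤ_[2]) * N g i j) = 0 := by
      rw [show N τ i j = galM (M * v) τ i j - (1 : Matrix _ _ ℤ_[2]) i j from rfl, map_sub, map_sub,
        show PadicInt.toZModPow m (galM (M * v) τ i j) = PadicInt.toZModPow m
          ((1 + a • N g : Matrix _ _ ℤ_[2]) i j) from h'.symm]
      rw [← Nat.cast_smul_eq_nsmul ℤ_[2]]
      simp [Matrix.add_apply]
    rw [← RingHom.mem_ker, PadicInt.ker_toZModPow, Ideal.mem_span_singleton] at h''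
    exact_mod_cast h''
  obtain ⟨a, ha⟩ := hmul σ hσ
  obtain ⟨a₀, ha₀⟩ := hmul σ₀ hσ₀
  obtain ⟨G, hG⟩ := hdiv g hg i₀ j₀
  have hn : ∀ (x : ℤ_[2]), (2 : ℤ_[2]) ^ m ∣ (2 : ℤ_[2]) ^ k * x → (2 : ℤ_[2]) ^ n ∣ x := by
    intro x hx
    rwa [hm, add_comm, pow_add, mul_dvd_mul_iff_left (pow_ne_zero _ two_ne_zero)] at hx
  have e0 : (2 : ℤ_[2]) ^ n ∣ ↑u - a₀ * G := hn _ (by
    have := ha₀ i₀ j₀
    rw [hu, hG] at this
    convert this using 1; ring)
  have e1 : (2 : ℤ_[2]) ^ n ∣ w - a * G := hn _ (by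
    have := ha i₀ j₀
    rw [hw, hG] at this
    convert this using 1; ring)
  have e2 : (2 : ℤ_[2]) ^ n ∣ (a : ℤ_[2]) - w * ↑u⁻¹ * a₀ := by
    have : (a : ℤ_[2]) - w * ↑u⁻¹ * a₀ = ↑u⁻¹ * ((a : ℤ_[2]) * (↑u - a₀ * G) -
        (a₀ : ℤ_[2]) * (w - a * G)) := by
      linear_combination -(a : ℤ_[2]) * Units.inv_mul u
    rw [this]
    exact Dvd.dvd.mul_left (dvd_sub (Dvd.dvd.mul_left e0 _) (Dvd.dvd.mul_left e1 _)) _
  have hnm : (2 : ℤ_[2]) ^ n ∣ (2 : ℤ_[2]) ^ m := pow_dvd_pow _ (Nat.le_add_right n k)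
  rw [show N σ i j - w * ↑u⁻¹ * N σ₀ i j = (N σ i j - (a : ℤ_[2]) * N g i j) -
    w * ↑u⁻¹ * (N σ₀ i j - (a₀ : ℤ_[2]) * N g i j) + ((a : ℤ_[2]) - w * ↑u⁻¹ * a₀) * N g i j by ring]
  exact dvd_add (dvd_sub (hnm.trans (ha i j)) (Dvd.dvd.mul_left (hnm.trans (ha₀ i j)) _))
    (Dvd.dvd.mul_right e2 _)

theorem exists_galBasis_cyclic {L M v : ℕ} [NeZero L] [NeZero M] (e : M * v = L) {S : ResSys L D}
    (b : Module.Basis (Fin 2) (locHecke S.θ) (LocLat S.θ)) (hv : v.Prime) (hv2 : v ≠ 2)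
    (hvM : ¬ v ∣ M) (A : ValuationSubring Qb) (hA : A.LiesOverPrime v) :
    ∃ σ₀ ∈ A.inertiaSubgroupIn ℚ, ∀ σ ∈ A.inertiaSubgroupIn ℚ, ∃ c : locHecke S.θ,
      galBasis b σ - 1 = c • (galBasis b σ₀ - 1) := by
  subst e
  obtain ⟨σ₀, hσ₀, h⟩ := exists_inertia_scalar hv hv2 hvM A hA
  refine ⟨σ₀, hσ₀, fun σ hσ => ?_⟩
  obtain ⟨c, hc⟩ := h σ hσ
  refine ⟨algebraMap ℤ_[2] (locHecke S.θ) c, ?_⟩
  rw [← one_smul (locHecke S.θ) (1 : Matrix (Fin 2) (Fin 2) (locHecke S.θ)), galBasis_sub_smul,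
    galBasis_sub_smul, ← map_smul]
  congr 1
  refine LinearMap.ext fun w => LocLat.val_injective ?_
  have h' := congrArg (· *ᵥ LocLat.val w) hc
  beta_reduce at h'
  rw [sub_mulVec, one_mulVec, smul_mulVec, sub_mulVec, one_mulVec] at h'
  show LocLat.val (galLoc S.θ σ w - (1 : locHecke S.θ) • w) =
    LocLat.val (c • (galLoc S.θ σ₀ w - (1 : locHecke S.θ) • w))
  rw [LinearMap.map_smul, map_sub, map_sub, one_smul, val_galLoc, val_galLoc]
  exact h'

/-- `T_q` is not `±(1 + q)` in characteristic zero. -/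
theorem locGen_ne (θ : Reps.TZ L →+* ZMod 2) {q : ℕ} (hq : q.Prime) (hqL : ¬ q ∣ L) {K : Type}
    [Field K] [CharZero K] (f : locHecke θ →+* K) {c : ℤ} (hc : |c| = (q : ℤ) + 1) :
    f (locGen θ q) ≠ c := by
  intro h
  set t : Reps.TZ L := Reps.heckeTOf hq hqL - (c : Reps.TZ L) with ht
  have hdet := Local.det_heckeT_sub_ne_zero hq hqL (HeckeH.heckeMatHom L)
    (HeckeH.heckeMatHom_injective L) hc
  set B := HeckeH.heckeMatHom L t with hB
  have hBdet : B.det ≠ 0 := by rwa [hB, ht, map_sub, map_intCast]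
  have h0 : B.charpoly.coeff 0 ≠ 0 := fun h0 => hBdet (by
    rw [Matrix.det_eq_sign_charpoly_coeff, h0, mul_zero])
  have hP : aeval t B.charpoly = 0 := HeckeH.heckeMatHom_injective L (by
    rw [map_zero]
    exact (aeval_algHom_apply (HeckeH.heckeMatHom L).toIntAlgHom t B.charpoly).symm.trans
      (Matrix.aeval_self_charpoly B))
  have hft : f (locTHom θ t) = 0 := by
    rw [ht, map_sub, map_intCast, map_sub, map_intCast, locTHom_apply,
      ← Reps.heckeGenOf_T L hq hqL, ← locGen_prime θ hq, h, sub_self]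
  have h2 := congrArg (fun x => f (locTHom θ x)) hP
  rw [← Polynomial.X_mul_divX_add B.charpoly] at h2
  simp only [map_add, map_mul, aeval_X, map_zero, hft, zero_mul, zero_add, map_intCast,
    eq_intCast] at h2
  exact h0 (by exact_mod_cast h2)

end FLTAgent.Mod2
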