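import Fermat.Prelude.Def_FLTPrelim_Modularity
import Fermat.Agent.Mod2.HesseForms
import Mathlib.NumberTheory.Padics.PadicVal.Basic

/-!
# The parameter at `2` of the 2-3 switch

`TwoData W` records what the congruence `t ≡ ρ s` modulo `2¹⁶` guarantees for `sh4`, `sh6` and
`shq`: prescribed powers of two, odd cofactors and an odd total valuation. It exists when `c₄` is
odd and `Δ` even (`exists_twoData`).
-/

set_option autoImplicit false

namespace FLTAgent.Mod2

open WeierstrassCurve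

/-- What the congruence `t ≡ ρ s` modulo `2¹⁶` guarantees at `2`. -/
structure TwoData (W : WeierstrassCurve ℤ) where
  rho : ℤ
  lam : ℤ
  eta : ℤ
  scale : ℤ
  lam_dvd : lam ∣ 4
  lam_pos : 0 < lam
  eta_pos : 0 < eta
  eta_spec : scale ^ 3 = lam ^ 12 * eta
  odd_val : Odd (padicValInt 2 W.Δ + padicValInt 2 eta)
  spec : ∀ s t : ℤ, ¬ (2 : ℤ) ∣ s → (65536 : ℤ) ∣ t - rho * s →
    ∃ C4 C6 Q : ℤ, sh4 W.c₄ W.c₆ s t = lam ^ 4 * C4 ∧ sh6 W.c₄ W.c₆ s t = lam ^ 6 * C6 ∧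
      shq W.c₄ W.c₆ s t = scale * Q ∧ ¬ (2 : ℤ) ∣ C4 ∧ (4 : ℤ) ∣ C6 + 1 ∧ ¬ (2 : ℤ) ∣ Q

theorem odd_c₄_of_two_dvd_Δ {W : WeierstrassCurve ℤ} (hW : W.IsSemistableModel)
    (h2 : (2 : ℤ) ∣ W.Δ) : ¬ (2 : ℤ) ∣ W.c₄ :=
  hW 2 Nat.prime_two h2

theorem four_dvd_c₆_add_one {W : WeierstrassCurve ℤ} (h : ¬ (2 : ℤ) ∣ W.c₄) :
    (4 : ℤ) ∣ W.c₆ + 1 := by
  have hb : ¬ (2 : ℤ) ∣ W.a₁ := by
    rintro ⟨k, hk⟩
    apply h
    refine ⟨(W.b₂ ^ 2 - 24 * W.b₄) / 2, (Int.mul_ediv_cancel' ?_).symm⟩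
    refine dvd_sub (dvd_pow ?_ two_ne_zero) ⟨12 * W.b₄, by ring⟩
    exact ⟨2 * k ^ 2 + 2 * W.a₂, by rw [WeierstrassCurve.b₂, hk]; ring⟩
  obtain ⟨k, hk⟩ : ∃ k, W.a₁ = 2 * k + 1 :=
    ⟨W.a₁ / 2, by omega⟩
  apply (ZMod.intCast_zmod_eq_zero_iff_dvd _ 4).1
  simp only [WeierstrassCurve.c₆, WeierstrassCurve.b₂, hk]
  push_cast
  rw [show (36 : ZMod 4) = 0 from rfl, show (216 : ZMod 4) = 0 from rfl, show (4 : ZMod 4) = 0 from rfl]
  generalize (k : ZMod 4) = z
  revert z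
  simp only [zero_mul, add_zero, sub_zero]
  decide

theorem exists_div_of_congr {X w z h e n : ℤ} (he : e ≠ 0) (hw : IsCoprime e w)
    (hX : e * n ∣ X * w - z * (e * h)) : ∃ C, X = e * C ∧ n ∣ C * w - z * h := by
  have h1 : e ∣ X * w := by
    have := dvd_add (Dvd.dvd.trans (dvd_mul_right e n) hX) (Dvd.dvd.mul_left (dvd_mul_right e h) z)
    rwa [sub_add_cancel] at this
  obtain ⟨C, hC⟩ := hw.dvd_of_dvd_mul_right h1
  refine ⟨C, hC, ?_⟩
  rw [hC, show e * C * w - z * (e * h) = e * (C * w - z * h) by ring] at hX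
  exact (mul_dvd_mul_iff_left he).1 hX

theorem isCoprime_two_pow {x : ℤ} (h : ¬ (2 : ℤ) ∣ x) (k : ℕ) : IsCoprime ((2 : ℤ) ^ k) x :=
  (Int.prime_two.coprime_iff_not_dvd.2 h).pow_left

/-- The parameter at `2` exists when `c₄` is odd and `Δ` even. -/
theorem exists_twoData (W : WeierstrassCurve ℤ) (hΔ : W.Δ ≠ 0) (hA : ¬ (2 : ℤ) ∣ W.c₄)
    (h2 : (2 : ℤ) ∣ W.Δ) : Nonempty (TwoData W) := by
  have hB4 := four_dvd_c₆_add_one hA
  have hB : ¬ (2 : ℤ) ∣ W.c₆ := by omega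
  set A := W.c₄
  set B := W.c₆
  rcases Nat.even_or_odd (padicValInt 2 W.Δ) with hv | hv
  swap
  · refine ⟨⟨0, 1, 1, 1, one_dvd _, one_pos, one_pos, by norm_num, by simpa using hv,
      fun s t hs ht => ?_⟩⟩
    rw [zero_mul, sub_zero] at ht
    refine ⟨sh4 A B s t, sh6 A B s t, shq A B s t, by ring, by ring, by ring, ?_, ?_, ?_⟩
    · have h0 : (t : ZMod 2) = 0 :=
        (ZMod.intCast_zmod_eq_zero_iff_dvd _ 2).2 (Dvd.dvd.trans (by norm_num) ht)
      have hs1 : (s : ZMod 2) = 1 := Fin.eq_one_of_ne_zero _ fun h =>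
        hs ((ZMod.intCast_zmod_eq_zero_iff_dvd _ 2).1 h)
      intro h
      apply hA
      apply (ZMod.intCast_zmod_eq_zero_iff_dvd _ 2).1
      have := (ZMod.intCast_zmod_eq_zero_iff_dvd _ 2).2 h
      rw [← eq_intCast (Int.castRingHom (ZMod 2)), map_sh4] at this
      simp only [eq_intCast, h0, hs1, (sh_one_zero _ _).2.1] at this
      exact this
    · have h0 : (t : ZMod 4) = 0 :=
        (ZMod.intCast_zmod_eq_zero_iff_dvd _ 4).2 (Dvd.dvd.trans (by norm_num) ht)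
      have hs2 : (s : ZMod 4) ^ 6 = 1 := by
        obtain ⟨k, hk⟩ : ∃ k, s = 2 * k + 1 := ⟨s / 2, by omega⟩
        rw [hk]; push_cast
        generalize (k : ZMod 4) = z
        revert z; decide
      apply (ZMod.intCast_zmod_eq_zero_iff_dvd _ 4).1
      rw [← eq_intCast (Int.castRingHom (ZMod 4)), map_add, map_sh6, map_one]
      simp only [eq_intCast, h0]
      rw [show sh6 (A : ZMod 4) (B : ZMod 4) (s : ZMod 4) 0 = (s : ZMod 4) ^ 6 * (B : ZMod 4) by
        simp only [sh6]; ring, hs2, one_mul]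
      exact_mod_cast (ZMod.intCast_zmod_eq_zero_iff_dvd _ 4).2 hB4
    · have h0 : (t : ZMod 2) = 0 :=
        (ZMod.intCast_zmod_eq_zero_iff_dvd _ 2).2 (Dvd.dvd.trans (by norm_num) ht)
      have hs1 : (s : ZMod 2) = 1 := Fin.eq_one_of_ne_zero _ fun h =>
        hs ((ZMod.intCast_zmod_eq_zero_iff_dvd _ 2).1 h)
      intro h
      have := (ZMod.intCast_zmod_eq_zero_iff_dvd _ 2).2 h
      rw [← eq_intCast (Int.castRingHom (ZMod 2)), map_shq] at this
      simp only [eq_intCast, h0, hs1, (sh_one_zero _ _).1] at this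
      exact one_ne_zero this
  -- even valuation
  have h4 : (4 : ℤ) ∣ W.Δ := by
    have h1 : 1 ≤ padicValInt 2 W.Δ := by
      rcases (padicValInt_dvd_iff (p := 2) 1 W.Δ).1 (by simpa using h2) with h | h
      · exact absurd h hΔ
      · exact h
    obtain ⟨r, hr⟩ := hv
    have h2' : 2 ≤ padicValInt 2 W.Δ := by omega
    have := (padicValInt_dvd_iff (p := 2) 2 W.Δ).2 (Or.inr h2')
    simpa using this
  obtain ⟨d, hd⟩ := h4
  set u : ℤ := -5 * B with hu
  have hu2 : ¬ (2 : ℤ) ∣ u := fun h =>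
    (Int.prime_two.dvd_or_dvd h).elim (by norm_num) hB
  obtain ⟨x, y, hxy⟩ := isCoprime_two_pow hu2 16
  norm_num at hxy
  have hB2 : B ^ 2 = A ^ 3 - 6912 * d := by
    have h := W.c_relation
    rw [hd] at h
    show W.c₆ ^ 2 = W.c₄ ^ 3 - 6912 * d
    linear_combination h
  refine ⟨⟨A * y, 4, 8, 512, dvd_rfl, by norm_num, by norm_num, by norm_num, ?_,
    fun s t hs ht => ?_⟩⟩
  · rw [show padicValInt 2 8 = 3 from ?_]
    · exact hv.add_odd (by decide)
    · rw [show (8 : ℤ) = ((2 ^ 3 : ℕ) : ℤ) by norm_num, padicValInt.of_nat]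
      exact padicValNat.prime_pow 3
  · have htu : (65536 : ℤ) ∣ u * t - A * s := by
      obtain ⟨w, hw⟩ := ht
      exact ⟨u * w - A * s * x, by linear_combination u * hw + (A * s) * hxy⟩
    have cast : ∀ (F : ∀ {R : Type} [CommRing R], R → R → R → R → R) (k : ℕ),
        (∀ {R S : Type} [CommRing R] [CommRing S] (φ : R →+* S) (a b p q : R),
          φ (F a b p q) = F (φ a) (φ b) (φ p) (φ q)) →
        (∀ {R : Type} [CommRing R] (c a b p q : R), F a b (c * p) (c * q) = c ^ k * F a b p q) →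
        (65536 : ℤ) ∣ F A B s t * u ^ k - s ^ k * F A B u A := by
      intro F k hmap hsmul
      apply (ZMod.intCast_zmod_eq_zero_iff_dvd _ 65536).1
      rw [← eq_intCast (Int.castRingHom (ZMod 65536)), map_sub, map_mul, map_mul, map_pow, map_pow,
        hmap, hmap, sub_eq_zero, mul_comm, ← hsmul, ← hsmul]
      have e : Int.castRingHom (ZMod 65536) u * Int.castRingHom (ZMod 65536) t =
          Int.castRingHom (ZMod 65536) s * Int.castRingHom (ZMod 65536) A := by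
        rw [← map_mul, ← map_mul, ← sub_eq_zero, ← map_sub, eq_intCast, mul_comm s A]
        exact (ZMod.intCast_zmod_eq_zero_iff_dvd _ 65536).2 htu
      rw [e, mul_comm (Int.castRingHom (ZMod 65536) u) (Int.castRingHom (ZMod 65536) s)]
    have c4 := cast @sh4 4 (fun φ a b p q => map_sh4 φ a b p q)
      (fun c a b p q => sh4_smul c a b p q)
    have c6 := cast @sh6 6 (fun φ a b p q => map_sh6 φ a b p q)
      (fun c a b p q => sh6_smul c a b p q)
    have cq := cast @shq 4 (fun φ a b p q => map_shq φ a b p q)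
      (fun c a b p q => shq_smul c a b p q)
    have e4 : sh4 A B u A = 256 * (A ^ 7 - 10368 * d * A ^ 4 + 23328000 * d ^ 2 * A) := by
      rw [show sh4 A B u A = 125 * A * (B ^ 2) ^ 2 + 134 * A ^ 4 * B ^ 2 - 3 * A ^ 7 by
        simp only [sh4, hu]; ring, hB2]
      ring
    have e6 : sh6 A B u A = 4096 * (B * (A ^ 9 - 39744 * d * A ^ 6 + 408240000 * d ^ 2 * A ^ 3 -
        1259712000000 * d ^ 3)) := by
      rw [show sh6 A B u A = B * (15625 * (B ^ 2) ^ 3 - 11875 * A ^ 3 * (B ^ 2) ^ 2 +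
        427 * A ^ 6 * B ^ 2 - 81 * A ^ 9) by simp only [sh6, hu]; ring, hB2]
      ring
    have eq : shq A B u A = 512 * (A ^ 6 - 15390 * d * A ^ 3 + 58320000 * d ^ 2) := by
      rw [show shq A B u A = 625 * (B ^ 2) ^ 2 - 110 * A ^ 3 * B ^ 2 - 3 * A ^ 6 by
        simp only [shq, hu]; ring, hB2]
      ring
    rw [e4] at c4
    rw [e6] at c6
    rw [eq] at cq
    have hu' : ∀ k j : ℕ, IsCoprime ((2 : ℤ) ^ k) (u ^ j) :=
      fun k j => (isCoprime_two_pow hu2 k).pow_right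
    obtain ⟨C4, hC4, d4⟩ := exists_div_of_congr (e := 256) (n := 256) (by norm_num)
      (by simpa using hu' 8 4) (by simpa using c4)
    obtain ⟨C6, hC6, d6⟩ := exists_div_of_congr (e := 4096) (n := 16) (by norm_num)
      (by simpa using hu' 12 6) (by simpa using c6)
    obtain ⟨Q, hQ, dQ⟩ := exists_div_of_congr (e := 512) (n := 128) (by norm_num)
      (by simpa using hu' 9 4) (by simpa using cq)
    obtain ⟨k, hk⟩ : ∃ k, s = 2 * k + 1 := ⟨s / 2, by omega⟩
    obtain ⟨l, hl⟩ : ∃ l, u = 2 * l + 1 := ⟨u / 2, by omega⟩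
    obtain ⟨a, ha⟩ : ∃ a, A = 2 * a + 1 := ⟨A / 2, by omega⟩
    have hA4 : (A : ZMod 4) = 1 := by
      rw [← sub_eq_zero, ← Int.cast_one, ← Int.cast_sub, ← Nat.cast_ofNat]
      refine (ZMod.intCast_zmod_eq_zero_iff_dvd _ 4).2 ?_
      obtain ⟨w, hw⟩ := hB4
      have hodd : (4 : ℤ) ∣ A ^ 3 - 1 := ⟨1728 * d + 4 * w ^ 2 - 2 * w,
        by linear_combination (B + 4 * w - 1) * hw - hB2⟩
      have hz := (ZMod.intCast_zmod_eq_zero_iff_dvd _ 4).2 hodd
      apply (ZMod.intCast_zmod_eq_zero_iff_dvd _ 4).1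
      rw [ha] at hz ⊢
      push_cast at hz ⊢
      revert hz
      generalize (a : ZMod 4) = z
      revert z; decide
    refine ⟨C4, C6, Q, by rw [hC4]; norm_num, by rw [hC6]; norm_num, hQ, ?_, ?_, ?_⟩
    · intro h
      have hz := (ZMod.intCast_zmod_eq_zero_iff_dvd _ 2).2
        (Dvd.dvd.trans (show ((2 : ℕ) : ℤ) ∣ 256 by norm_num) d4)
      have hC := (ZMod.intCast_zmod_eq_zero_iff_dvd _ 2).2 h
      rw [hk, ha, hl] at hz
      push_cast at hz
      rw [hC, show (2 : ZMod 2) = 0 from rfl, show (10368 : ZMod 2) = 0 from rfl,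
        show (23328000 : ZMod 2) = 0 from rfl] at hz
      simp at hz
    · apply (ZMod.intCast_zmod_eq_zero_iff_dvd _ 4).1
      have hz := (ZMod.intCast_zmod_eq_zero_iff_dvd _ 4).2
        (Dvd.dvd.trans (show ((4 : ℕ) : ℤ) ∣ 16 by norm_num) d6)
      have hBz : (B : ZMod 4) = -1 := by
        rw [eq_neg_iff_add_eq_zero, ← Int.cast_one, ← Int.cast_add]
        exact (ZMod.intCast_zmod_eq_zero_iff_dvd _ 4).2 hB4
      rw [hk, hl] at hz
      push_cast at hz
      rw [hA4, hBz, show (39744 : ZMod 4) = 0 from rfl, show (408240000 : ZMod 4) = 0 from rfl,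
        show (1259712000000 : ZMod 4) = 0 from rfl] at hz
      simp only [zero_mul, sub_zero, add_zero, one_pow, mul_one] at hz
      push_cast
      revert hz
      generalize (k : ZMod 4) = z
      generalize (l : ZMod 4) = z'
      generalize (C6 : ZMod 4) = c
      revert z z' c; decide
    · intro h
      have hz := (ZMod.intCast_zmod_eq_zero_iff_dvd _ 2).2
        (Dvd.dvd.trans (show ((2 : ℕ) : ℤ) ∣ 128 by norm_num) dQ)
      have hC := (ZMod.intCast_zmod_eq_zero_iff_dvd _ 2).2 h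
      rw [hk, ha, hl] at hz
      push_cast at hz
      rw [hC, show (2 : ZMod 2) = 0 from rfl, show (15390 : ZMod 2) = 0 from rfl,
        show (58320000 : ZMod 2) = 0 from rfl] at hz
      simp at hz

end FLTAgent.Mod2
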