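import Fermat.Agent.Mod2.DlogTwo
import Fermat.Agent.Kronecker.Specialization
import Fermat.Agent.Mazur.Eis.Cong

/-!
# Series whose reduction up to constants is a `2 ^ n`-th power

`IsDeep A n x` is stable under products and inverses, holds for `2 ^ n`-th powers, descends along
powers (`IsDeep.of_pow`), holds for `τ(x) / x` with `τ` in inertia (`isDeep_inertia`), and for
`n = 1` kills the logarithmic derivative (`IsDeep.qDlog_eq_zero`).
-/

set_option autoImplicit false
set_option linter.unusedSectionVars false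
set_option linter.style.haveILetI false

noncomputable section

open ModularCurve

namespace FLTAgent.Mod2

open FLTAgent.BadQ (gV gval Scalable)

local notation "Qb" => AlgebraicClosure ℚ
local notation "Γℚ" => (AlgebraicClosure ℚ ≃ₐ[ℚ] AlgebraicClosure ℚ)

variable {A : ValuationSubring Qb}

local notation "kA" => IsLocalRing.ResidueField A
local notation "π" => IsLocalRing.residue A

/-- The reduction is a constant times a `2 ^ n`-th power. -/
def IsDeep (A : ValuationSubring Qb) (n : ℕ) (x : LaurentSeries Qb) : Prop :=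
  ∃ (t : IsLocalRing.ResidueField A) (u : LaurentSeries (IsLocalRing.ResidueField A)),
    t ≠ 0 ∧ sred A x = HahnSeries.C t * u ^ 2 ^ n

theorem scalable_inv {x : LaurentSeries Qb} (hx : Scalable A π x) :
    Scalable A π x⁻¹ ∧ ∃ t : kA, t ≠ 0 ∧ sred A x⁻¹ = HahnSeries.C t * (sred A x)⁻¹ := by
  obtain ⟨c, hc, hm, hs, hn⟩ := sred_spec hx
  obtain ⟨hi, hir⟩ := BadQ.inv_mem_gV A π hm (hs ▸ hn)
  have e : HahnSeries.C c⁻¹ * x⁻¹ = (HahnSeries.C c * x)⁻¹ := by
    rw [mul_inv, map_inv₀]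
  rw [← e] at hi hir
  have hne : gval A π (HahnSeries.C c⁻¹ * x⁻¹) ≠ 0 := by
    rw [hir, ← hs]; exact inv_ne_zero hn
  have hsc := scalable_of_gV (inv_ne_zero hc) hi hne
  obtain ⟨t, ht, h⟩ := exists_sred_eq hsc (inv_ne_zero hc) hi hne
  exact ⟨hsc, t, ht, by rw [h, hir, hs]⟩

theorem isDeep_C (n : ℕ) {c : Qb} (hc : c ≠ 0) : IsDeep A n (HahnSeries.C c) := by
  obtain ⟨t, ht, h⟩ := exists_sred_C (A := A) hc
  exact ⟨t, 1, ht, by rw [h, one_pow, mul_one]⟩

theorem IsDeep.mul {n : ℕ} {x y : LaurentSeries Qb} (hx : Scalable A π x) (hy : Scalable A π y)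
    (h : IsDeep A n x) (h' : IsDeep A n y) : IsDeep A n (x * y) := by
  obtain ⟨t, u, ht, e⟩ := h
  obtain ⟨t', u', ht', e'⟩ := h'
  obtain ⟨-, s, hs, es⟩ := exists_sred_mul hx hy
  refine ⟨s * t * t', u * u', mul_ne_zero (mul_ne_zero hs ht) ht', ?_⟩
  rw [es, e, e', map_mul, map_mul, mul_pow]
  ring

theorem IsDeep.inv {n : ℕ} {x : LaurentSeries Qb} (hx : Scalable A π x) (h : IsDeep A n x) :
    IsDeep A n x⁻¹ := by
  obtain ⟨t, u, ht, e⟩ := h
  obtain ⟨-, s, hs, es⟩ := scalable_inv hx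
  refine ⟨s * t⁻¹, u⁻¹, mul_ne_zero hs (inv_ne_zero ht), ?_⟩
  rw [es, e, mul_inv, ← map_inv₀, map_mul, inv_pow, mul_assoc]

theorem exists_sred_pow {x : LaurentSeries Qb} (hx : Scalable A π x) (n : ℕ) :
    ∃ t : kA, t ≠ 0 ∧ sred A (x ^ n) = HahnSeries.C t * sred A x ^ n := by
  induction n with
  | zero =>
    obtain ⟨t, ht, h⟩ := exists_sred_C (A := A) (one_ne_zero' Qb)
    rw [map_one] at h
    exact ⟨t, ht, by rw [pow_zero, pow_zero, mul_one, h]⟩
  | succ n ih =>
    obtain ⟨t, ht, h⟩ := ih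
    obtain ⟨-, s, hs, es⟩ := exists_sred_mul (scalable_pow hx n).1 hx
    refine ⟨s * t, mul_ne_zero hs ht, ?_⟩
    rw [pow_succ, es, h, map_mul, pow_succ]
    ring

theorem isDeep_pow (n : ℕ) {y : LaurentSeries Qb} (hy : Scalable A π y) :
    IsDeep A n (y ^ 2 ^ n) := by
  obtain ⟨t, ht, h⟩ := exists_sred_pow hy (2 ^ n)
  exact ⟨t, _, ht, h⟩

theorem isDeep_zero (x : LaurentSeries Qb) : IsDeep A 0 x :=
  ⟨1, sred A x, one_ne_zero, by rw [map_one, one_mul, pow_zero, pow_one]⟩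

theorem frobenius_iterate_injective (hA : A.LiesOverPrime 2) (k : ℕ) :
    Function.Injective fun y : LaurentSeries kA => y ^ 2 ^ k := by
  haveI := GalCommon.charP_residueField Nat.prime_two hA
  haveI : Fact (Nat.Prime 2) := ⟨Nat.prime_two⟩
  haveI : CharP (LaurentSeries kA) 2 :=
    charP_of_injective_ringHom (HahnSeries.C_injective (Γ := ℤ) (R := kA)) 2
  intro y z h
  induction k generalizing y z with
  | zero => simpa using h
  | succ k ih =>
    have h' : (y ^ 2 ^ k) ^ 2 = (z ^ 2 ^ k) ^ 2 := by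
      simpa [← pow_mul, ← pow_succ] using h
    exact ih (CharTwo.sq_injective h' :)

/-- The reduction of a `2 ^ k`-th power is deep to order `n + k` only if deep to order `n`. -/
theorem IsDeep.of_pow (hA : A.LiesOverPrime 2) {n k : ℕ} {x : LaurentSeries Qb}
    (hx : Scalable A π x) (h : IsDeep A (n + k) (x ^ 2 ^ k)) : IsDeep A n x := by
  haveI := GalCommon.isAlgClosed_residueField A Nat.prime_two hA
  obtain ⟨t, u, ht, e⟩ := h
  obtain ⟨s, hs, es⟩ := exists_sred_pow hx (2 ^ k)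
  obtain ⟨r, hr⟩ := IsAlgClosed.exists_pow_nat_eq (t / s) (n := 2 ^ k) (by positivity)
  refine ⟨r, u, fun h0 => ?_, frobenius_iterate_injective hA k ?_⟩
  · rw [h0, zero_pow (by positivity), eq_comm, div_eq_zero_iff] at hr
    exact hr.elim ht hs
  · have hC : HahnSeries.C s ≠ (0 : LaurentSeries kA) :=
      (map_ne_zero HahnSeries.C).mpr hs
    refine mul_left_cancel₀ hC ?_
    show HahnSeries.C s * sred A x ^ 2 ^ k = HahnSeries.C s * (HahnSeries.C r * u ^ 2 ^ n) ^ 2 ^ k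
    rw [← es, e, mul_pow, ← map_pow, hr, ← pow_mul, ← pow_add, ← mul_assoc, ← map_mul,
      mul_div_cancel₀ _ hs]

theorem IsDeep.qDlog_eq_zero (hA : A.LiesOverPrime 2) {x : LaurentSeries Qb}
    (h : IsDeep A 1 x) : MazurP.qDlog (sred A x) = 0 := by
  haveI := GalCommon.charP_residueField Nat.prime_two hA
  haveI : Fact (Nat.Prime 2) := ⟨Nat.prime_two⟩
  obtain ⟨t, u, ht, e⟩ := h
  rw [e, qDlog_C_mul ht, pow_one, MazurP.qDlog_pow_char 2 _ two_ne_zero]

/-- The reduction is compatible with the decomposition group. -/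
theorem exists_sred_galois (g : A.decompositionSubgroup ℚ) {x : LaurentSeries Qb}
    (hx : Scalable A π x) :
    Scalable A π (coeffMap ((g : Γℚ) : Qb →+* Qb) x) ∧
      ∃ t : kA, t ≠ 0 ∧ sred A (coeffMap ((g : Γℚ) : Qb →+* Qb) x) =
        HahnSeries.C t * coeffMap (Kronecker.resAut A g).toRingHom (sred A x) := by
  obtain ⟨c, hc, hm, hs, hn⟩ := sred_spec hx
  set τ : Qb →+* Qb := ((g : Γℚ) : Qb →+* Qb)
  obtain ⟨hm', hg'⟩ := BadQ.gval_coeffMap A π τ
    (MulSemiringAction.toRingHom (A.decompositionSubgroup ℚ) A g)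
    (Kronecker.resAut A g).toRingHom (fun a => rfl)
    (fun a => (GalCommon.smul_residue_eq g a).symm) hm
  have hCτ : coeffMap τ (HahnSeries.C c * x) = HahnSeries.C (τ c) * coeffMap τ x := by
    rw [map_mul, HahnSeries.C_apply, HahnSeries.C_apply, coeffMap_single]
  rw [hCτ] at hm' hg'
  have hτc : τ c ≠ 0 := (map_ne_zero τ).mpr hc
  have hne : gval A π (HahnSeries.C (τ c) * coeffMap τ x) ≠ 0 := by
    rw [hg', ← hs]
    exact (map_ne_zero_iff _ (coeffMap (Kronecker.resAut A g).toRingHom).injective).mpr hn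
  have hsc := scalable_of_gV hτc hm' hne
  obtain ⟨t, ht, h⟩ := exists_sred_eq hsc hτc hm' hne
  exact ⟨hsc, t, ht, by rw [h, hg', hs]⟩

/-- Inertia does not move the reduction. -/
theorem isDeep_inertia (n : ℕ) {τ : Γℚ} (hτ : τ ∈ A.inertiaSubgroupIn ℚ) {x : LaurentSeries Qb}
    (hx : Scalable A π x) : IsDeep A n (coeffMap (τ : Qb →+* Qb) x * x⁻¹) := by
  obtain ⟨g, rfl, hg⟩ := Kronecker.resAut_eq_one_of_mem_inertia hτ
  obtain ⟨hsc, t, ht, e⟩ := exists_sred_galois g hx
  obtain ⟨hi, s, hs, ei⟩ := scalable_inv hx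
  obtain ⟨-, r, hr, er⟩ := exists_sred_mul hsc hi
  refine ⟨r * t * s, 1, mul_ne_zero (mul_ne_zero hr ht) hs, ?_⟩
  have hid : ∀ y : LaurentSeries kA, coeffMap (Kronecker.resAut A g).toRingHom y = y := fun y => by
    ext i
    rw [coeffMap_coeff, hg]
    rfl
  rw [er, e, hid, ei, one_pow, mul_one, map_mul, map_mul]
  have h0 := sred_ne_zero hx
  field_simp

end FLTAgent.Mod2
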