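import Fermat.Agent.Mod2.HeckeResidual
import Fermat.Agent.Mod2.TwoCard
import Fermat.Agent.Mod2.HeckeOldKill
import Fermat.Agent.Mod2.TwoDeepSer

/-!
# The deep vectors of the localised lattice at two

`DeepPt`: a class of `2 ^ n`-torsion has a function whose reduction at infinity is a constant
times a `2 ^ n`-th power. `τ - 1` for inertia and `φ U - 1` for Frobenius land in deep classes
(`deepPt_inertia`, `deepPt_frob`), and deep classes killed by the maximal ideal are fixed by
inertia (`smul_eq_of_deepPt`); this gives the saturated submodule of `exists_deep`.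
-/

set_option autoImplicit false
set_option linter.unusedSectionVars false
set_option linter.style.haveILetI false
set_option maxHeartbeats 1000000
set_option synthInstance.maxHeartbeats 400000

noncomputable section

open Matrix ModularCurve AlgebraicCurve SemilinearAut

namespace FLTAgent.Mod2

open FLTAgent.BadQ (Scalable atkinLehner)
open FLTAgent.LowerQ (wAut galF)
open FLTAgent.Kronecker (normAlpha twist)

local notation "Qb" => AlgebraicClosure ℚ
local notation "Γℚ" => (AlgebraicClosure ℚ ≃ₐ[ℚ] AlgebraicClosure ℚ)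

variable {M : ℕ} [NeZero M] {D : Setup} {A : ValuationSubring Qb}

local notation "FL" => modularFunctionFieldBar (M * 2)
local notation "F0" => modularFunctionFieldBar M
local notation "kA" => IsLocalRing.ResidueField A
local notation "π" => IsLocalRing.residue A

/-! ### Functions of classes -/

/-- `f` is a function of the class `z`: `div f = 2 ^ n E`, `E` in the class. -/
def IsRepN (n : ℕ) (z : JZero (M * 2)) (E : Divisor.degZero (K := Qb) (F := FL)) (f : FL) : Prop :=
  Pic0.mk E = z ∧ f ≠ 0 ∧ ∀ v, v.ord f = ((2 ^ n : ℕ) : ℤ) * (E : Divisor Qb FL) v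

/-- The class has a function with deep reduction at infinity. -/
def DeepPt (A : ValuationSubring Qb) (n : ℕ) (z : JZero (M * 2)) : Prop :=
  ∃ E f, IsRepN n z E f ∧ IsDeep A n (f : LaurentSeries Qb)

theorem isRepN_zero (n : ℕ) : IsRepN (M := M) n 0 0 1 :=
  ⟨by simp, one_ne_zero, fun v => by simp [v.ord_one]⟩

theorem IsRepN.mul {n : ℕ} {z z' : JZero (M * 2)}
    {E E' : Divisor.degZero (K := Qb) (F := FL)} {f f' : FL} (h : IsRepN n z E f)
    (h' : IsRepN n z' E' f') : IsRepN n (z + z') (E + E') (f * f') :=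
  ⟨by rw [Pic0.mk_add, h.1, h'.1], mul_ne_zero h.2.1 h'.2.1, fun v => by
    rw [v.ord_mul h.2.1 h'.2.1, h.2.2, h'.2.2, AddSubgroup.coe_add, Finsupp.add_apply, mul_add]⟩

theorem IsRepN.inv {n : ℕ} {z : JZero (M * 2)} {E : Divisor.degZero (K := Qb) (F := FL)} {f : FL}
    (h : IsRepN n z E f) : IsRepN n (-z) (-E) f⁻¹ :=
  ⟨by rw [← h.1]; rfl, inv_ne_zero h.2.1, fun v => by
    rw [Place.ord_inv, h.2.2, NegMemClass.coe_neg, Finsupp.neg_apply, mul_neg]⟩

theorem IsRepN.smul {n : ℕ} {z : JZero (M * 2)} {E : Divisor.degZero (K := Qb) (F := FL)} {f : FL}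
    (h : IsRepN n z E f) (g : SemilinearAut Qb FL) :
    IsRepN n (g • z) (SemilinearAut.degZeroSMulHom g E) (g • f) :=
  ⟨by rw [← SemilinearAut.pic0_smul_mk, h.1], fun h0 => h.2.1 (by
      simpa using congrArg (g⁻¹ • ·) h0),
    fun v => by
      rw [SemilinearAut.coe_degZeroSMulHom]
      exact MazurP.ord_smul_of_ord_eq g h.2.2 v⟩

theorem IsRepN.pow {n k : ℕ} {z : JZero (M * 2)} {E : Divisor.degZero (K := Qb) (F := FL)} {f : FL}
    (h : IsRepN n z E f) : IsRepN (n + k) z E (f ^ 2 ^ k) :=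
  ⟨h.1, pow_ne_zero _ h.2.1, fun v => by
    rw [FF.ord_pow, h.2.2, pow_add]; push_cast; ring⟩

variable (hA : A.LiesOverPrime 2)

include hA in
theorem IsRepN.deep_of_deep {n : ℕ} {z : JZero (M * 2)}
    {E E' : Divisor.degZero (K := Qb) (F := FL)} {f f' : FL} (h : IsRepN n z E f)
    (h' : IsRepN n z E' f') (hd : IsDeep A n (f : LaurentSeries Qb)) :
    IsDeep A n (f' : LaurentSeries Qb) := by
  obtain ⟨k1, k2, k3⟩ := h
  obtain ⟨h1, h2, h3⟩ := h'
  obtain ⟨g, hg, hgd⟩ := AddSubgroup.mem_addSubgroupOf.mp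
    (QuotientAddGroup.eq.mp (k1.trans h1.symm))
  obtain ⟨c, hc⟩ := MazurP.exists_smul_of_ord_eq h2 (mul_ne_zero k2 (pow_ne_zero (2 ^ n) hg))
    fun Q => by
      have hQ : ((-E + E' : Divisor.degZero (K := Qb) (F := FL)) : Divisor Qb FL) Q = Q.ord g :=
        hgd Q
      simp only [AddSubgroup.coe_add, NegMemClass.coe_neg, Finsupp.add_apply,
        Finsupp.neg_apply] at hQ
      rw [h3, Q.ord_mul k2 (pow_ne_zero (2 ^ n) hg), FF.ord_pow, k3]
      push_cast
      linear_combination ((2 : ℤ) ^ n) * hQ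
  have hc0 : c ≠ 0 := fun h0 => h2 (by rw [hc, h0, map_zero, zero_mul])
  rw [hc, IntermediateField.coe_mul, IntermediateField.coe_mul, IntermediateField.coe_pow,
    MazurP.coe_algebraMap_bar_C]
  exact IsDeep.mul (scalable_C hc0)
    (scalable_mul (scalable_bar hA k2) (scalable_pow (scalable_bar hA hg) _).1) (isDeep_C n hc0)
    (IsDeep.mul (scalable_bar hA k2) (scalable_pow (scalable_bar hA hg) _).1 hd
      (isDeep_pow n (scalable_bar hA hg)))

theorem deepPt_zero (n : ℕ) : DeepPt (M := M) A n 0 :=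
  ⟨0, 1, isRepN_zero n, by
    have h := isDeep_C (A := A) n (one_ne_zero' Qb)
    rw [map_one] at h
    rwa [IntermediateField.coe_one]⟩

include hA in
theorem DeepPt.add {n : ℕ} {z z' : JZero (M * 2)} (h : DeepPt A n z) (h' : DeepPt A n z') :
    DeepPt A n (z + z') := by
  obtain ⟨E, f, hr, hd⟩ := h
  obtain ⟨E', f', hr', hd'⟩ := h'
  refine ⟨_, _, hr.mul hr', ?_⟩
  rw [IntermediateField.coe_mul]
  exact hd.mul (scalable_bar hA hr.2.1) (scalable_bar hA hr'.2.1) hd'

include hA in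
theorem DeepPt.neg {n : ℕ} {z : JZero (M * 2)} (h : DeepPt A n z) : DeepPt A n (-z) := by
  obtain ⟨E, f, hr, hd⟩ := h
  refine ⟨_, _, hr.inv, ?_⟩
  rw [IntermediateField.coe_inv]
  exact hd.inv (scalable_bar hA hr.2.1)

/-- Every class of `2 ^ n`-torsion has a function. -/
theorem exists_isRepN {n : ℕ} {z : JZero (M * 2)} (hz : (2 ^ n) • z = 0) :
    ∃ E f, IsRepN n z E f :=
  MazurP.exists_fun_of_nsmul_eq_zero hz

/-- The norm to level `M` of a function of a class killed by the pushforward. -/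
theorem exists_normBack_eq (φ : F0 →ₐ[Qb] FL) (hφ : φ.toRingHom.IsIntegral) (N : ℕ)
    (E : Divisor.degZero (K := Qb) (F := FL)) {f : FL} (hf : f ≠ 0)
    (hdiv : ∀ v, v.ord f = (N : ℤ) * (E : Divisor Qb FL) v)
    (hpush : Divisor.pushforwardAlong φ hφ (E : Divisor Qb FL) ∈
      Divisor.principal (K := Qb) (F := F0)) :
    ∃ c : Qb, c ≠ 0 ∧ ∃ g : F0, g ≠ 0 ∧
      MazurP.normBack φ f = φ (algebraMap Qb F0 c * g ^ N) := by
  haveI := Kronecker.isFF_bar M
  haveI := Kronecker.isFF_bar (M * 2)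
  have hfin : FiniteAlong Qb φ := FF.finiteAlong φ
  have hN : NormFormulaAlong Qb φ hfin := FF.normFormulaAlong φ hfin (FF.separableAlong φ)
  obtain ⟨g, hg, hgd⟩ := hpush
  letI := algebraAlong φ
  haveI := isScalarTower_along φ
  haveI := isIntegral_along φ hφ
  haveI : Module.Finite F0 FL := hfin
  set n := Algebra.norm F0 f with hn
  have hn0 : n ≠ 0 := Algebra.norm_ne_zero_iff.mpr hf
  obtain ⟨c, hc⟩ := MazurP.exists_smul_of_ord_eq hn0 (pow_ne_zero N hg) fun v => by
    have h1 := hN f hf ((N : ℤ) • (E : Divisor Qb FL))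
      (fun w => by rw [Finsupp.smul_apply, smul_eq_mul, hdiv]) v
    rw [map_zsmul, Finsupp.smul_apply, smul_eq_mul] at h1
    rw [hn, ← h1, FF.ord_pow, ← hgd v]
    rfl
  exact ⟨c, fun h0 => hn0 (by rw [hc, h0, map_zero, zero_mul]), g, hg, by rw [← hc]; rfl⟩

/-- The pushforward of classes along a map of function fields. -/
def pushHom (φ : F0 →ₐ[Qb] FL) (hφ : φ.toRingHom.IsIntegral) : JZero (M * 2) →+ JZero M :=
  haveI := Kronecker.isFF_bar M
  haveI := Kronecker.isFF_bar (M * 2)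
  QuotientAddGroup.map _ _
    (((Divisor.pushforwardAlong φ hφ).domRestrict _).codRestrict
      (Divisor.degZero (K := Qb) (F := F0))
      (fun D => Divisor.pushforwardAlong_mem_degZero φ hφ D.2))
    fun D hD => by
      rw [AddSubgroup.mem_comap, AddSubgroup.mem_addSubgroupOf]
      exact Divisor.isPrincipal_pushforwardAlong φ hφ (FF.finiteAlong φ)
        (FF.normFormulaAlong φ (FF.finiteAlong φ) (FF.separableAlong φ)) hD

theorem pushHom_galois (φ : F0 →ₐ[Qb] FL) (hφ : φ.toRingHom.IsIntegral)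
    (hint : ∀ σ : Γℚ, SemilinearAut.IntertwinesAlong φ.toRingHom
      (arithmeticGalois (modularFunctionFieldFull M) σ)
      (arithmeticGalois (modularFunctionFieldFull (M * 2)) σ))
    (σ : Γℚ) (z : JZero (M * 2)) : pushHom φ hφ (σ • z) = σ • pushHom φ hφ z := by
  obtain ⟨E, rfl⟩ := Pic0.mk_surjective z
  rw [galois_smul_pic0_def, galois_smul_pic0_def, SemilinearAut.pic0_smul_mk]
  show Pic0.mk _ = arithmeticGalois (modularFunctionFieldFull M) σ • Pic0.mk _
  rw [SemilinearAut.pic0_smul_mk]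
  exact congrArg Pic0.mk (Subtype.ext (Kronecker.pushforwardAlong_smul φ hφ (hint σ)
    (Kronecker.deg_eq_one_bar M) (Kronecker.deg_eq_one_bar (M * 2)) _))

theorem pushforward_mem_of_pushHom {φ : F0 →ₐ[Qb] FL} {hφ : φ.toRingHom.IsIntegral}
    {E : Divisor.degZero (K := Qb) (F := FL)} (h : pushHom φ hφ (Pic0.mk E) = 0) :
    Divisor.pushforwardAlong φ hφ (E : Divisor Qb FL) ∈
      Divisor.principal (K := Qb) (F := F0) := by
  change Pic0.mk _ = 0 at h
  rw [Pic0.mk, QuotientAddGroup.eq_zero_iff, AddSubgroup.mem_addSubgroupOf] at h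
  exact h

variable (hM : ¬ 2 ∣ M) {S : ResSys (M * 2) D}
  (b : Module.Basis (Fin 2) (locHecke S.θ) (LocLat S.θ))

include hM hA b in
theorem pushHom_latPt (φ : F0 →ₐ[Qb] FL) (hφ : φ.toRingHom.IsIntegral)
    (hint : ∀ σ : Γℚ, SemilinearAut.IntertwinesAlong φ.toRingHom
      (arithmeticGalois (modularFunctionFieldFull M) σ)
      (arithmeticGalois (modularFunctionFieldFull (M * 2)) σ))
    (n : ℕ) (v : LocLat S.θ) : pushHom φ hφ (latPt n (LocLat.val v)) = 0 := by
  obtain ⟨τ, -, hτ, hτ2, hfix⟩ :=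
    exists_inertia_fixing (M := M) Nat.prime_two (dvd_mul_right 2 D.m) hM hA
  let Φ : ℕ → LocLat S.θ →+ JZero M := fun n =>
    (pushHom φ hφ).comp ((latPt n).comp (LocLat.val (θ := S.θ)).toAddMonoidHom)
  refine tower_map_eq_zero b hτ hτ2 hfix Φ (fun m σ w => ?_) (fun w => ?_) (fun m w => ?_) n v
  · show pushHom φ hφ (latPt m (LocLat.val (galLoc S.θ σ w))) = σ • pushHom φ hφ _
    rw [val_galLoc, latPt_galM, pushHom_galois φ hφ hint]
    rfl
  · show pushHom φ hφ (latPt 0 (LocLat.val w)) = 0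
    rw [latPt_zero_left, map_zero]
  · show 2 • pushHom φ hφ (latPt (m + 1) (LocLat.val w)) = pushHom φ hφ (latPt m (LocLat.val w))
    rw [← map_nsmul, latPt_two_smul]

/-! ### The reductions on the two components -/

include hM hA b in
/-- The reduction at infinity times the Frobenius transform of the reduction of the transform under
the involution is deep, on the localised lattice. -/
theorem isDeep_frob_mul {n : ℕ} (v : LocLat S.θ) {E : Divisor.degZero (K := Qb) (F := FL)}
    {f : FL} (h : IsRepN n (latPt n (LocLat.val v)) E f) {φ : Γℚ} (hφ : A.IsFrobeniusAt φ 2) :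
    IsDeep A n (((galF (M * 2) φ • atkinLehner Nat.prime_two hM f) * f : FL) : LaurentSeries Qb) :=
      by
  haveI := GalCommon.charP_residueField Nat.prime_two hA
  haveI := GalCommon.isAlgClosed_residueField A Nat.prime_two hA
  haveI : Fact (Nat.Prime 2) := ⟨Nat.prime_two⟩
  have hα : HeckeAlphaBarIntegral Qb M 2 := (Kronecker.heckeInputs_bar M 2).choose
  have hpush := pushforward_mem_of_pushHom (φ := heckeAlphaBar Qb M 2) (hφ := hα) (E := E) (by
    rw [h.1]
    exact pushHom_latPt hA hM b _ hα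
      (fun σ => Kronecker.intertwinesAlong_heckeAlphaBar Qb M 2 σ) n v)
  obtain ⟨c, hc, g, hg, hN⟩ := exists_normBack_eq _ hα (2 ^ n) E h.2.1 h.2.2 hpush
  obtain ⟨ζ, hζ2, hq⟩ := qExpand_normAlpha_two hM f
  have hNs : ((normAlpha Qb M 2 f : F0) : LaurentSeries Qb) =
      HahnSeries.C c * ((g : LaurentSeries Qb)) ^ 2 ^ n := by
    have h1 := congrArg (fun y : FL => (y : LaurentSeries Qb)) hN
    simp only [coe_heckeAlphaBar, IntermediateField.coe_mul, IntermediateField.coe_pow,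
      MazurP.coe_algebraMap_bar_C] at h1
    rw [← h1]
    exact (coe_heckeAlphaBar M 2 _).symm
  rw [hNs, Fin.prod_univ_two] at hq
  simp only [Fin.val_zero, Fin.val_one, pow_zero, pow_one, Kronecker.twist_one] at hq
  obtain ⟨u, hu, hu2⟩ := exists_unit_of_pow_eq_one A two_ne_zero hζ2
  rw [← hu] at hq
  set G : LaurentSeries Qb := (f : LaurentSeries Qb) with hG
  set W : LaurentSeries Qb := ((atkinLehner Nat.prime_two hM f : FL) : LaurentSeries Qb) with hW
  have hf : f ≠ 0 := h.2.1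
  have hWf : atkinLehner Nat.prime_two hM f ≠ 0 := (map_ne_zero _).mpr hf
  have hGs : Scalable A π G := scalable_bar hA hf
  have hWs : Scalable A π W := scalable_bar hA hWf
  have hgs : Scalable A π (g : LaurentSeries Qb) := by
    have := scalable_bar (A := A) hA (y := heckeAlphaBar Qb M 2 g)
      ((map_ne_zero (heckeAlphaBar Qb M 2)).mpr hg)
    rwa [coe_heckeAlphaBar] at this
  have hYs := scalable_mul (scalable_C (A := A) hc) (scalable_pow hgs (2 ^ n)).1
  obtain ⟨t, y, ht, ey⟩ :=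
    IsDeep.mul (scalable_C (A := A) hc) (scalable_pow hgs (2 ^ n)).1 (isDeep_C n hc)
      (isDeep_pow n hgs)
  obtain ⟨-, t₁, ht₁, eY⟩ := scalable_qExpand 2 hYs
  obtain ⟨hEG, t₃, ht₃, eG⟩ := scalable_qExpand 2 hGs
  obtain ⟨hTW, t₄, ht₄, eTW⟩ := scalable_twist u hWs
  obtain ⟨hWW, t₅, ht₅, eWW⟩ := exists_sred_mul hWs hTW
  obtain ⟨-, t₆, ht₆, eR⟩ := exists_sred_mul hEG hWW
  have hu1 : Units.map (π).toMonoidHom u = 1 := by
    refine Units.ext (frobenius_inj kA 2 ?_)
    rw [frobenius_def, ← Units.val_pow_eq_pow_val, ← map_pow, hu2, map_one, Units.val_one,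
      map_one]
  rw [hq, eR, eWW, eG, eTW, hu1, Kronecker.twist_one] at eY
  set a := sred A G with ha
  set bW := sred A W with hb
  set Y := sred A (HahnSeries.C c * (g : LaurentSeries Qb) ^ 2 ^ n) with hY
  have e1 : HahnSeries.C (t₆ * t₃ * t₅ * t₄) * (qExpand kA 2 a * bW ^ 2) =
      HahnSeries.C t₁ * qExpand kA 2 Y := by
    simp only [map_mul]
    linear_combination eY
  have e2 := congrArg (coeffMap (frobenius kA 2)) e1
  have hE : ∀ y : LaurentSeries kA,
      coeffMap (frobenius kA 2) (qExpand kA 2 y) = y ^ 2 := fun y => by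
    rw [coeffMap_qExpand, Kronecker.pow_char_eq_qExpand 2 y]
  have hCf : ∀ t : kA, coeffMap (frobenius kA 2) (HahnSeries.C t) = HahnSeries.C t ^ 2 :=
    fun t => by
      rw [← map_pow, HahnSeries.C_apply, HahnSeries.C_apply, coeffMap_single, frobenius_def]
  have hr₁ : t₆ * t₃ * t₅ * t₄ ≠ 0 :=
    mul_ne_zero (mul_ne_zero (mul_ne_zero ht₆ ht₃) ht₅) ht₄
  generalize t₆ * t₃ * t₅ * t₄ = r₁ at e2 hr₁
  rw [map_mul, map_mul, map_mul, map_pow, hCf, hCf, hE, hE, ← mul_pow, ← mul_pow,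
    ← mul_pow] at e2
  have e3 := frobenius_series_injective hA e2
  -- the Galois transform
  obtain ⟨hFs, t₇, ht₇, eF⟩ := exists_sred_galois ⟨φ, hφ.mem_decompositionSubgroup⟩ hWs
  have hres : (Kronecker.resAut A ⟨φ, hφ.mem_decompositionSubgroup⟩).toRingHom =
      frobenius kA 2 := by
    ext x
    show Kronecker.resAut A ⟨φ, hφ.mem_decompositionSubgroup⟩ x = _
    rw [Kronecker.resAut_eq_frobenius hφ, frobeniusEquiv_apply]
  rw [hres] at eF
  obtain ⟨-, t₈, ht₈, eP⟩ := exists_sred_mul hFs hGs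
  refine ⟨t₈ * t₇ * t₁ * t * r₁⁻¹, y, by simp [ht₈, ht₇, ht₁, ht, hr₁], ?_⟩
  rw [IntermediateField.coe_mul, galF, coe_arithmeticGalois_smul, ← hW, ← hG]
  refine eP.trans ?_
  rw [eF, ← ha, ← hb]
  have hr : HahnSeries.C r₁ ≠ (0 : LaurentSeries kA) := (map_ne_zero HahnSeries.C).mpr hr₁
  rw [ey] at e3
  simp only [map_mul, map_inv₀]
  field_simp
  linear_combination (HahnSeries.C t₈ * HahnSeries.C t₇) * e3

include hM hA b in
/-- `φ U - 1` lands in the deep classes. -/
theorem deepPt_frob (n : ℕ) (v : LocLat S.θ) {φ : Γℚ} (hφ : A.IsFrobeniusAt φ 2) :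
    DeepPt A n (latPt n (LocLat.val (galLoc S.θ φ (locT S.θ (Reps.heckeGenOf (M * 2) ⟨2, Nat.prime_two⟩) • v) - v))) := by
  haveI : Fact (Nat.Prime 2) := ⟨Nat.prime_two⟩
  obtain ⟨E, f, h⟩ := exists_isRepN (pow_smul_latPt n (LocLat.val v))
  have h1 := ((h.smul (wAut Nat.prime_two hM)).smul (galF (M * 2) φ)).mul h
  have hd := isDeep_frob_mul hA hM b v h hφ
  have hW : wAut Nat.prime_two hM • latPt n (LocLat.val v) =
      latPt n (BadOdd.thetaP hM 2 *ᵥ LocLat.val v) := by
    have hc := BadOdd.thetaP_coord (p := 2) hM n ⟨_, latPt_mem n (LocLat.val v)⟩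
    rw [coordTors_latPt] at hc
    have e : red n (BadOdd.thetaP hM 2 *ᵥ LocLat.val v) =
        (PadicInt.toZModPow n).mapMatrix (BadOdd.thetaP hM 2) *ᵥ red n (LocLat.val v) :=
      funext fun i => RingHom.map_mulVec _ _ _ i
    rw [latPt_apply n (BadOdd.thetaP hM 2 *ᵥ LocLat.val v), e, hc, AddEquiv.symm_apply_apply]
  have e : latPt n (LocLat.val (galLoc S.θ φ (locT S.θ (Reps.heckeGenOf (M * 2) ⟨2, Nat.prime_two⟩) • v) - v)) =
      -(galF (M * 2) φ • wAut Nat.prime_two hM • latPt n (LocLat.val v) +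
        latPt n (LocLat.val v)) := by
    rw [map_sub, val_galLoc, map_sub, hW,
      thetaP_mulVec_val hM (dvd_mul_right 2 D.m) b, map_neg, smul_neg, latPt_galM, neg_add,
      neg_neg, sub_eq_add_neg]
    rfl
  rw [e]
  refine DeepPt.neg hA ⟨_, _, h1, ?_⟩
  rw [LowerQ.wAut_smul]
  exact hd

include hA in
/-- `τ - 1` lands in the deep classes. -/
theorem deepPt_inertia (n : ℕ) (v : LocLat S.θ) {τ : Γℚ} (hτ : τ ∈ A.inertiaSubgroupIn ℚ) :
    DeepPt A n (latPt n (LocLat.val (galLoc S.θ τ v - v))) := by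
  obtain ⟨E, f, h⟩ := exists_isRepN (pow_smul_latPt n (LocLat.val v))
  have h1 := (h.smul (galF (M * 2) τ)).mul h.inv
  rw [map_sub, val_galLoc, map_sub, latPt_galM, sub_eq_add_neg]
  refine ⟨_, _, h1, ?_⟩
  rw [IntermediateField.coe_mul, IntermediateField.coe_inv, galF, coe_arithmeticGalois_smul]
  exact isDeep_inertia n hτ (scalable_bar hA h.2.1)

theorem latPt_one_eq_jPt {L : ℕ} [NeZero L] (v : HVec L ℤ_[2]) : latPt 1 v = jPt (red2 v) := by
  have key : ∀ (n : ℕ) [NeZero n] (_ : n = 2) (x : HVec L (ZMod n)) (f : ZMod n →+* ZMod 2),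
      (((Reps.coordTors L n).symm x : Reps.tors L n) : JZero L) = jPt (fun i => f (x i)) := by
    rintro n _ rfl x f
    have hf : f = RingHom.id _ := Subsingleton.elim _ _
    subst hf
    rfl
  rw [latPt_apply, key (2 ^ 1) (pow_one 2) _ oneEquiv.toRingHom, red2_eq]
  rfl

include hM hA in
/-- Deep classes killed by the maximal ideal are fixed by inertia. -/
theorem smul_eq_of_deepPt {y : eigenSet S.θ} (hy : DeepPt A 1 (eigenPt S.θ y)) {τ : Γℚ}
    (hτ : τ ∈ A.inertiaSubgroupIn ℚ) : eigenRep S.θ τ y = y := by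
  haveI : Fact (Nat.Prime 2) := ⟨Nat.prime_two⟩
  haveI := GalCommon.isAlgClosed_residueField A Nat.prime_two hA
  obtain ⟨T⟩ := MazurP.nonempty_modFrame A Nat.prime_two hM hA
  obtain ⟨E, f, ⟨hE, hf, hdiv⟩, hd⟩ := hy
  have h0 := hd.qDlog_eq_zero hA
  have hdiv' : ∀ v, v.ord f = ((2 : ℕ) : ℤ) * (E : Divisor Qb FL) v := fun v => by
    rw [hdiv, pow_one]
  have hN : ∀ b, ∃ X, T.Fr.N b f = X ^ 2 := by
    have hα : HeckeAlphaBarIntegral Qb M 2 := (Kronecker.heckeInputs_bar M 2).choose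
    have hβ : HeckeBetaBarIntegral Qb M 2 := (Kronecker.heckeInputs_bar M 2).choose_spec.choose
    rintro (_ | _)
    · rw [T.N_false]
      refine MazurP.exists_normBack_eq_pow _ hα E hf hdiv' (pushforward_mem_of_pushHom ?_)
      rw [hE]
      exact map_eigenPt_eq_zero hM S _
        (pushHom_galois _ hα fun σ => Kronecker.intertwinesAlong_heckeAlphaBar Qb M 2 σ) y
    · rw [T.N_true]
      refine MazurP.exists_normBack_eq_pow _ hβ E hf hdiv' (pushforward_mem_of_pushHom ?_)
      rw [hE]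
      exact map_eigenPt_eq_zero hM S _
        (pushHom_galois _ hβ fun σ => Kronecker.intertwinesAlong_heckeBetaBar Qb M 2 σ) y
  have hpp : ∀ b, T.Fr.IsPP b f := by
    rintro (_ | _)
    · exact isPP_of_qDlog hM hA T hf h0
    · refine MazurP.isPP_true_of_atkinLehner T (isPP_of_qDlog hM hA T ((map_ne_zero _).mpr hf) ?_)
      obtain ⟨X, hX⟩ := hN false
      rw [T.N_false] at hX
      exact qDlog_sred_atkinLehner hM hA hf h0 hX
  have hneg : IsPrimitiveRoot (-1 : Qb) 2 := IsPrimitiveRoot.neg_one 0 (by norm_num)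
  have hmain := T.Fr.act_sub_smul_principal (E : Divisor Qb FL) E.2 hdiv' hpp hN hτ hneg
    (a := 1) (by rw [map_neg, map_one, pow_one])
  rw [T.act_eq, one_smul] at hmain
  have hfixed : τ • (Pic0.mk E : JZero (M * 2)) = Pic0.mk E := by
    rw [galois_smul_pic0_def, SemilinearAut.pic0_smul_mk]
    refine (QuotientAddGroup.eq_iff_sub_mem).mpr (AddSubgroup.mem_addSubgroupOf.mpr ?_)
    rw [AddSubgroupClass.coe_sub, SemilinearAut.coe_degZeroSMulHom]
    exact hmain
  refine eigenPt_injective S.θ ?_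
  rw [eigenPt_eigenRep, ← hE, hfixed]

include hM hA b in
/-- The deep vectors: a saturated Hecke submodule receiving `τ - 1` for inertia and `φ - U` for
Frobenius, whose classes killed by the maximal ideal are fixed by inertia. -/
theorem exists_deep_aux :
    ∃ X : Submodule (locHecke S.θ) (LocLat S.θ),
      (∀ τ ∈ A.inertiaSubgroupIn ℚ, ∀ v, galLoc S.θ τ v - v ∈ X) ∧
      (∀ φ : Γℚ, A.IsFrobeniusAt φ 2 → ∀ v,
        galLoc S.θ φ v - locT S.θ (Reps.heckeGenOf (M * 2) ⟨2, Nat.prime_two⟩) • v ∈ X) ∧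
      (∀ v, (2 : locHecke S.θ) • v ∈ X → v ∈ X) ∧
      ∀ v ∈ X, red2 (LocLat.val v) ∈ eigenSet S.θ → ∀ τ ∈ A.inertiaSubgroupIn ℚ,
        red2 (LocLat.val (galLoc S.θ τ v)) = red2 (LocLat.val v) := by
  haveI : Fact (Nat.Prime 2) := ⟨Nat.prime_two⟩
  refine ⟨{ carrier := {v | ∀ (t : locHecke S.θ) (n : ℕ),
              DeepPt A n (latPt n (LocLat.val (t • v)))}
            add_mem' := fun {v w} hv hw t n => by
              rw [smul_add, map_add, map_add]
              exact (hv t n).add hA (hw t n)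
            zero_mem' := fun t n => by
              rw [smul_zero, map_zero, map_zero]
              exact deepPt_zero n
            smul_mem' := fun a v hv t n => by
              rw [smul_smul]
              exact hv _ n }, ?_, ?_, ?_, ?_⟩
  · intro τ hτ v t n
    rw [smul_sub, ← (galLoc S.θ τ).map_smul]
    exact deepPt_inertia hA n _ hτ
  · intro φ hφ v t n
    rw [smul_sub, ← (galLoc S.θ φ).map_smul, smul_smul, mul_comm t, ← smul_smul]
    have h := deepPt_frob hA hM b n (locT S.θ (Reps.heckeGenOf (M * 2) ⟨2, Nat.prime_two⟩) • t • v) hφ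
    rwa [← mul_smul, locT_U_mul_self hM (dvd_mul_right 2 D.m) b, one_smul] at h
  · intro v hv t n
    obtain ⟨E, f, h, hd⟩ := hv t (n + 1)
    have e : LocLat.val (t • (2 : locHecke S.θ) • v) = (2 : ℤ_[2]) • LocLat.val (t • v) := by
      rw [smul_comm, two_smul, two_smul, map_add]
    rw [e, latPt_two_mul] at h
    obtain ⟨E', f', h'⟩ := exists_isRepN (pow_smul_latPt n (LocLat.val (t • v)))
    have hd' := h.deep_of_deep hA (h'.pow (k := 1)) hd
    rw [IntermediateField.coe_pow] at hd'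
    exact ⟨E', f', h', hd'.of_pow hA (scalable_bar hA h'.2.1)⟩
  · intro v hv hmem τ hτ
    have h1 : DeepPt A 1 (eigenPt S.θ ⟨_, hmem⟩) := by
      have h := hv 1 1
      rw [one_smul, latPt_one_eq_jPt] at h
      exact h
    have h2 := congrArg Subtype.val (smul_eq_of_deepPt hA hM h1 hτ)
    rw [val_galLoc, red2_galM]
    exact h2

/-- The deep vectors: a saturated Hecke submodule receiving `τ - 1` for inertia and `φ - U` for
Frobenius, whose classes killed by the maximal ideal are fixed by inertia. -/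
theorem exists_deep {M : ℕ} [NeZero M] (hM : ¬ 2 ∣ M) {D : Setup} {S : ResSys (M * 2) D}
    (b : Module.Basis (Fin 2) (locHecke S.θ) (LocLat S.θ))
    {A : ValuationSubring Qb} (hA : A.LiesOverPrime 2) :
    ∃ X : Submodule (locHecke S.θ) (LocLat S.θ),
      (∀ τ ∈ A.inertiaSubgroupIn ℚ, ∀ v, galLoc S.θ τ v - v ∈ X) ∧
      (∀ φ : Γℚ, A.IsFrobeniusAt φ 2 → ∀ v,
        galLoc S.θ φ v - locT S.θ (Reps.heckeGenOf (M * 2) ⟨2, Nat.prime_two⟩) • v ∈ X) ∧
      (∀ v, (2 : locHecke S.θ) • v ∈ X → v ∈ X) ∧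
      ∀ v ∈ X, red2 (LocLat.val v) ∈ eigenSet S.θ → ∀ τ ∈ A.inertiaSubgroupIn ℚ,
        red2 (LocLat.val (galLoc S.θ τ v)) = red2 (LocLat.val v) :=
  exists_deep_aux hA hM b

end FLTAgent.Mod2
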