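import Fermat.Agent.Mod2.DlogTwo
import Fermat.Agent.Mod2.Fricke
import Fermat.Agent.Mod2.FlatFix
import Fermat.Agent.MazurP.Main
import Fermat.Agent.MazurP.QEigenHecke

/-!
# The logarithmic derivative at the cusp `0` of a class killed by the maximal ideal

`delta A x` is additive, satisfies the Hecke relations at odd primes (`delta_odd`) and has
coefficients in `𝔽₂` as `U_2 = 1` (`delta_two`); so it is determined by its first coefficient
(`delta_eq_zero`) and vanishes on a subgroup of index at most two (`card_le_two_mul`).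
-/

set_option autoImplicit false
set_option linter.style.haveILetI false
set_option linter.unusedSectionVars false
set_option maxHeartbeats 1000000
set_option synthInstance.maxHeartbeats 400000

noncomputable section

open ModularCurve AlgebraicCurve SemilinearAut

namespace FLTAgent.Mod2

open FLTAgent.MazurP (qTheta qDlog)
open FLTAgent.BadQ (Scalable gV gval)
open FLTAgent.Kronecker (twist normAlpha)

local notation "Qb" => AlgebraicClosure ℚ
local notation "Γℚ" => (AlgebraicClosure ℚ ≃ₐ[ℚ] AlgebraicClosure ℚ)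

/-- The Fricke involution as an automorphism. -/
def frickeEquiv (N : ℕ) [NeZero N] : modularFunctionFieldBar N ≃ₐ[Qb] modularFunctionFieldBar N :=
  AlgEquiv.ofAlgHom (fricke N) (fricke N) (AlgHom.ext fricke_fricke) (AlgHom.ext fricke_fricke)

/-- The Fricke involution as a semilinear automorphism. -/
def frickeAut (N : ℕ) [NeZero N] : SemilinearAut Qb (modularFunctionFieldBar N) :=
  SemilinearAut.ofAlgAut (frickeEquiv N)

theorem frickeAut_mul_galois (N : ℕ) [NeZero N] (σ : Γℚ) :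
    frickeAut N * arithmeticGalois (modularFunctionFieldFull N) σ =
      arithmeticGalois (modularFunctionFieldFull N) σ * frickeAut N :=
  Subtype.ext (Prod.ext (RingEquiv.ext fun f => fricke_ringAut σ f) (RingEquiv.ext fun _ => rfl))

theorem qTheta_coeffMap {k l : Type*} [Field k] [Field l] (φ : k →+* l) (x : LaurentSeries k) :
    qTheta (coeffMap φ x) = coeffMap φ (qTheta x) := by
  ext n
  rw [MazurP.qTheta_coeff, coeffMap_coeff, coeffMap_coeff, MazurP.qTheta_coeff, map_mul,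
    map_intCast]

theorem qDlog_coeffMap {k l : Type*} [Field k] [Field l] (φ : k →+* l) (x : LaurentSeries k) :
    qDlog (coeffMap φ x) = coeffMap φ (qDlog x) := by
  rw [qDlog, qDlog, qTheta_coeffMap, map_div₀]

theorem exists_unit_of_pow_eq_one (A : ValuationSubring Qb) {n : ℕ} (hn : n ≠ 0) {ζ : Qbˣ}
    (h : ζ ^ n = 1) : ∃ u : Aˣ, Units.map A.subtype.toMonoidHom u = ζ ∧ u ^ n = 1 := by
  obtain ⟨m, rfl⟩ := Nat.exists_eq_succ_of_ne_zero hn
  have hval : (ζ : Qb) ^ (m + 1) = 1 := by rw [← Units.val_pow_eq_pow_val, h, Units.val_one]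
  have hmem : (ζ : Qb) ∈ A := by
    rcases A.mem_or_inv_mem (ζ : Qb) with h1 | h1
    · exact h1
    · have e : (ζ : Qb) = ((ζ : Qb)⁻¹) ^ m := by
        rw [inv_pow, ← mul_eq_one_iff_eq_inv₀ (pow_ne_zero _ ζ.ne_zero), ← pow_succ', hval]
      rw [e]; exact pow_mem h1 m
  have hu : (⟨(ζ : Qb), hmem⟩ : A) ^ (m + 1) = 1 := Subtype.ext hval
  exact ⟨Units.ofPowEqOne _ _ hu (Nat.succ_ne_zero m), Units.ext rfl, Units.ext hu⟩

section Level

variable {M : ℕ} [NeZero M] {D : Setup} (A : ValuationSubring Qb)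

local notation "FL" => modularFunctionFieldBar (M * 2)
local notation "kA" => IsLocalRing.ResidueField A
local notation "π" => IsLocalRing.residue A

variable {θ : Reps.TZ (M * 2) →+* ZMod 2}

/-- `f` is a function of the class of `x`: `div f = 2 E`, `E` in the class. -/
def IsRep (x : eigenSet θ) (E : Divisor.degZero (K := Qb) (F := FL)) (f : FL) : Prop :=
  Pic0.mk E = eigenPt θ x ∧ f ≠ 0 ∧ ∀ v, v.ord f = (2 : ℤ) * (E : Divisor Qb FL) v

theorem exists_isRep (x : eigenSet θ) : ∃ E f, IsRep (M := M) x E f :=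
  MazurP.exists_fun_of_nsmul_eq_zero (two_nsmul_jPt _)

/-- The logarithmic derivative at the cusp `0` of the class of `x`. -/
def delta (x : eigenSet θ) : LaurentSeries kA :=
  dl A ((fricke (M * 2) (exists_isRep x).choose_spec.choose : FL) : LaurentSeries Qb)

variable {A} (hA : A.LiesOverPrime 2)

include hA in
theorem scalable_bar {y : FL} (hy : y ≠ 0) : Scalable A π (y : LaurentSeries Qb) :=
  BadQ.scalable_coe A M 2 Nat.prime_two hA hy

include hA in
theorem scalable_fricke {y : FL} (hy : y ≠ 0) :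
    Scalable A π ((fricke (M * 2) y : FL) : LaurentSeries Qb) :=
  scalable_bar hA ((map_ne_zero (fricke (M * 2))).mpr hy)

include hA in
theorem dl_sq (x : LaurentSeries Qb) (hx : Scalable A π x) : dl A (x ^ 2) = 0 := by
  haveI := GalCommon.charP_residueField Nat.prime_two hA
  rw [(scalable_pow hx 2).2, two_nsmul]
  ext n
  rw [HahnSeries.coeff_add, CharTwo.add_self_eq_zero, HahnSeries.coeff_zero]

include hA in
theorem dl_rel {y z h : FL} (hy : y ≠ 0) (hh : h ≠ 0) {c : Qb} (hc : c ≠ 0)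
    (he : z = algebraMap Qb FL c * y * h ^ 2) :
    dl A ((fricke (M * 2) z : FL) : LaurentSeries Qb) =
      dl A ((fricke (M * 2) y : FL) : LaurentSeries Qb) := by
  subst he
  rw [map_mul, map_mul, map_pow, AlgHom.commutes, IntermediateField.coe_mul,
    IntermediateField.coe_mul, IntermediateField.coe_pow, MazurP.coe_algebraMap_bar_C,
    dl_mul (scalable_mul (scalable_C hc) (scalable_fricke hA hy))
      (scalable_pow (scalable_fricke hA hh) 2).1,
    dl_mul (scalable_C hc) (scalable_fricke hA hy), dl_C c hc, dl_sq hA _ (scalable_fricke hA hh),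
    zero_add, add_zero]

include hA in
theorem delta_eq {x : eigenSet θ} {E : Divisor.degZero (K := Qb) (F := FL)} {f : FL}
    (h : IsRep x E f) : delta A x = dl A ((fricke (M * 2) f : FL) : LaurentSeries Qb) := by
  obtain ⟨h1, h2, h3⟩ := (exists_isRep x).choose_spec.choose_spec
  obtain ⟨k1, k2, k3⟩ := h
  set E₀ := (exists_isRep x).choose
  set f₀ := (exists_isRep x).choose_spec.choose
  obtain ⟨g, hg, hgd⟩ := AddSubgroup.mem_addSubgroupOf.mp
    (QuotientAddGroup.eq.mp (k1.trans h1.symm))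
  obtain ⟨c, hc⟩ := MazurP.exists_smul_of_ord_eq h2 (mul_ne_zero k2 (pow_ne_zero 2 hg)) fun Q => by
    have hQ : ((-E + E₀ : Divisor.degZero (K := Qb) (F := FL)) : Divisor Qb FL) Q = Q.ord g :=
      hgd Q
    simp only [AddSubgroup.coe_add, NegMemClass.coe_neg, Finsupp.add_apply,
      Finsupp.neg_apply] at hQ
    rw [h3, Q.ord_mul k2 (pow_ne_zero 2 hg), FF.ord_pow, k3]
    push_cast
    linear_combination (2 : ℤ) * hQ
  have hc0 : c ≠ 0 := fun h0 => h2 (by rw [hc, h0, map_zero, zero_mul])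
  exact dl_rel hA k2 hg hc0 (hc.trans (mul_assoc _ _ _).symm)

include hA in
theorem delta_add (x y : eigenSet θ) : delta A (x + y) = delta A x + delta A y := by
  obtain ⟨E, f, h⟩ := exists_isRep x
  obtain ⟨E', f', h'⟩ := exists_isRep y
  rw [delta_eq hA h, delta_eq hA h', delta_eq hA (E := E + E') (f := f * f')
    ⟨by rw [Pic0.mk_add, h.1, h'.1, map_add], mul_ne_zero h.2.1 h'.2.1, fun v => by
      rw [v.ord_mul h.2.1 h'.2.1, h.2.2, h'.2.2, AddSubgroup.coe_add, Finsupp.add_apply, mul_add]⟩,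
    map_mul, IntermediateField.coe_mul,
    dl_mul (scalable_fricke hA h.2.1) (scalable_fricke hA h'.2.1)]

theorem heckeOperatorBar_eigenPt_zsmul (ℓ : Nat.Primes) (x : eigenSet θ) :
    heckeOperatorBar (M * 2) ℓ (eigenPt θ x) =
      (((θ (Reps.heckeGenOf (M * 2) ℓ)).val : ℕ) : ℤ) • eigenPt θ x := by
  rw [heckeOperatorBar_eigenPt, natCast_zsmul, ← map_nsmul]
  congr 1
  rw [← Nat.cast_smul_eq_nsmul (ZMod 2), ZMod.natCast_zmod_val]

include hA in
/-- The transformed Hecke relation. -/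
theorem exists_hecke_dl {ℓ : ℕ} [NeZero ℓ] (hℓ : ℓ.Prime) {x : eigenSet θ}
    {E : Divisor.degZero (K := Qb) (F := FL)} {f : FL} (h : IsRep x E f) :
    normAlpha Qb (M * 2) ℓ (heckeBetaBar Qb (M * 2) ℓ f) ≠ 0 ∧
    dl A ((fricke (M * 2) (normAlpha Qb (M * 2) ℓ (heckeBetaBar Qb (M * 2) ℓ f)) : FL) :
        LaurentSeries Qb) =
      (θ (Reps.heckeGenOf (M * 2) ⟨ℓ, hℓ⟩)).val • delta A x := by
  obtain ⟨hα, hβ, hP', hfin, hFI, hN⟩ := Kronecker.heckeInputs_bar (M * 2) ℓ
  haveI := hP'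
  set a := (θ (Reps.heckeGenOf (M * 2) ⟨ℓ, hℓ⟩)).val
  obtain ⟨h1, h2, h3⟩ := h
  obtain ⟨g, hg, hgd⟩ := MazurP.exists_div_of_eigen hℓ hα hβ hFI hfin hN E (a : ℤ)
    (by rw [h1]; exact heckeOperatorBar_eigenPt_zsmul ⟨ℓ, hℓ⟩ x)
  set N₁ := normAlpha Qb (M * 2) ℓ (heckeBetaBar Qb (M * 2) ℓ f) with hN₁
  have hN0 : N₁ ≠ 0 := by
    letI := algebraAlong (heckeAlphaBar Qb (M * 2) ℓ)
    haveI : Module.Finite FL (laurentBaseChange Qb (modularFunctionFieldFull (M * 2 * ℓ))) := hfin
    exact Algebra.norm_ne_zero_iff.mpr ((map_ne_zero _).mpr h2)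
  refine ⟨hN0, ?_⟩
  have hcor := MazurP.correspondence_eq_norm_sub hα hβ hfin hN h2 one_ne_zero 2
    (E : Divisor Qb FL) (fun v => by rw [v.ord_one, sub_zero, h3])
  obtain ⟨c, hc⟩ := MazurP.exists_smul_of_ord_eq (mul_ne_zero hN0 (pow_ne_zero 2 hg))
    (pow_ne_zero a h2) fun v => by
      have e1 := hcor v
      rw [map_one, map_one, v.ord_one, sub_zero, ← hN₁] at e1
      rw [v.ord_mul hN0 (pow_ne_zero 2 hg), FF.ord_pow, FF.ord_pow, h3, ← hgd v, ← e1]
      push_cast
      ring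
  have hc0 : c ≠ 0 := fun h0 => mul_ne_zero hN0 (pow_ne_zero 2 hg)
    (by rw [hc, h0, map_zero, zero_mul])
  have key := dl_rel hA hN0 hg one_ne_zero (z := algebraMap Qb FL c * f ^ a)
    (by rw [map_one, one_mul, hc])
  rw [map_mul, map_pow, AlgHom.commutes, IntermediateField.coe_mul, IntermediateField.coe_pow,
    MazurP.coe_algebraMap_bar_C, dl_mul (scalable_C hc0) (scalable_pow (scalable_fricke hA h2) a).1,
    dl_C c hc0, zero_add, (scalable_pow (scalable_fricke hA h2) a).2,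
    ← delta_eq hA ⟨h1, h2, h3⟩] at key
  exact key.symm

include hA in
theorem delta_odd {ℓ : ℕ} (hℓ : ℓ.Prime) (hℓ2 : ℓ ≠ 2) (x : eigenSet θ) (n : ℤ) :
    ((θ (Reps.heckeGenOf (M * 2) ⟨ℓ, hℓ⟩)).val : kA) * (delta A x).coeff n =
      (if ℓ ∣ M * 2 then 0 else (haveI : NeZero ℓ := ⟨hℓ.ne_zero⟩;
        (qExpand kA ℓ (delta A x)).coeff n)) + (delta A x).coeff (ℓ * n) := by
  haveI : NeZero ℓ := ⟨hℓ.ne_zero⟩
  haveI := GalCommon.charP_residueField Nat.prime_two hA
  have hℓk : (ℓ : kA) = 1 := by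
    obtain ⟨j, rfl⟩ := hℓ.odd_of_ne_two hℓ2
    simp [CharTwo.two_eq_zero]
  have hℓs : (ℓ : LaurentSeries kA) = 1 := by
    rw [← map_natCast HahnSeries.C, hℓk, map_one]
  obtain ⟨E, f, hrep⟩ := exists_isRep x
  obtain ⟨hN0, hdl⟩ := exists_hecke_dl hA hℓ hrep
  obtain ⟨ζ, hζ, hq⟩ := exists_qExpand_fricke_norm hℓ f
  have hw := scalable_fricke hA hrep.2.1
  have hζb : ∀ b : Fin ℓ, (ζ ^ (b : ℕ)) ^ ℓ = 1 := fun b => by
    rw [← pow_mul, mul_comm, pow_mul,
      show ζ ^ ℓ = 1 from Units.ext (by rw [Units.val_pow_eq_pow_val]; exact hζ.pow_eq_one),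
      one_pow]
  choose u hu hupow using fun b => exists_unit_of_pow_eq_one A hℓ.ne_zero (hζb b)
  have htw : ∀ b : Fin ℓ, Scalable A π (twist (ζ ^ (b : ℕ))
      ((fricke (M * 2) f : FL) : LaurentSeries Qb)) ∧
      dl A (twist (ζ ^ (b : ℕ)) ((fricke (M * 2) f : FL) : LaurentSeries Qb)) =
        twist (Units.map (π).toMonoidHom (u b)) (delta A x) := fun b => by
    rw [← hu b, delta_eq hA hrep]
    exact ⟨(scalable_twist (u b) hw).1, dl_twist (u b) hw⟩
  obtain ⟨hps, hpd⟩ := scalable_prod (A := A) Finset.univ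
    (x := fun b : Fin ℓ => twist (ζ ^ (b : ℕ)) ((fricke (M * 2) f : FL) : LaurentSeries Qb))
    fun b _ => (htw b).1
  have h1 := congrArg (dl A) hq
  rw [dl_qExpand ℓ (scalable_fricke hA hN0), hdl, hℓs, one_mul] at h1
  have hsum : (∑ b : Fin ℓ, twist (Units.map (π).toMonoidHom (u b)) (delta A x)).coeff
      (ℓ * n) = (delta A x).coeff (ℓ * n) := by
    have hb : ∀ b : Fin ℓ, (twist (Units.map (π).toMonoidHom (u b)) (delta A x)).coeff
        (ℓ * n) = (delta A x).coeff (ℓ * n) := fun b => by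
      rw [Kronecker.twist_coeff, _root_.zpow_mul, zpow_natCast, ← map_pow, hupow, map_one, one_zpow,
        Units.val_one, one_mul]
    rw [HahnSeries.coeff_sum, Finset.sum_congr rfl fun b _ => hb b, Finset.sum_const,
      Finset.card_univ, Fintype.card_fin, ← Nat.cast_smul_eq_nsmul kA, hℓk, one_smul]
  have hprod : dl A (∏ b : Fin ℓ, twist (ζ ^ (b : ℕ))
      ((fricke (M * 2) f : FL) : LaurentSeries Qb)) =
      ∑ b : Fin ℓ, twist (Units.map (π).toMonoidHom (u b)) (delta A x) :=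
    hpd.trans (Finset.sum_congr rfl fun b _ => (htw b).2)
  split_ifs at h1 ⊢ with hd
  · rw [one_mul, hprod] at h1
    have h2 := congrArg (fun z : LaurentSeries kA => z.coeff (ℓ * n)) h1
    simp only [qExpand_coeff_mul, hsum, ← Nat.cast_smul_eq_nsmul kA, HahnSeries.coeff_smul, smul_eq_mul] at h2
    rw [zero_add, ← h2]
  · obtain ⟨hs1, -⟩ := scalable_qExpand ℓ hw
    rw [dl_mul (scalable_qExpand ℓ hs1).1 hps, dl_qExpand ℓ hs1, dl_qExpand ℓ hw, hℓs, one_mul,
      one_mul, ← delta_eq hA hrep, hprod] at h1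
    have h2 := congrArg (fun z : LaurentSeries kA => z.coeff (ℓ * n)) h1
    simp only [qExpand_coeff_mul, HahnSeries.coeff_add, hsum, ← Nat.cast_smul_eq_nsmul kA,
      HahnSeries.coeff_smul, smul_eq_mul] at h2
    exact h2

include hA in
/-- At `2` the relation is `c(n)^2 = c(n)`, as `U_2 = 1`. -/
theorem delta_two (hU : θ (Reps.heckeGenOf (M * 2) ⟨2, Nat.prime_two⟩) = 1) (x : eigenSet θ)
    (n : ℤ) : (delta A x).coeff n ^ 2 = (delta A x).coeff n := by
  haveI := GalCommon.charP_residueField Nat.prime_two hA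
  haveI : Fact (Nat.Prime 2) := ⟨Nat.prime_two⟩
  obtain ⟨E, f, hrep⟩ := exists_isRep x
  obtain ⟨hN0, hdl⟩ := exists_hecke_dl hA Nat.prime_two hrep
  rw [hU, show ((1 : ZMod 2)).val = 1 from rfl, one_nsmul] at hdl
  obtain ⟨ζ, hζ, hq⟩ := exists_qExpand_fricke_norm Nat.prime_two f
  rw [if_pos (dvd_mul_left 2 M), one_mul, Fin.prod_univ_two] at hq
  set w : LaurentSeries Qb := ((fricke (M * 2) f : FL) : LaurentSeries Qb) with hwdef
  have hw : Scalable A π w := scalable_fricke hA hrep.2.1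
  have hζ2 : ζ ^ 2 = 1 := Units.ext (by rw [Units.val_pow_eq_pow_val]; exact hζ.pow_eq_one)
  obtain ⟨u, hu, hu2⟩ := exists_unit_of_pow_eq_one A two_ne_zero hζ2
  simp only [Fin.val_zero, Fin.val_one, pow_zero, pow_one, Kronecker.twist_one] at hq
  rw [← hu] at hq
  obtain ⟨hts, t₁, ht₁, e₁⟩ := scalable_twist u hw
  obtain ⟨-, t₂, ht₂, e₂⟩ := exists_sred_mul hw hts
  obtain ⟨-, t₃, ht₃, e₃⟩ := scalable_qExpand 2 (scalable_fricke hA hN0)
  rw [hq, e₂, e₁] at e₃
  have hu1 : Units.map (π).toMonoidHom u = 1 := by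
    refine Units.ext (frobenius_inj kA 2 ?_)
    rw [frobenius_def, ← Units.val_pow_eq_pow_val, ← map_pow, hu2, map_one, Units.val_one,
      map_one]
  rw [hu1, Kronecker.twist_one] at e₃
  set W := sred A w with hW
  have hW0 : W ≠ 0 := sred_ne_zero hw
  set N' := sred A ((fricke (M * 2) (normAlpha Qb (M * 2) 2
    (heckeBetaBar Qb (M * 2) 2 f)) : FL) : LaurentSeries Qb) with hN'
  have e₄ : qExpand kA 2 (HahnSeries.C t₃ * N') =
      qExpand kA 2 (HahnSeries.C (t₂ * t₁) * coeffMap (frobenius kA 2) W) := by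
    rw [map_mul, map_mul (qExpand kA 2) (HahnSeries.C (t₂ * t₁)), qExpand_C, qExpand_C,
      ← Kronecker.pow_char_eq_qExpand 2 W, ← e₃, map_mul]
    ring
  have e₅ := congrArg qDlog (qExpand_injective 2 e₄)
  rw [qDlog_C_mul ht₃, qDlog_C_mul (mul_ne_zero ht₂ ht₁), qDlog_coeffMap] at e₅
  have hd : dl A w = qDlog W := rfl
  rw [delta_eq hA hrep, hd] at hdl ⊢
  rw [show dl A _ = qDlog N' from rfl, e₅] at hdl
  exact (congrArg (fun z : LaurentSeries kA => z.coeff n) hdl :)

/-- The hypotheses on `θ` that force a single free coefficient. -/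
theorem exists_theta_one (S : ResSys (M * 2) D) :
    ∃ (ℓ : ℕ) (hℓ : ℓ.Prime), ℓ ≠ 2 ∧ ¬ ℓ ∣ M * 2 ∧
      S.θ (Reps.heckeGenOf (M * 2) ⟨ℓ, hℓ⟩) = 1 := by
  by_contra hne
  push Not at hne
  obtain ⟨K, hK, hfix⟩ := D.cont
  obtain ⟨g, hg⟩ := D.surj !![0, 1; 1, 1] (by decide)
  have hluc : ∀ k, Reps.luc (0 : ZMod 2) 1 k = 0 := by
    intro k
    induction k using Nat.twoStepInduction with
    | zero => rfl
    | one => rfl
    | more k ih _ => rw [Reps.luc, ih, zero_mul, mul_zero, sub_zero]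
  have h := Reps.forall_of_frobenius (P := fun σ => (D.rho σ).trace = 0) K
    (insert 2 (M * 2).primeFactors)
    (fun g u hu hg => by simp only [map_mul, hfix u hu, mul_one]; exact hg)
    (fun g k hg => by simp only [trace_rho_pow, hg, hluc])
    (fun ℓ hℓ hℓS A hA φ hφ => by
      simp only [Finset.mem_insert, Nat.mem_primeFactors, not_or] at hℓS
      have hℓL : ¬ ℓ ∣ M * 2 := fun h => hℓS.2 ⟨hℓ, h, NeZero.ne _⟩
      have h := hne ℓ hℓ hℓS.1 hℓL
      rw [Reps.heckeGenOf_T (M * 2) hℓ hℓL, S.good ℓ hℓ hℓL A hA φ hφ] at h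
      by_contra h0
      exact h (det_eq_one_of_ne_zero h0)) g
  rw [hg] at h
  exact absurd h (by decide)

include hA in
theorem delta_coeff_zero (S : ResSys (M * 2) D) (x : eigenSet S.θ) :
    (delta A x).coeff 0 = 0 := by
  haveI := GalCommon.charP_residueField Nat.prime_two hA
  obtain ⟨ℓ, hℓ, hℓ2, hℓL, hθ⟩ := exists_theta_one S
  haveI : NeZero ℓ := ⟨hℓ.ne_zero⟩
  have h := delta_odd hA hℓ hℓ2 x 0
  rw [if_neg hℓL, hθ, show ((1 : ZMod 2)).val = 1 from rfl, Nat.cast_one, one_mul, mul_zero] at h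
  have e := qExpand_coeff_mul ℓ (delta A x) 0
  rw [mul_zero] at e
  rw [e, CharTwo.add_self_eq_zero] at h
  exact h

include hA in
theorem delta_eq_zero (S : ResSys (M * 2) D) {x : eigenSet S.θ}
    (h1 : (delta A x).coeff 1 = 0) : delta A x = 0 := by
  haveI := GalCommon.charP_residueField Nat.prime_two hA
  have hU := S.U_one ⟨2, Nat.prime_two⟩ (dvd_mul_left 2 M)
  ext n
  rw [HahnSeries.coeff_zero]
  rcases lt_trichotomy n 0 with hn | rfl | hn
  · exact coeff_qDlog_of_neg _ hn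
  · exact delta_coeff_zero hA S x
  obtain ⟨m, rfl⟩ : ∃ m : ℕ, n = m := ⟨n.toNat, by omega⟩
  induction m using Nat.strong_induction_on with
  | _ m ih =>
    rcases Nat.lt_or_ge m 2 with hm | hm
    · rw [show m = 1 from by omega, Nat.cast_one, h1]
    have hℓ : (Nat.minFac m).Prime := Nat.minFac_prime (by omega)
    obtain ⟨k, hk⟩ := Nat.minFac_dvd m
    have hk0 : 0 < k := Nat.pos_of_ne_zero fun h0 => by rw [h0, mul_zero] at hk; omega
    have hkm : k < m := by
      rw [hk]; exact lt_mul_left hk0 hℓ.one_lt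
    have hk' := ih k hkm (by exact_mod_cast hk0)
    rw [hk, Nat.cast_mul]
    by_cases h2 : Nat.minFac m = 2
    · rw [h2, Nat.cast_ofNat]
      show (qDlog _).coeff (2 * (k : ℤ)) = 0
      rw [coeff_qDlog_two_mul]
      exact (delta_two hA hU x k).trans hk'
    · haveI : NeZero (Nat.minFac m) := ⟨hℓ.ne_zero⟩
      have h := delta_odd hA hℓ h2 x k
      rw [hk', mul_zero] at h
      split_ifs at h with hd
      · rw [zero_add] at h; exact h.symm
      · by_cases hdk : ((Nat.minFac m : ℕ) : ℤ) ∣ (k : ℤ)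
        · obtain ⟨j, hj⟩ := Int.natCast_dvd_natCast.mp hdk
          have hj0 : 0 < j := Nat.pos_of_ne_zero fun h0 => by rw [h0, mul_zero] at hj; omega
          have hjk : j < k := by rw [hj]; exact lt_mul_left hj0 hℓ.one_lt
          have hj' := ih j (hjk.trans hkm) (by exact_mod_cast hj0)
          rw [show (qExpand kA (Nat.minFac m) (delta A x)).coeff (k : ℤ) = 0 by
            rw [congrArg (Nat.cast : ℕ → ℤ) hj, Nat.cast_mul, qExpand_coeff_mul, hj'],
            zero_add] at h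
          exact h.symm
        · rw [qExpand_coeff_of_not_dvd _ _ hdk, zero_add] at h
          exact h.symm

include hA in
/-- The classes with vanishing first coefficient have small index. -/
theorem card_le_two_mul (S : ResSys (M * 2) D) :
    Nat.card (eigenSet S.θ) ≤ 2 * Nat.card {x : eigenSet S.θ // delta A x = 0} := by
  classical
  haveI := GalCommon.charP_residueField Nat.prime_two hA
  let χ : eigenSet S.θ →+ kA :=
    AddMonoidHom.mk' (fun x => (delta A x).coeff 1) fun x y => by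
      rw [delta_add hA, HahnSeries.coeff_add]
  have hU := S.U_one ⟨2, Nat.prime_two⟩ (dvd_mul_left 2 M)
  have hr : Nat.card χ.range ≤ 2 := by
    have hsub : (χ.range : Set kA) ⊆ {0, 1} := by
      rintro _ ⟨x, rfl⟩
      have h : χ x * χ x = χ x := by rw [← pow_two]; exact delta_two hA hU x 1
      rcases eq_or_ne (χ x) 0 with h0 | h0
      · exact Or.inl h0
      · exact Or.inr (mul_right_cancel₀ h0 (h.trans (one_mul _).symm))
    refine (Nat.card_mono (Set.toFinite _) hsub).trans ?_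
    rw [Nat.card_coe_set_eq]
    exact (Set.ncard_insert_le _ _).trans (by rw [Set.ncard_singleton])
  have hker : Nat.card χ.ker = Nat.card {x : eigenSet S.θ // delta A x = 0} :=
    Nat.card_congr (Equiv.subtypeEquivRight fun x => ⟨fun h => delta_eq_zero hA S h, fun h => by
      show (delta A x).coeff 1 = 0
      rw [h, HahnSeries.coeff_zero]⟩)
  rw [AddSubgroup.card_eq_card_quotient_mul_card_addSubgroup χ.ker, ← hker,
    Nat.card_congr (QuotientAddGroup.quotientKerEquivRange χ).toEquiv]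
  exact Nat.mul_le_mul_right _ hr

end Level

end FLTAgent.Mod2
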